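/-
Programme FF (S19), chapter G2b, abstract part (helper8): the MOVING LEMMA on a function field with
Riemann's theorem in large degree (`SpecRR1`), over an infinite constant field.

* `exists_section_avoiding` : for `deg E` large there is `f ∈ L(E)`, `f ≠ 0`, such that the effective
  divisor `E + div f` avoids a given finite set of places;
* `exists_moving` : every divisor `D` is linearly equivalent to `D₁ - N • P₁` with `D₁ ≥ 0` avoiding a
  given finite set `S` (and `P₁` any given place).
-/
import Mathlib
import Fermat.Agent.FF.SpecRR1B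

set_option autoImplicit false

open AlgebraicCurve

namespace Fermat.Agent.FF.Moving8

open Fermat.Agent.RR.LSpace Fermat.Agent.RR.Riemann Fermat.Agent.FF.SpecRR1
  Fermat.Agent.X0.FF

variable {K F : Type*} [Field K] [Field F] [Algebra K F]

section Moving

variable (HL : LHyp K F) (g : ℤ)
variable (hR : ∀ D : Divisor K F, Divisor.degree D + 1 - g ≤ ell D)

include HL hR in
theorem g_nonneg : 0 ≤ g := by
  have h := hR 0
  rw [map_zero, ell_zero HL] at h
  omega

omit HL hR in
theorem degree_ge_of_delta_eq_zero {D₀ : Divisor K F} (h0 : delta g D₀ = 0) :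
    g - 1 ≤ Divisor.degree D₀ := by
  unfold delta at h0
  have : 0 ≤ ell D₀ := by unfold ell; positivity
  omega

include HL hR in
/-- **sections avoiding a finite set.** -/
theorem exists_section_avoiding [Infinite K] {D₀ : Divisor K F} (h0 : delta g D₀ = 0)
    (S : Finset (Place K F)) (E : Divisor K F)
    (hE : Divisor.degree D₀ + g + 1 ≤ Divisor.degree E) :
    ∃ (f : F) (hf : f ≠ 0), 0 ≤ E + divOf HL hf ∧ ∀ P ∈ S, (E + divOf HL hf) P = 0 := by
  classical
  have hg := g_nonneg HL g hR
  have hd0 := degree_ge_of_delta_eq_zero g h0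
  -- the proper subspaces `L(E - P)` of `L(E)`
  let sub : Place K F → Subspace K (riemannRochSpace E) := fun P =>
    Submodule.comap (riemannRochSpace E).subtype (riemannRochSpace (E - Finsupp.single P 1))
  have hellE : ell E = Divisor.degree E + 1 - g :=
    ell_eq_of_degree_ge HL g hR h0 E (by omega)
  have hsub : ∀ P, sub P ≠ ⊤ := by
    intro P htop
    have hle : riemannRochSpace E ≤ riemannRochSpace (E - Finsupp.single P 1) := by
      intro f hf
      have : (⟨f, hf⟩ : riemannRochSpace E) ∈ sub P := by rw [htop]; trivial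
      exact this
    have hle' : riemannRochSpace (E - Finsupp.single P 1) ≤ riemannRochSpace E := by
      apply L_mono
      rw [Finsupp.le_def]
      intro v
      rw [Finsupp.sub_apply, Finsupp.single_apply]
      split_ifs <;> omega
    have heq : riemannRochSpace (E - Finsupp.single P 1) = riemannRochSpace E :=
      le_antisymm hle' hle
    have h1 : ell (E - Finsupp.single P 1) = Divisor.degree (E - Finsupp.single P 1) + 1 - g :=
      ell_eq_of_degree_ge HL g hR h0 _ (by
        rw [map_sub, degree_single HL]
        omega)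
    rw [map_sub, degree_single HL] at h1
    have h2 : ell (E - Finsupp.single P 1) = ell E := by
      unfold ell
      rw [heq]
    omega
  have hbot : (⊥ : Subspace K (riemannRochSpace E)) ≠ ⊤ := by
    intro h
    have hfd : FiniteDimensional K (riemannRochSpace E) := finiteDimensional_L HL _
    have h1 : Module.finrank K (riemannRochSpace E) = 0 := by
      have h2 : Module.finrank K (⊤ : Subspace K (riemannRochSpace E)) = 0 := by
        rw [← h]
        exact finrank_bot K _
      rwa [finrank_top] at h2
    unfold ell at hellE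
    rw [h1] at hellE
    simp only [Nat.cast_zero] at hellE
    omega
  let s : Finset (Subspace K (riemannRochSpace E)) := insert ⊥ (S.image sub)
  have hs : ⊤ ∉ s := by
    intro h
    rcases Finset.mem_insert.1 h with h | h
    · exact hbot h.symm
    · obtain ⟨P, -, hP⟩ := Finset.mem_image.1 h
      exact hsub P hP
  have hne := Subspace.biUnion_ne_univ_of_top_notMem hs
  obtain ⟨v, hv⟩ : ∃ v : riemannRochSpace E, v ∉ ⋃ p ∈ s, (p : Set (riemannRochSpace E)) := by
    by_contra hcon
    push Not at hcon
    exact hne (Set.eq_univ_of_forall hcon)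
  simp only [Set.mem_iUnion, not_exists] at hv
  have hv0 : v ≠ 0 := by
    intro h
    exact hv ⊥ (Finset.mem_insert_self _ _) (by rw [h]; exact Submodule.zero_mem _)
  have hf : (v : F) ≠ 0 := fun h => hv0 (Subtype.ext h)
  have hfE := (mem_L_iff hf).1 v.2
  refine ⟨(v : F), hf, ?_, ?_⟩
  · rw [Finsupp.le_def]
    intro P
    rw [Finsupp.add_apply, divOf_apply]
    have := hfE P
    simp only [Finsupp.coe_zero, Pi.zero_apply]
    omega
  · intro P hP
    have hnot : v ∉ sub P :=
      hv (sub P) (Finset.mem_insert_of_mem (Finset.mem_image_of_mem _ hP))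
    have hnot' : (v : F) ∉ riemannRochSpace (E - Finsupp.single P 1) := hnot
    rw [mem_L_iff hf] at hnot'
    push Not at hnot'
    obtain ⟨Q, hQ⟩ := hnot'
    rw [Finsupp.sub_apply, Finsupp.single_apply] at hQ
    have hQE := hfE Q
    by_cases hPQ : P = Q
    · subst hPQ
      rw [if_pos rfl] at hQ
      rw [Finsupp.add_apply, divOf_apply]
      omega
    · rw [if_neg hPQ] at hQ
      omega

include HL hR in
/-- **the moving lemma.** -/
theorem exists_moving [Infinite K] {D₀ : Divisor K F} (h0 : delta g D₀ = 0)
    (S : Finset (Place K F)) (P₁ : Place K F) (D : Divisor K F) :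
    ∃ (N : ℕ) (D₁ : Divisor K F), 0 ≤ D₁ ∧ (∀ P ∈ S, D₁ P = 0) ∧
      ∃ (f : F) (hf : f ≠ 0), D₁ - Finsupp.single P₁ (N : ℤ) = D + divOf HL hf := by
  obtain ⟨N, hN⟩ : ∃ N : ℕ, Divisor.degree D₀ + g + 1 ≤ Divisor.degree D + N :=
    ⟨(Divisor.degree D₀ + g + 1 - Divisor.degree D).toNat, by omega⟩
  obtain ⟨f, hf, h1, h2⟩ := exists_section_avoiding HL g hR h0 S
    (D + Finsupp.single P₁ (N : ℤ)) (by rw [map_add, degree_single HL]; exact hN)
  refine ⟨N, _, h1, h2, f, hf, ?_⟩
  abel

end Moving

end Fermat.Agent.FF.Moving8
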