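/-
Programme FF (S19), chapter G6a (helper1): **`LSpace.LHyp` on the special fibre from the
reduction of principal divisors**, as a pure function-field lemma.

Setting: `F / K` (generic fibre) satisfying `LHyp`, `F̄ / κ` with `κ` algebraically closed and a
generator `x̄` (`IsGen κ x̄`, any characteristic), a map `r` from the places of `F` to those of `F̄`
such that every nonzero `f̄ ∈ F̄` is the reduction of some `f ∈ F` in the sense
`r_* (div f) = div f̄` (Gauss lemma + `IsPlaceReductionAlong`).  Then `LHyp κ F̄` holds; in
particular `L̄(0) = κ`, `l̄(D) ≤ deg D + 1`, and the whole of `RR/LSpace`, `RR/Riemann` applies.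
-/
import Mathlib
import Fermat.Agent.RR.LSpace
import Fermat.Agent.X0.FFConst

set_option autoImplicit false

namespace Fermat.Agent.FF.SpecRR1

open AlgebraicCurve Fermat.Agent.RR.LSpace Fermat.Agent.X0.FF

variable {K F κ Fb : Type*} [Field K] [Field F] [Algebra K F] [Field κ] [Field Fb] [Algebra κ Fb]

/-- push-forward of divisors preserves the degree when `r` preserves the degrees of places. -/
theorem degree_mapDomain (r : Place K F → Place κ Fb) (hdeg : ∀ P, (r P).deg = P.deg)
    (D : Divisor K F) : Divisor.degree (Finsupp.mapDomain r D) = Divisor.degree D := by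
  induction D using Finsupp.induction with
  | zero => simp
  | single_add P n D _ _ ih =>
    rw [Finsupp.mapDomain_add, map_add, map_add, ih, Finsupp.mapDomain_single,
      Divisor.degree_single, Divisor.degree_single, hdeg]

/-- **`LHyp` on the special fibre.** -/
theorem lHyp_special [IsAlgClosed κ] (HL : LHyp K F) {xb : Fb} (hxb : IsGen κ xb)
    (r : Place K F → Place κ Fb)
    (hprin : ∀ fb : Fb, fb ≠ 0 → ∃ (f : F) (hf : f ≠ 0),
      ∀ Q : Place κ Fb, Finsupp.mapDomain r (divOf HL hf) Q = Q.ord fb) : LHyp κ Fb where
  residue := fun v _ hf => exists_ord_sub_pos hxb v hf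
  deg_eq_one := fun v => deg_eq_one hxb v
  principal := fun fb hfb => by
    obtain ⟨f, hf, hQ⟩ := hprin fb hfb
    refine ⟨Finsupp.mapDomain r (divOf HL hf), hQ, ?_⟩
    rw [degree_mapDomain r (fun P => by rw [deg_eq_one hxb, HL.deg_eq_one]), degree_divOf]
  nonempty := HL.nonempty.map r

end Fermat.Agent.FF.SpecRR1
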