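/-
Programme FF (S19), chapter G2b, abstract part (helper8): INVARIANT LIFTS of the reductions of
divisor classes.

Setting: function fields `F / K` and `Fb / κ` with `LHyp`, a reduction of places `r`, a group `Γ`
acting on `F / K` through semilinear automorphisms `γ σ`, a finite set `Sbad` of places of `Fb`
outside of which every place `Q̄` has a `Γ`-invariant lift `Q` (`r Q = Q̄`, `γ σ • Q = Q`), Riemann's
theorem in large degree on `Fb` (`SpecRR1`) and `κ` infinite.  Then for every class `z ∈ Pic⁰(F)`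
there is a `Γ`-invariant class `y` with `red y = red z` (`exists_invariant_lift`), and hence
`Γ`-invariant lifts `Pt z` depending only on `red z` (`exists_Pt`): the four fields
`Pt red_Pt Pt_congr Pt_smul` of `Assembly8.ThetaInput`.
-/
import Mathlib
import Fermat.Prelude.Def_AlgebraicCurve_BaseChangeGalois
import Fermat.Agent.FF.Moving8
import Fermat.Agent.FF.SpecRR1A

set_option autoImplicit false

open AlgebraicCurve

namespace Fermat.Agent.FF.InvLift8

open Fermat.Agent.RR.LSpace Fermat.Agent.RR.Riemann Fermat.Agent.FF.SpecRR1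
  Fermat.Agent.X0.FF Fermat.Agent.FF.Moving8 AlgebraicCurve.SemilinearAut

variable {K F : Type*} [Field K] [Field F] [Algebra K F]
variable {κ Fb : Type*} [Field κ] [Field Fb] [Algebra κ Fb]
variable {Γ : Type*} (γ : Γ → SemilinearAut K F)
variable (r : Place K F → Place κ Fb)

section Lift

variable (HL : LHyp K F) (HLb : LHyp κ Fb) (g : ℤ)
variable (hRb : ∀ D : Divisor κ Fb, Divisor.degree D + 1 - g ≤ ell D)
variable {Jb : Type*} [AddCommGroup Jb] (red : Pic0 K F →+ Jb)
variable (hred : ∀ D : Divisor.degZero (K := K) (F := F), red (Pic0.mk D) = 0 ↔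
  Finsupp.mapDomain r (D : Divisor K F) ∈ Divisor.principal (K := κ) (F := Fb))

include HL HLb hRb hred in
/-- **every class has the same reduction as a `Γ`-invariant class.** -/
theorem exists_invariant_lift [Infinite κ] {D₀ : Divisor κ Fb} (h0 : delta g D₀ = 0)
    (Sbad : Finset (Place κ Fb)) (P₁ : Place κ Fb) (hP₁ : P₁ ∉ Sbad)
    (hlift : ∀ Qb : Place κ Fb, Qb ∉ Sbad → ∃ Q : Place K F, r Q = Qb ∧ ∀ σ : Γ, γ σ • Q = Q)
    (z : Pic0 K F) :
    ∃ y : Pic0 K F, red y = red z ∧ ∀ σ : Γ, γ σ • y = y := by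
  classical
  obtain ⟨Dz, rfl⟩ := Pic0.mk_surjective z
  obtain ⟨N, D₁, hD₁, hD₁S, fb, hfb, hX⟩ := exists_moving HLb g hRb h0 Sbad P₁
    (Finsupp.mapDomain r (Dz : Divisor K F))
  set X : Divisor κ Fb := D₁ - Finsupp.single P₁ (N : ℤ) with hXdef
  obtain ⟨Q₀⟩ := HL.nonempty
  let lift' : Place κ Fb → Place K F := fun Qb =>
    if h : Qb ∉ Sbad then Classical.choose (hlift Qb h) else Q₀
  have hlift'1 : ∀ Qb, Qb ∉ Sbad → r (lift' Qb) = Qb := by
    intro Qb h
    simp only [lift', dif_pos h]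
    exact (Classical.choose_spec (hlift Qb h)).1
  have hlift'2 : ∀ Qb, Qb ∉ Sbad → ∀ σ : Γ, γ σ • lift' Qb = lift' Qb := by
    intro Qb h
    simp only [lift', dif_pos h]
    exact (Classical.choose_spec (hlift Qb h)).2
  have hsupp : ∀ Qb ∈ X.support, Qb ∉ Sbad := by
    intro Qb hQb hbad
    rw [Finsupp.mem_support_iff, hXdef, Finsupp.sub_apply, hD₁S Qb hbad, Finsupp.single_apply,
      if_neg (fun h : P₁ = Qb => hP₁ (h ▸ hbad))] at hQb
    exact hQb (sub_zero 0)
  set Dt : Divisor K F := Finsupp.mapDomain lift' X with hDt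
  have hrDt : Finsupp.mapDomain r Dt = X := by
    rw [hDt, ← Finsupp.mapDomain_comp]
    have : Finsupp.mapDomain (r ∘ lift') X = Finsupp.mapDomain id X :=
      Finsupp.mapDomain_congr fun Qb hQb => hlift'1 Qb (hsupp Qb hQb)
    rw [this, Finsupp.mapDomain_id]
  have hdegr : ∀ D : Divisor K F,
      Divisor.degree (Finsupp.mapDomain r D) = Divisor.degree D :=
    degree_mapDomain r (fun P => by rw [HL.deg_eq_one, HLb.deg_eq_one])
  have hdegX : Divisor.degree X = 0 := by
    rw [hX, map_add, degree_divOf, add_zero, hdegr]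
    exact Dz.2
  have hdegDt : Divisor.degree Dt = 0 := by
    rw [← hdegr, hrDt, hdegX]
  have hinv : ∀ σ : Γ, γ σ • Dt = Dt := by
    intro σ
    rw [divisor_smul_def, hDt, ← Finsupp.mapDomain_comp]
    exact Finsupp.mapDomain_congr fun Qb hQb => hlift'2 Qb (hsupp Qb hQb) σ
  refine ⟨Pic0.mk ⟨Dt, hdegDt⟩, ?_, ?_⟩
  · rw [← sub_eq_zero, ← map_sub]
    have : Pic0.mk (⟨Dt, hdegDt⟩ : Divisor.degZero (K := K) (F := F)) - Pic0.mk Dz =
        Pic0.mk (⟨Dt, hdegDt⟩ - Dz) := rfl
    rw [this, hred]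
    have e : Finsupp.mapDomain r ((⟨Dt, hdegDt⟩ - Dz : Divisor.degZero (K := K) (F := F)) :
        Divisor K F) = divOf HLb hfb := by
      have e1 : ((⟨Dt, hdegDt⟩ - Dz : Divisor.degZero (K := K) (F := F)) : Divisor K F) =
          Dt - (Dz : Divisor K F) := rfl
      rw [e1]
      simp only [← Finsupp.mapDomain.addMonoidHom_apply]
      rw [map_sub]
      simp only [Finsupp.mapDomain.addMonoidHom_apply]
      rw [hrDt, hX]
      abel
    rw [e]
    exact ⟨fb, hfb, fun v => divOf_apply HLb hfb v⟩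
  · intro σ
    rw [pic0_smul_mk]
    congr 1
    apply Subtype.ext
    rw [coe_degZeroSMulHom]
    exact hinv σ

end Lift

section Pt

variable [Group Γ] [DistribMulAction Γ (Pic0 K F)]
variable {Jb : Type*} [AddCommGroup Jb] (red : Pic0 K F →+ Jb)
variable {M : Type*} [AddCommGroup M] (emb : M →+ Pic0 K F)

/-- **the invariant lifts `Pt`** from the existence of invariant lifts of classes. -/
theorem exists_Pt
    (hex : ∀ z : Pic0 K F, ∃ y : Pic0 K F, red y = red z ∧ ∀ σ : Γ, σ • y = y) :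
    ∃ Pt : M → Pic0 K F, (∀ z, red (Pt z) = red (emb z)) ∧
      (∀ z z', red (emb z) = red (emb z') → Pt z = Pt z') ∧
      ∀ (σ : Γ) (z : M), σ • Pt z = Pt z := by
  classical
  -- choose a lift for every element of the image of `red`
  have hex' : ∀ c : Jb, ∃ y : Pic0 K F, (c ∈ Set.range red → red y = c) ∧ ∀ σ : Γ, σ • y = y := by
    intro c
    by_cases hc : c ∈ Set.range red
    · obtain ⟨z, rfl⟩ := hc
      obtain ⟨y, hy1, hy2⟩ := hex z
      exact ⟨y, fun _ => hy1, hy2⟩
    · exact ⟨0, fun h => absurd h hc, fun σ => smul_zero σ⟩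
  choose lift hl1 hl2 using hex'
  refine ⟨fun z => lift (red (emb z)), fun z => hl1 _ ⟨emb z, rfl⟩, fun z z' h => ?_,
    fun σ z => hl2 _ σ⟩
  show lift (red (emb z)) = lift (red (emb z'))
  rw [h]

end Pt

end Fermat.Agent.FF.InvLift8
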