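/-
Programme FF (S19), chapter G1c, algebraic core (lead): power series expansion along a principal
ideal with a section.

`R`, `A` commutative rings, `φ : R` regular, `ε : R →+* A` ("value at the centre"), `ι : A →+* R`
("constants") with `ε ∘ ι = id`, `ε φ = 0` and `ker ε = φ R`.  Then there is a ring hom
`expand : R →+* A⟦X⟧` with `expand φ = X`, `expand (ι a) = C a`, `constantCoeff (expand h) = ε h`,
characterised by `h - ∑_{n<N} ι (aₙ) φ ^ n ∈ φ ^ N R` for all `N`.
(For the disc model: `R` = functions of the Gauss ring without poles on a residue disc, `φ` the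
parameter, `ε` the value at the centre of the disc.)
-/
import Mathlib

set_option autoImplicit false

open Polynomial PowerSeries

namespace Fermat.Agent.FF.ExpandA

variable {R A : Type*} [CommRing R] [CommRing A]

/-- the data of an expansion. -/
structure ExpData (R A : Type*) [CommRing R] [CommRing A] where
  φ : R
  ε : R →+* A
  ι : A →+* R
  ε_ι : ∀ a, ε (ι a) = a
  ε_φ : ε φ = 0
  ker : ∀ h : R, ε h = 0 → ∃ h', h = φ * h'
  reg : ∀ a b : R, φ * a = φ * b → a = b

namespace ExpData

variable (E : ExpData R A)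

/-- `(h - ι (ε h)) / φ`. -/
noncomputable def quo (h : R) : R :=
  (E.ker (h - E.ι (E.ε h)) (by rw [map_sub, E.ε_ι, sub_self])).choose

theorem quo_spec (h : R) : h = E.ι (E.ε h) + E.φ * E.quo h := by
  have := (E.ker (h - E.ι (E.ε h)) (by rw [map_sub, E.ε_ι, sub_self])).choose_spec
  rw [← quo] at this
  rw [← this]; ring

/-- evaluation of a polynomial at `φ` through `ι`. -/
noncomputable def Ψ : A[X] →+* R := Polynomial.eval₂RingHom E.ι E.φ

theorem Ψ_C (a : A) : E.Ψ (Polynomial.C a) = E.ι a := by simp [Ψ]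

theorem Ψ_X : E.Ψ Polynomial.X = E.φ := by simp [Ψ]

theorem ε_Ψ (p : A[X]) : E.ε (E.Ψ p) = p.coeff 0 := by
  induction p using Polynomial.induction_on' with
  | add p q hp hq => rw [map_add, map_add, hp, hq, Polynomial.coeff_add]
  | monomial n a =>
    rw [← Polynomial.C_mul_X_pow_eq_monomial, map_mul, map_pow, Ψ_C, Ψ_X, map_mul, map_pow, E.ε_ι,
      E.ε_φ]
    cases n with
    | zero => simp
    | succ n => simp [Polynomial.coeff_X_pow]

/-- the expansion, as a function. -/
noncomputable def expFun (h : R) : A⟦X⟧ := PowerSeries.mk fun n => E.ε (E.quo^[n] h)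

theorem coeff_expFun (h : R) (n : ℕ) : PowerSeries.coeff n (E.expFun h) = E.ε (E.quo^[n] h) := by
  rw [expFun, PowerSeries.coeff_mk]

theorem trunc_expFun_succ (h : R) (N : ℕ) :
    trunc (N + 1) (E.expFun h) =
      Polynomial.C (E.ε h) + Polynomial.X * trunc N (E.expFun (E.quo h)) := by
  ext n
  rw [coeff_trunc, Polynomial.coeff_add, Polynomial.coeff_C]
  cases n with
  | zero =>
    simp [coeff_expFun]
  | succ n =>
    rw [Polynomial.coeff_X_mul, coeff_trunc, coeff_expFun, coeff_expFun, Function.iterate_succ_apply,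
      if_neg (Nat.succ_ne_zero n), zero_add]
    simp only [Nat.add_lt_add_iff_right]

/-- the truncation identity. -/
theorem sub_Ψ_trunc (N : ℕ) (h : R) :
    h - E.Ψ (trunc N (E.expFun h)) = E.φ ^ N * E.quo^[N] h := by
  induction N generalizing h with
  | zero => simp
  | succ N ih =>
    rw [trunc_expFun_succ, map_add, map_mul, Ψ_C, Ψ_X, Function.iterate_succ_apply, pow_succ']
    have h1 := ih (E.quo h)
    have h2 := E.quo_spec h
    calc h - (E.ι (E.ε h) + E.φ * E.Ψ (trunc N (E.expFun (E.quo h))))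
        = E.φ * (E.quo h - E.Ψ (trunc N (E.expFun (E.quo h)))) := by
          nth_rewrite 1 [h2]; ring
      _ = E.φ * E.φ ^ N * E.quo^[N] (E.quo h) := by rw [h1]; ring

/-- uniqueness: a polynomial of degree `< N` whose value at `φ` is divisible by `φ ^ N` is zero. -/
theorem eq_zero_of_Ψ_mem (N : ℕ) (p : A[X]) (hp : ∀ n, N ≤ n → p.coeff n = 0) (r : R)
    (h : E.Ψ p = E.φ ^ N * r) : p = 0 := by
  induction N generalizing p r with
  | zero =>
    ext n
    rw [hp n (Nat.zero_le n), Polynomial.coeff_zero]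
  | succ N ih =>
    have h0 : p.coeff 0 = 0 := by
      rw [← E.ε_Ψ, h, map_mul, map_pow, E.ε_φ, zero_pow (Nat.succ_ne_zero N), zero_mul]
    have hdiv : p = Polynomial.X * p.divX := by
      have := Polynomial.divX_mul_X_add p
      rw [h0, map_zero, add_zero] at this
      rw [mul_comm]; exact this.symm
    have h1 : E.Ψ p.divX = E.φ ^ N * r := by
      apply E.reg
      rw [← Ψ_X, ← map_mul, ← hdiv, h, Ψ_X, pow_succ']; ring
    have hdeg : ∀ n, N ≤ n → p.divX.coeff n = 0 := by
      intro n hn
      rw [Polynomial.coeff_divX]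
      exact hp (n + 1) (by omega)
    rw [hdiv, ih p.divX hdeg r h1, mul_zero]

/-- the characterisation of the expansion. -/
theorem expFun_eq_of_forall (h : R) (f : A⟦X⟧)
    (hf : ∀ N, ∃ r, h - E.Ψ (trunc N f) = E.φ ^ N * r) : E.expFun h = f := by
  ext n
  have h1 : trunc (n + 1) (E.expFun h) = trunc (n + 1) f := by
    obtain ⟨r, hr⟩ := hf (n + 1)
    have h2 := E.sub_Ψ_trunc (n + 1) h
    have h3 : E.Ψ (trunc (n + 1) f - trunc (n + 1) (E.expFun h)) =
        E.φ ^ (n + 1) * (E.quo^[n + 1] h - r) := by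
      rw [map_sub, mul_sub, ← h2, ← hr]; ring
    have h4 : ∀ m, n + 1 ≤ m →
        (trunc (n + 1) f - trunc (n + 1) (E.expFun h)).coeff m = 0 := by
      intro m hm
      rw [Polynomial.coeff_sub, coeff_trunc, coeff_trunc, if_neg (by omega), if_neg (by omega),
        sub_zero]
    have h5 := E.eq_zero_of_Ψ_mem (n + 1) _ h4 _ h3
    exact (sub_eq_zero.1 h5).symm
  have h6 := congrArg (fun p => p.coeff n) h1
  simp only [coeff_trunc, if_pos (Nat.lt_succ_self n)] at h6
  exact h6

/-- a polynomial is congruent to its truncation modulo `X ^ N`. -/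
theorem X_pow_dvd_sub_trunc (N : ℕ) (P : A[X]) :
    (Polynomial.X : A[X]) ^ N ∣ P - trunc N (P : A⟦X⟧) := by
  rw [Polynomial.X_pow_dvd_iff]
  intro d hd
  rw [Polynomial.coeff_sub, coeff_trunc, if_pos hd, Polynomial.coeff_coe, sub_self]

theorem expFun_add (h h' : R) : E.expFun (h + h') = E.expFun h + E.expFun h' := by
  apply E.expFun_eq_of_forall
  intro N
  refine ⟨E.quo^[N] h + E.quo^[N] h', ?_⟩
  rw [map_add, map_add, mul_add, ← E.sub_Ψ_trunc, ← E.sub_Ψ_trunc]; ring

theorem expFun_mul (h h' : R) : E.expFun (h * h') = E.expFun h * E.expFun h' := by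
  apply E.expFun_eq_of_forall
  intro N
  set p := trunc N (E.expFun h) with hp
  set p' := trunc N (E.expFun h') with hp'
  have h1 := E.sub_Ψ_trunc N h
  have h2 := E.sub_Ψ_trunc N h'
  obtain ⟨Q, hQ⟩ := X_pow_dvd_sub_trunc N (p * p')
  have h3 : trunc N ((p * p' : A[X]) : A⟦X⟧) = trunc N (E.expFun h * E.expFun h') := by
    rw [Polynomial.coe_mul, hp, hp', trunc_trunc_mul_trunc]
  rw [h3] at hQ
  have h4 : E.Ψ (trunc N (E.expFun h * E.expFun h')) = E.Ψ p * E.Ψ p' - E.φ ^ N * E.Ψ Q := by
    have := congrArg E.Ψ hQ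
    rw [RingHom.map_sub, RingHom.map_mul, RingHom.map_mul, RingHom.map_pow, Ψ_X] at this
    rw [← this]; ring
  refine ⟨E.quo^[N] h * E.Ψ p' + E.Ψ p * E.quo^[N] h' + E.φ ^ N * (E.quo^[N] h * E.quo^[N] h') +
    E.Ψ Q, ?_⟩
  rw [h4]
  have e1 : h = E.Ψ p + E.φ ^ N * E.quo^[N] h := by rw [← h1]; ring
  have e2 : h' = E.Ψ p' + E.φ ^ N * E.quo^[N] h' := by rw [← h2]; ring
  nth_rewrite 1 [e1]
  nth_rewrite 1 [e2]
  ring

theorem expFun_ι (a : A) : E.expFun (E.ι a) = PowerSeries.C a := by
  apply E.expFun_eq_of_forall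
  intro N
  cases N with
  | zero => exact ⟨E.ι a, by simp⟩
  | succ N => exact ⟨0, by rw [trunc_C, Ψ_C]; simp⟩

theorem expFun_φ : E.expFun E.φ = PowerSeries.X := by
  apply E.expFun_eq_of_forall
  intro N
  match N with
  | 0 => exact ⟨E.φ, by simp⟩
  | 1 =>
    refine ⟨1, ?_⟩
    have : trunc 1 (PowerSeries.X : A⟦X⟧) = 0 := by
      ext d
      rw [coeff_trunc]
      split_ifs with hd
      · have : d = 0 := by omega
        subst this
        simp
      · simp
    rw [this]; simp
  | N + 2 => exact ⟨0, by rw [trunc_X, Ψ_X]; simp⟩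

/-- **the expansion**, as a ring homomorphism. -/
noncomputable def expand : R →+* A⟦X⟧ where
  toFun := E.expFun
  map_one' := by
    have := E.expFun_ι 1
    rwa [map_one, map_one] at this
  map_mul' := E.expFun_mul
  map_zero' := by
    have := E.expFun_ι 0
    rwa [map_zero, map_zero] at this
  map_add' := E.expFun_add

theorem expand_φ : E.expand E.φ = PowerSeries.X := E.expFun_φ

theorem expand_ι (a : A) : E.expand (E.ι a) = PowerSeries.C a := E.expFun_ι a

theorem constantCoeff_expand (h : R) : PowerSeries.constantCoeff (E.expand h) = E.ε h := by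
  rw [← PowerSeries.coeff_zero_eq_constantCoeff_apply]
  exact E.coeff_expFun h 0

theorem coeff_expand (h : R) (n : ℕ) : PowerSeries.coeff n (E.expand h) = E.ε (E.quo^[n] h) :=
  E.coeff_expFun h n

/-- the truncation identity for the ring hom. -/
theorem sub_Ψ_trunc_expand (N : ℕ) (h : R) :
    h - E.Ψ (trunc N (E.expand h)) = E.φ ^ N * E.quo^[N] h :=
  E.sub_Ψ_trunc N h

/-- the expansion of `h` is a unit as soon as the value at the centre is. -/
theorem isUnit_expand {h : R} (hu : IsUnit (E.ε h)) : IsUnit (E.expand h) := by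
  rw [PowerSeries.isUnit_iff_constantCoeff, constantCoeff_expand]
  exact hu

/-- injectivity when `⋂ φ ^ N R = 0`. -/
theorem expand_injective (hsep : ∀ h : R, (∀ N, ∃ r, h = E.φ ^ N * r) → h = 0) :
    Function.Injective E.expand := by
  rw [injective_iff_map_eq_zero]
  intro h hh
  apply hsep
  intro N
  refine ⟨E.quo^[N] h, ?_⟩
  have := E.sub_Ψ_trunc_expand N h
  rw [hh] at this
  simpa using this

/-- **value formula**: for any other evaluation `ev : R →+* A` which is the identity on constants,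
`ev h = ∑_{n<N} aₙ (ev φ) ^ n + (ev φ) ^ N * (…)`. -/
theorem value_formula (ev : R →+* A) (hev : ∀ a, ev (E.ι a) = a) (N : ℕ) (h : R) :
    ev h = (trunc N (E.expand h)).eval (ev E.φ) + ev E.φ ^ N * ev (E.quo^[N] h) := by
  have h1 := congrArg ev (E.sub_Ψ_trunc_expand N h)
  rw [map_sub, map_mul, map_pow] at h1
  have h2 : ∀ p : A[X], ev (E.Ψ p) = p.eval (ev E.φ) := by
    intro p
    induction p using Polynomial.induction_on' with
    | add p q hp hq => rw [map_add, map_add, hp, hq, Polynomial.eval_add]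
    | monomial n a =>
      rw [← Polynomial.C_mul_X_pow_eq_monomial, map_mul, map_pow, Ψ_C, Ψ_X, map_mul, map_pow, hev]
      simp
  rw [h2] at h1
  rw [← h1]; ring

/-- if a ring hom `θ` kills the constants `ι aₙ` for `n < N` (`aₙ` the coefficients of `h`), then
`θ h = θ φ ^ N * θ (quo^[N] h)`. -/
theorem map_eq_pow_mul_of_coeff {S : Type*} [CommRing S] (θ : R →+* S) (N : ℕ) (h : R)
    (hc : ∀ n < N, θ (E.ι (PowerSeries.coeff n (E.expand h))) = 0) :
    θ h = θ E.φ ^ N * θ (E.quo^[N] h) := by
  induction N generalizing h with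
  | zero => simp
  | succ N ih =>
    have h0 : θ (E.ι (E.ε h)) = 0 := by
      have := hc 0 (Nat.succ_pos N)
      rwa [coeff_expand] at this
    have h1 : θ h = θ E.φ * θ (E.quo h) := by
      conv_lhs => rw [E.quo_spec h]
      rw [map_add, map_mul, h0, zero_add]
    have h2 : ∀ n < N, θ (E.ι (PowerSeries.coeff n (E.expand (E.quo h)))) = 0 := by
      intro n hn
      have := hc (n + 1) (Nat.succ_lt_succ hn)
      rwa [coeff_expand, Function.iterate_succ_apply, ← coeff_expand] at this
    rw [h1, ih (E.quo h) h2, Function.iterate_succ_apply, pow_succ']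
    ring

end ExpData

end Fermat.Agent.FF.ExpandA
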