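/-
Programme FF (S19), chapter G1a, abstract form (lead): the UNIQUE-ZERO lemma and the parametrisation
of a residue disc.

Abstract place reduction (`RedCtx`): function fields `F / K` and `Fb / κ`, a valuation subring `A` of
`K`, the Gauss ring `O ⊆ F` with its reduction `ρ : O →+* Fb`, a map `r` on places with the
push-forward formula `r_* (div y) = div (ρ y)` for `y ∈ O`, `ρ y ≠ 0`.

If `φ ∈ O`, `P̄` is a simple zero of `ρ φ`, and `φ` has no pole over `P̄`, then
* for every constant `t ∈ 𝔪_A` there is exactly one place `P(t)` over `P̄` where `φ - t` vanishes, and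
  the zero is simple; `φ - t'` does not vanish at `P(t)` for `t' ≠ t`;
* every place `Q` over `P̄` is `P(t)` for a unique `t ∈ 𝔪_A` (the value of `φ` at `Q`).
-/
import Mathlib
import Fermat.Prelude.Def_AlgebraicCurve_DivisorClassGroup
import Fermat.Agent.X0.FFDict

set_option autoImplicit false

open AlgebraicCurve IsLocalRing

namespace Fermat.Agent.FF.UniqueZeroA

open Fermat.Agent.X0.FF

variable {K : Type*} [Field K] {F : Type*} [Field F] [Algebra K F]
variable {κ : Type*} [Field κ] {Fb : Type*} [Field Fb] [Algebra κ Fb]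

/-- a finite sum of nonnegative integers equal to `1` has exactly one nonzero term. -/
theorem exists_unique_of_sum_eq_one {ι : Type*} (s : Finset ι) (f : ι → ℤ)
    (hf : ∀ i ∈ s, 0 ≤ f i) (hsum : ∑ i ∈ s, f i = 1) :
    ∃ i₀ ∈ s, f i₀ = 1 ∧ ∀ i ∈ s, i ≠ i₀ → f i = 0 := by
  classical
  have hex : ∃ i₀ ∈ s, f i₀ ≠ 0 := by
    by_contra h
    push Not at h
    rw [Finset.sum_eq_zero h] at hsum
    exact zero_ne_one hsum
  obtain ⟨i₀, hi₀, hne⟩ := hex
  have h1 : f i₀ + ∑ i ∈ s.erase i₀, f i = 1 := by rw [Finset.add_sum_erase s f hi₀, hsum]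
  have h2 : 0 ≤ ∑ i ∈ s.erase i₀, f i :=
    Finset.sum_nonneg fun i hi => hf i (Finset.mem_of_mem_erase hi)
  have h3 : 0 ≤ f i₀ := hf i₀ hi₀
  have h4 : f i₀ = 1 := by omega
  have h5 : ∑ i ∈ s.erase i₀, f i = 0 := by omega
  refine ⟨i₀, hi₀, h4, fun i hi hne' => ?_⟩
  exact (Finset.sum_eq_zero_iff_of_nonneg fun i hi => hf i (Finset.mem_of_mem_erase hi)).1 h5 i
    (Finset.mem_erase.2 ⟨hne', hi⟩)

/-- a finite sum of nonnegative integers equal to `0` has only zero terms. -/
theorem eq_zero_of_sum_eq_zero {ι : Type*} (s : Finset ι) (f : ι → ℤ)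
    (hf : ∀ i ∈ s, 0 ≤ f i) (hsum : ∑ i ∈ s, f i = 0) : ∀ i ∈ s, f i = 0 :=
  (Finset.sum_eq_zero_iff_of_nonneg hf).1 hsum

/-- the value of a push-forward divisor at a place. -/
theorem mapDomain_apply_eq_sum (r : Place K F → Place κ Fb) (D : Divisor K F)
    (Q : Place κ Fb) [DecidablePred fun P => r P = Q] :
    Finsupp.mapDomain r D Q = ∑ P ∈ D.support.filter (fun P => r P = Q), D P := by
  classical
  rw [Finsupp.mapDomain, Finsupp.sum, Finsupp.finsetSum_apply, Finset.sum_filter]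
  refine Finset.sum_congr rfl fun P _ => ?_
  rw [Finsupp.single_apply]

/-- an abstract place reduction. -/
structure RedCtx (A : ValuationSubring K) (F : Type*) [Field F] [Algebra K F]
    (κ : Type*) [Field κ] (Fb : Type*) [Field Fb] [Algebra κ Fb] where
  /-- the Gauss ring. -/
  O : Subring F
  /-- the reduction. -/
  ρ : O →+* Fb
  /-- the reduction of places. -/
  r : Place K F → Place κ Fb
  const_mem : ∀ a : A, algebraMap K F (a : K) ∈ O
  ρ_const_max : ∀ (a : A), a ∈ maximalIdeal A → ρ ⟨algebraMap K F (a : K), const_mem a⟩ = 0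
  ρ_const_unit : ∀ (a : A), IsUnit a →
    ∃ u : κ, u ≠ 0 ∧ ρ ⟨algebraMap K F (a : K), const_mem a⟩ = algebraMap κ Fb u
  exists_div : ∀ f : F, f ≠ 0 → ∃ D : Divisor K F, ∀ P, D P = P.ord f
  push : ∀ (y : O), ρ y ≠ 0 → ∀ D : Divisor K F, (∀ P, D P = P.ord (y : F)) →
    ∀ Q, Finsupp.mapDomain r D Q = Q.ord (ρ y)
  /-- places have degree one: every function regular at `Q` has a value. -/
  exists_value : ∀ (Q : Place K F) (f : F), 0 ≤ Q.ord f →
    ∃ a : K, f - algebraMap K F a = 0 ∨ 0 < Q.ord (f - algebraMap K F a)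

namespace RedCtx

variable {A : ValuationSubring K} (C : RedCtx A F κ Fb)

/-- the constant `a`, as an element of the Gauss ring. -/
def const (a : A) : C.O := ⟨algebraMap K F (a : K), C.const_mem a⟩

theorem coe_const (a : A) : ((C.const a : C.O) : F) = algebraMap K F (a : K) := rfl

theorem coe_ne_zero {y : C.O} (hy : C.ρ y ≠ 0) : (y : F) ≠ 0 := by
  intro h
  apply hy
  have : y = 0 := Subtype.ext h
  rw [this, map_zero]

/-- **the fibre sum formula.** -/
theorem fibre_sum (y : C.O) (hy : C.ρ y ≠ 0) (Pb : Place κ Fb) :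
    ∃ s : Finset (Place K F), (∀ P ∈ s, C.r P = Pb) ∧
      (∀ P, C.r P = Pb → P ∉ s → P.ord (y : F) = 0) ∧
      ∑ P ∈ s, P.ord (y : F) = Pb.ord (C.ρ y) := by
  classical
  obtain ⟨D, hD⟩ := C.exists_div (y : F) (C.coe_ne_zero hy)
  refine ⟨D.support.filter (fun P => C.r P = Pb), fun P hP => (Finset.mem_filter.1 hP).2,
    fun P hP hns => ?_, ?_⟩
  · rw [← hD P]
    by_contra hne
    exact hns (Finset.mem_filter.2 ⟨Finsupp.mem_support_iff.2 hne, hP⟩)
  · rw [← C.push y hy D hD Pb, mapDomain_apply_eq_sum]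
    exact Finset.sum_congr rfl fun P _ => (hD P).symm

/-- if `y` has no poles over `P̄` and `ρ y` has neither zero nor pole at `P̄`, then `y` has no zero
over `P̄`. -/
theorem ord_eq_zero_of_over (y : C.O) (hy : C.ρ y ≠ 0) (Pb : Place κ Fb)
    (h0 : Pb.ord (C.ρ y) = 0) (hnn : ∀ P, C.r P = Pb → 0 ≤ P.ord (y : F))
    (Q : Place K F) (hQ : C.r Q = Pb) : Q.ord (y : F) = 0 := by
  obtain ⟨s, hs, hout, hsum⟩ := C.fibre_sum y hy Pb
  by_cases hQs : Q ∈ s
  · exact eq_zero_of_sum_eq_zero s _ (fun P hP => hnn P (hs P hP)) (hsum.trans h0) Q hQs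
  · exact hout Q hQ hQs

/-- if `y` has no poles over `P̄` and `ρ y` has a simple zero at `P̄`, then `y` has exactly one zero
over `P̄`, and it is simple. -/
theorem exists_unique_zero_over (y : C.O) (hy : C.ρ y ≠ 0) (Pb : Place κ Fb)
    (h1 : Pb.ord (C.ρ y) = 1) (hnn : ∀ P, C.r P = Pb → 0 ≤ P.ord (y : F)) :
    ∃ P, C.r P = Pb ∧ P.ord (y : F) = 1 ∧ ∀ P', C.r P' = Pb → P' ≠ P → P'.ord (y : F) = 0 := by
  obtain ⟨s, hs, hout, hsum⟩ := C.fibre_sum y hy Pb
  obtain ⟨P, hPs, hP1, hoth⟩ := exists_unique_of_sum_eq_one s _ (fun P hP => hnn P (hs P hP))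
    (hsum.trans h1)
  refine ⟨P, hs P hPs, hP1, fun P' hP' hne => ?_⟩
  by_cases hP's : P' ∈ s
  · exact hoth P' hP's hne
  · exact hout P' hP' hP's

section Disc

variable (φ : C.O) (Pb : Place κ Fb) (hPb : Pb.ord (C.ρ φ) = 1)
variable (hnp : ∀ P, C.r P = Pb → 0 ≤ P.ord (φ : F))

include hPb in
theorem ρ_φ_ne_zero : C.ρ φ ≠ 0 := by
  intro h
  rw [h, Place.ord_zero] at hPb
  exact zero_ne_one hPb

theorem ρ_sub_const (t : A) (ht : t ∈ maximalIdeal A) : C.ρ (φ - C.const t) = C.ρ φ := by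
  rw [map_sub, const, C.ρ_const_max t ht, sub_zero]

include hPb hnp in
theorem ord_sub_const_nonneg (t : A) (ht : t ∈ maximalIdeal A) (P : Place K F)
    (hP : C.r P = Pb) : 0 ≤ P.ord ((φ - C.const t : C.O) : F) := by
  have hne : ((φ - C.const t : C.O) : F) ≠ 0 :=
    C.coe_ne_zero (by rw [C.ρ_sub_const φ t ht]; exact C.ρ_φ_ne_zero φ Pb hPb)
  have h1 : ((φ - C.const t : C.O) : F) = (φ : F) - algebraMap K F (t : K) := rfl
  rw [h1] at hne ⊢
  have h2 := ord_sub_ge P hne
  rw [ord_algebraMap] at h2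
  exact le_trans (le_min (hnp P hP) le_rfl) h2

include hPb hnp in
/-- **unique zero.** -/
theorem exists_disc_point (t : A) (ht : t ∈ maximalIdeal A) :
    ∃ P, C.r P = Pb ∧ P.ord ((φ : F) - algebraMap K F (t : K)) = 1 ∧
      ∀ P', C.r P' = Pb → P' ≠ P → P'.ord ((φ : F) - algebraMap K F (t : K)) = 0 := by
  have hρ : C.ρ (φ - C.const t) ≠ 0 := by
    rw [C.ρ_sub_const φ t ht]; exact C.ρ_φ_ne_zero φ Pb hPb
  exact C.exists_unique_zero_over (φ - C.const t) hρ Pb
    (by rw [C.ρ_sub_const φ t ht]; exact hPb)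
    (fun P hP => C.ord_sub_const_nonneg φ Pb hPb hnp t ht P hP)

/-- the point of the disc over `P̄` with `φ = t`. -/
noncomputable def discPoint (t : A) : Place K F := by
  classical
  exact if ht : t ∈ maximalIdeal A then (C.exists_disc_point φ Pb hPb hnp t ht).choose
    else Classical.choice ⟨(C.exists_disc_point φ Pb hPb hnp 0 (Ideal.zero_mem _)).choose⟩

theorem discPoint_spec (t : A) (ht : t ∈ maximalIdeal A) :
    C.r (C.discPoint φ Pb hPb hnp t) = Pb ∧
    (C.discPoint φ Pb hPb hnp t).ord ((φ : F) - algebraMap K F (t : K)) = 1 ∧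
      ∀ P', C.r P' = Pb → P' ≠ C.discPoint φ Pb hPb hnp t →
        P'.ord ((φ : F) - algebraMap K F (t : K)) = 0 := by
  unfold discPoint
  rw [dif_pos ht]
  exact (C.exists_disc_point φ Pb hPb hnp t ht).choose_spec

theorem r_discPoint (t : A) (ht : t ∈ maximalIdeal A) : C.r (C.discPoint φ Pb hPb hnp t) = Pb :=
  (C.discPoint_spec φ Pb hPb hnp t ht).1

theorem ord_discPoint_self (t : A) (ht : t ∈ maximalIdeal A) :
    (C.discPoint φ Pb hPb hnp t).ord ((φ : F) - algebraMap K F (t : K)) = 1 :=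
  (C.discPoint_spec φ Pb hPb hnp t ht).2.1

/-- a place over `P̄` where `φ - t` vanishes is `P(t)`. -/
theorem eq_discPoint (t : A) (ht : t ∈ maximalIdeal A) (Q : Place K F) (hQ : C.r Q = Pb)
    (hpos : 0 < Q.ord ((φ : F) - algebraMap K F (t : K))) : Q = C.discPoint φ Pb hPb hnp t := by
  by_contra hne
  have := (C.discPoint_spec φ Pb hPb hnp t ht).2.2 Q hQ hne
  omega

theorem ord_discPoint_of_ne (t t' : A) (ht : t ∈ maximalIdeal A) (_ht' : t' ∈ maximalIdeal A)
    (hne : t ≠ t') :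
    (C.discPoint φ Pb hPb hnp t).ord ((φ : F) - algebraMap K F (t' : K)) = 0 := by
  set P := C.discPoint φ Pb hPb hnp t
  have h1 : P.ord ((φ : F) - algebraMap K F (t : K)) = 1 := C.ord_discPoint_self φ Pb hPb hnp t ht
  have hc : algebraMap K F ((t : K) - (t' : K)) ≠ 0 := by
    rw [Ne, map_eq_zero, sub_eq_zero]
    exact fun h => hne (Subtype.ext h)
  have h2 : (φ : F) - algebraMap K F (t' : K) =
      algebraMap K F ((t : K) - (t' : K)) + ((φ : F) - algebraMap K F (t : K)) := by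
    rw [map_sub]; ring
  rw [h2, ord_add_eq_of_lt P hc (by rw [ord_algebraMap, h1]; exact zero_lt_one), ord_algebraMap]

include hPb hnp in
/-- **every place over `P̄` is a point of the disc.** -/
theorem exists_eq_discPoint (Q : Place K F) (hQ : C.r Q = Pb) :
    ∃ t : A, t ∈ maximalIdeal A ∧ Q = C.discPoint φ Pb hPb hnp t := by
  obtain ⟨a, ha⟩ := C.exists_value Q (φ : F) (hnp Q hQ)
  have hφne : C.ρ φ ≠ 0 := C.ρ_φ_ne_zero φ Pb hPb
  -- `φ` is not constant
  have hnc : (φ : F) - algebraMap K F a ≠ 0 := by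
    intro h0
    have hφa : (φ : F) = algebraMap K F a := sub_eq_zero.1 h0
    rcases A.mem_or_inv_mem a with haA | haA
    · by_cases hu : IsUnit (⟨a, haA⟩ : A)
      · obtain ⟨u, hu0, hu1⟩ := C.ρ_const_unit ⟨a, haA⟩ hu
        have : φ = C.const ⟨a, haA⟩ := Subtype.ext hφa
        rw [this, const, hu1] at hPb
        rw [ord_algebraMap] at hPb
        exact zero_ne_one hPb
      · have : φ = C.const ⟨a, haA⟩ := Subtype.ext hφa
        apply hφne
        rw [this, const]
        exact C.ρ_const_max _ ((mem_maximalIdeal _).2 hu)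
    · -- `a⁻¹ ∈ A`, `a ∉ A` or `a` a unit; then `a⁻¹ φ = 1`
      have ha0 : a ≠ 0 := by
        intro h
        apply hφne
        have : φ = 0 := Subtype.ext (by rw [hφa, h, map_zero]; rfl)
        rw [this, map_zero]
      have h1 : C.const ⟨a⁻¹, haA⟩ * φ = 1 := by
        apply Subtype.ext
        show algebraMap K F a⁻¹ * (φ : F) = 1
        rw [hφa, ← map_mul, inv_mul_cancel₀ ha0, map_one]
      have h2 := congrArg C.ρ h1
      rw [map_mul, map_one] at h2
      by_cases hu : IsUnit (⟨a⁻¹, haA⟩ : A)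
      · obtain ⟨u, hu0, hu1⟩ := C.ρ_const_unit ⟨a⁻¹, haA⟩ hu
        rw [const, hu1] at h2
        have h3 : C.ρ φ = algebraMap κ Fb u⁻¹ := by
          rw [map_inv₀]
          exact eq_inv_of_mul_eq_one_right h2
        rw [h3, ord_algebraMap] at hPb
        exact zero_ne_one hPb
      · rw [const, C.ρ_const_max _ ((mem_maximalIdeal _).2 hu), zero_mul] at h2
        exact zero_ne_one h2
  have hpos : 0 < Q.ord ((φ : F) - algebraMap K F a) := ha.resolve_left hnc
  -- `a ∈ A`
  have haA : a ∈ A := by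
    by_contra hnA
    have hinv : a⁻¹ ∈ A := (A.mem_or_inv_mem a).resolve_left hnA
    have ha0 : a ≠ 0 := fun h => hnA (h ▸ A.zero_mem)
    have hnu : ¬ IsUnit (⟨a⁻¹, hinv⟩ : A) := by
      intro hu
      apply hnA
      obtain ⟨v, hv⟩ := hu.exists_right_inv
      have hv' : a⁻¹ * (v : K) = 1 := by
        have := congrArg Subtype.val hv
        simpa using this
      have : (v : K) = a := by
        field_simp at hv'
        exact hv'
      rw [← this]; exact v.2
    set y : C.O := C.const ⟨a⁻¹, hinv⟩ * φ - 1 with hy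
    have hρy : C.ρ y = -1 := by
      rw [hy, map_sub, map_mul, map_one, const, C.ρ_const_max _ ((mem_maximalIdeal _).2 hnu),
        zero_mul, zero_sub]
    have hρy0 : C.ρ y ≠ 0 := by rw [hρy]; exact neg_ne_zero.2 one_ne_zero
    have hyF : (y : F) = algebraMap K F a⁻¹ * ((φ : F) - algebraMap K F a) := by
      show algebraMap K F a⁻¹ * (φ : F) - 1 = _
      rw [mul_sub, ← map_mul, inv_mul_cancel₀ ha0, map_one]
    have hca : algebraMap K F a⁻¹ ≠ 0 := by
      rw [Ne, map_eq_zero]; exact inv_ne_zero ha0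
    have hord : ∀ P : Place K F, P.ord (y : F) = P.ord ((φ : F) - algebraMap K F a) := by
      intro P
      rw [hyF, P.ord_mul hca hnc, ord_algebraMap, zero_add]
    have hnn : ∀ P, C.r P = Pb → 0 ≤ P.ord (y : F) := by
      intro P hP
      rw [hord]
      have h2 := ord_sub_ge P hnc
      rw [ord_algebraMap] at h2
      exact le_trans (le_min (hnp P hP) le_rfl) h2
    have h0 : Pb.ord (C.ρ y) = 0 := by
      rw [hρy, ord_neg, Place.ord_one]
    have := C.ord_eq_zero_of_over y hρy0 Pb h0 hnn Q hQ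
    rw [hord] at this
    omega
  -- `a ∈ 𝔪_A`
  have hmax : (⟨a, haA⟩ : A) ∈ maximalIdeal A := by
    rw [mem_maximalIdeal]
    intro hu
    obtain ⟨u, hu0, hu1⟩ := C.ρ_const_unit ⟨a, haA⟩ hu
    set y : C.O := φ - C.const ⟨a, haA⟩ with hy
    have hρy : C.ρ y = C.ρ φ - algebraMap κ Fb u := by
      rw [hy, map_sub, const, hu1]
    have hcu : algebraMap κ Fb u ≠ 0 := by
      rw [Ne, map_eq_zero]; exact hu0
    have h0 : Pb.ord (C.ρ y) = 0 := by
      rw [hρy, sub_eq_add_neg, add_comm,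
        ord_add_eq_of_lt Pb (neg_ne_zero.2 hcu) (by rw [ord_neg, ord_algebraMap, hPb]; exact zero_lt_one),
        ord_neg, ord_algebraMap]
    have hρy0 : C.ρ y ≠ 0 := by
      intro h
      rw [hρy, sub_eq_zero] at h
      rw [h, ord_algebraMap] at hPb
      exact zero_ne_one hPb
    have hnn : ∀ P, C.r P = Pb → 0 ≤ P.ord (y : F) := by
      intro P hP
      have h2 := ord_sub_ge P hnc
      rw [ord_algebraMap] at h2
      exact le_trans (le_min (hnp P hP) le_rfl) h2
    have := C.ord_eq_zero_of_over y hρy0 Pb h0 hnn Q hQ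
    have h3 : ((y : C.O) : F) = (φ : F) - algebraMap K F a := rfl
    rw [h3] at this
    omega
  exact ⟨⟨a, haA⟩, hmax, C.eq_discPoint φ Pb hPb hnp ⟨a, haA⟩ hmax Q hQ hpos⟩

end Disc

end RedCtx

end Fermat.Agent.FF.UniqueZeroA
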