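/-
Programme FF (S19), chapter G1 assembly, abstract form (lead): the disc model
(`GeomIface8.DiscModel`) from an abstract place reduction (`UniqueZeroA.RedCtx`).

Extra data (`RedCtxV`): the Gauss ring `O` is local with residue map `ρ` (`ρ y ≠ 0 → y⁻¹ ∈ O`), the
Gauss property, and value ring homs `val Q : O_Q →+* K` at the (degree-one) places.

Given `φ ∈ O` and `d` places `Pb j` of the special fibre which are simple zeros of `ρ φ`, without
poles of `φ` above them: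
* `val_mem` : values of functions of `O` without poles over `P̄` lie in `A`;
* `ρ_sub_val` : the value reduces to the value of the reduction;
* `discModel` : the `DiscModel`, with `P j t = discPoint` (unique zero of `φ - t` over `Pb j`) and
  `exp j` = `ExpandA.ExpData.expand` on the disc ring, `ε` = value at the centre;
* `le_ord_ρ_of_coeff_mem` : if the first `k` coefficients of `exp j y` lie in `𝔪_A` then
  `ρ y = 0 ∨ k ≤ ord_{Pb j} (ρ y)`.
-/
import Mathlib
import Fermat.Agent.FF.GeomIface8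
import Fermat.Agent.FF.UniqueZeroA
import Fermat.Agent.FF.ExpandA

set_option autoImplicit false

open AlgebraicCurve IsLocalRing PowerSeries

namespace Fermat.Agent.FF.DiscOfRedA

open Fermat.Agent.X0.FF Fermat.Agent.FF.GeomIface8 Fermat.Agent.FF.UniqueZeroA
  Fermat.Agent.FF.ExpandA

variable {K : Type*} [Field K] {F : Type*} [Field F] [Algebra K F]
variable {κ : Type*} [Field κ] {Fb : Type*} [Field Fb] [Algebra κ Fb]
variable {A : ValuationSubring K}

/-- an abstract place reduction with local Gauss ring and values at places. -/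
structure RedCtxV (A : ValuationSubring K) (F : Type*) [Field F] [Algebra K F]
    (κ : Type*) [Field κ] (Fb : Type*) [Field Fb] [Algebra κ Fb] extends RedCtx A F κ Fb where
  inv_mem : ∀ y : O, ρ y ≠ 0 → ((y : F))⁻¹ ∈ O
  gauss : ∀ f : F, f ≠ 0 → ∃ c : K, c ≠ 0 ∧ ∃ h : algebraMap K F c * f ∈ O, ρ ⟨_, h⟩ ≠ 0
  val : ∀ Q : Place K F, Q.toValuationSubring →+* K
  val_algebraMap : ∀ (Q : Place K F) (a : K),
    val Q ⟨algebraMap K F a, Q.algebraMap_mem' a⟩ = a
  val_eq_zero : ∀ (Q : Place K F) (f : Q.toValuationSubring), val Q f = 0 →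
    (f : F) = 0 ∨ 0 < Q.ord (f : F)

namespace RedCtxV

variable (C : RedCtxV A F κ Fb)

theorem isOUnit_of_ρ_ne_zero (y : C.O) (hy : C.ρ y ≠ 0) : IsOUnit C.O (y : F) :=
  ⟨C.toRedCtx.coe_ne_zero hy, y.2, C.inv_mem y hy⟩

theorem val_sub_const (Q : Place K F) (f : F) (hf : f ∈ Q.toValuationSubring) (a : K) :
    C.val Q ⟨f - algebraMap K F a, sub_mem hf (Q.algebraMap_mem' a)⟩ =
      C.val Q ⟨f, hf⟩ - a := by
  have : (⟨f - algebraMap K F a, sub_mem hf (Q.algebraMap_mem' a)⟩ :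
      Q.toValuationSubring) = ⟨f, hf⟩ - ⟨algebraMap K F a, Q.algebraMap_mem' a⟩ := rfl
  rw [this, map_sub, C.val_algebraMap]

/-- `f - f(Q)` vanishes at `Q`. -/
theorem sub_val (Q : Place K F) (f : F) (hf : f ∈ Q.toValuationSubring) :
    f - algebraMap K F (C.val Q ⟨f, hf⟩) = 0 ∨
      0 < Q.ord (f - algebraMap K F (C.val Q ⟨f, hf⟩)) := by
  have h1 := C.val_sub_const Q f hf (C.val Q ⟨f, hf⟩)
  rw [sub_self] at h1
  exact C.val_eq_zero Q _ h1

/-- a function vanishing at `Q` has value `0`. -/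
theorem val_eq_zero_of_ord_pos (Q : Place K F) (f : F) (hf : f ∈ Q.toValuationSubring)
    (hpos : 0 < Q.ord f) : C.val Q ⟨f, hf⟩ = 0 := by
  by_contra hne
  set a := C.val Q ⟨f, hf⟩ with ha
  have hca : algebraMap K F a ≠ 0 := by rw [Ne, _root_.map_eq_zero]; exact hne
  rcases C.sub_val Q f hf with h | h
  · rw [sub_eq_zero] at h
    rw [h, ord_algebraMap] at hpos
    exact lt_irrefl _ hpos
  · have hf0 : f ≠ 0 := by
      intro h0; rw [h0, Place.ord_zero] at hpos; exact lt_irrefl _ hpos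
    have h2 : f - algebraMap K F a = -algebraMap K F a + f := by ring
    rw [h2, ord_add_eq_of_lt Q (neg_ne_zero.2 hca) (by rw [ord_neg, ord_algebraMap]; exact hpos),
      ord_neg, ord_algebraMap] at h
    exact lt_irrefl _ h

section Values

variable (y : C.O) (Pb : Place κ Fb) (hnn : ∀ P, C.r P = Pb → 0 ≤ P.ord (y : F))
variable (Q : Place K F) (hQ : C.r Q = Pb) (hyQ : (y : F) ∈ Q.toValuationSubring)

include hnn in
theorem ord_sub_const_nonneg (a : K) (hne : (y : F) - algebraMap K F a ≠ 0) (P : Place K F)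
    (hP : C.r P = Pb) : 0 ≤ P.ord ((y : F) - algebraMap K F a) := by
  have h2 := ord_sub_ge P hne
  rw [ord_algebraMap] at h2
  exact le_trans (le_min (hnn P hP) le_rfl) h2

include hnn hQ in
/-- **values are integral.** -/
theorem val_mem : C.val Q ⟨(y : F), hyQ⟩ ∈ A := by
  set a := C.val Q ⟨(y : F), hyQ⟩ with ha
  by_contra hnA
  have hinv : a⁻¹ ∈ A := (A.mem_or_inv_mem a).resolve_left hnA
  have ha0 : a ≠ 0 := fun h => hnA (h ▸ A.zero_mem)
  have hnu : ¬ IsUnit (⟨a⁻¹, hinv⟩ : A) := by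
    intro hu
    apply hnA
    obtain ⟨v, hv⟩ := hu.exists_right_inv
    have hv' : a⁻¹ * (v : K) = 1 := by
      have := congrArg Subtype.val hv
      simpa using this
    have : (v : K) = a := by
      field_simp at hv'
      exact hv'
    rw [← this]; exact v.2
  have hρc : C.ρ (C.toRedCtx.const ⟨a⁻¹, hinv⟩) = 0 :=
    C.ρ_const_max _ ((mem_maximalIdeal _).2 hnu)
  rcases C.sub_val Q (y : F) hyQ with h | h
  · rw [← ha, sub_eq_zero] at h
    have h1 : C.toRedCtx.const ⟨a⁻¹, hinv⟩ * y = 1 := by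
      apply Subtype.ext
      show algebraMap K F a⁻¹ * (y : F) = 1
      rw [h, ← map_mul, inv_mul_cancel₀ ha0, map_one]
    have h2 := congrArg C.ρ h1
    rw [map_mul, map_one, hρc, zero_mul] at h2
    exact zero_ne_one h2
  · rw [← ha] at h
    have hnc : (y : F) - algebraMap K F a ≠ 0 := by
      intro h0; rw [h0, Place.ord_zero] at h; exact lt_irrefl _ h
    set y' : C.O := C.toRedCtx.const ⟨a⁻¹, hinv⟩ * y - 1 with hy'
    have hρy : C.ρ y' = -1 := by
      rw [hy', map_sub, map_mul, map_one, hρc, zero_mul, zero_sub]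
    have hρy0 : C.ρ y' ≠ 0 := by rw [hρy]; exact neg_ne_zero.2 one_ne_zero
    have hyF : (y' : F) = algebraMap K F a⁻¹ * ((y : F) - algebraMap K F a) := by
      show algebraMap K F a⁻¹ * (y : F) - 1 = _
      rw [mul_sub, ← map_mul, inv_mul_cancel₀ ha0, map_one]
    have hca : algebraMap K F a⁻¹ ≠ 0 := by
      rw [Ne, _root_.map_eq_zero]; exact inv_ne_zero ha0
    have hord : ∀ P : Place K F, P.ord (y' : F) = P.ord ((y : F) - algebraMap K F a) := by
      intro P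
      rw [hyF, P.ord_mul hca hnc, ord_algebraMap, zero_add]
    have hnn' : ∀ P, C.r P = Pb → 0 ≤ P.ord (y' : F) := by
      intro P hP
      rw [hord]
      exact C.ord_sub_const_nonneg y Pb hnn a hnc P hP
    have h0 : Pb.ord (C.ρ y') = 0 := by
      rw [hρy, ord_neg, Place.ord_one]
    have := C.toRedCtx.ord_eq_zero_of_over y' hρy0 Pb h0 hnn' Q hQ
    rw [hord] at this
    omega

include hnn hQ in
/-- **the value reduces to the value of the reduction.** -/
theorem ρ_sub_val (haA : C.val Q ⟨(y : F), hyQ⟩ ∈ A) :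
    C.ρ (y - C.toRedCtx.const ⟨C.val Q ⟨(y : F), hyQ⟩, haA⟩) = 0 ∨
      0 < Pb.ord (C.ρ (y - C.toRedCtx.const ⟨C.val Q ⟨(y : F), hyQ⟩, haA⟩)) := by
  classical
  set a := C.val Q ⟨(y : F), hyQ⟩ with ha
  set z : C.O := y - C.toRedCtx.const ⟨a, haA⟩ with hz
  by_cases hρz : C.ρ z = 0
  · exact Or.inl hρz
  right
  have hzF : (z : F) = (y : F) - algebraMap K F a := rfl
  have hz0 : (z : F) ≠ 0 := C.toRedCtx.coe_ne_zero hρz
  have hpos : 0 < Q.ord (z : F) := by
    rcases C.sub_val Q (y : F) hyQ with h | h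
    · exact absurd (hzF.trans h) hz0
    · exact h
  obtain ⟨s, hs, hout, hsum⟩ := C.toRedCtx.fibre_sum z hρz Pb
  have hQs : Q ∈ s := by
    by_contra hQs
    have := hout Q hQ hQs
    omega
  have hnn' : ∀ P ∈ s, 0 ≤ P.ord (z : F) := fun P hP => by
    rw [hzF]
    exact C.ord_sub_const_nonneg y Pb hnn a (hzF ▸ hz0) P (hs P hP)
  have := Finset.single_le_sum hnn' hQs
  rw [← hsum]
  omega

/-- the reduction of a function without poles over `P̄` has no pole at `P̄`. -/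
theorem ord_ρ_nonneg (hρ : C.ρ y ≠ 0) (hnn : ∀ P, C.r P = Pb → 0 ≤ P.ord (y : F)) :
    0 ≤ Pb.ord (C.ρ y) := by
  obtain ⟨s, hs, -, hsum⟩ := C.toRedCtx.fibre_sum y hρ Pb
  rw [← hsum]
  exact Finset.sum_nonneg fun P hP => hnn P (hs P hP)

end Values

section Disc

variable {d : ℕ} (φ : C.O) (Pb : Fin d → Place κ Fb)
variable (hPb : ∀ j, (Pb j).ord (C.ρ φ) = 1)
variable (hnp : ∀ j P, C.r P = Pb j → 0 ≤ P.ord (φ : F))

/-- the point of the `j`-th disc with `φ = t`. -/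
noncomputable def Pt (j : Fin d) (t : A) : Place K F :=
  C.toRedCtx.discPoint φ (Pb j) (hPb j) (hnp j) t

theorem r_Pt (j : Fin d) (t : A) (ht : t ∈ maximalIdeal A) : C.r (C.Pt φ Pb hPb hnp j t) = Pb j :=
  C.toRedCtx.r_discPoint φ (Pb j) (hPb j) (hnp j) t ht

theorem ord_Pt_self (j : Fin d) (t : A) (ht : t ∈ maximalIdeal A) :
    (C.Pt φ Pb hPb hnp j t).ord ((φ : F) - algebraMap K F (t : K)) = 1 :=
  C.toRedCtx.ord_discPoint_self φ (Pb j) (hPb j) (hnp j) t ht

theorem ord_Pt_of_ne (j : Fin d) (t t' : A) (ht : t ∈ maximalIdeal A) (ht' : t' ∈ maximalIdeal A)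
    (hne : t ≠ t') : (C.Pt φ Pb hPb hnp j t).ord ((φ : F) - algebraMap K F (t' : K)) = 0 :=
  C.toRedCtx.ord_discPoint_of_ne φ (Pb j) (hPb j) (hnp j) t t' ht ht' hne

theorem exists_eq_Pt (j : Fin d) (Q : Place K F) (hQ : C.r Q = Pb j) :
    ∃ t : A, t ∈ maximalIdeal A ∧ Q = C.Pt φ Pb hPb hnp j t :=
  C.toRedCtx.exists_eq_discPoint φ (Pb j) (hPb j) (hnp j) Q hQ

open Classical in
theorem ord_Pt_φ (j : Fin d) (t : A) (ht : t ∈ maximalIdeal A) :
    (C.Pt φ Pb hPb hnp j t).ord (φ : F) = if t = 0 then 1 else 0 := by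
  split_ifs with h
  · have := C.ord_Pt_self φ Pb hPb hnp j t ht
    rw [h] at this ⊢
    simpa using this
  · have := C.ord_Pt_of_ne φ Pb hPb hnp j t 0 ht (Ideal.zero_mem _) h
    simpa using this

/-- the disc ring. -/
noncomputable abbrev Rj (j : Fin d) : Subring F := discRing A C.O (C.Pt φ Pb hPb hnp j)

theorem mem_O_of_mem_Rj {j : Fin d} {h : F} (hh : h ∈ C.Rj φ Pb hPb hnp j) : h ∈ C.O :=
  (mem_discRing_iff.1 hh).1

/-- a function of the disc ring has no pole over `Pb j`. -/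
theorem ord_nonneg_of_mem_Rj {j : Fin d} {h : F} (hh : h ∈ C.Rj φ Pb hPb hnp j) (P : Place K F)
    (hP : C.r P = Pb j) : 0 ≤ P.ord h := by
  obtain ⟨t, ht, rfl⟩ := C.exists_eq_Pt φ Pb hPb hnp j P hP
  exact (mem_discRing_iff.1 hh).2 t ht

theorem mem_centre_of_mem_Rj {j : Fin d} {h : F} (hh : h ∈ C.Rj φ Pb hPb hnp j) :
    h ∈ (C.Pt φ Pb hPb hnp j 0).toValuationSubring :=
  mem_of_ord_nonneg _ ((mem_discRing_iff.1 hh).2 0 (Ideal.zero_mem _))

theorem φ_mem_Rj (j : Fin d) : (φ : F) ∈ C.Rj φ Pb hPb hnp j := by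
  rw [mem_discRing_iff]
  refine ⟨φ.2, fun t ht => ?_⟩
  exact hnp j _ (C.r_Pt φ Pb hPb hnp j t ht)

theorem const_mem_Rj (j : Fin d) (a : A) : algebraMap K F (a : K) ∈ C.Rj φ Pb hPb hnp j := by
  rw [mem_discRing_iff]
  refine ⟨C.const_mem a, fun t _ => ?_⟩
  rw [ord_algebraMap]

include hPb in
theorem ρ_φ_ne_zero' (j : Fin d) : C.ρ φ ≠ 0 := C.toRedCtx.ρ_φ_ne_zero φ (Pb j) (hPb j)

/-- the value at the centre of the disc, as a ring hom to `K`. -/
noncomputable def εK (j : Fin d) : C.Rj φ Pb hPb hnp j →+* K :=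
  (C.val (C.Pt φ Pb hPb hnp j 0)).comp
    (Subring.inclusion (fun _ hh => C.mem_centre_of_mem_Rj φ Pb hPb hnp hh :
      C.Rj φ Pb hPb hnp j ≤ (C.Pt φ Pb hPb hnp j 0).toValuationSubring.toSubring))

theorem εK_apply (j : Fin d) (h : C.Rj φ Pb hPb hnp j) :
    C.εK φ Pb hPb hnp j h =
      C.val (C.Pt φ Pb hPb hnp j 0) ⟨(h : F), C.mem_centre_of_mem_Rj φ Pb hPb hnp h.2⟩ := rfl

theorem εK_mem (j : Fin d) (h : C.Rj φ Pb hPb hnp j) : C.εK φ Pb hPb hnp j h ∈ A := by
  rw [εK_apply]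
  exact C.val_mem ⟨(h : F), C.mem_O_of_mem_Rj φ Pb hPb hnp h.2⟩ (Pb j)
    (fun P hP => C.ord_nonneg_of_mem_Rj φ Pb hPb hnp h.2 P hP) _
    (C.r_Pt φ Pb hPb hnp j 0 (Ideal.zero_mem _)) _

/-- the value at the centre of the disc. -/
noncomputable def εA (j : Fin d) : C.Rj φ Pb hPb hnp j →+* A where
  toFun h := ⟨C.εK φ Pb hPb hnp j h, C.εK_mem φ Pb hPb hnp j h⟩
  map_one' := Subtype.ext (map_one _)
  map_mul' a b := Subtype.ext (map_mul _ a b)
  map_zero' := Subtype.ext (map_zero _)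
  map_add' a b := Subtype.ext (map_add _ a b)

/-- the constants. -/
noncomputable def ιA (j : Fin d) : A →+* C.Rj φ Pb hPb hnp j where
  toFun a := ⟨algebraMap K F (a : K), C.const_mem_Rj φ Pb hPb hnp j a⟩
  map_one' := Subtype.ext (by simp)
  map_mul' a b := Subtype.ext (by simp)
  map_zero' := Subtype.ext (by simp)
  map_add' a b := Subtype.ext (by simp)

/-- the parameter, in the disc ring. -/
noncomputable def φR (j : Fin d) : C.Rj φ Pb hPb hnp j := ⟨(φ : F), C.φ_mem_Rj φ Pb hPb hnp j⟩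

/-- the expansion data of the `j`-th disc. -/
noncomputable def expData (j : Fin d) : ExpData (C.Rj φ Pb hPb hnp j) A where
  φ := C.φR φ Pb hPb hnp j
  ε := C.εA φ Pb hPb hnp j
  ι := C.ιA φ Pb hPb hnp j
  ε_ι a := by
    apply Subtype.ext
    show C.εK φ Pb hPb hnp j (C.ιA φ Pb hPb hnp j a) = (a : K)
    rw [εK_apply]
    exact C.val_algebraMap _ _
  ε_φ := by
    apply Subtype.ext
    show C.εK φ Pb hPb hnp j (C.φR φ Pb hPb hnp j) = 0
    rw [εK_apply]
    apply C.val_eq_zero_of_ord_pos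
    have := C.ord_Pt_self φ Pb hPb hnp j 0 (Ideal.zero_mem _)
    simp only [ZeroMemClass.coe_zero, map_zero, sub_zero] at this
    show 0 < (C.Pt φ Pb hPb hnp j 0).ord (φ : F)
    rw [this]; exact zero_lt_one
  ker h hh := by
    have h1 : C.εK φ Pb hPb hnp j h = 0 := congrArg Subtype.val hh
    rw [εK_apply] at h1
    have h2 := C.val_eq_zero _ _ h1
    have hφu : IsOUnit C.O (φ : F) := C.isOUnit_of_ρ_ne_zero φ (C.ρ_φ_ne_zero' φ Pb hPb ⟨0, by
      rcases Nat.eq_zero_or_pos d with h0 | h0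
      · subst h0; exact j.elim0
      · exact h0⟩)
    have hmem : (h : F) / (φ : F) ∈ C.Rj φ Pb hPb hnp j := by
      rw [mem_discRing_iff]
      refine ⟨?_, fun t ht => ?_⟩
      · rw [div_eq_mul_inv]
        exact C.O.mul_mem (C.mem_O_of_mem_Rj φ Pb hPb hnp h.2) hφu.inv_mem
      · by_cases hh0 : (h : F) = 0
        · rw [hh0, zero_div, Place.ord_zero]
        · rw [ord_div _ hh0 hφu.ne_zero, C.ord_Pt_φ φ Pb hPb hnp j t ht]
          have hnn := (mem_discRing_iff.1 h.2).2 t ht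
          split_ifs with ht0
          · subst ht0
            rcases h2 with h2 | h2
            · exact absurd h2 hh0
            · have : 0 < (C.Pt φ Pb hPb hnp j 0).ord (h : F) := h2
              omega
          · omega
    refine ⟨⟨(h : F) / (φ : F), hmem⟩, ?_⟩
    apply Subtype.ext
    show (h : F) = (φ : F) * ((h : F) / (φ : F))
    rw [mul_div_cancel₀ _ hφu.ne_zero]
  reg a b hab := by
    have hφ0 : C.φR φ Pb hPb hnp j ≠ 0 := by
      intro h0
      have h1 : (φ : F) = 0 := congrArg Subtype.val h0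
      have := C.ord_Pt_self φ Pb hPb hnp j 0 (Ideal.zero_mem _)
      rw [h1] at this
      simp at this
    exact mul_left_cancel₀ hφ0 hab

/-- **the disc model.** -/
noncomputable def discModel (g : ℕ) (hgd : g ≤ d) (hφ : C.ρ φ ≠ 0) : DiscModel A F g d where
  hgd := hgd
  O := C.O
  algebraMap_mem := C.const_mem
  gauss f hf := by
    obtain ⟨c, hc, hmem, hρ⟩ := C.gauss f hf
    exact ⟨c, hc, C.isOUnit_of_ρ_ne_zero ⟨_, hmem⟩ hρ⟩
  φ := (φ : F)
  φ_sub_unit t ht := by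
    have hρ : C.ρ (φ - C.toRedCtx.const t) ≠ 0 := by
      rw [C.toRedCtx.ρ_sub_const φ t ht]
      exact hφ
    exact C.isOUnit_of_ρ_ne_zero (φ - C.toRedCtx.const t) hρ
  P := C.Pt φ Pb hPb hnp
  ord_φ_sub_self := C.ord_Pt_self φ Pb hPb hnp
  ord_φ_sub_of_ne := C.ord_Pt_of_ne φ Pb hPb hnp
  exp j := (C.expData φ Pb hPb hnp j).expand
  exp_φ j h hh := by
    have : h = (C.expData φ Pb hPb hnp j).φ := Subtype.ext hh
    rw [this]
    exact (C.expData φ Pb hPb hnp j).expand_φ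
  exp_const j h a hh := by
    have : h = (C.expData φ Pb hPb hnp j).ι a := Subtype.ext hh
    rw [this]
    exact (C.expData φ Pb hPb hnp j).expand_ι a

variable (g : ℕ) (hgd : g ≤ d) (hφ : C.ρ φ ≠ 0)

@[simp] theorem discModel_O : (C.discModel φ Pb hPb hnp g hgd hφ).O = C.O := rfl

@[simp] theorem discModel_φ : (C.discModel φ Pb hPb hnp g hgd hφ).φ = (φ : F) := rfl

@[simp] theorem discModel_P : (C.discModel φ Pb hPb hnp g hgd hφ).P = C.Pt φ Pb hPb hnp := rfl

/-- the centre condition (helper5's (h1)). -/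
theorem r_discModel_P (j : Fin d) (t : A) (ht : t ∈ maximalIdeal A) :
    C.r ((C.discModel φ Pb hPb hnp g hgd hφ).P j t) = Pb j :=
  C.r_Pt φ Pb hPb hnp j t ht

/-- exhaustion (helper5's (h2)). -/
theorem exists_eq_discModel_P (j : Fin d) (Q : Place K F) (hQ : C.r Q = Pb j) :
    ∃ t : A, t ∈ maximalIdeal A ∧ Q = (C.discModel φ Pb hPb hnp g hgd hφ).P j t :=
  C.exists_eq_Pt φ Pb hPb hnp j Q hQ

/-- **reduction of the expansion**: if the first `k` coefficients of `exp j y` lie in `𝔪_A`, then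
`ρ y = 0` or `ρ y` vanishes to order at least `k` at `Pb j`. -/
theorem le_ord_ρ_of_coeff_mem (j : Fin d) (y : F)
    (hy : y ∈ discRing A (C.discModel φ Pb hPb hnp g hgd hφ).O
      ((C.discModel φ Pb hPb hnp g hgd hφ).P j)) (k : ℕ)
    (hk : ∀ n < k, PowerSeries.coeff n ((C.discModel φ Pb hPb hnp g hgd hφ).exp j ⟨y, hy⟩) ∈
      maximalIdeal A) :
    C.ρ ⟨y, C.mem_O_of_mem_Rj φ Pb hPb hnp hy⟩ = 0 ∨
      (k : ℤ) ≤ (Pb j).ord (C.ρ ⟨y, C.mem_O_of_mem_Rj φ Pb hPb hnp hy⟩) := by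
  by_cases hρ : C.ρ ⟨y, C.mem_O_of_mem_Rj φ Pb hPb hnp hy⟩ = 0
  · exact Or.inl hρ
  right
  set E := C.expData φ Pb hPb hnp j with hE
  -- the reduction on the disc ring
  let θ : C.Rj φ Pb hPb hnp j →+* Fb :=
    C.ρ.comp (Subring.inclusion (fun _ hh => C.mem_O_of_mem_Rj φ Pb hPb hnp hh :
      C.Rj φ Pb hPb hnp j ≤ C.O))
  have hθ : ∀ h : C.Rj φ Pb hPb hnp j,
      θ h = C.ρ ⟨(h : F), C.mem_O_of_mem_Rj φ Pb hPb hnp h.2⟩ := fun h => rfl
  have hc : ∀ n < k, θ (E.ι (PowerSeries.coeff n (E.expand ⟨y, hy⟩))) = 0 := by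
    intro n hn
    rw [hθ]
    exact C.ρ_const_max _ (hk n hn)
  have h1 := E.map_eq_pow_mul_of_coeff θ k ⟨y, hy⟩ hc
  rw [hθ, hθ, hθ] at h1
  set q : C.Rj φ Pb hPb hnp j := E.quo^[k] ⟨y, hy⟩ with hq
  have hφR : C.ρ ⟨((E.φ : C.Rj φ Pb hPb hnp j) : F), C.mem_O_of_mem_Rj φ Pb hPb hnp (E.φ).2⟩ =
      C.ρ φ := rfl
  rw [hφR] at h1
  change C.ρ ⟨y, _⟩ = _ at h1
  have hρq : C.ρ ⟨(q : F), C.mem_O_of_mem_Rj φ Pb hPb hnp q.2⟩ ≠ 0 := by
    intro h0
    apply hρ
    rw [h1, h0, mul_zero]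
  have hnn : 0 ≤ (Pb j).ord (C.ρ ⟨(q : F), C.mem_O_of_mem_Rj φ Pb hPb hnp q.2⟩) :=
    C.ord_ρ_nonneg ⟨(q : F), _⟩ (Pb j) hρq
      (fun P hP => C.ord_nonneg_of_mem_Rj φ Pb hPb hnp q.2 P hP)
  rw [h1, (Pb j).ord_mul (pow_ne_zero _ hφ) hρq, ord_pow, hPb j]
  omega

end Disc

end RedCtxV

end Fermat.Agent.FF.DiscOfRedA
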