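/-
Programme FF (S19), chapter G6d (helper1): **Riemann's theorem on the special fibre with the
generic genus, and non-special divisors of distinct points**, as pure function-field lemmas.

Setting: a function field `F / K` satisfying `LSpace.LHyp` (this will be the special fibre
`F̄ / κ`), an integer `g` (the genus of the GENERIC fibre) with
* `(R')`  `hR : ∀ D, deg D + 1 - g ≤ l(D)`   (semicontinuity + Riemann–Roch on the generic fibre),
* `(G)`   one divisor `D₀` with `l(D₀) = deg D₀ + 1 - g`   (two-chart lifting, chapter G6c).
Write `δ(D) = l(D) - (deg D + 1 - g) ≥ 0`.  Then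
* `delta_eq_zero_of_degree_ge` : `δ(D) = 0` as soon as `deg D ≥ deg D₀ + g`;
* `exists_nonspecial_subset` : if `S` is a finite set of places with `δ(∑_{P ∈ S} P) = 0`, there is
  `T ⊆ S` with `#T = g` and `l(∑_{P ∈ T} P) = 1` (a non-special divisor of `g` distinct points);
* `exists_nonspecial_of_infinite` : the same inside any infinite set of places;
* `span_eq_top_of_delta_eq_zero` : for `δ(D) = 0`, every linearly independent family of
  `deg D + 1 - g` elements of `L(D)` spans it (all sections lift).
-/
import Mathlib
import Fermat.Agent.RR.LSpace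
import Fermat.Agent.RR.Riemann

set_option autoImplicit false
set_option linter.unusedSectionVars false

namespace Fermat.Agent.FF.SpecRR1

open AlgebraicCurve Fermat.Agent.RR.LSpace Fermat.Agent.RR.Riemann

open scoped Classical

variable {K F : Type*} [Field K] [Field F] [Algebra K F]

/-- the dimension of `L(D)` as an integer. -/
noncomputable def ell (D : Divisor K F) : ℤ := (Module.finrank K (riemannRochSpace D) : ℤ)

/-- the defect `δ(D) = l(D) - (deg D + 1 - g)`. -/
noncomputable def delta (g : ℤ) (D : Divisor K F) : ℤ := ell D - (Divisor.degree D + 1 - g)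

section Delta

variable (HL : LHyp K F) (g : ℤ)

include HL

theorem delta_anti {D D' : Divisor K F} (h : D ≤ D') : delta g D' ≤ delta g D := by
  have := finrank_L_sub_le HL h
  unfold delta ell
  omega

theorem ell_add_divOf (D : Divisor K F) {f : F} (hf : f ≠ 0) :
    ell (D + divOf HL hf) = ell D := by
  unfold ell
  rw [LinearEquiv.finrank_eq (mulEquiv HL D hf)]

theorem delta_add_divOf (D : Divisor K F) {f : F} (hf : f ≠ 0) :
    delta g (D + divOf HL hf) = delta g D := by
  unfold delta
  rw [ell_add_divOf HL D hf, map_add, degree_divOf, add_zero]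

variable (hR : ∀ D : Divisor K F, Divisor.degree D + 1 - g ≤ ell D)

include hR

theorem delta_nonneg (D : Divisor K F) : 0 ≤ delta g D := by
  have := hR D
  unfold delta
  omega

/-- **`δ(D) = 0` in large degree.** -/
theorem delta_eq_zero_of_degree_ge {D₀ : Divisor K F} (h0 : delta g D₀ = 0) (D : Divisor K F)
    (hD : Divisor.degree D₀ + g ≤ Divisor.degree D) : delta g D = 0 := by
  -- `L(D - D₀) ≠ 0`
  have h1 := hR (D - D₀)
  rw [map_sub] at h1
  have hpos : 0 < Module.finrank K (riemannRochSpace (D - D₀)) := by
    have : (0 : ℤ) < ell (D - D₀) := by omega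
    unfold ell at this
    exact_mod_cast this
  have : FiniteDimensional K (riemannRochSpace (D - D₀)) := finiteDimensional_L HL _
  have hnt : Nontrivial (riemannRochSpace (D - D₀)) := Module.finrank_pos_iff.mp hpos
  obtain ⟨⟨f, hfL⟩, hf0⟩ := exists_ne (0 : riemannRochSpace (D - D₀))
  have hf : f ≠ 0 := fun h => hf0 (Subtype.ext h)
  have hge : D₀ ≤ D + divOf HL hf := by
    rw [Finsupp.le_def]
    intro v
    have := (mem_L_iff hf).mp hfL v
    rw [Finsupp.sub_apply] at this
    rw [Finsupp.add_apply, divOf_apply]
    omega
  have h2 := delta_anti HL g hge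
  rw [delta_add_divOf HL g D hf, h0] at h2
  have h3 := delta_nonneg HL g hR D
  omega

/-- Riemann's theorem in large degree with the constant `g`. -/
theorem ell_eq_of_degree_ge {D₀ : Divisor K F} (h0 : delta g D₀ = 0) (D : Divisor K F)
    (hD : Divisor.degree D₀ + g ≤ Divisor.degree D) : ell D = Divisor.degree D + 1 - g := by
  have := delta_eq_zero_of_degree_ge HL g hR h0 D hD
  unfold delta at this
  omega

end Delta

/-! ### Sums of distinct points -/

section SumPoints

/-- the reduced divisor `∑_{P ∈ S} P`. -/
noncomputable def pts (S : Finset (Place K F)) : Divisor K F := ∑ P ∈ S, Finsupp.single P 1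

theorem pts_apply (S : Finset (Place K F)) (v : Place K F) :
    pts S v = if v ∈ S then 1 else 0 := by
  unfold pts
  rw [Finsupp.finsetSum_apply]
  by_cases hv : v ∈ S
  · rw [if_pos hv, Finset.sum_eq_single v]
    · exact Finsupp.single_eq_same
    · intro w _ hw
      exact Finsupp.single_eq_of_ne (Ne.symm hw)
    · intro h; exact absurd hv h
  · rw [if_neg hv]
    refine Finset.sum_eq_zero fun w hw => ?_
    have : v ≠ w := fun h => hv (h ▸ hw)
    exact Finsupp.single_eq_of_ne this

theorem pts_insert {S : Finset (Place K F)} {P : Place K F} (hP : P ∉ S) :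
    pts (insert P S) = pts S + Finsupp.single P 1 := by
  classical
  unfold pts
  rw [Finset.sum_insert hP, add_comm]

theorem pts_empty : pts (∅ : Finset (Place K F)) = 0 := by
  unfold pts
  simp

theorem pts_mono {S T : Finset (Place K F)} (h : S ⊆ T) : pts S ≤ pts T := by
  classical
  rw [Finsupp.le_def]
  intro v
  rw [pts_apply, pts_apply]
  by_cases hv : v ∈ S
  · rw [if_pos hv, if_pos (h hv)]
  · rw [if_neg hv]
    split_ifs <;> omega

theorem degree_pts (HL : LHyp K F) (S : Finset (Place K F)) :
    Divisor.degree (pts S) = S.card := by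
  classical
  induction S using Finset.induction_on with
  | empty => rw [pts_empty, map_zero]; simp
  | insert P S hP ih =>
    rw [pts_insert hP, map_add, ih, degree_single HL, Finset.card_insert_of_notMem hP]
    push_cast
    ring

end SumPoints

/-! ### Non-special divisors of distinct points -/

section NonSpecial

variable (HL : LHyp K F)

include HL

theorem ell_zero : ell (0 : Divisor K F) = 1 := by
  unfold ell
  rw [finrank_L_zero HL]
  rfl

theorem ell_mono {D D' : Divisor K F} (h : D ≤ D') : ell D ≤ ell D' := by
  unfold ell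
  have := finiteDimensional_L HL D'
  exact_mod_cast Submodule.finrank_mono (L_mono h)

theorem ell_add_single_le (D : Divisor K F) (v : Place K F) :
    ell (D + Finsupp.single v 1) ≤ ell D + 1 := by
  unfold ell
  have := finiteDimensional_L HL D
  obtain ⟨-, h⟩ := finrank_L_add_single_le HL D v
  exact_mod_cast h

/-- a function in `L(E + P)` but not in `L(E)` (with `P ∉ supp E ∪ U`, `E ≥ 0` reduced outside)
is not in `L(E + ∑_{Q ∈ U} Q)`. -/
theorem not_mem_L_add_pts {T U : Finset (Place K F)} {P : Place K F} (hPT : P ∉ T) (hPU : P ∉ U)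
    {f : F} (hf1 : f ∈ riemannRochSpace (pts T + Finsupp.single P 1))
    (hf2 : f ∉ riemannRochSpace (pts T)) : f ∉ riemannRochSpace (pts T + pts U) := by
  classical
  have hf0 : f ≠ 0 := by
    rintro rfl
    exact hf2 (Submodule.zero_mem _)
  rw [mem_L_iff hf0] at hf1 hf2 ⊢
  push Not at hf2
  obtain ⟨v, hv⟩ := hf2
  have h1 := hf1 v
  rw [Finsupp.add_apply] at h1
  have hvP : v = P := by
    by_contra hne
    rw [Finsupp.single_eq_of_ne hne] at h1
    omega
  subst hvP
  intro hall
  have h2 := hall v
  rw [Finsupp.add_apply, pts_apply, pts_apply, if_neg hPT, if_neg hPU] at h2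
  rw [pts_apply, if_neg hPT] at hv
  omega

/-- if no point of `S \ T` can be added to `pts T` without increasing `l`, then
`l(pts T + pts U) ≥ l(pts T) + #U` for every `U ⊆ S \ T`. -/
theorem ell_add_pts_ge {T : Finset (Place K F)} (S : Finset (Place K F))
    (hall : ∀ P ∈ S, P ∉ T → ell (pts T + Finsupp.single P 1) ≠ ell (pts T))
    (U : Finset (Place K F)) (hUS : U ⊆ S) (hUT : Disjoint U T) :
    ell (pts T) + U.card ≤ ell (pts T + pts U) := by
  classical
  induction U using Finset.induction_on with
  | empty => rw [pts_empty, add_zero]; simp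
  | insert P U hP ih =>
    have hUS' : U ⊆ S := fun x hx => hUS (Finset.mem_insert_of_mem hx)
    have hUT' : Disjoint U T := Finset.disjoint_of_subset_left (Finset.subset_insert P U) hUT
    have hPS : P ∈ S := hUS (Finset.mem_insert_self P U)
    have hPT : P ∉ T := Finset.disjoint_left.mp hUT (Finset.mem_insert_self P U)
    have ih' := ih hUS' hUT'
    -- a function with a pole at `P`
    have hne := hall P hPS hPT
    have hlt : riemannRochSpace (pts T) < riemannRochSpace (pts T + Finsupp.single P 1) := by
      refine lt_of_le_of_ne (L_mono (le_add_single _ _)) fun heq => hne ?_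
      unfold ell
      rw [heq]
    obtain ⟨f, hf1, hf2⟩ := SetLike.exists_of_lt hlt
    have hf3 := not_mem_L_add_pts HL hPT hP hf1 hf2
    -- `f ∈ L(pts T + pts (insert P U))`
    have hle1 : pts T + Finsupp.single P 1 ≤ pts T + pts (insert P U) := by
      rw [pts_insert hP]
      have : (0 : Divisor K F) ≤ pts U := by
        rw [← pts_empty]; exact pts_mono (Finset.empty_subset U)
      calc pts T + Finsupp.single P 1 = pts T + (0 + Finsupp.single P 1) := by rw [zero_add]
        _ ≤ pts T + (pts U + Finsupp.single P 1) := by gcongr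
    have hf4 : f ∈ riemannRochSpace (pts T + pts (insert P U)) := L_mono hle1 hf1
    have hle2 : pts T + pts U ≤ pts T + pts (insert P U) := by
      rw [pts_insert hP, ← add_assoc]
      exact le_add_single _ _
    have hlt2 : riemannRochSpace (pts T + pts U) < riemannRochSpace (pts T + pts (insert P U)) :=
      lt_of_le_of_ne (L_mono hle2) fun heq => hf3 (heq ▸ hf4)
    have := finiteDimensional_L HL (pts T + pts (insert P U))
    have hrk := Submodule.finrank_lt_finrank_of_lt hlt2
    rw [Finset.card_insert_of_notMem hP]
    unfold ell at ih' ⊢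
    push_cast
    omega

variable (g : ℕ)

/-- **a non-special divisor of `g` distinct points inside a reduced divisor with `δ = 0`.** -/
theorem exists_nonspecial_subset (S : Finset (Place K F)) (hS : delta (g : ℤ) (pts S) = 0) :
    ∃ T ⊆ S, T.card = g ∧ ell (pts T) = 1 := by
  classical
  -- greedy: for every `k ≤ g` there is `T ⊆ S` of cardinality `k` with `l(pts T) = 1`
  have key : ∀ k : ℕ, k ≤ g → ∃ T ⊆ S, T.card = k ∧ ell (pts T) = 1 := by
    intro k
    induction k with
    | zero =>
      intro _
      exact ⟨∅, Finset.empty_subset S, rfl, by rw [pts_empty]; exact ell_zero HL⟩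
    | succ k ih =>
      intro hk
      obtain ⟨T, hTS, hTk, hT1⟩ := ih (by omega)
      by_contra hcon
      push Not at hcon
      -- no point can be added
      have hall : ∀ P ∈ S, P ∉ T → ell (pts T + Finsupp.single P 1) ≠ ell (pts T) := by
        intro P hPS hPT heq
        refine hcon (insert P T) (Finset.insert_subset hPS hTS) ?_ ?_
        · rw [Finset.card_insert_of_notMem hPT, hTk]
        · rw [pts_insert hPT, heq, hT1]
      have h1 := ell_add_pts_ge HL S hall (S \ T) Finset.sdiff_subset Finset.sdiff_disjoint
      have hsum : pts T + pts (S \ T) = pts S := by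
        ext v
        rw [Finsupp.add_apply, pts_apply, pts_apply, pts_apply]
        by_cases hvT : v ∈ T
        · have hvS : v ∈ S := hTS hvT
          simp [hvT, hvS]
        · by_cases hvS : v ∈ S
          · simp [hvT, hvS]
          · simp [hvT, hvS]
      rw [hsum, hT1, Finset.card_sdiff_of_subset hTS, hTk] at h1
      unfold delta at hS
      rw [degree_pts HL] at hS
      have hkS : k ≤ S.card := by rw [← hTk]; exact Finset.card_le_card hTS
      push_cast [hkS] at h1
      omega
  exact key g le_rfl

variable (hR : ∀ D : Divisor K F, Divisor.degree D + 1 - (g : ℤ) ≤ ell D)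

include hR

/-- **a non-special divisor of `g` distinct points inside any infinite set of places.** -/
theorem exists_nonspecial_of_infinite {D₀ : Divisor K F} (h0 : delta (g : ℤ) D₀ = 0)
    (X : Set (Place K F)) (hX : X.Infinite) :
    ∃ T : Finset (Place K F), (↑T ⊆ X) ∧ T.card = g ∧ ell (pts T) = 1 := by
  obtain ⟨S, hSX, hScard⟩ := hX.exists_subset_card_eq ((Divisor.degree D₀ + g).toNat)
  have hdeg : Divisor.degree D₀ + g ≤ Divisor.degree (pts S) := by
    rw [degree_pts HL, hScard]
    exact Int.self_le_toNat _
  have hS0 := delta_eq_zero_of_degree_ge HL (g : ℤ) hR h0 (pts S) hdeg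
  obtain ⟨T, hTS, hT⟩ := exists_nonspecial_subset HL g S hS0
  exact ⟨T, fun x hx => hSX (hTS hx), hT⟩

end NonSpecial

/-! ### All sections lift -/

section Lift

/-- for `δ(D) = 0`, a linearly independent family of `deg D + 1 - g` elements of `L(D)` spans
`L(D)`. -/
theorem span_eq_of_delta_eq_zero (HL : LHyp K F) (g : ℤ) {D : Divisor K F}
    (h0 : delta g D = 0) {n : ℕ} (b : Fin n → F) (hb : ∀ i, b i ∈ riemannRochSpace D)
    (hli : LinearIndependent K b) (hn : (n : ℤ) = Divisor.degree D + 1 - g) :
    Submodule.span K (Set.range b) = riemannRochSpace D := by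
  have := finiteDimensional_L HL D
  have hle : Submodule.span K (Set.range b) ≤ riemannRochSpace D :=
    Submodule.span_le.2 (by rintro _ ⟨i, rfl⟩; exact hb i)
  refine Submodule.eq_of_le_of_finrank_eq hle ?_
  rw [finrank_span_eq_card hli, Fintype.card_fin]
  unfold delta ell at h0
  have : (n : ℤ) = (Module.finrank K (riemannRochSpace D) : ℤ) := by omega
  exact_mod_cast this

end Lift

end Fermat.Agent.FF.SpecRR1
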