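/-
Programme FF (S19), interface file for the CORE ALGEBRA chapter A3 and its users G3 / G5 / A5
(helper8).  Definitions only.

`CoreData W V g d`: a free `W`-module `V` (the integral Riemann–Roch lattice
`L(g (φ)_∞ + g (φ)_0) ∩ 𝒪`), expansions `ε j : V → W⟦T⟧` (`= T ^ g ·` expansion of `u` at the `j`-th
zero of `φ` in the parameter `T = φ`), the distinguished vector `u₀ = φ ^ g`, and the closed-fibre
hypothesis (non-speciality of `Ē`).

For a `W`-algebra `B` and `x x' : Fin g → B` (NILPOTENT elements; `B` arbitrary):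
* `qPoly x x' = ∏ i, (T - x i) (T - x' i)`;
* `qjPoly x x' j = T * ∏ i ≠ j, (T - x i) (T - x' i)` (so `qjPoly * (T - x j) (T - x' j) = T * qPoly`);
* `epsB D B j : B ⊗[W] V →ₗ[B] B⟦T⟧` the base change of `ε j`;
* `KerCond D x x' u`: `qPoly ∣ epsB j u` for `g ≤ j` and `qjPoly j ∣ epsB j u` for `j < g`.
-/
import Mathlib

set_option autoImplicit false

open scoped TensorProduct
open PowerSeries

namespace Fermat.Agent.FF.CoreIface8

universe u v w

/-- the data of the core algebra. -/
structure CoreData (W : Type u) (V : Type v) [CommRing W] [AddCommGroup V] [Module W V]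
    (g d : ℕ) where
  /-- `T ^ g ·` (expansion at the `j`-th zero of `φ`). -/
  ε : Fin d → V →ₗ[W] PowerSeries W
  hgd : g ≤ d
  free : Module.Free W V
  finite : Module.Finite W V
  /-- `rank V = 2 g d - g + 1`. -/
  rank_add : Module.finrank W V + g = 2 * g * d + 1
  /-- `u₀ = φ ^ g`. -/
  u₀ : V
  hu₀ : ∀ j, ∃ c : (PowerSeries W)ˣ, ε j u₀ = (X : PowerSeries W) ^ (2 * g) * c

variable {W : Type u} {V : Type v} [CommRing W] [AddCommGroup V] [Module W V] {g d : ℕ}

/-- base change of the expansions to a `W`-algebra `B`. -/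
noncomputable def epsB (D : CoreData W V g d) (B : Type w) [CommRing B] [Algebra W B] (j : Fin d) :
    B ⊗[W] V →ₗ[B] PowerSeries B :=
  TensorProduct.AlgebraTensorModule.lift
    (LinearMap.toSpanSingleton B (V →ₗ[W] PowerSeries B)
      ((PowerSeries.mapAlgHom (Algebra.ofId W B)).toLinearMap ∘ₗ D.ε j))

theorem epsB_tmul (D : CoreData W V g d) (B : Type w) [CommRing B] [Algebra W B] (j : Fin d)
    (b : B) (v : V) :
    epsB D B j (b ⊗ₜ[W] v) = b • PowerSeries.map (algebraMap W B) (D.ε j v) := by
  simp [epsB, LinearMap.toSpanSingleton_apply]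
  rfl

section Poly

variable {B : Type w} [CommRing B]

/-- `∏ i, (T - x i) (T - x' i)`, as a power series. -/
noncomputable def qPoly (x x' : Fin g → B) : PowerSeries B :=
  ∏ i, ((X : PowerSeries B) - C (x i)) * ((X : PowerSeries B) - C (x' i))

/-- `T * ∏ i ≠ j, (T - x i) (T - x' i)`, as a power series. -/
noncomputable def qjPoly (x x' : Fin g → B) (j : Fin g) : PowerSeries B :=
  (X : PowerSeries B) *
    ∏ i ∈ Finset.univ.erase j, ((X : PowerSeries B) - C (x i)) * ((X : PowerSeries B) - C (x' i))

end Poly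

/-- the divisibility conditions cutting out the rank-one kernel. -/
def KerCond (D : CoreData W V g d) {B : Type w} [CommRing B] [Algebra W B]
    (x x' : Fin g → B) (u : B ⊗[W] V) : Prop :=
  (∀ j : Fin d, g ≤ j.val → qPoly x x' ∣ epsB D B j u) ∧
    ∀ j : Fin g, qjPoly x x' j ∣ epsB D B (Fin.castLE D.hgd j) u

/-- the closed-fibre hypothesis over a field `κ` which is a `W`-algebra (the residue field):
the solutions of the conditions at `x = x' = 0` are the multiples of `u₀`. -/
def ClosedFibre (D : CoreData W V g d) (κ : Type w) [Field κ] [Algebra W κ] : Prop :=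
  ∀ u : κ ⊗[W] V, KerCond D (B := κ) (fun _ => 0) (fun _ => 0) u →
    ∃ c : κ, u = c • ((1 : κ) ⊗ₜ[W] D.u₀)

/-- the ideal generated by the coordinates of the two points. -/
def coordIdeal {B : Type w} [CommRing B] (x x' : Fin g → B) : Ideal B :=
  Ideal.span (Set.range x ∪ Set.range x')

/-- the output shape of chapter A3 for a `W`-algebra `B` and NILPOTENT `x x'` (no completeness or
locality of `B` is needed: the ideal `coordIdeal x x'` is finitely generated by nilpotents, hence
nilpotent, and Weierstrass division works at a nilpotent ideal): a generator `u` of the solution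
module, congruent to `u₀`, and the coordinates `F` of the sum. -/
structure CoreOutput (D : CoreData W V g d) (B : Type w) [CommRing B] [Algebra W B]
    (x x' : Fin g → B) where
  u : B ⊗[W] V
  F : Fin g → B
  hF : ∀ j, F j ∈ coordIdeal x x'
  hu : KerCond D x x' u
  /-- `u ≡ u₀` modulo the coordinate ideal. -/
  hu₀ : u - (1 : B) ⊗ₜ[W] D.u₀ ∈ (coordIdeal x x') • (⊤ : Submodule B (B ⊗[W] V))
  /-- every solution is a multiple of `u`. -/
  span : ∀ u' : B ⊗[W] V, KerCond D x x' u' → ∃ c : B, u' = c • u
  /-- shape of the expansions on the first `g` discs. -/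
  low : ∀ j : Fin g, ∃ c : (PowerSeries B)ˣ,
    epsB D B (Fin.castLE D.hgd j) u = qjPoly x x' j * ((X : PowerSeries B) - C (F j)) * c
  /-- shape of the expansions on the other discs. -/
  high : ∀ j : Fin d, g ≤ j.val → ∃ c : (PowerSeries B)ˣ, epsB D B j u = qPoly x x' * c

end Fermat.Agent.FF.CoreIface8
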