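/-
Programme FF (S19), chapter A3/G5 glue (helper8): consequences of the SHAPE of a `CoreOutput`
which need neither the existence theorem nor any hypothesis on the base ring.

* `eq_of_X_sub_C_eq_mul` : `X - C a = (X - C b) * w` with `b` nilpotent forces `a = b`
  (no hypothesis on `w`).
* `CoreOutput.F_eq_of_low` : MEANING CRITERION.  If some solution `u'` of the divisibility
  conditions has the shape `eps_j u' = q_j * (X - y_j) * unit` for `j < g`, then `O.F = y`.
* `CoreOutput.F_natural` : NATURALITY.  For a `W`-algebra hom `f : B → B'` and outputs `O` over `B`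
  for `(x, x')`, `O'` over `B'` for `(f ∘ x, f ∘ x')` one has `O'.F j = f (O.F j)`.
* `CoreOutput.F_eq_of_base` : the form used by the geometric chapter G5: a vector `u₀' : V` over the
  base ring `W` itself with the right shapes computes `F` over every `W`-algebra `B` in which the
  coordinates become nilpotent.
-/
import Mathlib
import Fermat.Agent.FF.CoreIface8

set_option autoImplicit false

open scoped TensorProduct
open PowerSeries

namespace Fermat.Agent.FF.CoreNat8

open Fermat.Agent.FF.CoreIface8

universe u v w w'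

section PowerSeriesLemmas

variable {B : Type w} [CommRing B]

/-- `(X - C b) * f = 0` with `b` nilpotent forces `f = 0`. -/
theorem eq_zero_of_X_sub_C_mul_eq_zero {b : B} (hb : IsNilpotent b) {f : PowerSeries B}
    (h : ((X : PowerSeries B) - C b) * f = 0) : f = 0 := by
  have hstep : ∀ n, coeff n f = b * coeff (n + 1) f := by
    intro n
    have := congrArg (coeff (n + 1)) h
    rw [sub_mul, map_sub, coeff_succ_X_mul, coeff_C_mul, map_zero] at this
    exact sub_eq_zero.1 this
  have hpow : ∀ k n, coeff n f = b ^ k * coeff (n + k) f := by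
    intro k
    induction k with
    | zero => intro n; simp
    | succ k ih =>
      intro n
      rw [ih n, hstep (n + k), pow_succ, mul_assoc, add_assoc]
  obtain ⟨k, hk⟩ := hb
  ext n
  rw [hpow k n, hk, zero_mul, map_zero]

theorem X_sub_C_mul_cancel {b : B} (hb : IsNilpotent b) {f f' : PowerSeries B}
    (h : ((X : PowerSeries B) - C b) * f = ((X : PowerSeries B) - C b) * f') : f = f' := by
  have : ((X : PowerSeries B) - C b) * (f - f') = 0 := by rw [mul_sub, h, sub_self]
  exact sub_eq_zero.1 (eq_zero_of_X_sub_C_mul_eq_zero hb this)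

/-- `X - C a = (X - C b) * w` with `b` nilpotent forces `a = b`. -/
theorem eq_of_X_sub_C_eq_mul {a b : B} (hb : IsNilpotent b) {w : PowerSeries B}
    (h : (X : PowerSeries B) - C a = ((X : PowerSeries B) - C b) * w) : a = b := by
  have h0 : a = b * coeff 0 w := by
    have := congrArg (coeff 0) h
    rw [sub_mul, map_sub, map_sub, coeff_zero_X, coeff_zero_X_mul, coeff_C_mul, coeff_zero_C,
      zero_sub, zero_sub, neg_inj] at this
    exact this
  have h1 : (1 : B) = coeff 0 w - b * coeff 1 w := by
    have := congrArg (coeff 1) h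
    rw [sub_mul, map_sub, map_sub, coeff_one_X, coeff_succ_X_mul, coeff_C_mul] at this
    rw [coeff_C, if_neg one_ne_zero, sub_zero] at this
    exact this
  have hstep : ∀ n, coeff (n + 1) w = b * coeff (n + 2) w := by
    intro n
    have := congrArg (coeff (n + 2)) h
    rw [sub_mul, map_sub, map_sub, coeff_succ_X_mul, coeff_C_mul] at this
    rw [coeff_X, if_neg (by omega), coeff_C, if_neg (by omega), sub_zero] at this
    exact (sub_eq_zero.1 this.symm)
  have hpow : ∀ k n, coeff (n + 1) w = b ^ k * coeff (n + 1 + k) w := by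
    intro k
    induction k with
    | zero => intro n; simp
    | succ k ih =>
      intro n
      rw [ih n, show n + 1 + k = (n + k) + 1 by ring, hstep (n + k), pow_succ, mul_assoc,
        show n + k + 2 = n + 1 + (k + 1) by ring]
  obtain ⟨k, hk⟩ := hb
  have hw1 : coeff 1 w = 0 := by
    have := hpow k 0
    rw [hk, zero_mul] at this
    simpa using this
  rw [hw1, mul_zero, sub_zero] at h1
  rw [h0, ← h1, mul_one]

theorem X_sub_C_mul_X_sub_C_cancel {b b' : B} (hb : IsNilpotent b) (hb' : IsNilpotent b')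
    {f f' : PowerSeries B}
    (h : (((X : PowerSeries B) - C b) * ((X : PowerSeries B) - C b')) * f =
      (((X : PowerSeries B) - C b) * ((X : PowerSeries B) - C b')) * f') : f = f' := by
  rw [mul_assoc, mul_assoc] at h
  exact X_sub_C_mul_cancel hb' (X_sub_C_mul_cancel hb h)

variable {g : ℕ}

theorem prod_cancel (x x' : Fin g → B) (hx : ∀ i, IsNilpotent (x i))
    (hx' : ∀ i, IsNilpotent (x' i)) (s : Finset (Fin g)) {f f' : PowerSeries B}
    (h : (∏ i ∈ s, ((X : PowerSeries B) - C (x i)) * ((X : PowerSeries B) - C (x' i))) * f =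
      (∏ i ∈ s, ((X : PowerSeries B) - C (x i)) * ((X : PowerSeries B) - C (x' i))) * f') :
    f = f' := by
  classical
  induction s using Finset.induction_on generalizing f f' with
  | empty => simpa using h
  | insert a s ha ih =>
    rw [Finset.prod_insert ha, mul_assoc _ _ f, mul_assoc _ _ f'] at h
    exact ih (X_sub_C_mul_X_sub_C_cancel (hx a) (hx' a) h)

theorem qPoly_mul_cancel (x x' : Fin g → B) (hx : ∀ i, IsNilpotent (x i))
    (hx' : ∀ i, IsNilpotent (x' i)) {f f' : PowerSeries B}
    (h : qPoly x x' * f = qPoly x x' * f') : f = f' :=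
  prod_cancel x x' hx hx' Finset.univ h

theorem qjPoly_mul_cancel (x x' : Fin g → B) (hx : ∀ i, IsNilpotent (x i))
    (hx' : ∀ i, IsNilpotent (x' i)) (j : Fin g) {f f' : PowerSeries B}
    (h : qjPoly x x' j * f = qjPoly x x' j * f') : f = f' := by
  unfold qjPoly at h
  rw [mul_assoc, mul_assoc] at h
  exact prod_cancel x x' hx hx' _ (X_mul_cancel h)

theorem isNilpotent_of_mem_coordIdeal {x x' : Fin g → B} (hx : ∀ i, IsNilpotent (x i))
    (hx' : ∀ i, IsNilpotent (x' i)) {b : B} (hb : b ∈ coordIdeal x x') : IsNilpotent b := by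
  have hle : coordIdeal x x' ≤ nilradical B := by
    unfold coordIdeal
    rw [Ideal.span_le]
    rintro _ (⟨i, rfl⟩ | ⟨i, rfl⟩)
    · exact hx i
    · exact hx' i
  exact hle hb

end PowerSeriesLemmas

section Map

variable {B : Type w} [CommRing B] {B' : Type w'} [CommRing B'] {g : ℕ}

theorem map_qPoly (f : B →+* B') (x x' : Fin g → B) :
    PowerSeries.map f (qPoly x x') = qPoly (f ∘ x) (f ∘ x') := by
  simp [qPoly, map_prod]

theorem map_qjPoly (f : B →+* B') (x x' : Fin g → B) (j : Fin g) :
    PowerSeries.map f (qjPoly x x' j) = qjPoly (f ∘ x) (f ∘ x') j := by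
  simp [qjPoly, map_prod]

end Map

section Core

variable {W : Type u} {V : Type v} [CommRing W] [AddCommGroup V] [Module W V] {g d : ℕ}
variable (D : CoreData W V g d)
variable {B : Type w} [CommRing B] [Algebra W B] {B' : Type w'} [CommRing B'] [Algebra W B']

/-- base change of the expansions along a `W`-algebra hom. -/
theorem epsB_rTensor (f : B →ₐ[W] B') (j : Fin d) (u : B ⊗[W] V) :
    epsB D B' j (LinearMap.rTensor V f.toLinearMap u) =
      PowerSeries.map (f : B →+* B') (epsB D B j u) := by
  induction u using TensorProduct.induction_on with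
  | zero => simp
  | tmul b v =>
    rw [LinearMap.rTensor_tmul, epsB_tmul, epsB_tmul]
    ext n
    simp only [AlgHom.toLinearMap_apply, PowerSeries.coeff_map, RingHom.coe_coe, map_smul,
      smul_eq_mul, map_mul, AlgHom.commutes]
  | add a b ha hb => simp only [map_add, ha, hb]

theorem kerCond_rTensor (f : B →ₐ[W] B') {x x' : Fin g → B} {u : B ⊗[W] V}
    (hu : KerCond D x x' u) :
    KerCond D (f ∘ x) (f ∘ x') (LinearMap.rTensor V f.toLinearMap u) := by
  refine ⟨fun j hj => ?_, fun j => ?_⟩
  · rw [epsB_rTensor]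
    have := map_dvd (PowerSeries.map (f : B →+* B')) (hu.1 j hj)
    rw [map_qPoly] at this
    exact this
  · rw [epsB_rTensor]
    have := map_dvd (PowerSeries.map (f : B →+* B')) (hu.2 j)
    rw [map_qjPoly] at this
    exact this

theorem epsB_smul' (j : Fin d) (c : B) (u : B ⊗[W] V) :
    epsB D B j (c • u) = C c * epsB D B j u := by
  rw [map_smul, PowerSeries.smul_eq_C_mul]

/-- MEANING CRITERION: a solution of the divisibility conditions whose expansions on the first `g`
discs have the shape `q_j * (X - y_j) * unit` computes `F`. -/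
theorem CoreOutput.F_eq_of_low {x x' : Fin g → B} (O : CoreOutput D B x x')
    (hx : ∀ i, IsNilpotent (x i)) (hx' : ∀ i, IsNilpotent (x' i))
    (u' : B ⊗[W] V) (hu' : KerCond D x x' u') (y : Fin g → B)
    (hlow : ∀ j : Fin g, ∃ c : (PowerSeries B)ˣ,
      epsB D B (Fin.castLE D.hgd j) u' = qjPoly x x' j * ((X : PowerSeries B) - C (y j)) * c)
    (j : Fin g) : O.F j = y j := by
  obtain ⟨lam, hlam⟩ := O.span u' hu'
  obtain ⟨c₁, hc₁⟩ := hlow j
  obtain ⟨c₂, hc₂⟩ := O.low j
  rw [hlam, epsB_smul', hc₂] at hc₁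
  have hFnil : IsNilpotent (O.F j) := isNilpotent_of_mem_coordIdeal hx hx' (O.hF j)
  have h1 : qjPoly x x' j * (((X : PowerSeries B) - C (O.F j)) * (C lam * c₂)) =
      qjPoly x x' j * (((X : PowerSeries B) - C (y j)) * c₁) := by
    calc qjPoly x x' j * (((X : PowerSeries B) - C (O.F j)) * (C lam * c₂))
        = C lam * (qjPoly x x' j * ((X : PowerSeries B) - C (O.F j)) * c₂) := by ring
      _ = qjPoly x x' j * ((X : PowerSeries B) - C (y j)) * c₁ := hc₁
      _ = _ := by ring
  have h2 := qjPoly_mul_cancel x x' hx hx' j h1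
  have h3 : (X : PowerSeries B) - C (y j) =
      ((X : PowerSeries B) - C (O.F j)) * (C lam * c₂ * ((c₁⁻¹ : (PowerSeries B)ˣ) : PowerSeries B)) := by
    rw [← mul_assoc, ← mul_assoc, mul_assoc ((X : PowerSeries B) - C (O.F j)), h2, mul_assoc,
      Units.mul_inv, mul_one]
  exact (eq_of_X_sub_C_eq_mul hFnil h3).symm

/-- NATURALITY of the coordinates of the sum. -/
theorem CoreOutput.F_natural (f : B →ₐ[W] B') {x x' : Fin g → B} (O : CoreOutput D B x x')
    (O' : CoreOutput D B' (f ∘ x) (f ∘ x'))
    (hx : ∀ i, IsNilpotent (x i)) (hx' : ∀ i, IsNilpotent (x' i)) (j : Fin g) :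
    O'.F j = f (O.F j) := by
  refine CoreOutput.F_eq_of_low D O' (fun i => (hx i).map f) (fun i => (hx' i).map f)
    (LinearMap.rTensor V f.toLinearMap O.u) (kerCond_rTensor D f O.hu) (fun j => f (O.F j))
    (fun j => ?_) j
  obtain ⟨c, hc⟩ := O.low j
  refine ⟨Units.map (PowerSeries.map (f : B →+* B')).toMonoidHom c, ?_⟩
  rw [epsB_rTensor, hc, map_mul, map_mul, map_qjPoly]
  simp

/-- uniqueness of `F`. -/
theorem CoreOutput.F_unique {x x' : Fin g → B} (O O' : CoreOutput D B x x')
    (hx : ∀ i, IsNilpotent (x i)) (hx' : ∀ i, IsNilpotent (x' i)) (j : Fin g) :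
    O'.F j = O.F j :=
  CoreOutput.F_eq_of_low D O' hx hx' O.u O.hu O.F O.low j

/-- the form used by the geometric chapter: a vector `u₀'` over the base ring with the right shapes
computes `F` over every `W`-algebra `B` in which the coordinates become nilpotent. -/
theorem CoreOutput.F_eq_of_base (x x' y : Fin g → W) (u₀' : V)
    (hhigh : ∀ j : Fin d, g ≤ j.val → qPoly x x' ∣ D.ε j u₀')
    (hlow : ∀ j : Fin g, ∃ c : (PowerSeries W)ˣ,
      D.ε (Fin.castLE D.hgd j) u₀' = qjPoly x x' j * ((X : PowerSeries W) - C (y j)) * c)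
    (hx : ∀ i, IsNilpotent (algebraMap W B (x i)))
    (hx' : ∀ i, IsNilpotent (algebraMap W B (x' i)))
    (O : CoreOutput D B (algebraMap W B ∘ x) (algebraMap W B ∘ x')) (j : Fin g) :
    O.F j = algebraMap W B (y j) := by
  have heps : ∀ j, epsB D B j ((1 : B) ⊗ₜ[W] u₀') = PowerSeries.map (algebraMap W B) (D.ε j u₀') := by
    intro j; rw [epsB_tmul, one_smul]
  refine CoreOutput.F_eq_of_low D O hx hx' ((1 : B) ⊗ₜ[W] u₀') ⟨fun j hj => ?_, fun j => ?_⟩
    (fun j => algebraMap W B (y j)) (fun j => ?_) j
  · rw [heps, ← map_qPoly]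
    exact map_dvd _ (hhigh j hj)
  · obtain ⟨c, hc⟩ := hlow j
    rw [heps, hc, ← map_qjPoly, map_mul, map_mul, mul_assoc]
    exact Dvd.intro _ rfl
  · obtain ⟨c, hc⟩ := hlow j
    refine ⟨Units.map (PowerSeries.map (algebraMap W B)).toMonoidHom c, ?_⟩
    rw [heps, hc, map_mul, map_mul, map_qjPoly]
    simp

end Core

end Fermat.Agent.FF.CoreNat8
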