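/-
Programme FF (S19), interface between the geometric chapters G1/G3 and the MEANING chapter G5
(helper8).  Abstract "disc model" of a curve over a valued field:

* `K` a field with a valuation subring `A` (for us `K = ℚ̄`), `F / K` a function field;
* `O ⊆ F` the Gauss ring (functions with `A`-integral `q`-expansion), with the GAUSS property: every
  nonzero function is a constant times a unit of `O`;
* `φ : F` the parameter, `P j t` (`j < d`, `t ∈ 𝔪_A`) the point of the `j`-th residue disc with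
  `φ = t`; `ord_{P j t} (φ - t') = [t = t']`;
* `discRing A O (P j)` the ring of functions in `O` without poles on the `j`-th disc, and the expansion
  `exp j : discRing → A⟦T⟧`, a ring hom with `exp φ = T` and `exp a = a`.

`LatticeModel M D` links a `CoreData A V g d` to the disc model: `V` is the integral Riemann–Roch
lattice `{u ∈ O : div u ≥ - g (φ)_∞ - g (φ)_0}` and `D.ε j v = exp j (φ ^ g * v)`.

Definitions and elementary API only.
-/
import Mathlib
import Fermat.Prelude.Def_AlgebraicCurve_DivisorClassGroup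
import Fermat.Agent.X0.FFDict
import Fermat.Agent.FF.CoreIface8

set_option autoImplicit false

open AlgebraicCurve PowerSeries IsLocalRing

namespace Fermat.Agent.FF.GeomIface8

open Fermat.Agent.FF.CoreIface8 Fermat.Agent.X0.FF

variable {K : Type*} [Field K] {F : Type*} [Field F] [Algebra K F]

/-- units of a subring of a field. -/
def IsOUnit (O : Subring F) (f : F) : Prop := f ≠ 0 ∧ f ∈ O ∧ f⁻¹ ∈ O

namespace IsOUnit

variable {O : Subring F} {f f' : F}

theorem ne_zero (h : IsOUnit O f) : f ≠ 0 := h.1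

theorem mem (h : IsOUnit O f) : f ∈ O := h.2.1

theorem inv_mem (h : IsOUnit O f) : f⁻¹ ∈ O := h.2.2

theorem one : IsOUnit O (1 : F) := ⟨one_ne_zero, O.one_mem, by rw [inv_one]; exact O.one_mem⟩

theorem mul (h : IsOUnit O f) (h' : IsOUnit O f') : IsOUnit O (f * f') :=
  ⟨mul_ne_zero h.1 h'.1, O.mul_mem h.2.1 h'.2.1, by
    rw [mul_inv]; exact O.mul_mem h.2.2 h'.2.2⟩

theorem inv (h : IsOUnit O f) : IsOUnit O f⁻¹ :=
  ⟨inv_ne_zero h.1, h.2.2, by rw [inv_inv]; exact h.2.1⟩

theorem div (h : IsOUnit O f) (h' : IsOUnit O f') : IsOUnit O (f / f') := by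
  rw [div_eq_mul_inv]; exact h.mul h'.inv

theorem pow (h : IsOUnit O f) (n : ℕ) : IsOUnit O (f ^ n) := by
  induction n with
  | zero => rw [pow_zero]; exact one
  | succ n ih => rw [pow_succ]; exact ih.mul h

theorem prod {ι : Type*} (s : Finset ι) (f : ι → F) (h : ∀ i ∈ s, IsOUnit O (f i)) :
    IsOUnit O (∏ i ∈ s, f i) := by
  classical
  induction s using Finset.induction_on with
  | empty => rw [Finset.prod_empty]; exact one
  | insert a s ha ih =>
    rw [Finset.prod_insert ha]
    exact (h a (Finset.mem_insert_self a s)).mul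
      (ih fun i hi => h i (Finset.mem_insert_of_mem hi))

end IsOUnit

section Ord

variable (v : Place K F)

theorem ord_div {f f' : F} (hf : f ≠ 0) (hf' : f' ≠ 0) : v.ord (f / f') = v.ord f - v.ord f' := by
  rw [div_eq_mul_inv, v.ord_mul hf (inv_ne_zero hf'), v.ord_inv]; ring

theorem ord_finset_prod {ι : Type*} (s : Finset ι) (f : ι → F) (h : ∀ i ∈ s, f i ≠ 0) :
    v.ord (∏ i ∈ s, f i) = ∑ i ∈ s, v.ord (f i) := by
  classical
  induction s using Finset.induction_on with
  | empty => simp
  | insert a s ha ih =>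
    rw [Finset.prod_insert ha, Finset.sum_insert ha,
      v.ord_mul (h a (Finset.mem_insert_self a s))
        (Finset.prod_ne_zero_iff.2 fun i hi => h i (Finset.mem_insert_of_mem hi)),
      ih fun i hi => h i (Finset.mem_insert_of_mem hi)]

end Ord

/-- the ring of functions in `O` without poles on the disc `{P t : t ∈ 𝔪_A}`. -/
def discRing (A : ValuationSubring K) (O : Subring F) (P : A → Place K F) : Subring F :=
  O ⊓ ⨅ t : maximalIdeal A, (P (t : A)).toValuationSubring.toSubring

theorem mem_discRing_iff {A : ValuationSubring K} {O : Subring F} {P : A → Place K F} {h : F} :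
    h ∈ discRing A O P ↔ h ∈ O ∧ ∀ t : A, t ∈ maximalIdeal A → 0 ≤ (P t).ord h := by
  unfold discRing
  rw [Subring.mem_inf, Subring.mem_iInf]
  constructor
  · rintro ⟨h1, h2⟩
    exact ⟨h1, fun t ht => ord_nonneg_of_mem _ (h2 ⟨t, ht⟩)⟩
  · rintro ⟨h1, h2⟩
    exact ⟨h1, fun t => mem_of_ord_nonneg _ (h2 t t.2)⟩

/-- the abstract disc model. -/
structure DiscModel (A : ValuationSubring K) (F : Type*) [Field F] [Algebra K F] (g d : ℕ) where
  hgd : g ≤ d
  /-- the Gauss ring. -/
  O : Subring F
  algebraMap_mem : ∀ a : A, algebraMap K F (a : K) ∈ O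
  /-- every nonzero function is a constant times a unit of the Gauss ring. -/
  gauss : ∀ f : F, f ≠ 0 → ∃ c : K, c ≠ 0 ∧ IsOUnit O (algebraMap K F c * f)
  /-- the parameter. -/
  φ : F
  φ_sub_unit : ∀ t : A, t ∈ maximalIdeal A → IsOUnit O (φ - algebraMap K F (t : K))
  /-- the point of the `j`-th disc with `φ = t` (used for `t ∈ 𝔪_A` only). -/
  P : Fin d → A → Place K F
  ord_φ_sub_self : ∀ (j : Fin d) (t : A), t ∈ maximalIdeal A →
    (P j t).ord (φ - algebraMap K F (t : K)) = 1
  ord_φ_sub_of_ne : ∀ (j : Fin d) (t t' : A), t ∈ maximalIdeal A → t' ∈ maximalIdeal A → t ≠ t' →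
    (P j t).ord (φ - algebraMap K F (t' : K)) = 0
  /-- the expansion on the `j`-th disc in the parameter `φ`. -/
  exp : ∀ j : Fin d, discRing A O (P j) →+* PowerSeries A
  exp_φ : ∀ (j : Fin d) (h : discRing A O (P j)), (h : F) = φ → exp j h = X
  exp_const : ∀ (j : Fin d) (h : discRing A O (P j)) (a : A),
    (h : F) = algebraMap K F (a : K) → exp j h = C a

/-- the link between a `CoreData` over `A` and a disc model. -/
structure LatticeModel {A : ValuationSubring K} {g d : ℕ} (M : DiscModel A F g d)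
    {V : Type*} [AddCommGroup V] [Module A V] (D : CoreData A V g d) where
  /-- the inclusion of the lattice in the function field. -/
  ι : V →+ F
  /-- every function of `O` with poles bounded by `g (φ)_∞ + g (φ)_0` lies in the lattice. -/
  mem_range : ∀ u : F, u ∈ M.O → (∀ Q : Place K F, 0 ≤ Q.ord u + g * |Q.ord M.φ|) → ∃ v, ι v = u
  pow_mul_mem : ∀ (j : Fin d) (v : V), M.φ ^ g * ι v ∈ discRing A M.O (M.P j)
  eps_eq : ∀ (j : Fin d) (v : V), D.ε j v = M.exp j ⟨M.φ ^ g * ι v, pow_mul_mem j v⟩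

namespace DiscModel

variable {A : ValuationSubring K} {g d : ℕ} (M : DiscModel A F g d)

theorem zero_mem_max : (0 : A) ∈ maximalIdeal A := Ideal.zero_mem _

theorem φ_unit : IsOUnit M.O M.φ := by
  have := M.φ_sub_unit 0 zero_mem_max
  simpa using this

theorem φ_sub_ne_zero (t : A) (ht : t ∈ maximalIdeal A) : M.φ - algebraMap K F (t : K) ≠ 0 :=
  (M.φ_sub_unit t ht).ne_zero

theorem φ_ne_zero : M.φ ≠ 0 := M.φ_unit.ne_zero

open Classical in
theorem ord_φ_sub (j : Fin d) (t t' : A) (ht : t ∈ maximalIdeal A) (ht' : t' ∈ maximalIdeal A) :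
    (M.P j t).ord (M.φ - algebraMap K F (t' : K)) = if t = t' then 1 else 0 := by
  split_ifs with h
  · subst h; exact M.ord_φ_sub_self j t ht
  · exact M.ord_φ_sub_of_ne j t t' ht ht' h

open Classical in
theorem ord_φ (j : Fin d) (t : A) (ht : t ∈ maximalIdeal A) :
    (M.P j t).ord M.φ = if t = 0 then 1 else 0 := by
  have := M.ord_φ_sub j t 0 ht zero_mem_max
  simpa using this

theorem φ_sub_mem_discRing (j : Fin d) (t : A) (ht : t ∈ maximalIdeal A) :
    M.φ - algebraMap K F (t : K) ∈ discRing A M.O (M.P j) := by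
  rw [mem_discRing_iff]
  refine ⟨(M.φ_sub_unit t ht).mem, fun s hs => ?_⟩
  rw [M.ord_φ_sub j s t hs ht]
  split_ifs <;> norm_num

theorem φ_mem_discRing (j : Fin d) : M.φ ∈ discRing A M.O (M.P j) := by
  have := M.φ_sub_mem_discRing j 0 zero_mem_max
  simpa using this

theorem const_mem_discRing (j : Fin d) (a : A) :
    algebraMap K F (a : K) ∈ discRing A M.O (M.P j) := by
  rw [mem_discRing_iff]
  refine ⟨M.algebraMap_mem a, fun s _ => ?_⟩
  rw [ord_algebraMap]

theorem exp_φ_sub (j : Fin d) (t : A) (ht : t ∈ maximalIdeal A) :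
    M.exp j ⟨M.φ - algebraMap K F (t : K), M.φ_sub_mem_discRing j t ht⟩ =
      (X : PowerSeries A) - C t := by
  have h1 : (⟨M.φ - algebraMap K F (t : K), M.φ_sub_mem_discRing j t ht⟩ :
      discRing A M.O (M.P j)) =
      ⟨M.φ, M.φ_mem_discRing j⟩ - ⟨algebraMap K F (t : K), M.const_mem_discRing j t⟩ := rfl
  rw [h1, map_sub, M.exp_φ j _ rfl, M.exp_const j _ t rfl]

/-- a unit of `O` without zeros or poles on the `j`-th disc has a unit expansion. -/
theorem isUnit_exp (j : Fin d) (h : F) (hu : IsOUnit M.O h)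
    (hord : ∀ t : A, t ∈ maximalIdeal A → (M.P j t).ord h = 0)
    (hmem : h ∈ discRing A M.O (M.P j)) : IsUnit (M.exp j ⟨h, hmem⟩) := by
  have hinv : h⁻¹ ∈ discRing A M.O (M.P j) := by
    rw [mem_discRing_iff]
    refine ⟨hu.inv_mem, fun t ht => ?_⟩
    rw [Place.ord_inv, hord t ht, neg_zero]
  have h1 : (⟨h, hmem⟩ : discRing A M.O (M.P j)) * ⟨h⁻¹, hinv⟩ = 1 :=
    Subtype.ext (mul_inv_cancel₀ hu.ne_zero)
  have h2 := congrArg (M.exp j) h1
  rw [map_mul, map_one] at h2
  exact IsUnit.of_mul_eq_one _ h2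

theorem mem_discRing_of_unit (j : Fin d) (h : F) (hu : IsOUnit M.O h)
    (hord : ∀ t : A, t ∈ maximalIdeal A → (M.P j t).ord h = 0) :
    h ∈ discRing A M.O (M.P j) := by
  rw [mem_discRing_iff]
  exact ⟨hu.mem, fun t ht => (hord t ht).ge⟩

end DiscModel

end Fermat.Agent.FF.GeomIface8
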