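/-
Programme FF (S19), chapter G5/C glue (helper8): the map `θ` of the abstract disc model and the
MEANING of the core algebra in terms of `θ`.

`θ x = [D(x) - D(0)] ∈ Pic⁰(F)`, `D(x) = ∑_{j<g} P_j(x_j)`.  If `θ y = θ x + θ x'` then the coordinates
`F` of the core algebra over any `A`-algebra in which `x, x'` become nilpotent are the images of `y`
(`meaning_theta`).
-/
import Mathlib
import Fermat.Agent.FF.Meaning8

set_option autoImplicit false

open AlgebraicCurve PowerSeries IsLocalRing

namespace Fermat.Agent.FF.Theta8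

open Fermat.Agent.FF.CoreIface8 Fermat.Agent.FF.GeomIface8 Fermat.Agent.FF.Meaning8

variable {K : Type*} [Field K] {F : Type*} [Field F] [Algebra K F]
variable {A : ValuationSubring K} {g d : ℕ} (M : DiscModel A F g d)
variable (hdeg : ∀ (j : Fin d) (t : A), (M.P j t).deg = 1)

include hdeg in
theorem degree_discDiv (x : Fin g → A) : Divisor.degree (discDiv M x) = g := by
  unfold discDiv
  rw [map_sum]
  simp [Divisor.degree_single, hdeg]

include hdeg in
theorem discDiv_sub_mem_degZero (x : Fin g → A) :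
    discDiv M x - discDiv M (fun _ => (0 : A)) ∈ Divisor.degZero (K := K) (F := F) := by
  rw [Divisor.mem_degZero, map_sub, degree_discDiv M hdeg, degree_discDiv M hdeg, sub_self]

/-- `θ x = [D(x) - D(0)]`. -/
noncomputable def theta (x : Fin g → A) : Pic0 K F :=
  Pic0.mk ⟨discDiv M x - discDiv M (fun _ => (0 : A)), discDiv_sub_mem_degZero M hdeg x⟩

include hdeg in
/-- additivity of `θ` gives the function `f₀`. -/
theorem exists_f0_of_theta_add (x x' y : Fin g → A)
    (h : theta M hdeg y = theta M hdeg x + theta M hdeg x') :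
    ∃ f₀ : F, f₀ ≠ 0 ∧ ∀ Q : Place K F, Q.ord f₀ =
      (discDiv M (fun _ => (0 : A)) + discDiv M y - discDiv M x - discDiv M x') Q := by
  have h1 : theta M hdeg y - (theta M hdeg x + theta M hdeg x') = 0 := sub_eq_zero.2 h
  unfold theta at h1
  rw [← Pic0.mk_add] at h1
  have h2 : Pic0.mk (⟨discDiv M y - discDiv M (fun _ => (0 : A)),
      discDiv_sub_mem_degZero M hdeg y⟩ -
      (⟨discDiv M x - discDiv M (fun _ => (0 : A)), discDiv_sub_mem_degZero M hdeg x⟩ +
        ⟨discDiv M x' - discDiv M (fun _ => (0 : A)), discDiv_sub_mem_degZero M hdeg x'⟩) :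
      Divisor.degZero (K := K) (F := F)) = 0 := h1
  have h3 := (QuotientAddGroup.eq_zero_iff _).1 h2
  rw [AddSubgroup.mem_addSubgroupOf] at h3
  obtain ⟨f₀, hf₀, hdiv⟩ := h3
  refine ⟨f₀, hf₀, fun Q => ?_⟩
  rw [← hdiv Q]
  simp only [AddSubgroupClass.coe_sub, AddSubgroup.coe_add, Finsupp.sub_apply, Finsupp.add_apply]
  ring

variable (hdisj : ∀ (j j' : Fin d) (t t' : A), t ∈ maximalIdeal A → t' ∈ maximalIdeal A →
  M.P j t = M.P j' t' → j = j')
variable {V : Type*} [AddCommGroup V] [Module A V] {D : CoreData A V g d}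

include hdisj in
/-- **MEANING in terms of `θ`.** -/
theorem meaning_theta (L : LatticeModel M D) (x x' y : Fin g → A)
    (hx : ∀ i, x i ∈ maximalIdeal A) (hx' : ∀ i, x' i ∈ maximalIdeal A)
    (hy : ∀ i, y i ∈ maximalIdeal A)
    (h : theta M hdeg y = theta M hdeg x + theta M hdeg x')
    {B : Type*} [CommRing B] [Algebra A B]
    (hxB : ∀ i, IsNilpotent (algebraMap A B (x i)))
    (hx'B : ∀ i, IsNilpotent (algebraMap A B (x' i)))
    (O : CoreOutput D B (algebraMap A B ∘ x) (algebraMap A B ∘ x')) (j : Fin g) :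
    O.F j = algebraMap A B (y j) := by
  obtain ⟨f₀, hf₀, hdiv⟩ := exists_f0_of_theta_add M hdeg x x' y h
  exact meaning hx hx' hy hf₀ L (divShape_of_div M x hdisj x' y f₀ hx hx' hy hdiv) hxB hx'B O j

end Fermat.Agent.FF.Theta8
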