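/-
Programme FF (S19), chapter G4 (helper5): the map `θ` of the abstract disc model is a bijection
from `𝔪_A ^ g` onto the kernel of reduction.

Setting: the abstract disc model `M : DiscModel A F g d` of `GeomIface8`, `θ x = [D(x) - D(0)]`
(`Theta8.theta`), and an abstract place reduction `r : Place K F → Place κ Fb`.
With `Pb j = r (P_j 0)` (`j < g`) and `Ebar = ∑_{j<g} Pb j`:

* `theta_injective` : `θ x = θ x' → x = x'` on `𝔪_A ^ g` (semicontinuity + `lbar(Ebar) = 1`);
* `exists_theta_eq` : a class `[D₀]` whose reduction `r_* D₀` is principal is `θ x` for some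
  `x ∈ 𝔪_A ^ g` (Riemann on `F`, `lbar(Ebar) = 1`, disc exhaustion);
* `smul_theta` : equivariance under semilinear automorphisms preserving the data.
-/
import Mathlib
import Fermat.Prelude.Def_AlgebraicCurve_BaseChangeGalois
import Fermat.Agent.FF.Theta8

set_option autoImplicit false

open AlgebraicCurve PowerSeries IsLocalRing

namespace Fermat.Agent.FF.ThetaKer5

open Fermat.Agent.FF.CoreIface8 Fermat.Agent.FF.GeomIface8 Fermat.Agent.FF.Meaning8
  Fermat.Agent.FF.Theta8 Fermat.Agent.X0.FF

section Combinatorics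

/-- value of `Finsupp.mapDomain` as a sum over the support. -/
theorem mapDomain_apply_eq_sum {α β : Type*} [DecidableEq β] (r : α → β) (D : α →₀ ℤ) (c : β) :
    Finsupp.mapDomain r D c = ∑ a ∈ D.support, if r a = c then D a else 0 := by
  classical
  rw [Finsupp.mapDomain, Finsupp.sum, Finsupp.finsetSum_apply]
  refine Finset.sum_congr rfl fun a _ => ?_
  rw [Finsupp.single_apply]

theorem mapDomain_nonneg {α β : Type*} (r : α → β) (D : α →₀ ℤ) (hD : ∀ a, 0 ≤ D a) (c : β) :
    0 ≤ Finsupp.mapDomain r D c := by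
  classical
  rw [mapDomain_apply_eq_sum]
  refine Finset.sum_nonneg fun a _ => ?_
  split_ifs
  · exact hD a
  · exact le_rfl

/-- an effective divisor whose push-forward is a sum of distinct points is a sum of points above
them. -/
theorem exists_eq_sum_single {α β ι : Type*} [Fintype ι] (r : α → β) (b : ι → β)
    (hb : Function.Injective b) (D : α →₀ ℤ) (hD : ∀ a, 0 ≤ D a)
    (h : Finsupp.mapDomain r D = ∑ i, Finsupp.single (b i) (1 : ℤ)) :
    ∃ q : ι → α, (∀ i, r (q i) = b i) ∧ D = ∑ i, Finsupp.single (q i) (1 : ℤ) := by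
  classical
  have hE : ∀ i, (∑ j, Finsupp.single (b j) (1 : ℤ)) (b i) = 1 := by
    intro i
    rw [Finsupp.finsetSum_apply, Finset.sum_eq_single i]
    · simp
    · intro j _ hji
      rw [Finsupp.single_apply, if_neg]
      exact fun h => hji (hb h)
    · intro hi; exact absurd (Finset.mem_univ i) hi
  have key : ∀ i, ∃ a, r a = b i ∧ D a = 1 ∧ ∀ a', r a' = b i → a' ≠ a → D a' = 0 := by
    intro i
    have hs : ∑ a ∈ D.support, (if r a = b i then D a else 0) = 1 := by
      rw [← mapDomain_apply_eq_sum, h, hE]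
    have hnn : ∀ a ∈ D.support, (0 : ℤ) ≤ if r a = b i then D a else 0 := by
      intro a _
      split_ifs
      · exact hD a
      · exact le_rfl
    obtain ⟨a, ha, hane⟩ := Finset.exists_ne_zero_of_sum_ne_zero (by rw [hs]; exact one_ne_zero)
    have hra : r a = b i := by
      by_contra hne
      exact hane (if_neg hne)
    rw [if_pos hra] at hane
    have hsplit := Finset.add_sum_erase D.support (fun a => if r a = b i then D a else 0) ha
    simp only [if_pos hra] at hsplit
    have hrest : 0 ≤ ∑ a' ∈ D.support.erase a, (if r a' = b i then D a' else 0) :=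
      Finset.sum_nonneg fun a' ha' => hnn a' (Finset.mem_of_mem_erase ha')
    have hDa0 := hD a
    have hDa : D a = 1 := by omega
    have hrest0 : ∑ a' ∈ D.support.erase a, (if r a' = b i then D a' else 0) = 0 := by omega
    refine ⟨a, hra, hDa, fun a' hra' hne => ?_⟩
    by_cases ha' : a' ∈ D.support
    · have := (Finset.sum_eq_zero_iff_of_nonneg
        (fun x hx => hnn x (Finset.mem_of_mem_erase hx))).1 hrest0 a'
        (Finset.mem_erase.2 ⟨hne, ha'⟩)
      rwa [if_pos hra'] at this
    · exact Finsupp.notMem_support_iff.1 ha'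
  choose q hq1 hq2 hq3 using key
  refine ⟨q, hq1, ?_⟩
  ext a
  rw [Finsupp.finsetSum_apply]
  by_cases ha : ∃ i, q i = a
  · obtain ⟨i, rfl⟩ := ha
    rw [hq2 i, Finset.sum_eq_single i]
    · simp
    · intro j _ hji
      rw [Finsupp.single_apply, if_neg]
      intro hqq
      apply hji
      apply hb
      rw [← hq1 j, ← hq1 i, hqq]
    · intro hi; exact absurd (Finset.mem_univ i) hi
  · have ha : ∀ i, q i ≠ a := fun i hi => ha ⟨i, hi⟩
    have h0 : ∑ i, (Finsupp.single (q i) (1 : ℤ)) a = 0 :=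
      Finset.sum_eq_zero fun i _ => by rw [Finsupp.single_apply, if_neg (ha i)]
    rw [h0]
    by_contra hne
    have hpos : 0 < D a := lt_of_le_of_ne (hD a) (Ne.symm hne)
    have hmem : a ∈ D.support := Finsupp.mem_support_iff.2 hne
    have hge : D a ≤ Finsupp.mapDomain r D (r a) := by
      rw [mapDomain_apply_eq_sum]
      have := Finset.single_le_sum (f := fun a' => if r a' = r a then D a' else 0)
        (fun a' _ => by
          show (0 : ℤ) ≤ if r a' = r a then D a' else 0
          split_ifs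
          · exact hD a'
          · exact le_rfl) hmem
      simpa using this
    rw [h, Finsupp.finsetSum_apply] at hge
    have hex : ∃ i, b i = r a := by
      by_contra hno
      have hno : ∀ i, b i ≠ r a := fun i hi => hno ⟨i, hi⟩
      have h00 : ∑ i, (Finsupp.single (b i) (1 : ℤ)) (r a) = 0 :=
        Finset.sum_eq_zero fun i _ => by rw [Finsupp.single_apply, if_neg (hno i)]
      omega
    obtain ⟨i, hi⟩ := hex
    have := hq3 i a hi.symm (fun h => ha i h.symm)
    omega

end Combinatorics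

section Main

variable {K : Type*} [Field K] {F : Type*} [Field F] [Algebra K F]
variable {A : ValuationSubring K} {g d : ℕ} (M : DiscModel A F g d)
variable (hdeg : ∀ (j : Fin d) (t : A), (M.P j t).deg = 1)
variable {κ : Type*} [Field κ] {Fb : Type*} [Field Fb] [Algebra κ Fb]
variable (r : Place K F → Place κ Fb)

/-- the centre of the `j`-th low disc on the special fibre. -/
def Pb (j : Fin g) : Place κ Fb := r (M.P (Fin.castLE M.hgd j) 0)

/-- `Ebar = ∑_{j<g} Pb j`. -/
noncomputable def Ebar : Divisor κ Fb := ∑ j : Fin g, Finsupp.single (Pb M r j) (1 : ℤ)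

theorem discDiv_nonneg (x : Fin g → A) (Q : Place K F) : 0 ≤ discDiv M x Q := by
  classical
  unfold discDiv
  rw [Finsupp.finsetSum_apply]
  refine Finset.sum_nonneg fun j _ => ?_
  rw [Finsupp.single_apply]
  split_ifs <;> norm_num

variable (h1 : ∀ (j : Fin d) (t : A), t ∈ maximalIdeal A → r (M.P j t) = r (M.P j 0))

include h1 in
/-- all points of the low discs reduce to the centres. -/
theorem mapDomain_discDiv (x : Fin g → A) (hx : ∀ i, x i ∈ maximalIdeal A) :
    Finsupp.mapDomain r (discDiv M x) = Ebar M r := by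
  unfold discDiv Ebar Pb
  rw [Finsupp.mapDomain_finsetSum]
  refine Finset.sum_congr rfl fun j _ => ?_
  rw [Finsupp.mapDomain_single, h1 _ _ (hx j)]

variable (hdisj : ∀ (j j' : Fin d) (t t' : A), t ∈ maximalIdeal A → t' ∈ maximalIdeal A →
  M.P j t = M.P j' t' → j = j')

include hdisj in
theorem discDiv_injective (x x' : Fin g → A) (hx : ∀ i, x i ∈ maximalIdeal A)
    (hx' : ∀ i, x' i ∈ maximalIdeal A) (h : discDiv M x = discDiv M x') : x = x' := by
  classical
  funext j
  have h2 : discDiv M x (M.P (Fin.castLE M.hgd j) (x j)) =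
      discDiv M x' (M.P (Fin.castLE M.hgd j) (x j)) := by rw [h]
  rw [discDiv_apply_low M x hdisj hx j (x j) (hx j),
    discDiv_apply_low M x' hdisj hx' j (x j) (hx j), if_pos rfl] at h2
  by_contra hne
  rw [if_neg hne] at h2
  exact one_ne_zero h2

/-- non-speciality of `Ebar`: `Lbar(Ebar) = κ`. -/
def NonSpecial : Prop :=
  ∀ fb : Fb, fb ≠ 0 → (∀ Q : Place κ Fb, 0 ≤ Q.ord fb + Ebar M r Q) →
    fb ∈ (algebraMap κ Fb).range

/-- weak semicontinuity: a non-constant function in `L(D(x))` gives a non-constant function in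
`Lbar(r_* D(x))`. -/
def WeakSemicont : Prop :=
  ∀ x : Fin g → A, (∀ i, x i ∈ maximalIdeal A) → ∀ f : F, f ≠ 0 →
    (∀ P : Place K F, 0 ≤ P.ord f + discDiv M x P) → f ∉ (algebraMap K F).range →
    ∃ fb : Fb, fb ≠ 0 ∧ fb ∉ (algebraMap κ Fb).range ∧
      ∀ Q : Place κ Fb, 0 ≤ Q.ord fb + Finsupp.mapDomain r (discDiv M x) Q

include h1 in
/-- `l(D(x)) = 1`. -/
theorem const_of_mem_L (h4 : NonSpecial M r) (h7 : WeakSemicont M r) (x : Fin g → A)
    (hx : ∀ i, x i ∈ maximalIdeal A) (f : F) (hf : f ≠ 0)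
    (hL : ∀ P : Place K F, 0 ≤ P.ord f + discDiv M x P) : f ∈ (algebraMap K F).range := by
  by_contra hnc
  obtain ⟨fb, hfb0, hfbnc, hfbL⟩ := h7 x hx f hf hL hnc
  rw [mapDomain_discDiv M r h1 x hx] at hfbL
  exact hfbnc (h4 fb hfb0 hfbL)

include h1 hdisj in
/-- **G4, injectivity.** -/
theorem theta_injective (h4 : NonSpecial M r) (h7 : WeakSemicont M r) (x x' : Fin g → A)
    (hx : ∀ i, x i ∈ maximalIdeal A) (hx' : ∀ i, x' i ∈ maximalIdeal A)
    (h : theta M hdeg x = theta M hdeg x') : x = x' := by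
  unfold theta at h
  have h2 := (QuotientAddGroup.eq).1 h
  rw [AddSubgroup.mem_addSubgroupOf] at h2
  obtain ⟨f, hf, hdiv⟩ := h2
  have hord : ∀ P : Place K F, P.ord f = discDiv M x' P - discDiv M x P := by
    intro P
    rw [← hdiv P]
    simp only [AddSubgroup.coe_add, NegMemClass.coe_neg, Finsupp.add_apply, Finsupp.neg_apply,
      Finsupp.sub_apply]
    ring
  have hL : ∀ P : Place K F, 0 ≤ P.ord f + discDiv M x P := by
    intro P
    rw [hord P]
    have := discDiv_nonneg M x' P
    linarith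
  obtain ⟨c, rfl⟩ := const_of_mem_L M r h1 h4 h7 x hx f hf hL
  apply discDiv_injective M hdisj x x' hx hx'
  ext P
  have := hord P
  rw [ord_algebraMap] at this
  linarith

variable (h2 : ∀ (j : Fin g) (Q : Place K F), r Q = Pb M r j →
  ∃ t : A, t ∈ maximalIdeal A ∧ Q = M.P (Fin.castLE M.hgd j) t)
variable (h3 : Function.Injective (Pb M r))

/-- Riemann on the generic fibre: a divisor of degree `≥ g` is linearly equivalent to an effective
one. -/
def RiemannEff : Prop :=
  ∀ D : Divisor K F, (g : ℤ) ≤ Divisor.degree D → ∃ D' : Divisor K F, (∀ P, 0 ≤ D' P) ∧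
    Divisor.degree D' = Divisor.degree D ∧ D' - D ∈ Divisor.principal (K := K) (F := F)

include hdeg h1 h2 h3 in
/-- **G4, surjectivity onto the kernel of reduction.** -/
theorem exists_theta_eq (h4 : NonSpecial M r)
    (h5 : ∀ D : Divisor K F, D ∈ Divisor.principal (K := K) (F := F) →
      Finsupp.mapDomain r D ∈ Divisor.principal (K := κ) (F := Fb))
    (h6 : RiemannEff (K := K) (F := F) (g := g))
    (D₀ : Divisor.degZero (K := K) (F := F))
    (hred : Finsupp.mapDomain r (D₀ : Divisor K F) ∈ Divisor.principal (K := κ) (F := Fb)) :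
    ∃ x : Fin g → A, (∀ i, x i ∈ maximalIdeal A) ∧ Pic0.mk D₀ = theta M hdeg x := by
  classical
  set E : Divisor K F := discDiv M (fun _ => (0 : A)) with hEdef
  have h0 : ∀ i : Fin g, (fun _ : Fin g => (0 : A)) i ∈ maximalIdeal A :=
    fun _ => Ideal.zero_mem _
  have hdegE : Divisor.degree E = g := degree_discDiv M hdeg _
  have hD₀ : Divisor.degree (D₀ : Divisor K F) = 0 := D₀.2
  obtain ⟨D', hD'nn, hD'deg, hD'pr⟩ := h6 ((D₀ : Divisor K F) + E) (by
    rw [map_add, hD₀, hdegE, zero_add])
  have hE : Finsupp.mapDomain r E = Ebar M r := mapDomain_discDiv M r h1 _ h0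
  have hpr : Finsupp.mapDomain r D' - Ebar M r ∈ Divisor.principal (K := κ) (F := Fb) := by
    have e : Finsupp.mapDomain r D' - Ebar M r =
        Finsupp.mapDomain r (D' - ((D₀ : Divisor K F) + E)) +
          Finsupp.mapDomain r (D₀ : Divisor K F) := by
      rw [← hE]
      simp only [← Finsupp.mapDomain.addMonoidHom_apply]
      rw [map_sub, map_add]
      abel
    rw [e]
    exact add_mem (h5 _ hD'pr) hred
  obtain ⟨hb, hb0, hbord⟩ := hpr
  have hbc : hb ∈ (algebraMap κ Fb).range := h4 hb hb0 (fun Q => by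
    have e1 := hbord Q
    rw [Finsupp.sub_apply] at e1
    have e2 := mapDomain_nonneg r D' hD'nn Q
    linarith)
  obtain ⟨c, rfl⟩ := hbc
  have hEq : Finsupp.mapDomain r D' = ∑ j : Fin g, Finsupp.single (Pb M r j) (1 : ℤ) := by
    ext Q
    have e1 := hbord Q
    rw [Finsupp.sub_apply, ord_algebraMap] at e1
    have : Finsupp.mapDomain r D' Q = Ebar M r Q := by linarith
    rw [this]; rfl
  obtain ⟨q, hq1, hq2⟩ := exists_eq_sum_single r (Pb M r) h3 D' hD'nn hEq
  choose x hx hxq using fun j => h2 j (q j) (hq1 j)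
  refine ⟨x, hx, ?_⟩
  have hD'x : D' = discDiv M x := by
    rw [hq2]
    unfold discDiv
    exact Finset.sum_congr rfl fun j _ => by rw [hxq j]
  unfold theta
  rw [Pic0.mk, Pic0.mk, QuotientAddGroup.eq, AddSubgroup.mem_addSubgroupOf]
  have e : ((-D₀ + ⟨discDiv M x - discDiv M (fun _ => (0 : A)),
      discDiv_sub_mem_degZero M hdeg x⟩ : Divisor.degZero (K := K) (F := F)) : Divisor K F) =
      D' - ((D₀ : Divisor K F) + E) := by
    simp only [AddSubgroup.coe_add, NegMemClass.coe_neg]
    rw [hD'x]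
    abel
  rw [e]
  exact hD'pr

include h1 in
/-- the divisor `D(x) - D(0)` reduces to `0`. -/
theorem mapDomain_theta_divisor (x : Fin g → A) (hx : ∀ i, x i ∈ maximalIdeal A) :
    Finsupp.mapDomain r (discDiv M x - discDiv M (fun _ => (0 : A))) = 0 := by
  have h0 : ∀ i : Fin g, (fun _ : Fin g => (0 : A)) i ∈ maximalIdeal A :=
    fun _ => Ideal.zero_mem _
  simp only [← Finsupp.mapDomain.addMonoidHom_apply]
  rw [map_sub]
  simp only [Finsupp.mapDomain.addMonoidHom_apply]
  rw [mapDomain_discDiv M r h1 x hx, mapDomain_discDiv M r h1 _ h0, sub_self]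

include hdeg h1 h2 h3 in
/-- **G4, kernel of reduction.**  For any additive map `red` on `Pic⁰` induced by `r_*`. -/
theorem red_eq_zero_iff (h4 : NonSpecial M r)
    (h5 : ∀ D : Divisor K F, D ∈ Divisor.principal (K := K) (F := F) →
      Finsupp.mapDomain r D ∈ Divisor.principal (K := κ) (F := Fb))
    (h6 : RiemannEff (K := K) (F := F) (g := g))
    {J : Type*} [AddCommGroup J] (red : Pic0 K F →+ J)
    (hred : ∀ D : Divisor.degZero (K := K) (F := F), red (Pic0.mk D) = 0 ↔
      Finsupp.mapDomain r (D : Divisor K F) ∈ Divisor.principal (K := κ) (F := Fb))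
    (z : Pic0 K F) :
    red z = 0 ↔ ∃ x : Fin g → A, (∀ i, x i ∈ maximalIdeal A) ∧ z = theta M hdeg x := by
  constructor
  · intro hz
    obtain ⟨D₀, rfl⟩ := Pic0.mk_surjective z
    exact exists_theta_eq M hdeg r h1 h2 h3 h4 h5 h6 D₀ ((hred D₀).1 hz)
  · rintro ⟨x, hx, rfl⟩
    unfold theta
    rw [hred]
    show Finsupp.mapDomain r (discDiv M x - discDiv M (fun _ => (0 : A))) ∈ _
    rw [mapDomain_theta_divisor M r h1 x hx]
    exact zero_mem _

end Main

section Equivariance

open AlgebraicCurve.SemilinearAut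

variable {K : Type*} [Field K] {F : Type*} [Field F] [Algebra K F]
variable {A : ValuationSubring K} {g d : ℕ} (M : DiscModel A F g d)
variable (hdeg : ∀ (j : Fin d) (t : A), (M.P j t).deg = 1)
variable {κ : Type*} [Field κ] {Fb : Type*} [Field Fb] [Algebra κ Fb]
variable (r : Place K F → Place κ Fb)
variable (h2 : ∀ (j : Fin g) (Q : Place K F), r Q = Pb M r j →
  ∃ t : A, t ∈ maximalIdeal A ∧ Q = M.P (Fin.castLE M.hgd j) t)
variable (γ : SemilinearAut K F) (σA : A ≃+* A)
variable (hσ : ∀ a : A, ((σA a : A) : K) = baseAut γ (a : K))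
variable (hγφ : γ • M.φ = M.φ)
variable (hγr : ∀ (j : Fin g) (t : A), t ∈ maximalIdeal A →
  r (γ • M.P (Fin.castLE M.hgd j) t) = Pb M r j)

omit [Algebra K F] in
theorem map_mem_maximalIdeal (t : A) (ht : t ∈ maximalIdeal A) : σA t ∈ maximalIdeal A := by
  rw [mem_maximalIdeal, mem_nonunits_iff] at ht ⊢
  intro hu
  apply ht
  have := hu.map σA.symm
  rwa [RingEquiv.symm_apply_apply] at this

include h2 hσ hγφ hγr in
/-- a semilinear automorphism preserving the data moves the points of the low discs by its action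
on the parameter. -/
theorem smul_P (j : Fin g) (t : A) (ht : t ∈ maximalIdeal A) :
    γ • M.P (Fin.castLE M.hgd j) t = M.P (Fin.castLE M.hgd j) (σA t) := by
  classical
  obtain ⟨t', ht', hQ⟩ := h2 j _ (hγr j t ht)
  have hσt : σA t ∈ maximalIdeal A := map_mem_maximalIdeal σA t ht
  have e1 : γ • (M.φ - algebraMap K F (t : K)) = M.φ - algebraMap K F ((σA t : A) : K) := by
    rw [smul_sub, hγφ, SemilinearAut.smul_algebraMap, hσ]
  have e2 : (γ • M.P (Fin.castLE M.hgd j) t).ord (γ • (M.φ - algebraMap K F (t : K))) = 1 := by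
    rw [SemilinearAut.ord_smul]
    exact M.ord_φ_sub_self _ t ht
  rw [e1, hQ, M.ord_φ_sub _ t' (σA t) ht' hσt] at e2
  by_cases htt : t' = σA t
  · rw [hQ, htt]
  · rw [if_neg htt] at e2
    exact absurd e2 (by norm_num)

include h2 hσ hγφ hγr in
theorem smul_discDiv (x : Fin g → A) (hx : ∀ i, x i ∈ maximalIdeal A) :
    γ • discDiv M x = discDiv M (fun i => σA (x i)) := by
  unfold discDiv
  rw [Finset.smul_sum]
  refine Finset.sum_congr rfl fun j _ => ?_
  rw [SemilinearAut.smul_single, smul_P M r h2 γ σA hσ hγφ hγr j (x j) (hx j)]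

include h2 hσ hγφ hγr in
/-- **G4, equivariance.** -/
theorem smul_theta (x : Fin g → A) (hx : ∀ i, x i ∈ maximalIdeal A) :
    γ • theta M hdeg x = theta M hdeg (fun i => σA (x i)) := by
  unfold theta
  rw [pic0_smul_mk]
  congr 1
  apply Subtype.ext
  rw [coe_degZeroSMulHom]
  show γ • (discDiv M x - discDiv M (fun _ => (0 : A))) = _
  rw [smul_sub, smul_discDiv M r h2 γ σA hσ hγφ hγr x hx,
    smul_discDiv M r h2 γ σA hσ hγφ hγr _ (fun _ => Ideal.zero_mem _)]
  simp only [map_zero]

include h2 hσ hγφ hγr in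
/-- coordinates of classes fixed by `γ` are fixed by the base automorphism. -/
theorem coord_fixed_of_smul_eq
    (h1 : ∀ (j : Fin d) (t : A), t ∈ maximalIdeal A → r (M.P j t) = r (M.P j 0))
    (hdisj : ∀ (j j' : Fin d) (t t' : A), t ∈ maximalIdeal A → t' ∈ maximalIdeal A →
      M.P j t = M.P j' t' → j = j')
    (h4 : NonSpecial M r) (h7 : WeakSemicont M r)
    (x : Fin g → A) (hx : ∀ i, x i ∈ maximalIdeal A)
    (hfix : γ • theta M hdeg x = theta M hdeg x) (i : Fin g) : σA (x i) = x i := by
  rw [smul_theta M hdeg r h2 γ σA hσ hγφ hγr x hx] at hfix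
  have := theta_injective M hdeg r h1 hdisj h4 h7 _ x
    (fun i => map_mem_maximalIdeal σA (x i) (hx i)) hx hfix
  exact congrFun this i

end Equivariance

end Fermat.Agent.FF.ThetaKer5
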