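/-
Programme FF (S19), chapter G4 bridges (helper5): the hypotheses of `FF/ThetaKer5` from the outputs
of the other chapters.

* `riemannEff_of_riemann` : `ThetaKer5.RiemannEff` from `LSpace.LHyp` and Riemann's inequality
  `deg D + 1 - g ≤ l(D)` on the generic fibre;
* `nonSpecial_of_ell_eq_one` : `ThetaKer5.NonSpecial` from `l̄(Ebar) = 1` (`SpecRR1.ell`), and
  `Ebar_eq_pts` : `Ebar = SpecRR1.pts (image of Pb)` for distinct centres;
* `weakSemicont_of_semicont` : `ThetaKer5.WeakSemicont` from semicontinuity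
  `l(D(x)) ≤ l̄(r_* D(x))` on the disc divisors;
* section `OfRed` : for the disc model `DiscOfRedA.discModel` of an abstract place reduction
  `C : RedCtxV` the hypotheses (h1) centre, (hdisj), (h2) exhaustion, (h3) distinct centres,
  (h5) push-forward of principal divisors, and the three conclusions of G4
  (`theta_injective_of_red`, `exists_theta_eq_of_red`, `red_eq_zero_iff_of_red`) with only
  `LHyp` on both fibres, Riemann's inequality on the generic fibre, semicontinuity on disc divisors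
  and `l̄(∑_{j<g} Pb j) = 1` as inputs; `smul_theta_of_red` / `coord_fixed_of_red` : (T3) for a
  semilinear automorphism preserving `A`, fixing `φ` and preserving the fibres of `r` over the `g`
  low centres.
-/
import Mathlib
import Fermat.Agent.FF.ThetaKer5
import Fermat.Agent.FF.DiscOfRedA
import Fermat.Agent.FF.SpecRR1B

set_option autoImplicit false

open AlgebraicCurve IsLocalRing

namespace Fermat.Agent.FF.ThetaBridge5

open Fermat.Agent.X0.FF Fermat.Agent.FF.GeomIface8 Fermat.Agent.FF.Meaning8 Fermat.Agent.FF.Theta8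
  Fermat.Agent.FF.ThetaKer5 Fermat.Agent.RR.LSpace Fermat.Agent.FF.SpecRR1
  Fermat.Agent.FF.UniqueZeroA Fermat.Agent.FF.DiscOfRedA

section Riemann

variable {K : Type*} [Field K] {F : Type*} [Field F] [Algebra K F]

/-- a nonzero element of `L(D)` as soon as `1 ≤ l(D)`. -/
theorem exists_ne_zero_mem_L {D : Divisor K F} (h : 1 ≤ ell D) :
    ∃ f : F, f ≠ 0 ∧ f ∈ riemannRochSpace D := by
  unfold ell at h
  have hpos : 0 < Module.finrank K (riemannRochSpace D) := by omega
  have := Module.nontrivial_of_finrank_pos hpos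
  obtain ⟨⟨f, hf⟩, hne⟩ := exists_ne (0 : riemannRochSpace D)
  exact ⟨f, fun h0 => hne (Subtype.ext h0), hf⟩

/-- **`RiemannEff` from Riemann's inequality.** -/
theorem riemannEff_of_riemann (HL : LHyp K F) (g : ℕ)
    (hR : ∀ D : Divisor K F, Divisor.degree D + 1 - (g : ℤ) ≤ ell D) :
    RiemannEff (K := K) (F := F) (g := g) := by
  intro D hD
  have h1 : 1 ≤ ell D := by have := hR D; omega
  obtain ⟨f, hf0, hf⟩ := exists_ne_zero_mem_L h1
  refine ⟨D + divOf HL hf0, fun P => ?_, ?_, ?_⟩
  · rw [Finsupp.add_apply, divOf_apply]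
    have := (mem_L_iff hf0).1 hf P
    linarith
  · rw [map_add, degree_divOf, add_zero]
  · rw [add_sub_cancel_left]
    exact ⟨f, hf0, fun v => divOf_apply HL hf0 v⟩

/-- the constants lie in `L(D)` for effective `D`. -/
theorem one_mem_L {D : Divisor K F} (hD : ∀ P, 0 ≤ D P) : (1 : F) ∈ riemannRochSpace D := by
  rw [mem_L_iff one_ne_zero]
  intro v
  rw [Place.ord_one]
  have := hD v
  omega

/-- if `l(D) ≤ 1` and `D` is effective, then `L(D)` consists of constants. -/
theorem mem_range_of_ell_le_one (HL : LHyp K F) {D : Divisor K F} (hD : ∀ P, 0 ≤ D P)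
    (h : ell D ≤ 1) {f : F} (hf : f ∈ riemannRochSpace D) : f ∈ (algebraMap K F).range := by
  have := finiteDimensional_L HL D
  unfold ell at h
  have h' : Module.finrank K (riemannRochSpace D) ≤ 1 := by exact_mod_cast h
  obtain ⟨v, hv⟩ := finrank_le_one_iff.1 h'
  obtain ⟨c1, hc1⟩ := hv ⟨1, one_mem_L hD⟩
  obtain ⟨c2, hc2⟩ := hv ⟨f, hf⟩
  have hc1' : c1 • (v : F) = 1 := congrArg Subtype.val hc1
  have hc2' : c2 • (v : F) = f := congrArg Subtype.val hc2
  have hc10 : c1 ≠ 0 := by
    rintro rfl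
    rw [zero_smul] at hc1'
    exact zero_ne_one hc1'
  refine ⟨c2 * c1⁻¹, ?_⟩
  have hv' : (v : F) = algebraMap K F c1⁻¹ := by
    have : c1⁻¹ • (c1 • (v : F)) = c1⁻¹ • (1 : F) := by rw [hc1']
    rw [smul_smul, inv_mul_cancel₀ hc10, one_smul, Algebra.smul_def, mul_one] at this
    exact this
  rw [← hc2', hv', Algebra.smul_def, map_mul]

/-- if every element of `L(D)` is constant then `l(D) ≤ 1`. -/
theorem ell_le_one_of_forall_mem_range {D : Divisor K F}
    (h : ∀ f : F, f ∈ riemannRochSpace D → f ∈ (algebraMap K F).range) : ell D ≤ 1 := by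
  unfold ell
  by_cases h1 : (1 : F) ∈ riemannRochSpace D
  · have := finrank_le_one (R := K) (⟨1, h1⟩ : riemannRochSpace D) (fun w => by
      obtain ⟨c, hc⟩ := h w.1 w.2
      refine ⟨c, Subtype.ext ?_⟩
      change c • (1 : F) = w.1
      rw [Algebra.smul_def, mul_one, hc])
    exact_mod_cast this
  · -- then `L(D) = 0`
    have hbot : riemannRochSpace D = ⊥ := by
      rw [eq_bot_iff]
      intro f hf
      obtain ⟨c, hc⟩ := h f hf
      by_cases hc0 : c = 0
      · rw [Submodule.mem_bot, ← hc, hc0, map_zero]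
      · exfalso
        apply h1
        have : (1 : F) = c⁻¹ • f := by
          rw [← hc, Algebra.smul_def, ← map_mul, inv_mul_cancel₀ hc0, map_one]
        rw [this]
        exact Submodule.smul_mem _ _ hf
    rw [hbot, finrank_bot]
    norm_num

end Riemann

section Bridges

variable {K : Type*} [Field K] {F : Type*} [Field F] [Algebra K F]
variable {A : ValuationSubring K} {g d : ℕ} (M : DiscModel A F g d)
variable {κ : Type*} [Field κ] {Fb : Type*} [Field Fb] [Algebra κ Fb]
variable (r : Place K F → Place κ Fb)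

theorem Ebar_nonneg (Q : Place κ Fb) : 0 ≤ Ebar M r Q := by
  classical
  unfold Ebar
  rw [Finsupp.finsetSum_apply]
  refine Finset.sum_nonneg fun j _ => ?_
  rw [Finsupp.single_apply]
  split_ifs <;> norm_num

/-- **`NonSpecial` from `l̄(Ebar) = 1`** (only `≤ 1` is needed). -/
theorem nonSpecial_of_ell_le_one (HLb : LHyp κ Fb) (h : ell (Ebar M r) ≤ 1) : NonSpecial M r := by
  intro fb hfb hL
  refine mem_range_of_ell_le_one HLb (Ebar_nonneg M r) h ?_
  rw [mem_L_iff hfb]
  intro Q
  have := hL Q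
  linarith

theorem nonSpecial_of_ell_eq_one (HLb : LHyp κ Fb) (h : ell (Ebar M r) = 1) : NonSpecial M r :=
  nonSpecial_of_ell_le_one M r HLb h.le

open Classical in
/-- for distinct centres, `Ebar` is the reduced divisor of the set of centres. -/
theorem Ebar_eq_pts (h3 : Function.Injective (Pb M r)) :
    Ebar M r = pts (Finset.univ.image (Pb M r)) := by
  unfold Ebar pts
  rw [Finset.sum_image (fun a _ b _ hab => h3 hab)]

/-- **`WeakSemicont` from semicontinuity on the disc divisors.** -/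
theorem weakSemicont_of_semicont (HL : LHyp K F)
    (hsemi : ∀ x : Fin g → A, (∀ i, x i ∈ maximalIdeal A) →
      ell (discDiv M x) ≤ ell (Finsupp.mapDomain r (discDiv M x))) : WeakSemicont M r := by
  intro x hx f hf hL hnc
  by_contra hcon
  push Not at hcon
  -- every element of `L̄(r_* D(x))` is constant
  have hall : ∀ fb : Fb, fb ∈ riemannRochSpace (Finsupp.mapDomain r (discDiv M x)) →
      fb ∈ (algebraMap κ Fb).range := by
    intro fb hfbL
    by_cases hfb0 : fb = 0
    · exact ⟨0, by rw [map_zero, hfb0]⟩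
    · by_contra hfbnc
      obtain ⟨Q, hQ⟩ := hcon fb hfb0 hfbnc
      have := (mem_L_iff hfb0).1 hfbL Q
      omega
  have h1 := ell_le_one_of_forall_mem_range hall
  have h2 := (hsemi x hx).trans h1
  apply hnc
  refine mem_range_of_ell_le_one HL (discDiv_nonneg M x) h2 ?_
  rw [mem_L_iff hf]
  intro P
  have := hL P
  linarith

end Bridges

section OfRed

variable {K : Type*} [Field K] {F : Type*} [Field F] [Algebra K F]
variable {κ : Type*} [Field κ] {Fb : Type*} [Field Fb] [Algebra κ Fb]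
variable {A : ValuationSubring K} (C : RedCtxV A F κ Fb)
variable {d : ℕ} (φ : C.O) (Pb : Fin d → Place κ Fb)
variable (hPb : ∀ j, (Pb j).ord (C.ρ φ) = 1)
variable (hnp : ∀ j P, C.r P = Pb j → 0 ≤ P.ord (φ : F))
variable (g : ℕ) (hgd : g ≤ d) (hφ : C.ρ φ ≠ 0)

/-- (h1) centre. -/
theorem h1_of_red (j : Fin d) (t : A) (ht : t ∈ maximalIdeal A) :
    C.r ((C.discModel φ Pb hPb hnp g hgd hφ).P j t) =
      C.r ((C.discModel φ Pb hPb hnp g hgd hφ).P j 0) := by
  rw [C.r_discModel_P φ Pb hPb hnp g hgd hφ j t ht,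
    C.r_discModel_P φ Pb hPb hnp g hgd hφ j 0 (Ideal.zero_mem _)]

/-- the centres of the low discs. -/
theorem Pb_of_red (j : Fin g) :
    ThetaKer5.Pb (C.discModel φ Pb hPb hnp g hgd hφ) C.r j = Pb (Fin.castLE hgd j) :=
  C.r_discModel_P φ Pb hPb hnp g hgd hφ _ 0 (Ideal.zero_mem _)

variable (hinj : Function.Injective Pb)

include hinj in
/-- (hdisj) the discs are disjoint. -/
theorem hdisj_of_red (j j' : Fin d) (t t' : A) (ht : t ∈ maximalIdeal A)
    (ht' : t' ∈ maximalIdeal A)
    (h : (C.discModel φ Pb hPb hnp g hgd hφ).P j t =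
      (C.discModel φ Pb hPb hnp g hgd hφ).P j' t') : j = j' := by
  apply hinj
  rw [← C.r_discModel_P φ Pb hPb hnp g hgd hφ j t ht,
    ← C.r_discModel_P φ Pb hPb hnp g hgd hφ j' t' ht', h]

/-- (h2) exhaustion. -/
theorem h2_of_red (j : Fin g) (Q : Place K F)
    (hQ : C.r Q = ThetaKer5.Pb (C.discModel φ Pb hPb hnp g hgd hφ) C.r j) :
    ∃ t : A, t ∈ maximalIdeal A ∧
      Q = (C.discModel φ Pb hPb hnp g hgd hφ).P
        (Fin.castLE (C.discModel φ Pb hPb hnp g hgd hφ).hgd j) t := by
  rw [Pb_of_red] at hQ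
  exact C.exists_eq_discModel_P φ Pb hPb hnp g hgd hφ _ Q hQ

include hinj in
/-- (h3) distinct centres. -/
theorem h3_of_red :
    Function.Injective (ThetaKer5.Pb (C.discModel φ Pb hPb hnp g hgd hφ) C.r) := by
  intro j j' h
  rw [Pb_of_red, Pb_of_red] at h
  exact Fin.castLE_injective hgd (hinj h)

/-- (h5) the push-forward of a principal divisor is principal (Gauss + push-forward formula). -/
theorem h5_of_red (D : Divisor K F) (hD : D ∈ Divisor.principal (K := K) (F := F)) :
    Finsupp.mapDomain C.r D ∈ Divisor.principal (K := κ) (F := Fb) := by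
  obtain ⟨f, hf, hDf⟩ := hD
  obtain ⟨c, hc, hmem, hρ⟩ := C.gauss f hf
  refine ⟨C.ρ ⟨_, hmem⟩, hρ, fun Q => ?_⟩
  refine C.push ⟨_, hmem⟩ hρ D (fun P => ?_) Q
  have hc' : algebraMap K F c ≠ 0 := fun h0 => hc ((map_eq_zero _).1 h0)
  rw [hDf P]
  change P.ord f = P.ord (algebraMap K F c * f)
  rw [P.ord_mul hc' hf, ord_algebraMap, zero_add]

/-- `Ebar` of the disc model. -/
theorem Ebar_of_red :
    Ebar (C.discModel φ Pb hPb hnp g hgd hφ) C.r =
      ∑ j : Fin g, Finsupp.single (Pb (Fin.castLE hgd j)) (1 : ℤ) := by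
  unfold Ebar
  exact Finset.sum_congr rfl fun j _ => by rw [Pb_of_red]

variable (HL : LHyp K F) (HLb : LHyp κ Fb)
variable (hell : ell (∑ j : Fin g, Finsupp.single (Pb (Fin.castLE hgd j)) (1 : ℤ)) ≤ 1)
variable (hsemi : ∀ x : Fin g → A, (∀ i, x i ∈ maximalIdeal A) →
  ell (discDiv (C.discModel φ Pb hPb hnp g hgd hφ) x) ≤
    ell (Finsupp.mapDomain C.r (discDiv (C.discModel φ Pb hPb hnp g hgd hφ) x)))

include HLb hell in
theorem nonSpecial_of_red : NonSpecial (C.discModel φ Pb hPb hnp g hgd hφ) C.r := by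
  apply nonSpecial_of_ell_le_one _ _ HLb
  rw [Ebar_of_red]
  exact hell

include hinj HL HLb hell hsemi in
/-- **G4 (T1) for the disc model of an abstract place reduction.** -/
theorem theta_injective_of_red (x x' : Fin g → A) (hx : ∀ i, x i ∈ maximalIdeal A)
    (hx' : ∀ i, x' i ∈ maximalIdeal A)
    (h : theta (C.discModel φ Pb hPb hnp g hgd hφ) (fun _ _ => HL.deg_eq_one _) x =
      theta (C.discModel φ Pb hPb hnp g hgd hφ) (fun _ _ => HL.deg_eq_one _) x') : x = x' :=
  theta_injective _ _ C.r (h1_of_red C φ Pb hPb hnp g hgd hφ)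
    (hdisj_of_red C φ Pb hPb hnp g hgd hφ hinj)
    (nonSpecial_of_red C φ Pb hPb hnp g hgd hφ HLb hell)
    (weakSemicont_of_semicont _ C.r HL hsemi) x x' hx hx' h

variable (hR : ∀ D : Divisor K F, Divisor.degree D + 1 - (g : ℤ) ≤ ell D)

include hinj HL HLb hell hR in
/-- **G4 (T2), surjectivity, for the disc model of an abstract place reduction.** -/
theorem exists_theta_eq_of_red (D₀ : Divisor.degZero (K := K) (F := F))
    (hred : Finsupp.mapDomain C.r (D₀ : Divisor K F) ∈ Divisor.principal (K := κ) (F := Fb)) :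
    ∃ x : Fin g → A, (∀ i, x i ∈ maximalIdeal A) ∧
      Pic0.mk D₀ =
        theta (C.discModel φ Pb hPb hnp g hgd hφ) (fun _ _ => HL.deg_eq_one _) x :=
  exists_theta_eq _ _ C.r (h1_of_red C φ Pb hPb hnp g hgd hφ)
    (h2_of_red C φ Pb hPb hnp g hgd hφ)
    (h3_of_red C φ Pb hPb hnp g hgd hφ hinj)
    (nonSpecial_of_red C φ Pb hPb hnp g hgd hφ HLb hell)
    (h5_of_red C) (riemannEff_of_riemann HL g hR) D₀ hred

include hinj HL HLb hell hR in
/-- **G4 (T2), kernel of reduction, for the disc model of an abstract place reduction.** -/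
theorem red_eq_zero_iff_of_red {J : Type*} [AddCommGroup J] (red : Pic0 K F →+ J)
    (hred : ∀ D : Divisor.degZero (K := K) (F := F), red (Pic0.mk D) = 0 ↔
      Finsupp.mapDomain C.r (D : Divisor K F) ∈ Divisor.principal (K := κ) (F := Fb))
    (z : Pic0 K F) :
    red z = 0 ↔ ∃ x : Fin g → A, (∀ i, x i ∈ maximalIdeal A) ∧
      z = theta (C.discModel φ Pb hPb hnp g hgd hφ) (fun _ _ => HL.deg_eq_one _) x :=
  red_eq_zero_iff _ _ C.r (h1_of_red C φ Pb hPb hnp g hgd hφ)
    (h2_of_red C φ Pb hPb hnp g hgd hφ)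
    (h3_of_red C φ Pb hPb hnp g hgd hφ hinj)
    (nonSpecial_of_red C φ Pb hPb hnp g hgd hφ HLb hell)
    (h5_of_red C) (riemannEff_of_riemann HL g hR) red hred z

section Equivariance

open AlgebraicCurve.SemilinearAut

variable (γ : SemilinearAut K F) (σA : A ≃+* A)
variable (hσ : ∀ a : A, ((σA a : A) : K) = baseAut γ (a : K))
variable (hφγ : γ • (φ : F) = (φ : F))
variable (hγr : ∀ (j : Fin g) (P : Place K F), C.r P = Pb (Fin.castLE hgd j) →
  C.r (γ • P) = Pb (Fin.castLE hgd j))

include hσ hφγ hγr in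
/-- **G4 (T3) for the disc model of an abstract place reduction**: a semilinear automorphism which
preserves `A`, fixes the parameter `φ` and preserves the fibres of the reduction over the `g` low
centres acts on `theta` through the coordinates. -/
theorem smul_theta_of_red (x : Fin g → A) (hx : ∀ i, x i ∈ maximalIdeal A) :
    γ • theta (C.discModel φ Pb hPb hnp g hgd hφ) (fun _ _ => HL.deg_eq_one _) x =
      theta (C.discModel φ Pb hPb hnp g hgd hφ) (fun _ _ => HL.deg_eq_one _)
        (fun i => σA (x i)) :=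
  smul_theta _ _ C.r (h2_of_red C φ Pb hPb hnp g hgd hφ) γ σA hσ hφγ
    (fun j t ht => by
      rw [Pb_of_red]
      exact hγr j _ (C.r_discModel_P φ Pb hPb hnp g hgd hφ _ t ht)) x hx

include hinj HLb hell hsemi hσ hφγ hγr in
/-- coordinates of a `γ`-fixed class `theta x` are `σA`-fixed. -/
theorem coord_fixed_of_red (x : Fin g → A) (hx : ∀ i, x i ∈ maximalIdeal A)
    (hfix : γ • theta (C.discModel φ Pb hPb hnp g hgd hφ) (fun _ _ => HL.deg_eq_one _) x =
      theta (C.discModel φ Pb hPb hnp g hgd hφ) (fun _ _ => HL.deg_eq_one _) x) (i : Fin g) :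
    σA (x i) = x i :=
  coord_fixed_of_smul_eq _ _ C.r (h2_of_red C φ Pb hPb hnp g hgd hφ) γ σA hσ hφγ
    (fun j t ht => by
      rw [Pb_of_red]
      exact hγr j _ (C.r_discModel_P φ Pb hPb hnp g hgd hφ _ t ht))
    (h1_of_red C φ Pb hPb hnp g hgd hφ)
    (hdisj_of_red C φ Pb hPb hnp g hgd hφ hinj)
    (nonSpecial_of_red C φ Pb hPb hnp g hgd hφ HLb hell)
    (weakSemicont_of_semicont _ C.r HL hsemi) x hx hfix i

end Equivariance

end OfRed

end Fermat.Agent.FF.ThetaBridge5
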