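/-
Programme FF (S19), chapter A3 (helper7): core algebra in COORDINATES, the matrices.

`E : Fin d → ι → R⟦X⟧` is a family of power series (the expansions of a basis of the lattice `V`).
* `ser E j z = ∑ i, z i • E j i`;
* `truncMat`: the matrix of the truncated coefficients (`2 g` coefficients on the discs `j ≥ g`,
  `2 g - 1` coefficients on the discs `j < g`);
* `remMat`: the matrix of the Weierstrass remainders modulo `q` (`j ≥ g`) and `q_j` (`j < g`).
-/
import Fermat.Agent.FF.CoreAlg7E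

set_option autoImplicit false
set_option linter.unusedSectionVars false

open PowerSeries Matrix

namespace Fermat.Agent.FF.CoreAlg7

/-- the index set of the equations. -/
abbrev EqIdx (g d : ℕ) := (Fin (d - g) × Fin (2 * g)) ⊕ (Fin g × Fin (2 * g - 1))

theorem card_eqIdx {g d : ℕ} (hgd : g ≤ d) : Fintype.card (EqIdx g d) + g = 2 * g * d := by
  obtain ⟨e, rfl⟩ := Nat.exists_eq_add_of_le hgd
  simp only [Fintype.card_sum, Fintype.card_prod, Fintype.card_fin, Nat.add_sub_cancel_left]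
  rcases g with _ | g
  · simp
  · have : 2 * (g + 1) - 1 = 2 * g + 1 := by omega
    rw [this]
    ring

/-- the discs `j ≥ g`. -/
def hiIdx {g d : ℕ} (k : Fin (d - g)) : Fin d := ⟨g + k.val, by have := k.isLt; omega⟩

@[simp] theorem hiIdx_val {g d : ℕ} (k : Fin (d - g)) : (hiIdx k : Fin d).val = g + k.val := rfl

theorem le_hiIdx {g d : ℕ} (k : Fin (d - g)) : g ≤ (hiIdx k : Fin d).val := by simp

theorem exists_hiIdx {g d : ℕ} (j : Fin d) (hj : g ≤ j.val) : ∃ k : Fin (d - g), hiIdx k = j :=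
  ⟨⟨j.val - g, by have := j.isLt; omega⟩, by ext; simp; omega⟩

section Ser

variable {R : Type*} [CommRing R] {ι : Type*} [Fintype ι] {g d : ℕ}

/-- the series attached to a coordinate vector. -/
noncomputable def ser (E : Fin d → ι → R⟦X⟧) (j : Fin d) (z : ι → R) : R⟦X⟧ := ∑ i, z i • E j i

theorem coeff_ser (E : Fin d → ι → R⟦X⟧) (j : Fin d) (z : ι → R) (n : ℕ) :
    coeff n (ser E j z) = ∑ i, coeff n (E j i) * z i := by
  simp [ser, map_sum, mul_comm]

theorem ser_add (E : Fin d → ι → R⟦X⟧) (j : Fin d) (z z' : ι → R) :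
    ser E j (z + z') = ser E j z + ser E j z' := by
  simp [ser, add_smul, Finset.sum_add_distrib]

theorem ser_sub (E : Fin d → ι → R⟦X⟧) (j : Fin d) (z z' : ι → R) :
    ser E j (z - z') = ser E j z - ser E j z' := by
  simp [ser, sub_smul, Finset.sum_sub_distrib]

theorem ser_smul (E : Fin d → ι → R⟦X⟧) (j : Fin d) (a : R) (z : ι → R) :
    ser E j (a • z) = a • ser E j z := by
  simp [ser, Finset.smul_sum, mul_smul]

theorem map_ser {S : Type*} [CommRing S] (f : R →+* S) (E : Fin d → ι → R⟦X⟧) (j : Fin d)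
    (z : ι → R) :
    (ser E j z).map f = ser (fun j i => (E j i).map f) j (fun i => f (z i)) := by
  ext n
  simp [coeff_ser, map_sum]

/-- the truncation matrix. -/
noncomputable def truncMat (hgd : g ≤ d) (E : Fin d → ι → R⟦X⟧) : Matrix (EqIdx g d) ι R :=
  Matrix.of (Sum.elim (fun p i => coeff p.2.val (E (hiIdx p.1) i))
    (fun p i => coeff p.2.val (E (Fin.castLE hgd p.1) i)))

theorem truncMat_map {S : Type*} [CommRing S] (f : R →+* S) (hgd : g ≤ d)
    (E : Fin d → ι → R⟦X⟧) :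
    (truncMat hgd E).map f = truncMat hgd (fun j i => (E j i).map f) := by
  ext (p | p) i <;> simp [truncMat]

theorem truncMat_mulVec_inl (hgd : g ≤ d) (E : Fin d → ι → R⟦X⟧) (z : ι → R)
    (p : Fin (d - g) × Fin (2 * g)) :
    (truncMat hgd E *ᵥ z) (Sum.inl p) = coeff p.2.val (ser E (hiIdx p.1) z) := by
  simp [truncMat, Matrix.mulVec, dotProduct, coeff_ser]

theorem truncMat_mulVec_inr (hgd : g ≤ d) (E : Fin d → ι → R⟦X⟧) (z : ι → R)
    (p : Fin g × Fin (2 * g - 1)) :
    (truncMat hgd E *ᵥ z) (Sum.inr p) = coeff p.2.val (ser E (Fin.castLE hgd p.1) z) := by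
  simp [truncMat, Matrix.mulVec, dotProduct, coeff_ser]

theorem truncMat_mulVec_eq_zero_iff (hgd : g ≤ d) (E : Fin d → ι → R⟦X⟧) (z : ι → R) :
    truncMat hgd E *ᵥ z = 0 ↔
      (∀ j : Fin d, g ≤ j.val → (X : R⟦X⟧) ^ (2 * g) ∣ ser E j z) ∧
        ∀ j : Fin g, (X : R⟦X⟧) ^ (2 * g - 1) ∣ ser E (Fin.castLE hgd j) z := by
  constructor
  · intro h
    refine ⟨fun j hj => ?_, fun j => ?_⟩
    · obtain ⟨k, rfl⟩ := exists_hiIdx j hj
      rw [X_pow_dvd_iff]
      intro n hn
      have := congrFun h (Sum.inl (k, ⟨n, hn⟩))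
      rwa [truncMat_mulVec_inl] at this
    · rw [X_pow_dvd_iff]
      intro n hn
      have := congrFun h (Sum.inr (j, ⟨n, hn⟩))
      rwa [truncMat_mulVec_inr] at this
  · rintro ⟨h1, h2⟩
    ext (p | p)
    · rw [truncMat_mulVec_inl]
      exact X_pow_dvd_iff.mp (h1 _ (le_hiIdx p.1)) _ p.2.isLt
    · rw [truncMat_mulVec_inr]
      exact X_pow_dvd_iff.mp (h2 p.1) _ p.2.isLt

end Ser

/-! ### The remainder matrix -/

section Rem

variable {B : Type*} [CommRing B] {I : Ideal B} [IsAdicComplete I B]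
variable {ι : Type*} [Fintype ι] {g d : ℕ}

/-- the Weierstrass remainder as a linear map. -/
noncomputable def remL {q : Polynomial B} (hq : q.IsDistinguishedAt I) :
    B⟦X⟧ →ₗ[B] Polynomial B where
  toFun f := remI hq f
  map_add' f f' := remI_add hq f f'
  map_smul' a f := remI_smul hq a f

@[simp] theorem remL_apply {q : Polynomial B} (hq : q.IsDistinguishedAt I) (f : B⟦X⟧) :
    remL hq f = remI hq f := rfl

theorem coeff_remI_ser {q : Polynomial B} (hq : q.IsDistinguishedAt I)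
    (E : Fin d → ι → B⟦X⟧) (j : Fin d) (z : ι → B) (n : ℕ) :
    (remI hq (ser E j z)).coeff n = ∑ i, (remI hq (E j i)).coeff n * z i := by
  rw [← remL_apply, ser, map_sum, Polynomial.finsetSum_coeff]
  refine Finset.sum_congr rfl fun i _ => ?_
  rw [map_smul, Polynomial.coeff_smul, remL_apply, smul_eq_mul, mul_comm]

/-- the matrix of the Weierstrass remainders. -/
noncomputable def remMat (hgd : g ≤ d) (E : Fin d → ι → B⟦X⟧) {q : Polynomial B}
    (hq : q.IsDistinguishedAt I) {qj : Fin g → Polynomial B}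
    (hqj : ∀ j, (qj j).IsDistinguishedAt I) : Matrix (EqIdx g d) ι B :=
  Matrix.of (Sum.elim (fun p i => (remI hq (E (hiIdx p.1) i)).coeff p.2.val)
    (fun p i => (remI (hqj p.1) (E (Fin.castLE hgd p.1) i)).coeff p.2.val))

variable (hgd : g ≤ d) (E : Fin d → ι → B⟦X⟧) {q : Polynomial B}
    (hq : q.IsDistinguishedAt I) {qj : Fin g → Polynomial B}
    (hqj : ∀ j, (qj j).IsDistinguishedAt I)

theorem remMat_mulVec_inl (z : ι → B) (p : Fin (d - g) × Fin (2 * g)) :
    (remMat hgd E hq hqj *ᵥ z) (Sum.inl p) = (remI hq (ser E (hiIdx p.1) z)).coeff p.2.val := by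
  rw [coeff_remI_ser]
  simp [remMat, Matrix.mulVec, dotProduct]

theorem remMat_mulVec_inr (z : ι → B) (p : Fin g × Fin (2 * g - 1)) :
    (remMat hgd E hq hqj *ᵥ z) (Sum.inr p) =
      (remI (hqj p.1) (ser E (Fin.castLE hgd p.1) z)).coeff p.2.val := by
  rw [coeff_remI_ser]
  simp [remMat, Matrix.mulVec, dotProduct]

theorem remI_eq_zero_iff_forall_coeff {q : Polynomial B} (hq : q.IsDistinguishedAt I)
    (hI : I ≠ ⊤) {m : ℕ} (hm : q.natDegree = m) (f : B⟦X⟧) :
    remI hq f = 0 ↔ ∀ n < m, (remI hq f).coeff n = 0 := by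
  subst hm
  constructor
  · intro h n _
    simp [h]
  · intro h
    ext n
    by_cases hn : n < q.natDegree
    · simpa using h n hn
    · simpa using coeff_remI_eq_zero hq hI f (not_lt.mp hn)

theorem remMat_mulVec_eq_zero_iff (hI : I ≠ ⊤) (hdeg : q.natDegree = 2 * g)
    (hdegj : ∀ j, (qj j).natDegree = 2 * g - 1) (z : ι → B) :
    remMat hgd E hq hqj *ᵥ z = 0 ↔
      (∀ j : Fin d, g ≤ j.val → (q : B⟦X⟧) ∣ ser E j z) ∧
        ∀ j : Fin g, (qj j : B⟦X⟧) ∣ ser E (Fin.castLE hgd j) z := by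
  constructor
  · intro h
    refine ⟨fun j hj => ?_, fun j => ?_⟩
    · obtain ⟨k, rfl⟩ := exists_hiIdx j hj
      rw [dvd_iff_remI_eq_zero hq hI, remI_eq_zero_iff_forall_coeff hq hI hdeg]
      intro n hn
      have := congrFun h (Sum.inl (k, ⟨n, hn⟩))
      rwa [remMat_mulVec_inl] at this
    · rw [dvd_iff_remI_eq_zero (hqj j) hI, remI_eq_zero_iff_forall_coeff (hqj j) hI (hdegj j)]
      intro n hn
      have := congrFun h (Sum.inr (j, ⟨n, hn⟩))
      rwa [remMat_mulVec_inr] at this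
  · rintro ⟨h1, h2⟩
    ext (p | p)
    · rw [remMat_mulVec_inl]
      have := (dvd_iff_remI_eq_zero hq hI _).mp (h1 _ (le_hiIdx p.1))
      rw [this]
      simp
    · rw [remMat_mulVec_inr]
      have := (dvd_iff_remI_eq_zero (hqj p.1) hI _).mp (h2 p.1)
      rw [this]
      simp

/-- the remainder matrix is congruent to the truncation matrix modulo `I`. -/
theorem remMat_sub_truncMat_mem (hI : I ≠ ⊤) (hdeg : q.natDegree = 2 * g)
    (hdegj : ∀ j, (qj j).natDegree = 2 * g - 1) (e : EqIdx g d) (i : ι) :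
    (remMat hgd E hq hqj - truncMat hgd E) e i ∈ I := by
  rcases e with p | p
  · simp only [Matrix.sub_apply, remMat, truncMat, Matrix.of_apply, Sum.elim_inl]
    exact coeff_remI_sub_coeff_mem hq hI _ (by rw [hdeg]; exact p.2.isLt)
  · simp only [Matrix.sub_apply, remMat, truncMat, Matrix.of_apply, Sum.elim_inr]
    exact coeff_remI_sub_coeff_mem (hqj p.1) hI _ (by rw [hdegj]; exact p.2.isLt)

end Rem

end Fermat.Agent.FF.CoreAlg7
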