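/-
Programme FF (S19), chapter A3 (helper7): core algebra in COORDINATES, the main theorem.

`W` local, `E₀ : Fin d → ι → W⟦X⟧` the expansions of a basis, `u₀` the distinguished vector,
closed-fibre hypothesis over the residue field.  For every ring map `f : W → B` (`B` nontrivial)
and nilpotent `x x' : Fin g → B`, the solutions `z : ι → B` of the divisibility conditions are the
multiples of one `z ≡ u₀` modulo the ideal of the coordinates, and the quotients have the expected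
shape.
-/
import Fermat.Agent.FF.CoreAlg7F

set_option autoImplicit false
set_option linter.unusedSectionVars false

open PowerSeries Matrix IsLocalRing

namespace Fermat.Agent.FF.CoreAlg7

section Core

variable {W : Type*} [CommRing W] [IsLocalRing W]
variable {ι : Type*} [Fintype ι] [DecidableEq ι] {g d : ℕ}

/-- the divisibility conditions in coordinates. -/
def CoordCond {B : Type*} [CommRing B] (hgd : g ≤ d) (E : Fin d → ι → B⟦X⟧) (x x' : Fin g → B)
    (z : ι → B) : Prop :=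
  (∀ j : Fin d, g ≤ j.val → (qP x x' : B⟦X⟧) ∣ ser E j z) ∧
    ∀ j : Fin g, (qjP x x' j : B⟦X⟧) ∣ ser E (Fin.castLE hgd j) z

theorem core_coordinates (hgd : g ≤ d) (E₀ : Fin d → ι → W⟦X⟧) (u₀ : ι → W)
    (hcard : Fintype.card ι + g = 2 * g * d + 1)
    (hu₀ : ∀ j, ∃ c : W⟦X⟧ˣ, ser E₀ j u₀ = (X : W⟦X⟧) ^ (2 * g) * c)
    (hcf : ∀ w : ι → ResidueField W,
      (∀ j : Fin d, g ≤ j.val →
        (X : (ResidueField W)⟦X⟧) ^ (2 * g) ∣ ser (fun j i => (E₀ j i).map (residue W)) j w) →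
      (∀ j : Fin g, (X : (ResidueField W)⟦X⟧) ^ (2 * g - 1) ∣
        ser (fun j i => (E₀ j i).map (residue W)) (Fin.castLE hgd j) w) →
      ∃ c : ResidueField W, w = c • redVec u₀)
    {B : Type*} [CommRing B] [Nontrivial B] (f : W →+* B) (x x' : Fin g → B)
    (hx : ∀ i, IsNilpotent (x i)) (hx' : ∀ i, IsNilpotent (x' i)) :
    ∃ (z : ι → B) (F : Fin g → B),
      (∀ j, F j ∈ cI x x') ∧ (∀ i, z i - f (u₀ i) ∈ cI x x') ∧
      CoordCond hgd (fun j i => (E₀ j i).map f) x x' z ∧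
      (∀ z', CoordCond hgd (fun j i => (E₀ j i).map f) x x' z' → ∃ c : B, z' = c • z) ∧
      (∀ j : Fin g, ∃ c : B⟦X⟧ˣ, ser (fun j i => (E₀ j i).map f) (Fin.castLE hgd j) z =
        (qjP x x' j : B⟦X⟧) * ((X : B⟦X⟧) - C (F j)) * c) ∧
      (∀ j : Fin d, g ≤ j.val → ∃ c : B⟦X⟧ˣ,
        ser (fun j i => (E₀ j i).map f) j z = (qP x x' : B⟦X⟧) * c) := by
  classical
  set I : Ideal B := cI x x' with hIdef
  obtain ⟨N, hN⟩ := exists_cI_pow_eq_bot x x' hx hx'
  have : IsAdicComplete I B := isAdicComplete_of_pow_eq_bot hN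
  have hIjac : I ≤ Ideal.jacobson ⊥ := cI_le_jacobson x x' hx hx'
  have hItop : I ≠ ⊤ := ne_top_of_le_jacobson hIjac
  have hq : (qP x x').IsDistinguishedAt I :=
    isDistinguishedAt_qP x x' (mem_cI_left x x') (mem_cI_right x x')
  have hqj : ∀ j, (qjP x x' j).IsDistinguishedAt I := fun j =>
    isDistinguishedAt_qjP x x' (mem_cI_left x x') (mem_cI_right x x') j
  have hdeg : (qP x x').natDegree = 2 * g := natDegree_qP x x'
  have hdegj : ∀ j, (qjP x x' j).natDegree = 2 * g - 1 := natDegree_qjP x x'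
  -- the level of `W`
  set M₀ : Matrix (EqIdx g d) ι W := truncMat hgd E₀ with hM₀
  have hMu : M₀ *ᵥ u₀ = 0 := by
    refine (truncMat_mulVec_eq_zero_iff hgd E₀ u₀).mpr ⟨fun j _ => ?_, fun j => ?_⟩
    · obtain ⟨c, hc⟩ := hu₀ j
      rw [hc]
      exact Dvd.intro _ rfl
    · obtain ⟨c, hc⟩ := hu₀ (Fin.castLE hgd j)
      rw [hc]
      exact (pow_dvd_pow X (Nat.sub_le _ _)).trans (Dvd.intro _ rfl)
  have hcard' : Fintype.card ι = Fintype.card (EqIdx g d) + 1 := by
    have := card_eqIdx hgd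
    omega
  have hcf' : ∀ w : ι → ResidueField W, (M₀.map (residue W)) *ᵥ w = 0 →
      ∃ c : ResidueField W, w = c • redVec u₀ := by
    intro w hw
    rw [hM₀, truncMat_map, truncMat_mulVec_eq_zero_iff] at hw
    exact hcf w hw.1 hw.2
  have hu0ne : redVec u₀ ≠ 0 := by
    have hk : LinearMap.ker (M₀.map (residue W)).mulVecLin ≠ ⊥ :=
      LinearMap.ker_ne_bot_of_finrank_lt (by simp [hcard'])
    obtain ⟨w, hw, hw0⟩ := Submodule.exists_mem_ne_zero_of_ne_bot hk
    obtain ⟨c, hc⟩ := hcf' w (by simpa using hw)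
    intro h0
    apply hw0
    rw [hc, h0, smul_zero]
  obtain ⟨S₀, lam₀, i₀, hMS, hker, hi₀⟩ :=
    exists_splitting_of_closedFibre M₀ u₀ hMu hcard' hu0ne hcf'
  -- the level of `B`
  set E : Fin d → ι → B⟦X⟧ := fun j i => (E₀ j i).map f with hE
  have hM₀B : M₀.map f = truncMat hgd E := truncMat_map f hgd E₀
  set M : Matrix (EqIdx g d) ι B := remMat hgd E hq hqj with hM
  have hMSB : M₀.map f * S₀.map f = 1 := by
    rw [← Matrix.map_mul, hMS, Matrix.map_one _ (map_zero f) (map_one f)]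
  have hkerB : 1 - S₀.map f * M₀.map f = vecMulVec (f ∘ u₀) (f ∘ lam₀) := by
    rw [← Matrix.map_mul]
    ext a b
    have h := congrArg f (congrFun (congrFun hker a) b)
    simp only [Matrix.sub_apply, vecMulVec_apply, map_sub, map_mul] at h
    simp only [Matrix.sub_apply, vecMulVec_apply, Matrix.map_apply, Function.comp]
    rw [← h]
    by_cases hab : a = b
    · subst hab; simp
    · simp [Matrix.one_apply_ne hab]
  have hMuB : M₀.map f *ᵥ (f ∘ u₀) = 0 := by
    ext e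
    rw [← RingHom.map_mulVec, hMu]
    simp
  have hpert : ∀ e i, (M - M₀.map f) e i ∈ I := by
    intro e i
    rw [hM₀B]
    exact remMat_sub_truncMat_mem hgd E hq hqj hItop hdeg hdegj e i
  obtain ⟨-, u, hu, huu₀, hgen, -⟩ :=
    exists_kernel_generator_of_perturbation hIjac (M₀.map f) M (S₀.map f) (f ∘ u₀) (f ∘ lam₀)
      hMSB hkerB hMuB hpert i₀ (hi₀.map f)
  have hcond : CoordCond hgd E x x' u :=
    (remMat_mulVec_eq_zero_iff hgd E hq hqj hItop hdeg hdegj u).mp hu
  -- the congruence `ser E j u ≡ X ^ (2 g) * c₀`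
  choose c₀ hc₀ using hu₀
  have hserB : ∀ j, ser E j (f ∘ u₀) = (X : B⟦X⟧) ^ (2 * g) * (c₀ j : W⟦X⟧).map f := by
    intro j
    have := map_ser f E₀ j u₀
    rw [hc₀ j, map_mul, map_pow, map_X] at this
    rw [this]
    rfl
  have hcong : ∀ j n, coeff n (ser E j u) - coeff n ((X : B⟦X⟧) ^ (2 * g) *
      (c₀ j : W⟦X⟧).map f) ∈ I := by
    intro j n
    rw [← hserB j, ← map_sub, ← ser_sub, coeff_ser]
    exact Ideal.sum_mem _ fun i _ => Ideal.mul_mem_left _ _ (huu₀ i)
  have hunit₀ : ∀ j, IsUnit (f (coeff 0 (c₀ j : W⟦X⟧))) := by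
    intro j
    apply IsUnit.map
    have : IsUnit ((c₀ j : W⟦X⟧)) := (c₀ j).isUnit
    rw [isUnit_iff_constantCoeff] at this
    simpa using this
  have hcoeff2g : ∀ j, coeff (2 * g) ((X : B⟦X⟧) ^ (2 * g) * (c₀ j : W⟦X⟧).map f) =
      f (coeff 0 (c₀ j : W⟦X⟧)) := by
    intro j
    have := coeff_X_pow_mul ((c₀ j : W⟦X⟧).map f) (2 * g) 0
    rw [zero_add] at this
    rw [this, coeff_map]
  -- the shape on the discs `j ≥ g`
  have hhigh : ∀ j : Fin d, g ≤ j.val → ∃ c : B⟦X⟧ˣ, ser E j u = (qP x x' : B⟦X⟧) * c := by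
    intro j hj
    obtain ⟨c, hc⟩ := hcond.1 j hj
    have h1 := coeff_distinguished_mul_sub_mem hq c 0
    rw [hdeg, add_zero, ← hc] at h1
    have h2 := hcong j (2 * g)
    rw [hcoeff2g] at h2
    have h3 : coeff 0 c - f (coeff 0 (c₀ j : W⟦X⟧)) ∈ I := by
      have := I.sub_mem h2 h1
      convert this using 1
      ring
    have hcu : IsUnit c := by
      rw [isUnit_iff_constantCoeff]
      exact isUnit_of_sub_mem_jacobson hIjac (hunit₀ j) (by simpa using h3)
    obtain ⟨cu, rfl⟩ := hcu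
    exact ⟨cu, hc⟩
  -- the shape on the discs `j < g`
  have hlow : ∀ j : Fin g, ∃ F ∈ I, ∃ c : B⟦X⟧ˣ, ser E (Fin.castLE hgd j) u =
      (qjP x x' j : B⟦X⟧) * ((X : B⟦X⟧) - C F) * c := by
    intro j
    have hgpos : 0 < g := j.pos
    obtain ⟨v, hv⟩ := hcond.2 j
    have h0 : coeff 0 v ∈ I := by
      have h1 := coeff_distinguished_mul_sub_mem (hqj j) v 0
      rw [hdegj, add_zero, ← hv] at h1
      have h2 := hcong (Fin.castLE hgd j) (2 * g - 1)
      have h3 : coeff (2 * g - 1) ((X : B⟦X⟧) ^ (2 * g) *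
          (c₀ (Fin.castLE hgd j) : W⟦X⟧).map f) = 0 := by
        rw [coeff_X_pow_mul', if_neg (by omega)]
      rw [h3, sub_zero] at h2
      have := I.sub_mem h2 h1
      convert this using 1
      ring
    have h1 : IsUnit (coeff 1 v) := by
      have h1 := coeff_distinguished_mul_sub_mem (hqj j) v 1
      rw [hdegj, ← hv] at h1
      have h21 : 2 * g - 1 + 1 = 2 * g := by omega
      rw [h21] at h1
      have h2 := hcong (Fin.castLE hgd j) (2 * g)
      rw [hcoeff2g] at h2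
      have h3 : coeff 1 v - f (coeff 0 (c₀ (Fin.castLE hgd j) : W⟦X⟧)) ∈ I := by
        have := I.sub_mem h2 h1
        convert this using 1
        ring
      exact isUnit_of_sub_mem_jacobson hIjac (hunit₀ _) h3
    obtain ⟨F, hF, c, hc⟩ := exists_linear_factor hIjac v h0 h1
    refine ⟨F, hF, c, ?_⟩
    rw [hv, hc, mul_assoc]
  choose F hF hFc using hlow
  refine ⟨u, F, hF, huu₀, hcond, ?_, hFc, hhigh⟩
  intro z' hz'
  exact hgen z' ((remMat_mulVec_eq_zero_iff hgd E hq hqj hItop hdeg hdegj z').mpr hz')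

end Core

end Fermat.Agent.FF.CoreAlg7
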