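/-
Programme FF (S19), chapter A3 (helper7): the core algebra theorem in the tensor-product interface
of `CoreIface8`:

`exists_coreOutput`: `W` local, `D : CoreData W V g d` with the closed-fibre hypothesis over the
residue field; then for every `W`-algebra `B` and nilpotent `x x' : Fin g → B` there is a
`CoreOutput D B x x'`.
-/
import Fermat.Agent.FF.CoreAlg7G
import Fermat.Agent.FF.CoreIface8

set_option autoImplicit false
set_option linter.unusedSectionVars false

open scoped TensorProduct
open PowerSeries IsLocalRing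

namespace Fermat.Agent.FF.CoreAlg7

open Fermat.Agent.FF.CoreIface8

universe u v w

section Coe

variable {B : Type*} [CommRing B] {g : ℕ}

theorem coe_qP (x x' : Fin g → B) : ((qP x x' : Polynomial B) : B⟦X⟧) = qPoly x x' := by
  rw [qP, qPoly, ← Polynomial.coeToPowerSeries.ringHom_apply, map_prod]
  refine Finset.prod_congr rfl fun i _ => ?_
  simp

theorem coe_qjP (x x' : Fin g → B) (j : Fin g) :
    ((qjP x x' j : Polynomial B) : B⟦X⟧) = qjPoly x x' j := by
  rw [qjP, qjPoly, Polynomial.coe_mul, Polynomial.coe_X,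
    ← Polynomial.coeToPowerSeries.ringHom_apply, map_prod]
  congr 1
  refine Finset.prod_congr rfl fun i _ => ?_
  simp

theorem qPoly_zero : qPoly (fun _ : Fin g => (0 : B)) (fun _ => 0) = (X : B⟦X⟧) ^ (2 * g) := by
  simp [qPoly, ← pow_two, ← pow_mul]

theorem qjPoly_zero (j : Fin g) :
    qjPoly (fun _ : Fin g => (0 : B)) (fun _ => 0) j = (X : B⟦X⟧) ^ (2 * g - 1) := by
  have hg : 0 < g := j.pos
  simp only [qjPoly, map_zero, sub_zero, Finset.prod_const,
    Finset.card_erase_of_mem (Finset.mem_univ j), Finset.card_univ, Fintype.card_fin]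
  rw [← pow_two, ← pow_mul, ← pow_succ']
  congr 1
  omega

theorem cI_eq_coordIdeal (x x' : Fin g → B) : cI x x' = coordIdeal x x' := rfl

end Coe

section Translate

variable {W : Type u} {V : Type v} [CommRing W] [AddCommGroup V] [Module W V] {g d : ℕ}
variable {ι : Type*} [Fintype ι] (b : Module.Basis ι W V)

/-- the expansions of the basis vectors. -/
noncomputable def expFam (D : CoreData W V g d) (b : Module.Basis ι W V) :
    Fin d → ι → W⟦X⟧ := fun j i => D.ε j (b i)

theorem ser_expFam (D : CoreData W V g d) (j : Fin d) (v : V) :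
    ser (expFam D b) j (b.equivFun v) = D.ε j v := by
  have h : D.ε j v = D.ε j (∑ i, b.equivFun v i • b i) := by rw [b.sum_equivFun]
  rw [h, map_sum]
  simp [ser, expFam]

variable (B : Type w) [CommRing B] [Algebra W B]

theorem epsB_eq_ser (D : CoreData W V g d) (j : Fin d) (u : B ⊗[W] V) :
    epsB D B j u = ser (fun j i => (expFam D b j i).map (algebraMap W B)) j
      ((b.baseChange B).equivFun u) := by
  conv_lhs => rw [← (b.baseChange B).sum_equivFun u]
  rw [map_sum, ser]
  refine Finset.sum_congr rfl fun i _ => ?_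
  rw [map_smul, Module.Basis.baseChange_apply, epsB_tmul, one_smul, expFam]

theorem epsB_equivFun_symm (D : CoreData W V g d) (j : Fin d) (z : ι → B) :
    epsB D B j ((b.baseChange B).equivFun.symm z) =
      ser (fun j i => (expFam D b j i).map (algebraMap W B)) j z := by
  rw [epsB_eq_ser b, LinearEquiv.apply_symm_apply]

theorem kerCond_iff_coordCond [DecidableEq ι] (D : CoreData W V g d) (x x' : Fin g → B)
    (u : B ⊗[W] V) :
    KerCond D x x' u ↔ CoordCond D.hgd (fun j i => (expFam D b j i).map (algebraMap W B)) x x'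
      ((b.baseChange B).equivFun u) := by
  unfold KerCond CoordCond
  simp only [coe_qP, coe_qjP, epsB_eq_ser b]

theorem equivFun_one_tmul (v : V) (i : ι) :
    (b.baseChange B).equivFun ((1 : B) ⊗ₜ[W] v) i = algebraMap W B (b.equivFun v i) := by
  simp [Module.Basis.equivFun_apply, Algebra.algebraMap_eq_smul_one]

end Translate

section Main

variable {W : Type u} {V : Type v} [CommRing W] [AddCommGroup V] [Module W V] {g d : ℕ}

/-- the trivial case. -/
noncomputable def coreOutputOfSubsingleton (D : CoreData W V g d) (B : Type w) [CommRing B]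
    [Algebra W B] [Subsingleton B] (x x' : Fin g → B) : CoreOutput D B x x' :=
  haveI : Subsingleton (B ⊗[W] V) := Module.subsingleton B _
  { u := 0
    F := 0
    hF := fun j => by simp
    hu := ⟨fun j _ => ⟨0, Subsingleton.elim _ _⟩, fun j => ⟨0, Subsingleton.elim _ _⟩⟩
    hu₀ := by
      rw [Subsingleton.elim (0 - (1 : B) ⊗ₜ[W] D.u₀) 0]
      exact zero_mem _
    span := fun u' _ => ⟨0, Subsingleton.elim _ _⟩
    low := fun j => ⟨1, Subsingleton.elim _ _⟩
    high := fun j _ => ⟨1, Subsingleton.elim _ _⟩ }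

/-- **Chapter A3.** -/
theorem exists_coreOutput [IsLocalRing W] (D : CoreData W V g d)
    (hcf : ClosedFibre D (ResidueField W)) (B : Type w) [CommRing B] [Algebra W B]
    (x x' : Fin g → B) (hx : ∀ i, IsNilpotent (x i)) (hx' : ∀ i, IsNilpotent (x' i)) :
    Nonempty (CoreOutput D B x x') := by
  classical
  rcases subsingleton_or_nontrivial B with hB | hB
  · exact ⟨coreOutputOfSubsingleton D B x x'⟩
  have := D.free
  have := D.finite
  let ι := Module.Free.ChooseBasisIndex W V
  let b : Module.Basis ι W V := Module.Free.chooseBasis W V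
  have hcard : Fintype.card ι + g = 2 * g * d + 1 := by
    rw [← Module.finrank_eq_card_chooseBasisIndex]
    exact D.rank_add
  set E₀ := expFam D b with hE₀
  set u₀ : ι → W := b.equivFun D.u₀ with hu₀def
  have hu₀ : ∀ j, ∃ c : W⟦X⟧ˣ, ser E₀ j u₀ = (X : W⟦X⟧) ^ (2 * g) * c := by
    intro j
    obtain ⟨c, hc⟩ := D.hu₀ j
    exact ⟨c, by rw [hE₀, hu₀def, ser_expFam, hc]⟩
  -- the closed fibre
  have hcf' : ∀ w : ι → ResidueField W,
      (∀ j : Fin d, g ≤ j.val →
        (X : (ResidueField W)⟦X⟧) ^ (2 * g) ∣ ser (fun j i => (E₀ j i).map (residue W)) j w) →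
      (∀ j : Fin g, (X : (ResidueField W)⟦X⟧) ^ (2 * g - 1) ∣
        ser (fun j i => (E₀ j i).map (residue W)) (Fin.castLE D.hgd j) w) →
      ∃ c : ResidueField W, w = c • redVec u₀ := by
    intro w h1 h2
    set uκ : ResidueField W ⊗[W] V := (b.baseChange (ResidueField W)).equivFun.symm w with huκ
    have hker : KerCond D (B := ResidueField W) (fun _ => 0) (fun _ => 0) uκ := by
      refine ⟨fun j hj => ?_, fun j => ?_⟩
      · rw [qPoly_zero, huκ, epsB_equivFun_symm b]
        exact h1 j hj
      · rw [qjPoly_zero, huκ, epsB_equivFun_symm b]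
        exact h2 j
    obtain ⟨c, hc⟩ := hcf uκ hker
    refine ⟨c, ?_⟩
    have h3 : w = (b.baseChange (ResidueField W)).equivFun uκ := by
      rw [huκ, LinearEquiv.apply_symm_apply]
    rw [h3, hc, map_smul]
    congr 1
    ext i
    rw [equivFun_one_tmul, ResidueField.algebraMap_eq]
    rfl
  obtain ⟨z, F, hF, hz, hcond, hspan, hlow, hhigh⟩ :=
    core_coordinates D.hgd E₀ u₀ hcard hu₀ hcf' (algebraMap W B) x x' hx hx'
  set bB := b.baseChange B with hbB
  refine ⟨{ u := bB.equivFun.symm z, F := F, hF := hF, hu := ?_, hu₀ := ?_, span := ?_,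
            low := ?_, high := ?_ }⟩
  · rw [kerCond_iff_coordCond b, LinearEquiv.apply_symm_apply]
    exact hcond
  · have h1 : bB.equivFun.symm z - (1 : B) ⊗ₜ[W] D.u₀ =
        ∑ i, (z i - algebraMap W B (u₀ i)) • bB i := by
      apply bB.equivFun.injective
      ext i
      rw [map_sub, LinearEquiv.apply_symm_apply, Pi.sub_apply, equivFun_one_tmul, map_sum,
        Finset.sum_apply]
      simp [hu₀def, Module.Basis.equivFun_apply, Finsupp.single_apply]
    rw [h1]
    exact Submodule.sum_mem _ fun i _ => Submodule.smul_mem_smul (hz i) Submodule.mem_top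
  · intro u' hu'
    rw [kerCond_iff_coordCond b] at hu'
    obtain ⟨c, hc⟩ := hspan _ hu'
    refine ⟨c, ?_⟩
    apply bB.equivFun.injective
    rw [map_smul, LinearEquiv.apply_symm_apply, hc]
  · intro j
    obtain ⟨c, hc⟩ := hlow j
    refine ⟨c, ?_⟩
    rw [epsB_equivFun_symm b, hc, coe_qjP]
  · intro j hj
    obtain ⟨c, hc⟩ := hhigh j hj
    refine ⟨c, ?_⟩
    rw [epsB_equivFun_symm b, hc, coe_qP]

end Main

end Fermat.Agent.FF.CoreAlg7
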