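/-
Programme FF (S19), chapter C0.1b (lead): Artin-type descent. Functions `M → K̄` that are equivariant for
a group `Γ` acting on `M` and on `K̄` with fixed field `K`, and linearly independent over `K`, are
linearly independent over `K̄`.
-/
import Mathlib

set_option autoImplicit false

namespace Fermat.Agent.FF.HopfOrderB

variable {K Kbar : Type*} [Field K] [Field Kbar] [Algebra K Kbar]
variable {Γ : Type*} [Group Γ] [MulSemiringAction Γ Kbar]
variable {M : Type*} [MulAction Γ M]

/-- `f (σ • m) = σ • f m`. -/
def IsEquivariantFun (Γ : Type*) [Group Γ] [MulSemiringAction Γ Kbar] [MulAction Γ M]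
    (f : M → Kbar) : Prop :=
  ∀ (σ : Γ) (m : M), f (σ • m) = σ • f m

theorem sum_smul_equivariant {ι : Type*} (f : ι → M → Kbar)
    (hf : ∀ i, IsEquivariantFun Γ (f i)) (s : Finset ι) (c : ι → Kbar)
    (hc : ∑ i ∈ s, c i • f i = 0) (σ : Γ) : ∑ i ∈ s, (σ • c i) • f i = 0 := by
  funext m
  have h1 := congrFun hc (σ⁻¹ • m)
  simp only [Finset.sum_apply, Pi.smul_apply, smul_eq_mul, Pi.zero_apply] at h1 ⊢
  have h2 := congrArg (fun x => σ • x) h1
  simp only [smul_zero, Finset.smul_sum, smul_mul'] at h2
  rw [← h2]
  apply Finset.sum_congr rfl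
  intro i _
  rw [← hf i σ (σ⁻¹ • m), smul_inv_smul]

theorem linearIndependent_of_equivariant
    (hfix : ∀ x : Kbar, (∀ σ : Γ, σ • x = x) → x ∈ (algebraMap K Kbar).range)
    {ι : Type*} (f : ι → M → Kbar) (hf : ∀ i, IsEquivariantFun Γ (f i))
    (hK : LinearIndependent K f) : LinearIndependent Kbar f := by
  classical
  rw [linearIndependent_iff']
  -- strong induction on the cardinality of the support
  suffices H : ∀ n : ℕ, ∀ s : Finset ι, s.card = n → ∀ c : ι → Kbar,
      ∑ i ∈ s, c i • f i = 0 → ∀ i ∈ s, c i = 0 from fun s c hc i hi => H s.card s rfl c hc i hi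
  intro n
  induction n using Nat.strong_induction_on with
  | _ n ih =>
    intro s hs c hc
    by_contra hne
    push Not at hne
    obtain ⟨i0, hi0, hci0⟩ := hne
    -- normalise
    set c' : ι → Kbar := fun i => c i / c i0 with hc'
    have hc'0 : c' i0 = 1 := by simp [hc', hci0]
    have hrel : ∑ i ∈ s, c' i • f i = 0 := by
      have : ∑ i ∈ s, c' i • f i = (c i0)⁻¹ • ∑ i ∈ s, c i • f i := by
        rw [Finset.smul_sum]
        apply Finset.sum_congr rfl
        intro i _
        rw [smul_smul, hc']
        congr 1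
        field_simp
      rw [this, hc, smul_zero]
    -- all c' i are fixed
    have hfixed : ∀ i ∈ s, ∀ σ : Γ, σ • c' i = c' i := by
      intro i hi σ
      have h1 := sum_smul_equivariant f hf s c' hrel σ
      have h2 : ∑ j ∈ s.erase i0, (σ • c' j - c' j) • f j = 0 := by
        have h3 : ∑ j ∈ s, (σ • c' j - c' j) • f j = 0 := by
          simp only [sub_smul, Finset.sum_sub_distrib, h1, hrel, sub_zero]
        rw [← Finset.add_sum_erase s _ hi0] at h3
        simpa [hc'0] using h3
      have hcard : (s.erase i0).card < n := by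
        rw [Finset.card_erase_of_mem hi0, hs]
        have : 0 < s.card := Finset.card_pos.2 ⟨i0, hi0⟩
        omega
      have h4 := ih _ hcard (s.erase i0) rfl (fun j => σ • c' j - c' j) h2
      by_cases hii : i = i0
      · subst hii
        simp [hc'0]
      · exact sub_eq_zero.1 (h4 i (Finset.mem_erase.2 ⟨hii, hi⟩))
    -- descend to K
    have hK' : ∀ i ∈ s, ∃ k : K, algebraMap K Kbar k = c' i := fun i hi =>
      hfix (c' i) (hfixed i hi)
    choose! k hk using hK'
    have hrelK : ∑ i ∈ s, k i • f i = 0 := by
      rw [← hrel]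
      apply Finset.sum_congr rfl
      intro i hi
      funext m
      simp only [Pi.smul_apply]
      rw [Algebra.smul_def, hk i hi, smul_eq_mul]
    have hk0 := (linearIndependent_iff'.1 hK) s k hrelK i0 hi0
    have : algebraMap K Kbar (k i0) = 1 := by rw [hk i0 hi0, hc'0]
    rw [hk0, map_zero] at this
    exact zero_ne_one this

end Fermat.Agent.FF.HopfOrderB
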