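/-
Programme FF (S19), chapter C0.1a (lead): function algebras on a finite set, evaluation maps of tensor
powers of a subalgebra `H ⊆ (M → K̄)`, and their injectivity from linear independence over `K̄`.
-/
import Mathlib

set_option autoImplicit false

open scoped TensorProduct

namespace Fermat.Agent.FF.HopfOrderA

noncomputable section

variable {R : Type*} [CommRing R]
variable {Kbar : Type*} [Field Kbar] [Algebra R Kbar]

/-- Products of two linearly independent families of functions are linearly independent as functions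
on the product. -/
theorem linearIndependent_mul_fun {X Y ι κ : Type*} (f : ι → X → Kbar) (g : κ → Y → Kbar)
    (hf : LinearIndependent Kbar f) (hg : LinearIndependent Kbar g) :
    LinearIndependent Kbar (fun p : ι × κ => fun q : X × Y => f p.1 q.1 * g p.2 q.2) := by
  classical
  rw [linearIndependent_iff'] at hf hg ⊢
  intro s c hc p hp
  -- enlarge `s` to a product
  set s₁ := s.image Prod.fst
  set s₂ := s.image Prod.snd
  let c' : ι × κ → Kbar := fun p => if p ∈ s then c p else 0
  have hsum : ∀ q : X × Y, ∑ i ∈ s₁, ∑ j ∈ s₂, c' (i, j) * (f i q.1 * g j q.2) = 0 := by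
    intro q
    have h1 := congrFun hc q
    simp only [Finset.sum_apply, Pi.smul_apply, smul_eq_mul, Pi.zero_apply] at h1
    rw [← Finset.sum_product']
    rw [← h1]
    symm
    apply Finset.sum_subset_zero_on_sdiff
    · intro x hx
      exact Finset.mem_product.2 ⟨Finset.mem_image_of_mem _ hx, Finset.mem_image_of_mem _ hx⟩
    · intro x hx
      have : x ∉ s := (Finset.mem_sdiff.1 hx).2
      simp [c', this]
    · intro x hx
      simp [c', hx]
  -- fix `y`, use independence of `f`
  have h2 : ∀ y : Y, ∀ i ∈ s₁, ∑ j ∈ s₂, c' (i, j) * g j y = 0 := by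
    intro y
    apply hf s₁ (fun i => ∑ j ∈ s₂, c' (i, j) * g j y)
    funext x
    have := hsum (x, y)
    simp only [Finset.sum_apply, Pi.smul_apply, smul_eq_mul, Pi.zero_apply]
    rw [← this]
    apply Finset.sum_congr rfl
    intro i _
    rw [Finset.sum_mul]
    apply Finset.sum_congr rfl
    intro j _
    ring
  have h3 : ∀ i ∈ s₁, ∀ j ∈ s₂, c' (i, j) = 0 := by
    intro i hi
    apply hg s₂ (fun j => c' (i, j))
    funext y
    have := h2 y i hi
    simpa [Finset.sum_apply, Pi.smul_apply, smul_eq_mul] using this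
  have := h3 p.1 (Finset.mem_image_of_mem _ hp) p.2 (Finset.mem_image_of_mem _ hp)
  simpa [c', hp] using this


/-- A representation `φ : A →ₐ[R] (X → K̄)` of an `R`-algebra by functions is *independent* if `A` has
a finite `R`-basis whose image is linearly independent over `K̄`. -/
def IsIndepRep {A : Type*} [CommRing A] [Algebra R A] {X : Type*} (φ : A →ₐ[R] (X → Kbar)) : Prop :=
  ∃ (n : ℕ) (b : Module.Basis (Fin n) R A), LinearIndependent Kbar (fun i => φ (b i))

theorem IsIndepRep.injective [FaithfulSMul R Kbar] {A : Type*} [CommRing A] [Algebra R A] {X : Type*}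
    {φ : A →ₐ[R] (X → Kbar)} (h : IsIndepRep φ) : Function.Injective φ := by
  obtain ⟨n, b, hli⟩ := h
  have hliR : LinearIndependent R (fun i => φ (b i)) := hli.restrict_scalars' R
  rw [injective_iff_map_eq_zero]
  intro a ha
  have h1 : a = ∑ i, b.repr a i • b i := (b.sum_repr a).symm
  rw [h1, map_sum] at ha
  simp only [map_smul] at ha
  have h2 := (Fintype.linearIndependent_iff.1 hliR) (fun i => b.repr a i) ha
  rw [h1]
  simp [h2]

/-- The representation of `A ⊗ B` on `X × Y`. -/
def prodRep {A B : Type*} [CommRing A] [Algebra R A] [CommRing B] [Algebra R B] {X Y : Type*}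
    (φ : A →ₐ[R] (X → Kbar)) (ψ : B →ₐ[R] (Y → Kbar)) : A ⊗[R] B →ₐ[R] (X × Y → Kbar) :=
  Algebra.TensorProduct.productMap
    ((AlgHom.pi (fun p : X × Y => (Pi.evalAlgHom R (fun _ : X => Kbar) p.1))).comp φ)
    ((AlgHom.pi (fun p : X × Y => (Pi.evalAlgHom R (fun _ : Y => Kbar) p.2))).comp ψ)

@[simp]
theorem prodRep_tmul {A B : Type*} [CommRing A] [Algebra R A] [CommRing B] [Algebra R B] {X Y : Type*}
    (φ : A →ₐ[R] (X → Kbar)) (ψ : B →ₐ[R] (Y → Kbar)) (a : A) (b : B) (p : X × Y) :
    prodRep φ ψ (a ⊗ₜ b) p = φ a p.1 * ψ b p.2 := by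
  simp [prodRep]

theorem IsIndepRep.prod {A B : Type*} [CommRing A] [Algebra R A] [CommRing B] [Algebra R B] {X Y : Type*}
    {φ : A →ₐ[R] (X → Kbar)} {ψ : B →ₐ[R] (Y → Kbar)} (hφ : IsIndepRep φ) (hψ : IsIndepRep ψ) :
    IsIndepRep (prodRep φ ψ) := by
  obtain ⟨n, b, hb⟩ := hφ
  obtain ⟨m, c, hc⟩ := hψ
  refine ⟨n * m, (b.tensorProduct c).reindex finProdFinEquiv, ?_⟩
  have h1 := linearIndependent_mul_fun (fun i => φ (b i)) (fun j => ψ (c j)) hb hc
  have h2 : (fun i => prodRep φ ψ (((b.tensorProduct c).reindex finProdFinEquiv) i)) =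
      (fun p : Fin n × Fin m => fun q : X × Y => φ (b p.1) q.1 * ψ (c p.2) q.2) ∘ finProdFinEquiv.symm := by
    funext i q
    simp [Module.Basis.tensorProduct_apply]
  rw [h2]
  exact h1.comp _ finProdFinEquiv.symm.injective


end

end Fermat.Agent.FF.HopfOrderA
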