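/-
Programme FF (S19), chapter C0.1c (lead): from natural hypotheses on an order `H ⊆ (M → K̄)` of
equivariant functions to the inputs of the abstract Hopf-order criterion (chapter C0.2):
* `HasCoprod H h` : `h (z + z') = ∑ i, a i z * b i z'` with `a i, b i ∈ H`; it is enough to check it on
  algebra generators (`hasCoprod_of_adjoin`);
* closure of `H` under `h ↦ h ∘ (k • ·)` and under `h ↦ h ∘ neg` (`comp_nsmul_mem`, `comp_neg_mem`);
* `h 0 ∈ range (algebraMap R K̄)` from the fixed field and integral closedness (`eval_zero_mem_range`);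
* a finite basis of `H` with at most `#M` elements, linearly independent over `K̄`
  (`exists_basis_card_le`).
-/
import Mathlib
import Fermat.Agent.FF.HopfOrderA
import Fermat.Agent.FF.HopfOrderB

set_option autoImplicit false

namespace Fermat.Agent.FF.HopfOrderC

open Fermat.Agent.FF.HopfOrderB

section Coprod

variable {R : Type*} [CommRing R]
variable {Kbar : Type*} [Field Kbar] [Algebra R Kbar]
variable {M : Type*} [AddCommGroup M]

/-- `h (z + z') = ∑ i, a i z * b i z'` with all `a i`, `b i` in `H`. -/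
def HasCoprod (H : Subalgebra R (M → Kbar)) (h : M → Kbar) : Prop :=
  ∃ (ι : Type) (_ : Fintype ι) (a b : ι → M → Kbar), (∀ i, a i ∈ H) ∧ (∀ i, b i ∈ H) ∧
    ∀ z z', h (z + z') = ∑ i, a i z * b i z'

variable {H : Subalgebra R (M → Kbar)}

theorem hasCoprod_algebraMap (r : R) : HasCoprod H (algebraMap R (M → Kbar) r) := by
  refine ⟨Unit, inferInstance, fun _ => algebraMap R (M → Kbar) r, fun _ => 1,
    fun _ => H.algebraMap_mem r, fun _ => H.one_mem, ?_⟩
  intro z z'
  simp [Pi.algebraMap_apply]

theorem hasCoprod_add {h₁ h₂ : M → Kbar} (H₁ : HasCoprod H h₁) (H₂ : HasCoprod H h₂) :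
    HasCoprod H (h₁ + h₂) := by
  obtain ⟨ι, _, a, b, ha, hb, hab⟩ := H₁
  obtain ⟨κ, _, c, d, hc, hd, hcd⟩ := H₂
  refine ⟨ι ⊕ κ, inferInstance, Sum.elim a c, Sum.elim b d, ?_, ?_, ?_⟩
  · rintro (i | j)
    · exact ha i
    · exact hc j
  · rintro (i | j)
    · exact hb i
    · exact hd j
  · intro z z'
    simp [Fintype.sum_sum_type, hab, hcd]

theorem hasCoprod_mul {h₁ h₂ : M → Kbar} (H₁ : HasCoprod H h₁) (H₂ : HasCoprod H h₂) :
    HasCoprod H (h₁ * h₂) := by
  obtain ⟨ι, _, a, b, ha, hb, hab⟩ := H₁
  obtain ⟨κ, _, c, d, hc, hd, hcd⟩ := H₂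
  refine ⟨ι × κ, inferInstance, fun p => a p.1 * c p.2, fun p => b p.1 * d p.2,
    fun p => H.mul_mem (ha _) (hc _), fun p => H.mul_mem (hb _) (hd _), ?_⟩
  intro z z'
  simp only [Pi.mul_apply, hab, hcd, Fintype.sum_prod_type, Finset.sum_mul_sum]
  apply Finset.sum_congr rfl
  intro i _
  apply Finset.sum_congr rfl
  intro j _
  ring

/-- It is enough to check `HasCoprod` on algebra generators. -/
theorem hasCoprod_of_adjoin {S : Set (M → Kbar)} (hS : H = Algebra.adjoin R S)
    (hgen : ∀ s ∈ S, HasCoprod H s) : ∀ h ∈ H, HasCoprod H h := by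
  intro h hh
  rw [hS] at hh
  induction hh using Algebra.adjoin_induction with
  | mem x hx => exact hgen x hx
  | algebraMap r => exact hasCoprod_algebraMap r
  | add x y _ _ hx hy => exact hasCoprod_add hx hy
  | mul x y _ _ hx hy => exact hasCoprod_mul hx hy

/-- `H` is stable under `h ↦ h ∘ (k • ·)` for `k ≥ 1`. -/
theorem comp_nsmul_mem (hΔ : ∀ h ∈ H, HasCoprod H h) (k : ℕ) :
    ∀ h ∈ H, (fun z => h ((k + 1) • z)) ∈ H := by
  induction k with
  | zero =>
    intro h hh
    simpa using hh
  | succ k ih =>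
    intro h hh
    obtain ⟨ι, _, a, b, ha, hb, hab⟩ := hΔ h hh
    have : (fun z => h ((k + 1 + 1) • z)) = ∑ i, (fun z => a i ((k + 1) • z)) * b i := by
      funext z
      rw [succ_nsmul, hab]
      simp
    rw [this]
    exact H.sum_mem fun i _ => H.mul_mem (ih _ (ha i)) (hb i)

/-- `H` is stable under `h ↦ h ∘ neg` if `M` is killed by some `n ≥ 1`. -/
theorem comp_neg_mem (hΔ : ∀ h ∈ H, HasCoprod H h) {n : ℕ} (hn : n ≠ 0)
    (hM : ∀ z : M, n • z = 0) : ∀ h ∈ H, (fun z => h (-z)) ∈ H := by
  intro h hh
  obtain ⟨k, rfl⟩ := Nat.exists_eq_succ_of_ne_zero hn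
  rcases k with _ | k
  · -- `M` is trivial
    have : (fun z => h (-z)) = h := by
      funext z
      have hz : z = 0 := by simpa using hM z
      simp [hz]
    rw [this]; exact hh
  · have : (fun z => h (-z)) = fun z => h ((k + 1) • z) := by
      funext z
      congr 1
      have := hM z
      rw [succ_nsmul] at this
      exact (eq_neg_of_add_eq_zero_left this).symm
    rw [this]
    exact comp_nsmul_mem hΔ k h hh

end Coprod

section Descent

variable {R : Type*} [CommRing R] [IsDomain R]
variable {K : Type*} [Field K] [Algebra R K] [IsFractionRing R K]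
variable {Kbar : Type*} [Field Kbar] [Algebra R Kbar] [Algebra K Kbar] [IsScalarTower R K Kbar]
variable {Γ : Type*} [Group Γ] [MulSemiringAction Γ Kbar]
variable {M : Type*} [AddCommGroup M] [DistribMulAction Γ M]

omit [IsDomain R] in
/-- Values at `0` of equivariant integral functions lie in `R` (for `R` integrally closed with
fraction field `K` the fixed field of `Γ`). -/
theorem eval_zero_mem_range [IsIntegrallyClosed R]
    (hfix : ∀ x : Kbar, (∀ σ : Γ, σ • x = x) → x ∈ (algebraMap K Kbar).range)
    {H : Subalgebra R (M → Kbar)} [Module.Finite R H]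
    (hequiv : ∀ h ∈ H, IsEquivariantFun Γ h) :
    ∀ h ∈ H, h 0 ∈ (algebraMap R Kbar).range := by
  intro h hh
  have h1 : ∀ σ : Γ, σ • h 0 = h 0 := fun σ => by
    rw [← hequiv h hh σ 0, smul_zero]
  obtain ⟨x, hx⟩ := hfix _ h1
  have hint : IsIntegral R (⟨h, hh⟩ : H) := IsIntegral.of_finite R _
  have hint2 : IsIntegral R (h 0) := by
    have := hint.map ((Pi.evalAlgHom R (fun _ : M => Kbar) 0).comp H.val)
    simpa using this
  rw [← hx] at hint2
  have hint3 : IsIntegral R x :=
    (isIntegral_algebraMap_iff (algebraMap K Kbar).injective).1 hint2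
  obtain ⟨y, hy⟩ := IsIntegrallyClosed.algebraMap_eq_of_integral hint3
  refine ⟨y, ?_⟩
  rw [← hx, ← hy, ← IsScalarTower.algebraMap_apply]

/-- A finite order of equivariant functions has a finite basis with at most `#M` elements whose
members are linearly independent over `K̄`. -/
theorem exists_basis_card_le [IsPrincipalIdealRing R] [Finite M]
    (hfix : ∀ x : Kbar, (∀ σ : Γ, σ • x = x) → x ∈ (algebraMap K Kbar).range)
    {H : Subalgebra R (M → Kbar)} [Module.Finite R H]
    (hequiv : ∀ h ∈ H, IsEquivariantFun Γ h) :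
    ∃ (n : ℕ) (b : Module.Basis (Fin n) R H), n ≤ Nat.card M ∧
      LinearIndependent Kbar (fun i => ((b i : H) : M → Kbar)) := by
  classical
  have : Fintype M := Fintype.ofFinite M
  have : FaithfulSMul R Kbar := by
    rw [faithfulSMul_iff_algebraMap_injective, IsScalarTower.algebraMap_eq R K Kbar]
    exact (algebraMap K Kbar).injective.comp (IsFractionRing.injective R K)
  have : Module.Free R H := Module.free_of_finite_type_torsion_free'
  let b := Module.finBasis R H
  have hli : LinearIndependent Kbar (fun i => ((b i : H) : M → Kbar)) := by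
    have h1 : LinearIndependent R (fun i => ((b i : H) : M → Kbar)) :=
      b.linearIndependent.map' H.val.toLinearMap
        (LinearMap.ker_eq_bot.2 Subtype.val_injective)
    have h2 : LinearIndependent K (fun i => ((b i : H) : M → Kbar)) :=
      (LinearIndependent.iff_fractionRing R K).1 h1
    exact linearIndependent_of_equivariant hfix _ (fun i => hequiv _ (b i).2) h2
  refine ⟨_, b, ?_, hli⟩
  have h3 := hli.fintype_card_le_finrank
  rw [Module.finrank_fintype_fun_eq_card, Fintype.card_fin] at h3
  rwa [Nat.card_eq_fintype_card]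

end Descent

end Fermat.Agent.FF.HopfOrderC
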