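/-
Programme FF (S19), chapter A5-local (lead): membership in the algebra generated by coordinates from
approximation by a functorial operation.

`A` a commutative ring, `ℓ : A`.  `S S'` finite sets with coordinate maps `x : S → Fin g → A`,
`x' : S' → Fin g → A` whose values are topologically nilpotent (`ℓ ∣ x s j ^ k`).  `ΛA` is the
`A`-subalgebra of `S × S' → A` generated by the coordinate functions.  If `ℓ ^ m • f ∈ ΛA` for all `f`
(conductor), and `ξ : S × S' → A` is, modulo every power of `ℓ`, the value at `(x s, x' s')` of an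
operation `Φ` which is defined on nilpotent tuples of every `A`-algebra and is natural, then `ξ ∈ ΛA`.
-/
import Mathlib

set_option autoImplicit false

namespace Fermat.Agent.FF.OrderCoordA

variable {A : Type} [CommRing A] {g : ℕ} {S S' : Type}

/-- the coordinate functions on `S × S'`. -/
def coordFst (x : S → Fin g → A) (j : Fin g) : S × S' → A := fun p => x p.1 j

/-- the coordinate functions on `S × S'`. -/
def coordSnd (x' : S' → Fin g → A) (j : Fin g) : S × S' → A := fun p => x' p.2 j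

/-- the `A`-algebra generated by the coordinate functions. -/
def coordAlg (x : S → Fin g → A) (x' : S' → Fin g → A) : Subalgebra A (S × S' → A) :=
  Algebra.adjoin A (Set.range (coordFst (S' := S') x) ∪ Set.range (coordSnd (S := S) x'))

theorem coordFst_mem (x : S → Fin g → A) (x' : S' → Fin g → A) (j : Fin g) :
    coordFst x j ∈ coordAlg x x' :=
  Algebra.subset_adjoin (Or.inl ⟨j, rfl⟩)

theorem coordSnd_mem (x : S → Fin g → A) (x' : S' → Fin g → A) (j : Fin g) :
    coordSnd x' j ∈ coordAlg x x' :=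
  Algebra.subset_adjoin (Or.inr ⟨j, rfl⟩)

/-- An operation on nilpotent `g`-tuples of `A`-algebras. -/
abbrev Operation (A : Type) [CommRing A] (g : ℕ) : Type 1 :=
  ∀ (B : Type) [CommRing B] [Algebra A B], (Fin g → B) → (Fin g → B) → B

/-- naturality of an operation on nilpotent tuples. -/
def Operation.IsNatural (Φ : Operation A g) : Prop :=
  ∀ (B B' : Type) [CommRing B] [CommRing B'] [Algebra A B] [Algebra A B'] (β : B →ₐ[A] B')
    (y y' : Fin g → B), (∀ j, IsNilpotent (y j)) → (∀ j, IsNilpotent (y' j)) →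
      Φ B' (fun j => β (y j)) (fun j => β (y' j)) = β (Φ B y y')

/-- naturality of an operation on nilpotent tuples, tested only on `A`-algebras in which `ℓ` is
nilpotent. -/
def Operation.IsNaturalAt (ℓ : A) (Φ : Operation A g) : Prop :=
  ∀ (B B' : Type) [CommRing B] [CommRing B'] [Algebra A B] [Algebra A B'] (β : B →ₐ[A] B'),
    IsNilpotent (algebraMap A B ℓ) →
    ∀ (y y' : Fin g → B), (∀ j, IsNilpotent (y j)) → (∀ j, IsNilpotent (y' j)) →
      Φ B' (fun j => β (y j)) (fun j => β (y' j)) = β (Φ B y y')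

theorem Operation.IsNatural.isNaturalAt {Φ : Operation A g} (h : Φ.IsNatural) (ℓ : A) :
    Φ.IsNaturalAt ℓ :=
  fun B B' _ _ _ _ β _ y y' hy hy' => h B B' β y y' hy hy'

/-- a uniform exponent on a finite set. -/
theorem exists_uniform_pow_dvd [Finite S] (ℓ : A) (y : S → A) (hy : ∀ s, ∃ k, ℓ ∣ y s ^ k) :
    ∃ k, ∀ s, ℓ ∣ y s ^ k := by
  classical
  have := Fintype.ofFinite S
  choose k hk using hy
  refine ⟨Finset.univ.sup k, fun s => ?_⟩
  have hle : k s ≤ Finset.univ.sup k := Finset.le_sup (Finset.mem_univ s)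
  obtain ⟨e, he⟩ := Nat.exists_eq_add_of_le hle
  rw [he, pow_add]
  exact Dvd.dvd.mul_right (hk s) _

theorem mem_coordAlg_of_approx_at [Finite S] [Finite S'] (ℓ : A)
    (x : S → Fin g → A) (x' : S' → Fin g → A)
    (hx : ∀ s j, ∃ k, ℓ ∣ x s j ^ k) (hx' : ∀ s j, ∃ k, ℓ ∣ x' s j ^ k)
    (Φ : Operation A g) (hΦ : Φ.IsNaturalAt ℓ)
    (ξ : S × S' → A)
    (happrox : ∀ (s : S) (s' : S') (n : ℕ),
      Ideal.Quotient.mk (Ideal.span {ℓ ^ n}) (ξ (s, s')) =
        Φ (A ⧸ Ideal.span {ℓ ^ n}) (fun j => Ideal.Quotient.mk _ (x s j))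
          (fun j => Ideal.Quotient.mk _ (x' s' j)))
    (m : ℕ) (hcond : ∀ f : S × S' → A, ℓ ^ m • f ∈ coordAlg x x') :
    ξ ∈ coordAlg x x' := by
  classical
  set Λ := coordAlg x x' with hΛ
  -- the test ring
  let J : Ideal Λ := Ideal.span {algebraMap A Λ (ℓ ^ m)}
  let B := Λ ⧸ J
  let X : Fin g → B := fun j => Ideal.Quotient.mk J ⟨coordFst x j, coordFst_mem x x' j⟩
  let X' : Fin g → B := fun j => Ideal.Quotient.mk J ⟨coordSnd x' j, coordSnd_mem x x' j⟩
  -- nilpotency of a coordinate function modulo `ℓ ^ m`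
  have key : ∀ (f : S × S' → A) (hf : f ∈ Λ), (∃ k, ∀ p, ℓ ∣ f p ^ k) →
      IsNilpotent (Ideal.Quotient.mk J ⟨f, hf⟩) := by
    intro f hf ⟨k, hk⟩
    choose q hq using hk
    refine ⟨k * (m + m), ?_⟩
    rw [← map_pow, Ideal.Quotient.eq_zero_iff_mem]
    have h1 : f ^ (k * (m + m)) = ℓ ^ m • (ℓ ^ m • (fun p => q p ^ (m + m))) := by
      funext p
      simp only [Pi.pow_apply, Pi.smul_apply, smul_eq_mul]
      rw [pow_mul, hq p, mul_pow, pow_add]
      ring
    have h2 : (ℓ ^ m • (fun p => q p ^ (m + m)) : S × S' → A) ∈ Λ := hcond _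
    rw [Ideal.mem_span_singleton]
    refine ⟨⟨_, h2⟩, ?_⟩
    apply Subtype.ext
    simp only [SubmonoidClass.mk_pow, h1]
    rw [Algebra.smul_def]
    rfl
  have hXnil : ∀ j, IsNilpotent (X j) := fun j =>
    key _ _ (exists_uniform_pow_dvd ℓ (fun p : S × S' => x p.1 j) (fun p => hx p.1 j))
  have hX'nil : ∀ j, IsNilpotent (X' j) := fun j =>
    key _ _ (exists_uniform_pow_dvd ℓ (fun p : S × S' => x' p.2 j) (fun p => hx' p.2 j))
  have hℓnil : IsNilpotent (algebraMap A B ℓ) := by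
    refine ⟨m, ?_⟩
    rw [← map_pow]
    show Ideal.Quotient.mk J (algebraMap A Λ (ℓ ^ m)) = 0
    rw [Ideal.Quotient.eq_zero_iff_mem]
    exact Ideal.mem_span_singleton_self _
  -- a lift of the output
  obtain ⟨lam, hlam⟩ := Ideal.Quotient.mk_surjective (Φ B X X')
  -- evaluation homs
  have hev : ∀ (s : S) (s' : S'), ξ (s, s') - (lam : S × S' → A) (s, s') ∈ Ideal.span {ℓ ^ m} := by
    intro s s'
    let ev0 : Λ →ₐ[A] A ⧸ Ideal.span {ℓ ^ m} :=
      (Ideal.Quotient.mkₐ A (Ideal.span {ℓ ^ m})).comp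
        ((Pi.evalAlgHom A (fun _ : S × S' => A) (s, s')).comp Λ.val)
    have hker : ∀ a : Λ, a ∈ J → ev0 a = 0 := by
      intro a ha
      obtain ⟨c, rfl⟩ := Ideal.mem_span_singleton.1 ha
      rw [map_mul, AlgHom.commutes]
      have : algebraMap A (A ⧸ Ideal.span {ℓ ^ m}) (ℓ ^ m) = 0 := by
        rw [Ideal.Quotient.algebraMap_eq, Ideal.Quotient.eq_zero_iff_mem]
        exact Ideal.mem_span_singleton_self _
      rw [this, zero_mul]
    let ev : B →ₐ[A] A ⧸ Ideal.span {ℓ ^ m} := Ideal.Quotient.liftₐ J ev0 hker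
    have h1 := hΦ B (A ⧸ Ideal.span {ℓ ^ m}) ev hℓnil X X' hXnil hX'nil
    have h2 : (fun j => ev (X j)) = fun j => Ideal.Quotient.mk (Ideal.span {ℓ ^ m}) (x s j) := by
      funext j; rfl
    have h3 : (fun j => ev (X' j)) = fun j => Ideal.Quotient.mk (Ideal.span {ℓ ^ m}) (x' s' j) := by
      funext j; rfl
    rw [h2, h3, ← happrox s s' m, ← hlam] at h1
    have h4 : ev (Ideal.Quotient.mk J lam) =
        Ideal.Quotient.mk (Ideal.span {ℓ ^ m}) ((lam : S × S' → A) (s, s')) := rfl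
    rw [h4] at h1
    exact Ideal.Quotient.eq.1 h1
  -- conclude
  have hq : ∀ p : S × S', ∃ c, ξ p - (lam : S × S' → A) p = ℓ ^ m * c := fun p => by
    obtain ⟨c, hc⟩ := Ideal.mem_span_singleton.1 (hev p.1 p.2)
    exact ⟨c, hc⟩
  choose c hc using hq
  have : ξ = (lam : S × S' → A) + ℓ ^ m • c := by
    funext p
    simp only [Pi.add_apply, Pi.smul_apply, smul_eq_mul]
    rw [← hc p]; ring
  rw [this]
  exact Λ.add_mem lam.2 (hcond c)

theorem mem_coordAlg_of_approx [Finite S] [Finite S'] (ℓ : A)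
    (x : S → Fin g → A) (x' : S' → Fin g → A)
    (hx : ∀ s j, ∃ k, ℓ ∣ x s j ^ k) (hx' : ∀ s j, ∃ k, ℓ ∣ x' s j ^ k)
    (Φ : Operation A g) (hΦ : Φ.IsNatural)
    (ξ : S × S' → A)
    (happrox : ∀ (s : S) (s' : S') (n : ℕ),
      Ideal.Quotient.mk (Ideal.span {ℓ ^ n}) (ξ (s, s')) =
        Φ (A ⧸ Ideal.span {ℓ ^ n}) (fun j => Ideal.Quotient.mk _ (x s j))
          (fun j => Ideal.Quotient.mk _ (x' s' j)))
    (m : ℕ) (hcond : ∀ f : S × S' → A, ℓ ^ m • f ∈ coordAlg x x') :
    ξ ∈ coordAlg x x' :=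
  mem_coordAlg_of_approx_at ℓ x x' hx hx' Φ (hΦ.isNaturalAt ℓ) ξ happrox m hcond

end Fermat.Agent.FF.OrderCoordA
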