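/-
Programme FF (S19), chapter A4 (lead): Galois invariants of the lattice spanned by an order of
equivariant functions.

`K̄` a field with an action of a group `Γ`, `A` a valuation subring of `K̄`, `W₀` a ring with
`W₀ ≅ A^Γ` (given as an injective algebra map with range `{a ∈ A | a is Γ-fixed}`), `T` a finite
`Γ`-set, `G` a finite set of `Γ`-equivariant `A`-valued functions `T → K̄`, `Λ = W₀[G]`.
Then an equivariant function in the `A`-span of `Λ` lies in `Λ`.
-/
import Mathlib
import Fermat.Agent.FF.HopfOrderB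

set_option autoImplicit false

namespace Fermat.Agent.FF.OrderCoordC

open Fermat.Agent.FF.HopfOrderB

variable {Kbar : Type*} [Field Kbar] {Γ : Type*} [Group Γ] [MulSemiringAction Γ Kbar]
variable (A : ValuationSubring Kbar)
variable {W0 : Type*} [CommRing W0] [Algebra W0 Kbar]

/-- `W₀` is (via `algebraMap`) the ring of `Γ`-fixed elements of `A`. -/
def IsFixedRing (Γ : Type*) [Group Γ] [MulSemiringAction Γ Kbar] (A : ValuationSubring Kbar)
    (W0 : Type*) [CommRing W0] [Algebra W0 Kbar] : Prop :=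
  Function.Injective (algebraMap W0 Kbar) ∧
    ∀ a : Kbar, a ∈ (algebraMap W0 Kbar).range ↔ (a ∈ A ∧ ∀ σ : Γ, σ • a = a)

variable {A}

theorem IsFixedRing.isDomain (h : IsFixedRing Γ A W0) : IsDomain W0 :=
  h.1.isDomain (algebraMap W0 Kbar)

theorem IsFixedRing.mem (h : IsFixedRing Γ A W0) (w : W0) : algebraMap W0 Kbar w ∈ A :=
  ((h.2 _).1 ⟨w, rfl⟩).1

theorem IsFixedRing.fixed (h : IsFixedRing Γ A W0) (w : W0) (σ : Γ) :
    σ • algebraMap W0 Kbar w = algebraMap W0 Kbar w :=
  ((h.2 _).1 ⟨w, rfl⟩).2 σ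

theorem smul_div_of_fixed {σ : Γ} {a b : Kbar} (ha : σ • a = a) (hb : σ • b = b) :
    σ • (a / b) = a / b := by
  have := map_div₀ (MulSemiringAction.toRingHom Γ Kbar σ) a b
  simp only [MulSemiringAction.toRingHom_apply] at this
  rw [this, ha, hb]

/-- among finitely many fixed elements of `K̄`, not all zero, one divides all the others with
quotients in `W₀`. -/
theorem IsFixedRing.exists_pivot (h : IsFixedRing Γ A W0) {ι : Type*} (s : Finset ι) (k : ι → Kbar)
    (hk : ∀ i ∈ s, ∀ σ : Γ, σ • k i = k i) (hne : ∃ i ∈ s, k i ≠ 0) :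
    ∃ i0 ∈ s, k i0 ≠ 0 ∧ ∀ i ∈ s, ∃ w : W0, algebraMap W0 Kbar w = k i / k i0 := by
  classical
  obtain ⟨i1, hi1, hki1⟩ := hne
  obtain ⟨i0, hi0, hmax⟩ := Finset.exists_max_image s (fun i => A.valuation (k i)) ⟨i1, hi1⟩
  have hk0 : k i0 ≠ 0 := by
    intro h0
    have h1 := hmax i1 hi1
    simp only [h0, map_zero] at h1
    exact hki1 ((map_eq_zero _).1 (le_antisymm h1 zero_le))
  refine ⟨i0, hi0, hk0, fun i hi => ?_⟩
  apply (h.2 _).2
  refine ⟨?_, fun σ => smul_div_of_fixed (hk i hi σ) (hk i0 hi0 σ)⟩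
  rw [← A.valuation_le_one_iff, map_div₀]
  exact div_le_one_of_le₀ (hmax i hi) zero_le

/-- equivariant functions that are linearly independent over `W₀` are linearly independent over
`K̄`. -/
theorem IsFixedRing.linearIndependent (h : IsFixedRing Γ A W0) {T : Type*} [MulAction Γ T]
    {ι : Type*} (b : ι → T → Kbar) (hb : ∀ i, IsEquivariantFun Γ (b i))
    (hli : LinearIndependent W0 b) : LinearIndependent Kbar b := by
  classical
  refine linearIndependent_of_equivariant (K := FixedPoints.subfield Γ Kbar) ?_ b hb ?_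
  · intro x hx
    exact ⟨⟨x, hx⟩, rfl⟩
  · rw [linearIndependent_iff']
    intro s c hc
    by_contra hne
    push Not at hne
    obtain ⟨i1, hi1, hci1⟩ := hne
    obtain ⟨i0, hi0, hk0, hdiv⟩ := h.exists_pivot s (fun i => ((c i : FixedPoints.subfield Γ Kbar) : Kbar))
      (fun i _ σ => (c i).2 σ) ⟨i1, hi1, fun h0 => hci1 (Subtype.ext h0)⟩
    choose! w hw using hdiv
    have hrel : ∑ i ∈ s, w i • b i = 0 := by
      funext t
      have h1 := congrFun hc t
      simp only [Finset.sum_apply, Pi.smul_apply, Pi.zero_apply] at h1 ⊢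
      have h2 : ∀ i ∈ s, w i • b i t = ((c i0 : Kbar))⁻¹ * ((c i : Kbar) * b i t) := by
        intro i hi
        rw [Algebra.smul_def, hw i hi]
        field_simp
      rw [Finset.sum_congr rfl h2, ← Finset.mul_sum]
      have h3 : ∑ i ∈ s, (c i : Kbar) * b i t = 0 := by
        rw [← h1]
        apply Finset.sum_congr rfl
        intro i _
        rfl
      rw [h3, mul_zero]
    have h4 := (linearIndependent_iff'.1 hli) s w hrel i0 hi0
    have h5 := hw i0 hi0
    rw [h4, map_zero, div_self hk0] at h5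
    exact zero_ne_one h5

open Polynomial in
/-- an equivariant `A`-valued function on a finite `Γ`-set is integral over `W₀`. -/
theorem IsFixedRing.isIntegral (h : IsFixedRing Γ A W0) {T : Type*} [Finite T] [MulAction Γ T]
    (f : T → Kbar) (hf : IsEquivariantFun Γ f) (hfA : ∀ t, f t ∈ A) : IsIntegral W0 f := by
  classical
  have := Fintype.ofFinite T
  set p : Kbar[X] := ∏ t, (X - C (f t)) with hp
  have hmonic : p.Monic := monic_prod_of_monic _ _ fun t _ => monic_X_sub_C (f t)
  -- coefficients in `A`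
  have hcoefA : ∀ n, p.coeff n ∈ A := by
    intro n
    have h1 : p = (∏ t, (X - C (⟨f t, hfA t⟩ : A))).map A.subtype := by
      rw [Polynomial.map_prod]
      apply Finset.prod_congr rfl
      intro t _
      simp
    rw [h1, coeff_map]
    exact Subtype.mem _
  -- coefficients fixed
  have hcoeffix : ∀ n (σ : Γ), σ • p.coeff n = p.coeff n := by
    intro n σ
    have h1 : p.map (MulSemiringAction.toRingHom Γ Kbar σ) = p := by
      rw [hp, Polynomial.map_prod]
      have h2 : ∀ t, ((X - C (f t) : Kbar[X])).map (MulSemiringAction.toRingHom Γ Kbar σ) =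
          X - C (f (σ • t)) := by
        intro t
        simp [hf σ t]
      simp only [h2]
      exact Fintype.prod_equiv (MulAction.toPerm σ) _ _ (fun t => rfl)
    have h3 := congrArg (fun q => q.coeff n) h1
    simpa [coeff_map] using h3
  have hlift : p ∈ Polynomial.lifts (algebraMap W0 Kbar) := by
    rw [lifts_iff_coeff_lifts]
    intro n
    exact (h.2 _).2 ⟨hcoefA n, hcoeffix n⟩
  obtain ⟨q, hq, -, hqm⟩ := lifts_and_degree_eq_and_monic hlift hmonic
  refine ⟨q, hqm, ?_⟩
  funext t0
  have h4 : (eval₂ (algebraMap W0 (T → Kbar)) f q) t0 = eval₂ (algebraMap W0 Kbar) (f t0) q := by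
    have := Polynomial.hom_eval₂ q (algebraMap W0 (T → Kbar)) (Pi.evalRingHom (fun _ : T => Kbar) t0) f
    have hcomp : (Pi.evalRingHom (fun _ : T => Kbar) t0).comp (algebraMap W0 (T → Kbar)) =
        algebraMap W0 Kbar := by
      ext w; rfl
    rw [hcomp] at this
    simpa using this
  rw [h4, ← eval_map, hq, hp, eval_prod, Pi.zero_apply]
  apply Finset.prod_eq_zero (Finset.mem_univ t0)
  simp

theorem IsFixedRing.preValuationRing (h : IsFixedRing Γ A W0) : PreValuationRing W0 := by
  refine ⟨fun a b => ?_⟩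
  by_cases ha : a = 0
  · exact ⟨0, Or.inr (by rw [ha, mul_zero])⟩
  by_cases hb : b = 0
  · exact ⟨0, Or.inl (by rw [hb, mul_zero])⟩
  have ha' : algebraMap W0 Kbar a ≠ 0 := fun h0 => ha (h.1 (by rw [h0, map_zero]))
  have hb' : algebraMap W0 Kbar b ≠ 0 := fun h0 => hb (h.1 (by rw [h0, map_zero]))
  rcases A.mem_or_inv_mem (algebraMap W0 Kbar b / algebraMap W0 Kbar a) with hmem | hmem
  · obtain ⟨c, hc⟩ := (h.2 _).2 ⟨hmem, fun σ => smul_div_of_fixed (h.fixed b σ) (h.fixed a σ)⟩
    refine ⟨c, Or.inl (h.1 ?_)⟩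
    rw [map_mul, hc]
    field_simp
  · rw [inv_div] at hmem
    obtain ⟨c, hc⟩ := (h.2 _).2 ⟨hmem, fun σ => smul_div_of_fixed (h.fixed a σ) (h.fixed b σ)⟩
    refine ⟨c, Or.inr (h.1 ?_)⟩
    rw [map_mul, hc]
    field_simp

/-- every element of `W₀[G]` is equivariant if the generators are. -/
theorem IsFixedRing.equivariant_of_mem_adjoin (h : IsFixedRing Γ A W0) {T : Type*} [MulAction Γ T]
    (G : Set (T → Kbar)) (hGeq : ∀ f ∈ G, IsEquivariantFun Γ f) :
    ∀ f ∈ Algebra.adjoin W0 G, IsEquivariantFun Γ f := by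
  intro f hf
  induction hf using Algebra.adjoin_induction with
  | mem x hx => exact hGeq x hx
  | algebraMap r =>
    intro σ t
    simp only [Pi.algebraMap_apply]
    exact (h.fixed r σ).symm
  | add x y _ _ hx hy =>
    intro σ t
    simp only [Pi.add_apply, smul_add, hx σ t, hy σ t]
  | mul x y _ _ hx hy =>
    intro σ t
    simp only [Pi.mul_apply, smul_mul', hx σ t, hy σ t]

/-- **Galois invariants.** An equivariant function in the `A`-span of `Λ = W₀[G]` lies in `Λ`. -/
theorem IsFixedRing.mem_adjoin_of_equivariant (h : IsFixedRing Γ A W0) {T : Type*} [Finite T]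
    [MulAction Γ T] (G : Set (T → Kbar)) (hGfin : G.Finite)
    (hGeq : ∀ f ∈ G, IsEquivariantFun Γ f) (hGA : ∀ f ∈ G, ∀ t, f t ∈ A)
    (ξ : T → Kbar) (hξeq : IsEquivariantFun Γ ξ)
    (hξ : ξ ∈ Submodule.span A (Algebra.adjoin W0 G : Set (T → Kbar))) :
    ξ ∈ Algebra.adjoin W0 G := by
  classical
  have := h.isDomain
  have := h.preValuationRing
  have hVR : ValuationRing W0 := {}
  have : FaithfulSMul W0 Kbar := (faithfulSMul_iff_algebraMap_injective W0 Kbar).2 h.1
  set Λ := Algebra.adjoin W0 G with hΛ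
  have hfin : Module.Finite W0 Λ :=
    Module.Finite.of_fg (fg_adjoin_of_finite hGfin fun f hf => h.isIntegral f (hGeq f hf) (hGA f hf))
  have hflat : Module.Flat W0 Λ := by
    rw [Module.Flat.flat_iff_torsion_eq_bot_of_isBezout, ← Submodule.isTorsionFree_iff_torsion_eq_bot]
    infer_instance
  have hfree : Module.Free W0 Λ := Module.free_of_flat_of_isLocalRing
  let b := Module.finBasis W0 Λ
  have hbeq : ∀ i, IsEquivariantFun Γ ((b i : Λ) : T → Kbar) := fun i =>
    h.equivariant_of_mem_adjoin G hGeq _ (b i).2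
  have hli : LinearIndependent Kbar (fun i => ((b i : Λ) : T → Kbar)) := by
    apply h.linearIndependent _ hbeq
    exact b.linearIndependent.map' Λ.val.toLinearMap (LinearMap.ker_eq_bot.2 Subtype.val_injective)
  -- `ξ` is an `A`-combination of the basis
  have hspan : (Λ : Set (T → Kbar)) ⊆
      Submodule.span A (Set.range fun i => ((b i : Λ) : T → Kbar)) := by
    intro f hf
    have h2 : f = ∑ i, b.repr ⟨f, hf⟩ i • ((b i : Λ) : T → Kbar) := by
      have := congrArg (Subtype.val) (b.sum_repr (⟨f, hf⟩ : Λ))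
      simp only [AddSubmonoidClass.coe_finsetSum, SetLike.val_smul] at this
      exact this.symm
    rw [h2]
    apply Submodule.sum_mem
    intro i _
    have h3 : b.repr ⟨f, hf⟩ i • ((b i : Λ) : T → Kbar) =
        (⟨algebraMap W0 Kbar (b.repr ⟨f, hf⟩ i), h.mem _⟩ : A) • ((b i : Λ) : T → Kbar) := by
      funext t
      simp only [Pi.smul_apply]
      rw [Algebra.smul_def]
      rfl
    rw [h3]
    exact Submodule.smul_mem _ _ (Submodule.subset_span ⟨i, rfl⟩)
  have hξ' := Submodule.span_le.2 hspan hξ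
  obtain ⟨a, ha⟩ := (Submodule.mem_span_range_iff_exists_fun A).1 hξ'
  -- the coefficients are fixed
  have hfixed : ∀ i (σ : Γ), σ • ((a i : A) : Kbar) = a i := by
    intro i σ
    have h1 : ∑ i, (σ • ((a i : A) : Kbar) - a i) • ((b i : Λ) : T → Kbar) = 0 := by
      funext t
      have e1 := congrFun ha t
      have e2 := congrFun ha (σ⁻¹ • t)
      simp only [Finset.sum_apply, Pi.smul_apply] at e1 e2
      have e3 : ξ t = σ • ξ (σ⁻¹ • t) := by
        rw [← hξeq σ (σ⁻¹ • t), smul_inv_smul]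
      simp only [Finset.sum_apply, Pi.smul_apply, Pi.zero_apply, smul_eq_mul, sub_mul,
        Finset.sum_sub_distrib]
      have e4 : ∑ i, (a i : Kbar) * ((b i : Λ) : T → Kbar) t = ξ t := by
        rw [← e1]; rfl
      have e5 : ∑ i, σ • (a i : Kbar) * ((b i : Λ) : T → Kbar) t = ξ t := by
        rw [e3, ← e2, Finset.smul_sum]
        apply Finset.sum_congr rfl
        intro i _
        have : (a i • ((b i : Λ) : T → Kbar) (σ⁻¹ • t)) =
            (a i : Kbar) * ((b i : Λ) : T → Kbar) (σ⁻¹ • t) := rfl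
        rw [this, smul_mul', ← hbeq i σ (σ⁻¹ • t), smul_inv_smul]
      rw [e4, e5, sub_self]
    have h2 := (Fintype.linearIndependent_iff.1 hli) _ h1 i
    exact sub_eq_zero.1 h2
  -- descend
  have hw : ∀ i, ∃ w : W0, algebraMap W0 Kbar w = a i := fun i =>
    (h.2 _).2 ⟨(a i).2, hfixed i⟩
  choose w hw using hw
  have : ξ = ∑ i, w i • ((b i : Λ) : T → Kbar) := by
    rw [← ha]
    apply Finset.sum_congr rfl
    intro i _
    funext t
    show (a i : Kbar) * ((b i : Λ) : T → Kbar) t = w i • ((b i : Λ) : T → Kbar) t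
    rw [Algebra.smul_def, hw i]
  rw [this]
  exact Λ.sum_mem fun i _ => Λ.smul_mem (b i).2 _

end Fermat.Agent.FF.OrderCoordC
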