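/-
Programme FF (S19), chapters A4/A5 global assembly (lead).

`K̄` a field with an action of a group `Γ` (inertia), `A` a valuation subring of `K̄` of rank one with
respect to `ℓ` (every nonzero element divides a power of `ℓ`), `W₀ ≅ A^Γ`.  `M` a finite abelian group
with `Γ`-action, `M₀` a subgroup all of whose cosets are `Γ`-stable, `x : M → Fin g → A` coordinates
(topologically nilpotent, equivariant, separating the points of every coset of `M₀`).  Assume the
MEANING HYPOTHESIS: on every pair of cosets, `x_j (z + z')` is, modulo every power of `ℓ`, the value at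
`(x z, x z')` of an operation which is natural on `A`-algebras in which `ℓ` is nilpotent.

Then the `W₀`-algebra `H_W` generated by the coset indicator functions and the coordinate functions
consists of equivariant `A`-valued functions, is finite over `W₀`, separates the points of `M`, and
every generator has a coproduct in `H_W ⊗ H_W` (`HopfOrderC.HasCoprod`).
-/
import Mathlib
import Fermat.Agent.FF.HopfOrderB
import Fermat.Agent.FF.HopfOrderC
import Fermat.Agent.FF.OrderCoordA
import Fermat.Agent.FF.OrderCoordB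
import Fermat.Agent.FF.OrderCoordC

set_option autoImplicit false

namespace Fermat.Agent.FF.OrderCoordD

open Fermat.Agent.FF.HopfOrderB Fermat.Agent.FF.HopfOrderC Fermat.Agent.FF.OrderCoordA
  Fermat.Agent.FF.OrderCoordB Fermat.Agent.FF.OrderCoordC

variable {Kbar : Type} [Field Kbar] {Γ : Type*} [Group Γ] [MulSemiringAction Γ Kbar]
variable {A : ValuationSubring Kbar} {W0 : Type} [CommRing W0] [Algebra W0 Kbar]
variable {M : Type}

section Split

variable {S S' : Type}

/-- `f (s, s') = ∑ i, a i (p s) * b i (p' s')` with `a i, b i ∈ H`. -/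
def IsSplit (H : Subalgebra W0 (M → Kbar)) (p : S → M) (p' : S' → M) (f : S × S' → Kbar) : Prop :=
  ∃ (ι : Type) (_ : Fintype ι) (a b : ι → M → Kbar), (∀ i, a i ∈ H) ∧ (∀ i, b i ∈ H) ∧
    ∀ s s', f (s, s') = ∑ i, a i (p s) * b i (p' s')

variable {H : Subalgebra W0 (M → Kbar)} {p : S → M} {p' : S' → M}

theorem isSplit_algebraMap (w : W0) : IsSplit H p p' (algebraMap W0 (S × S' → Kbar) w) := by
  refine ⟨Unit, inferInstance, fun _ => algebraMap W0 (M → Kbar) w, fun _ => 1,
    fun _ => H.algebraMap_mem w, fun _ => H.one_mem, ?_⟩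
  intro s s'
  simp [Pi.algebraMap_apply]

theorem isSplit_fst {a : M → Kbar} (ha : a ∈ H) :
    IsSplit H p p' (fun q : S × S' => a (p q.1)) := by
  refine ⟨Unit, inferInstance, fun _ => a, fun _ => 1, fun _ => ha, fun _ => H.one_mem, ?_⟩
  intro s s'
  simp

theorem isSplit_snd {a : M → Kbar} (ha : a ∈ H) :
    IsSplit H p p' (fun q : S × S' => a (p' q.2)) := by
  refine ⟨Unit, inferInstance, fun _ => 1, fun _ => a, fun _ => H.one_mem, fun _ => ha, ?_⟩
  intro s s'
  simp

theorem isSplit_add {f₁ f₂ : S × S' → Kbar} (h₁ : IsSplit H p p' f₁) (h₂ : IsSplit H p p' f₂) :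
    IsSplit H p p' (f₁ + f₂) := by
  obtain ⟨ι, _, a, b, ha, hb, hab⟩ := h₁
  obtain ⟨κ, _, c, d, hc, hd, hcd⟩ := h₂
  refine ⟨ι ⊕ κ, inferInstance, Sum.elim a c, Sum.elim b d, ?_, ?_, ?_⟩
  · rintro (i | j)
    · exact ha i
    · exact hc j
  · rintro (i | j)
    · exact hb i
    · exact hd j
  · intro s s'
    simp [Fintype.sum_sum_type, hab, hcd]

theorem isSplit_mul {f₁ f₂ : S × S' → Kbar} (h₁ : IsSplit H p p' f₁) (h₂ : IsSplit H p p' f₂) :
    IsSplit H p p' (f₁ * f₂) := by
  obtain ⟨ι, _, a, b, ha, hb, hab⟩ := h₁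
  obtain ⟨κ, _, c, d, hc, hd, hcd⟩ := h₂
  refine ⟨ι × κ, inferInstance, fun q => a q.1 * c q.2, fun q => b q.1 * d q.2,
    fun q => H.mul_mem (ha _) (hc _), fun q => H.mul_mem (hb _) (hd _), ?_⟩
  intro s s'
  simp only [Pi.mul_apply, hab, hcd, Fintype.sum_prod_type, Finset.sum_mul_sum]
  apply Finset.sum_congr rfl
  intro i _
  apply Finset.sum_congr rfl
  intro j _
  ring

theorem isSplit_of_mem_adjoin {G : Set (S × S' → Kbar)} (hG : ∀ f ∈ G, IsSplit H p p' f)
    {f : S × S' → Kbar} (hf : f ∈ Algebra.adjoin W0 G) : IsSplit H p p' f := by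
  induction hf using Algebra.adjoin_induction with
  | mem x hx => exact hG x hx
  | algebraMap r => exact isSplit_algebraMap r
  | add x y _ _ hx hy => exact isSplit_add hx hy
  | mul x y _ _ hx hy => exact isSplit_mul hx hy

end Split

section Transfer

variable {T : Type}

/-- view an `A`-valued function as a `K̄`-valued one. -/
def toKbar (f : T → A) : T → Kbar := fun t => (f t : Kbar)

/-- the `A`-span of a `W₀`-subalgebra of `T → K̄` is closed under multiplication. -/
theorem span_mul_mem (Λ : Subalgebra W0 (T → Kbar)) {u v : T → Kbar}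
    (hu : u ∈ Submodule.span A (Λ : Set (T → Kbar)))
    (hv : v ∈ Submodule.span A (Λ : Set (T → Kbar))) :
    u * v ∈ Submodule.span A (Λ : Set (T → Kbar)) := by
  induction hu using Submodule.span_induction with
  | mem u hu =>
    induction hv using Submodule.span_induction with
    | mem v hv => exact Submodule.subset_span (Λ.mul_mem hu hv)
    | zero => rw [mul_zero]; exact Submodule.zero_mem _
    | add v w _ _ hv hw => rw [mul_add]; exact Submodule.add_mem _ hv hw
    | smul a v _ hv => rw [mul_smul_comm]; exact Submodule.smul_mem _ a hv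
  | zero => rw [zero_mul]; exact Submodule.zero_mem _
  | add u w _ _ hu hw => rw [add_mul]; exact Submodule.add_mem _ hu hw
  | smul a u _ hu => rw [smul_mul_assoc]; exact Submodule.smul_mem _ a hu

/-- an element of the `A`-algebra generated by `GA` lies, viewed in `T → K̄`, in the `A`-span of the
`W₀`-algebra generated by the image of `GA`. -/
theorem toKbar_mem_span_adjoin (GA : Set (T → A)) {f : T → A} (hf : f ∈ Algebra.adjoin A GA) :
    toKbar f ∈ Submodule.span A
      (Algebra.adjoin W0 (toKbar '' GA) : Set (T → Kbar)) := by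
  induction hf using Algebra.adjoin_induction with
  | mem x hx =>
    exact Submodule.subset_span (Algebra.subset_adjoin ⟨x, hx, rfl⟩)
  | algebraMap a =>
    have : toKbar (algebraMap A (T → A) a) = a • (1 : T → Kbar) := by
      funext t
      simp only [toKbar, Pi.algebraMap_apply, Pi.smul_apply, Pi.one_apply]
      rw [Algebra.algebraMap_self_apply, Algebra.smul_def, mul_one]
      rfl
    rw [this]
    exact Submodule.smul_mem _ a (Submodule.subset_span (Subalgebra.one_mem _))
  | add x y _ _ hx hy =>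
    have : toKbar (x + y) = toKbar x + toKbar y := by
      funext t; simp [toKbar]
    rw [this]
    exact Submodule.add_mem _ hx hy
  | mul x y _ _ hx hy =>
    have : toKbar (x * y) = toKbar x * toKbar y := by
      funext t; simp [toKbar]
    rw [this]
    exact span_mul_mem _ hx hy

end Transfer

section Local

variable [AddCommGroup M] [DistribMulAction Γ M]
variable {S S' : Type} [MulAction Γ S] [MulAction Γ S'] {g : ℕ}

/-- **Local Δ-stability.**  `S, S'` finite `Γ`-sets with equivariant maps `p, p'` to `M`, on which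
the coordinates `y` are injective.  If `ξ (p s + p' s')` is approximated by a natural operation in the
coordinates, then it is a finite sum of products `a i (p s) * b i (p' s')` with `a i, b i ∈ H`,
provided the coordinate functions lie in `H`. -/
theorem exists_split_of_approx (hW : IsFixedRing Γ A W0) (ℓ : A)
    (hrank : ∀ a : A, a ≠ 0 → ∃ m : ℕ, a ∣ ℓ ^ m)
    [Finite S] [Finite S'] (H : Subalgebra W0 (M → Kbar))
    (y : M → Fin g → A) (hyH : ∀ j, (fun z => (y z j : Kbar)) ∈ H)
    (hynil : ∀ z j, ∃ k, ℓ ∣ y z j ^ k)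
    (hyeq : ∀ (σ : Γ) z j, (y (σ • z) j : Kbar) = σ • (y z j : Kbar))
    (p : S → M) (p' : S' → M)
    (hp : ∀ (σ : Γ) s, p (σ • s) = σ • p s) (hp' : ∀ (σ : Γ) s, p' (σ • s) = σ • p' s)
    (hinj : ∀ s₁ s₂, y (p s₁) = y (p s₂) → s₁ = s₂)
    (hinj' : ∀ s₁ s₂, y (p' s₁) = y (p' s₂) → s₁ = s₂)
    (ξ : M → A) (hξeq : ∀ (σ : Γ) z, (ξ (σ • z) : Kbar) = σ • (ξ z : Kbar))
    (Φ : Operation A g) (hΦ : Φ.IsNaturalAt ℓ)
    (happrox : ∀ (s : S) (s' : S') (n : ℕ),
      Ideal.Quotient.mk (Ideal.span {ℓ ^ n}) (ξ (p s + p' s')) =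
        Φ (A ⧸ Ideal.span {ℓ ^ n}) (fun j => Ideal.Quotient.mk _ (y (p s) j))
          (fun j => Ideal.Quotient.mk _ (y (p' s') j))) :
    IsSplit H p p' (fun q : S × S' => (ξ (p q.1 + p' q.2) : Kbar)) := by
  classical
  set xS : S → Fin g → A := fun s => y (p s) with hxS
  set xS' : S' → Fin g → A := fun s => y (p' s) with hxS'
  set ξA : S × S' → A := fun q => ξ (p q.1 + p' q.2) with hξA
  -- conductor
  have hsep : ∀ t t' : S × S', t ≠ t' → ∃ f ∈ coordAlg xS xS', f t ≠ f t' := by
    intro t t' hne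
    by_cases h1 : t.1 = t'.1
    · have h2 : t.2 ≠ t'.2 := fun h2 => hne (Prod.ext h1 h2)
      have h3 : xS' t.2 ≠ xS' t'.2 := fun h3 => h2 (hinj' _ _ h3)
      obtain ⟨j, hj⟩ := Function.ne_iff.1 h3
      exact ⟨coordSnd xS' j, coordSnd_mem xS xS' j, hj⟩
    · have h3 : xS t.1 ≠ xS t'.1 := fun h3 => h1 (hinj _ _ h3)
      obtain ⟨j, hj⟩ := Function.ne_iff.1 h3
      exact ⟨coordFst xS j, coordFst_mem xS xS' j, hj⟩
  obtain ⟨m, hm⟩ := exists_pow_smul_mem ℓ hrank (coordAlg xS xS') hsep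
  -- membership over `A`
  have hmemA : ξA ∈ coordAlg xS xS' :=
    mem_coordAlg_of_approx_at ℓ xS xS' (fun s j => hynil _ j) (fun s j => hynil _ j) Φ hΦ ξA
      (fun s s' n => happrox s s' n) m hm
  -- transfer to `K̄`-valued functions
  set GA : Set (S × S' → A) :=
    Set.range (coordFst (S' := S') xS) ∪ Set.range (coordSnd (S := S) xS') with hGA
  set G : Set (S × S' → Kbar) := toKbar '' GA with hG
  have hspan : toKbar ξA ∈ Submodule.span A (Algebra.adjoin W0 G : Set (S × S' → Kbar)) :=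
    toKbar_mem_span_adjoin GA hmemA
  have hGfin : G.Finite :=
    ((Set.finite_range _).union (Set.finite_range _)).image _
  have hGeq : ∀ f ∈ G, IsEquivariantFun Γ f := by
    rintro _ ⟨f, (⟨j, rfl⟩ | ⟨j, rfl⟩), rfl⟩
    · intro σ t
      show ((y (p (σ • t).1) j : A) : Kbar) = σ • ((y (p t.1) j : A) : Kbar)
      rw [Prod.smul_fst, hp, hyeq]
    · intro σ t
      show ((y (p' (σ • t).2) j : A) : Kbar) = σ • ((y (p' t.2) j : A) : Kbar)
      rw [Prod.smul_snd, hp', hyeq]
  have hGA' : ∀ f ∈ G, ∀ t, f t ∈ A := by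
    rintro _ ⟨f, -, rfl⟩ t
    exact (f t).2
  have hξeq' : IsEquivariantFun Γ (toKbar ξA) := by
    intro σ t
    show ((ξ (p (σ • t).1 + p' (σ • t).2) : A) : Kbar) = σ • ((ξ (p t.1 + p' t.2) : A) : Kbar)
    rw [Prod.smul_fst, Prod.smul_snd, hp, hp', ← smul_add, hξeq]
  have hmem : toKbar ξA ∈ Algebra.adjoin W0 G :=
    hW.mem_adjoin_of_equivariant G hGfin hGeq hGA' (toKbar ξA) hξeq' hspan
  -- split
  refine isSplit_of_mem_adjoin ?_ hmem
  rintro _ ⟨f, (⟨j, rfl⟩ | ⟨j, rfl⟩), rfl⟩
  · exact isSplit_fst (hyH j)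
  · exact isSplit_snd (hyH j)

end Local

section Global

variable [AddCommGroup M] [DistribMulAction Γ M] {g : ℕ}

open Classical in
/-- the indicator function of the coset `z0 + M₀`. -/
noncomputable def cosetInd (M0 : AddSubgroup M) (z0 : M) : M → Kbar :=
  fun z => if z - z0 ∈ M0 then 1 else 0

/-- the `j`-th coordinate function. -/
def coordFun (x : M → Fin g → A) (j : Fin g) : M → Kbar := fun z => (x z j : Kbar)

/-- the generators of the order. -/
def genSet (M0 : AddSubgroup M) (x : M → Fin g → A) : Set (M → Kbar) :=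
  Set.range (cosetInd M0) ∪ Set.range (coordFun x)

variable (W0) in
/-- the order generated by coset indicators and coordinates. -/
def order (M0 : AddSubgroup M) (x : M → Fin g → A) : Subalgebra W0 (M → Kbar) :=
  Algebra.adjoin W0 (genSet M0 x)

theorem cosetInd_mem_order (M0 : AddSubgroup M) (x : M → Fin g → A) (z0 : M) :
    (cosetInd M0 z0 : M → Kbar) ∈ order W0 M0 x :=
  Algebra.subset_adjoin (Or.inl ⟨z0, rfl⟩)

theorem coordFun_mem_order (M0 : AddSubgroup M) (x : M → Fin g → A) (j : Fin g) :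
    coordFun x j ∈ order W0 M0 x :=
  Algebra.subset_adjoin (Or.inr ⟨j, rfl⟩)

theorem cosetInd_apply_of_mem {M0 : AddSubgroup M} {z0 z : M} (h : z - z0 ∈ M0) :
    (cosetInd M0 z0 z : Kbar) = 1 := by
  simp [cosetInd, h]

theorem cosetInd_apply_of_not_mem {M0 : AddSubgroup M} {z0 z : M} (h : z - z0 ∉ M0) :
    (cosetInd M0 z0 z : Kbar) = 0 := by
  simp [cosetInd, h]

theorem cosetInd_mem_A (M0 : AddSubgroup M) (z0 z : M) : (cosetInd M0 z0 z : Kbar) ∈ A := by
  by_cases h : z - z0 ∈ M0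
  · rw [cosetInd_apply_of_mem h]; exact A.one_mem
  · rw [cosetInd_apply_of_not_mem h]; exact A.zero_mem

theorem cosetInd_equivariant {M0 : AddSubgroup M} (hM0 : ∀ (σ : Γ) (z : M), σ • z - z ∈ M0)
    (z0 : M) : IsEquivariantFun Γ (cosetInd M0 z0 : M → Kbar) := by
  intro σ z
  have hiff : σ • z - z0 ∈ M0 ↔ z - z0 ∈ M0 := by
    have h1 : σ • z - z0 = (σ • z - z) + (z - z0) := by abel
    rw [h1]
    exact M0.add_mem_cancel_left (hM0 σ z)
  by_cases h : z - z0 ∈ M0
  · rw [cosetInd_apply_of_mem h, cosetInd_apply_of_mem (hiff.2 h), smul_one]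
  · rw [cosetInd_apply_of_not_mem h, cosetInd_apply_of_not_mem (fun h' => h (hiff.1 h')), smul_zero]

theorem genSet_finite [Finite M] (M0 : AddSubgroup M) (x : M → Fin g → A) :
    (genSet (Kbar := Kbar) M0 x).Finite :=
  (Set.finite_range _).union (Set.finite_range _)

theorem genSet_equivariant {M0 : AddSubgroup M} (hM0 : ∀ (σ : Γ) (z : M), σ • z - z ∈ M0)
    {x : M → Fin g → A} (hxeq : ∀ (σ : Γ) z j, (x (σ • z) j : Kbar) = σ • (x z j : Kbar)) :
    ∀ f ∈ genSet M0 x, IsEquivariantFun Γ f := by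
  rintro _ (⟨z0, rfl⟩ | ⟨j, rfl⟩)
  · exact cosetInd_equivariant hM0 z0
  · intro σ z
    exact hxeq σ z j

theorem genSet_mem_A (M0 : AddSubgroup M) (x : M → Fin g → A) :
    ∀ f ∈ genSet M0 x, ∀ z, f z ∈ A := by
  rintro _ (⟨z0, rfl⟩ | ⟨j, rfl⟩) z
  · exact cosetInd_mem_A M0 z0 z
  · exact (x z j).2

/-- every element of the order is equivariant. -/
theorem order_equivariant (hW : IsFixedRing Γ A W0) {M0 : AddSubgroup M}
    (hM0 : ∀ (σ : Γ) (z : M), σ • z - z ∈ M0) {x : M → Fin g → A}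
    (hxeq : ∀ (σ : Γ) z j, (x (σ • z) j : Kbar) = σ • (x z j : Kbar)) :
    ∀ h ∈ order W0 M0 x, IsEquivariantFun Γ h :=
  hW.equivariant_of_mem_adjoin _ (genSet_equivariant hM0 hxeq)

omit [DistribMulAction Γ M] in
/-- every element of the order is `A`-valued. -/
theorem order_mem_A (hW : IsFixedRing Γ A W0) (M0 : AddSubgroup M) (x : M → Fin g → A) :
    ∀ h ∈ order W0 M0 x, ∀ z, h z ∈ A := by
  intro h hh
  induction hh using Algebra.adjoin_induction with
  | mem f hf => exact genSet_mem_A M0 x f hf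
  | algebraMap w =>
    intro z
    rw [Pi.algebraMap_apply]
    exact hW.mem w
  | add f f' _ _ hf hf' => exact fun z => A.add_mem _ _ (hf z) (hf' z)
  | mul f f' _ _ hf hf' => exact fun z => A.mul_mem _ _ (hf z) (hf' z)

/-- the order is a finite `W₀`-module. -/
theorem order_fg [Finite M] (hW : IsFixedRing Γ A W0) {M0 : AddSubgroup M}
    (hM0 : ∀ (σ : Γ) (z : M), σ • z - z ∈ M0) {x : M → Fin g → A}
    (hxeq : ∀ (σ : Γ) z j, (x (σ • z) j : Kbar) = σ • (x z j : Kbar)) :
    (Subalgebra.toSubmodule (order W0 M0 x)).FG :=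
  fg_adjoin_of_finite (genSet_finite M0 x) fun f hf =>
    hW.isIntegral f (genSet_equivariant hM0 hxeq f hf) (genSet_mem_A M0 x f hf)

/-- the order separates the points of `M`. -/
theorem order_separates {M0 : AddSubgroup M} {x : M → Fin g → A}
    (hxsep : ∀ z z', z - z' ∈ M0 → x z = x z' → z = z') (z z' : M)
    (h : ∀ f ∈ order W0 M0 x, f z = f z') : z = z' := by
  have h1 : z - z' ∈ M0 := by
    by_contra hne
    have h2 := h _ (cosetInd_mem_order M0 x z')
    rw [cosetInd_apply_of_not_mem hne, cosetInd_apply_of_mem (by rw [sub_self]; exact M0.zero_mem)]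
      at h2
    exact zero_ne_one h2
  refine hxsep z z' h1 (funext fun j => ?_)
  have h2 := h _ (coordFun_mem_order M0 x j)
  exact Subtype.ext h2

theorem sub_out_mem_iff (M0 : AddSubgroup M) (z : M) (c : M ⧸ M0) :
    z - c.out ∈ M0 ↔ (z : M ⧸ M0) = c := by
  have h1 : ((c.out : M) : M ⧸ M0) = c := QuotientAddGroup.out_eq' c
  constructor
  · intro h
    rw [← h1, eq_comm, QuotientAddGroup.eq]
    have : -c.out + z = z - c.out := by abel
    rw [this]; exact h
  · intro h
    have h2 : ((c.out : M) : M ⧸ M0) = (z : M ⧸ M0) := by rw [h1, h]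
    rw [QuotientAddGroup.eq] at h2
    have : -c.out + z = z - c.out := by abel
    rw [← this]; exact h2

/-- the coproduct of a coset indicator. -/
theorem hasCoprod_cosetInd [Finite M] (M0 : AddSubgroup M) (x : M → Fin g → A) (z0 : M) :
    HasCoprod (order W0 M0 x) (cosetInd M0 z0 : M → Kbar) := by
  classical
  have := Fintype.ofFinite (M ⧸ M0)
  refine ⟨M ⧸ M0, inferInstance, fun c => cosetInd M0 c.out, fun c => cosetInd M0 (z0 - c.out),
    fun c => cosetInd_mem_order M0 x _, fun c => cosetInd_mem_order M0 x _, ?_⟩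
  intro z z'
  rw [Finset.sum_eq_single (z : M ⧸ M0)]
  · have h1 : z - ((z : M ⧸ M0)).out ∈ M0 := (sub_out_mem_iff M0 z _).2 rfl
    beta_reduce
    rw [cosetInd_apply_of_mem h1, one_mul]
    have hiff : z + z' - z0 ∈ M0 ↔ z' - (z0 - ((z : M ⧸ M0)).out) ∈ M0 := by
      have h2 : z + z' - z0 = (z - ((z : M ⧸ M0)).out) + (z' - (z0 - ((z : M ⧸ M0)).out)) := by abel
      rw [h2]
      exact M0.add_mem_cancel_left h1
    by_cases h : z + z' - z0 ∈ M0
    · rw [cosetInd_apply_of_mem h, cosetInd_apply_of_mem (hiff.1 h)]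
    · rw [cosetInd_apply_of_not_mem h, cosetInd_apply_of_not_mem (fun h' => h (hiff.2 h'))]
  · intro c _ hc
    have h1 : z - c.out ∉ M0 := fun h => hc ((sub_out_mem_iff M0 z c).1 h).symm
    beta_reduce
    rw [cosetInd_apply_of_not_mem h1, zero_mul]
  · intro h
    exact absurd (Finset.mem_univ _) h

/-- the action of `Γ` on a coset of `M₀`. -/
@[reducible] def cosetMulAction {M0 : AddSubgroup M} (hM0 : ∀ (σ : Γ) (z : M), σ • z - z ∈ M0) (z0 : M) :
    MulAction Γ {z : M // z - z0 ∈ M0} where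
  smul σ z := ⟨σ • z.1, by
    have h1 : σ • z.1 - z0 = (σ • z.1 - z.1) + (z.1 - z0) := by abel
    rw [h1]
    exact M0.add_mem (hM0 σ z.1) z.2⟩
  one_smul z := Subtype.ext (one_smul Γ z.1)
  mul_smul σ τ z := Subtype.ext (mul_smul σ τ z.1)

/-- the coproduct of a coordinate function. -/
theorem hasCoprod_coordFun [Finite M] (hW : IsFixedRing Γ A W0) (ℓ : A)
    (hrank : ∀ a : A, a ≠ 0 → ∃ m : ℕ, a ∣ ℓ ^ m)
    {M0 : AddSubgroup M} (hM0 : ∀ (σ : Γ) (z : M), σ • z - z ∈ M0)
    {x : M → Fin g → A} (hxnil : ∀ z j, ∃ k, ℓ ∣ x z j ^ k)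
    (hxeq : ∀ (σ : Γ) z j, (x (σ • z) j : Kbar) = σ • (x z j : Kbar))
    (hxsep : ∀ z z', z - z' ∈ M0 → x z = x z' → z = z')
    (j : Fin g)
    (hmean : ∀ (z0 z0' : M), ∃ Φ : Operation A g, Φ.IsNaturalAt ℓ ∧
      ∀ z z', z - z0 ∈ M0 → z' - z0' ∈ M0 → ∀ n : ℕ,
        Ideal.Quotient.mk (Ideal.span {ℓ ^ n}) (x (z + z') j) =
          Φ (A ⧸ Ideal.span {ℓ ^ n}) (fun i => Ideal.Quotient.mk _ (x z i))
            (fun i => Ideal.Quotient.mk _ (x z' i))) :
    HasCoprod (order W0 M0 x) (coordFun x j) := by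
  classical
  have := Fintype.ofFinite (M ⧸ M0)
  have hsplit : ∀ q : (M ⧸ M0) × (M ⧸ M0),
      IsSplit (order W0 M0 x) (Subtype.val : {z : M // z - q.1.out ∈ M0} → M)
        (Subtype.val : {z : M // z - q.2.out ∈ M0} → M)
        (fun t => ((x (t.1.1 + t.2.1) j : A) : Kbar)) := by
    intro q
    let _ := cosetMulAction hM0 q.1.out
    let _ := cosetMulAction hM0 q.2.out
    obtain ⟨Φ, hΦ, happ⟩ := hmean q.1.out q.2.out
    refine exists_split_of_approx hW ℓ hrank (order W0 M0 x) x (coordFun_mem_order M0 x) hxnil hxeq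
      Subtype.val Subtype.val (fun σ s => rfl) (fun σ s => rfl) ?_ ?_ (fun z => x z j)
      (fun σ z => hxeq σ z j) Φ hΦ (fun s s' n => happ s.1 s'.1 s.2 s'.2 n)
    · intro s₁ s₂ h
      apply Subtype.ext
      refine hxsep _ _ ?_ h
      have : s₁.1 - s₂.1 = (s₁.1 - q.1.out) - (s₂.1 - q.1.out) := by abel
      rw [this]
      exact M0.sub_mem s₁.2 s₂.2
    · intro s₁ s₂ h
      apply Subtype.ext
      refine hxsep _ _ ?_ h
      have : s₁.1 - s₂.1 = (s₁.1 - q.2.out) - (s₂.1 - q.2.out) := by abel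
      rw [this]
      exact M0.sub_mem s₁.2 s₂.2
  choose ι hι a b ha hb hab using hsplit
  refine ⟨Σ q, ι q, inferInstance, fun i => cosetInd M0 i.1.1.out * a i.1 i.2,
    fun i => cosetInd M0 i.1.2.out * b i.1 i.2,
    fun i => (order W0 M0 x).mul_mem (cosetInd_mem_order M0 x _) (ha _ _),
    fun i => (order W0 M0 x).mul_mem (cosetInd_mem_order M0 x _) (hb _ _), ?_⟩
  intro z z'
  rw [Fintype.sum_sigma, Finset.sum_eq_single ((z : M ⧸ M0), (z' : M ⧸ M0))]
  · have h1 : z - ((z : M ⧸ M0)).out ∈ M0 := (sub_out_mem_iff M0 z _).2 rfl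
    have h2 : z' - ((z' : M ⧸ M0)).out ∈ M0 := (sub_out_mem_iff M0 z' _).2 rfl
    have h3 := hab ((z : M ⧸ M0), (z' : M ⧸ M0)) ⟨z, h1⟩ ⟨z', h2⟩
    simp only [Pi.mul_apply]
    simp only [cosetInd_apply_of_mem h1, cosetInd_apply_of_mem h2, one_mul]
    exact h3
  · intro q _ hq
    apply Finset.sum_eq_zero
    intro i _
    simp only [Pi.mul_apply]
    by_cases h1 : z - q.1.out ∈ M0
    · have h2 : z' - q.2.out ∉ M0 := by
        intro h2
        apply hq
        exact Prod.ext ((sub_out_mem_iff M0 z q.1).1 h1).symm ((sub_out_mem_iff M0 z' q.2).1 h2).symm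
      rw [cosetInd_apply_of_not_mem h2]
      ring
    · rw [cosetInd_apply_of_not_mem h1]
      ring
  · intro h
    exact absurd (Finset.mem_univ _) h

/-- **Main theorem of chapters A4/A5.**  The order generated by the coset indicators and the
coordinate functions consists of equivariant `A`-valued functions, is finite over `W₀`, separates
points, and its generators have coproducts. -/
theorem order_main [Finite M] (hW : IsFixedRing Γ A W0) (ℓ : A)
    (hrank : ∀ a : A, a ≠ 0 → ∃ m : ℕ, a ∣ ℓ ^ m)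
    {M0 : AddSubgroup M} (hM0 : ∀ (σ : Γ) (z : M), σ • z - z ∈ M0)
    {x : M → Fin g → A} (hxnil : ∀ z j, ∃ k, ℓ ∣ x z j ^ k)
    (hxeq : ∀ (σ : Γ) z j, (x (σ • z) j : Kbar) = σ • (x z j : Kbar))
    (hxsep : ∀ z z', z - z' ∈ M0 → x z = x z' → z = z')
    (hmean : ∀ (j : Fin g) (z0 z0' : M), ∃ Φ : Operation A g, Φ.IsNaturalAt ℓ ∧
      ∀ z z', z - z0 ∈ M0 → z' - z0' ∈ M0 → ∀ n : ℕ,
        Ideal.Quotient.mk (Ideal.span {ℓ ^ n}) (x (z + z') j) =
          Φ (A ⧸ Ideal.span {ℓ ^ n}) (fun i => Ideal.Quotient.mk _ (x z i))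
            (fun i => Ideal.Quotient.mk _ (x z' i))) :
    (∀ h ∈ order W0 M0 x, IsEquivariantFun Γ h) ∧
    (∀ h ∈ order W0 M0 x, ∀ z, h z ∈ A) ∧
    (Subalgebra.toSubmodule (order W0 M0 x)).FG ∧
    (∀ z z' : M, (∀ f ∈ order W0 M0 x, f z = f z') → z = z') ∧
    ∀ s ∈ genSet M0 x, HasCoprod (order W0 M0 x) s := by
  refine ⟨order_equivariant hW hM0 hxeq, order_mem_A hW M0 x, order_fg hW hM0 hxeq,
    order_separates hxsep, ?_⟩
  rintro _ (⟨z0, rfl⟩ | ⟨j, rfl⟩)
  · exact hasCoprod_cosetInd M0 x z0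
  · exact hasCoprod_coordFun hW ℓ hrank hM0 hxnil hxeq hxsep j (hmean j)

omit [DistribMulAction Γ M] in
/-- **Conjugation stability.**  If a ring automorphism `τ` of `K̄` preserves `W₀`, and an additive
automorphism `τM` of `M` preserves `M₀` and is compatible with the coordinates, then the order is
stable under `h ↦ τ ∘ h ∘ τM⁻¹`. -/
theorem order_conj_mem (M0 : AddSubgroup M) (x : M → Fin g → A) (τ : Kbar ≃+* Kbar)
    (hτ : ∀ w : W0, ∃ w' : W0, algebraMap W0 Kbar w' = τ (algebraMap W0 Kbar w))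
    (τM : M ≃+ M) (hτM : ∀ z, z ∈ M0 ↔ τM z ∈ M0)
    (hτx : ∀ z j, (x (τM z) j : Kbar) = τ (x z j : Kbar)) :
    ∀ h ∈ order W0 M0 x, (fun z => τ (h (τM.symm z))) ∈ order W0 M0 x := by
  intro h hh
  induction hh using Algebra.adjoin_induction with
  | mem f hf =>
    rcases hf with ⟨z0, rfl⟩ | ⟨j, rfl⟩
    · have : (fun z => τ (cosetInd M0 z0 (τM.symm z) : Kbar)) = cosetInd M0 (τM z0) := by
        funext z
        have hiff : τM.symm z - z0 ∈ M0 ↔ z - τM z0 ∈ M0 := by
          rw [hτM (τM.symm z - z0), map_sub, AddEquiv.apply_symm_apply]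
        by_cases h1 : τM.symm z - z0 ∈ M0
        · rw [cosetInd_apply_of_mem h1, cosetInd_apply_of_mem (hiff.1 h1), map_one]
        · rw [cosetInd_apply_of_not_mem h1, cosetInd_apply_of_not_mem (fun h' => h1 (hiff.2 h')),
            map_zero]
      rw [this]
      exact cosetInd_mem_order M0 x _
    · have : (fun z => τ (coordFun x j (τM.symm z))) = coordFun x j := by
        funext z
        show τ (x (τM.symm z) j : Kbar) = (x z j : Kbar)
        rw [← hτx, AddEquiv.apply_symm_apply]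
      rw [this]
      exact coordFun_mem_order M0 x j
  | algebraMap w =>
    obtain ⟨w', hw'⟩ := hτ w
    have : (fun z => τ (algebraMap W0 (M → Kbar) w (τM.symm z))) = algebraMap W0 (M → Kbar) w' := by
      funext z
      rw [Pi.algebraMap_apply, Pi.algebraMap_apply, hw']
    rw [this]
    exact Subalgebra.algebraMap_mem _ _
  | add f f' _ _ hf hf' =>
    have : (fun z => τ ((f + f') (τM.symm z))) =
        (fun z => τ (f (τM.symm z))) + fun z => τ (f' (τM.symm z)) := by
      funext z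
      simp
    rw [this]
    exact Subalgebra.add_mem _ hf hf'
  | mul f f' _ _ hf hf' =>
    have : (fun z => τ ((f * f') (τM.symm z))) =
        (fun z => τ (f (τM.symm z))) * fun z => τ (f' (τM.symm z)) := by
      funext z
      simp
    rw [this]
    exact Subalgebra.mul_mem _ hf hf'

end Global

end Fermat.Agent.FF.OrderCoordD
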