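/-
Programme FF (S19), chapter A5 glue (lead): from the core algebra (`CoreAlg7.exists_coreOutput`,
`CoreNat8`) to the MEANING HYPOTHESIS of `OrderCoordD.order_main`.

* `coreOp D hcf j` : the `j`-th coordinate of the sum, as an operation on nilpotent tuples of
  arbitrary `W`-algebras; it is natural (`coreOp_isNatural`).
* `shiftOp D hcf s₀ j` : `(y, y') ↦ F (F (y, y'), s₀)`, natural on algebras in which `ℓ` is nilpotent
  when the constants `s₀` are topologically nilpotent.
* `IsCoreSum D x x' y` : the statement delivered by the geometric chapter G5 (`Meaning8.meaning`).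
* `order_main_of_coreSum` : the conclusion of `order_main` from `IsCoreSum` hypotheses.
-/
import Mathlib
import Fermat.Agent.FF.CoreAlg7H
import Fermat.Agent.FF.CoreNat8
import Fermat.Agent.FF.OrderCoordD

set_option autoImplicit false

namespace Fermat.Agent.FF.OrderCoordF

open Fermat.Agent.FF.CoreIface8 Fermat.Agent.FF.CoreNat8 Fermat.Agent.FF.CoreAlg7
  Fermat.Agent.FF.OrderCoordA Fermat.Agent.FF.OrderCoordD Fermat.Agent.FF.HopfOrderB
  Fermat.Agent.FF.HopfOrderC Fermat.Agent.FF.OrderCoordC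

universe v

section Op

variable {W : Type} [CommRing W] [IsLocalRing W] {V : Type v} [AddCommGroup V] [Module W V]
variable {g d : ℕ} (D : CoreData W V g d) (hcf : ClosedFibre D (IsLocalRing.ResidueField W))

open Classical in
/-- the `j`-th coordinate of the sum, as an operation. -/
noncomputable def coreOp (j : Fin g) : Operation W g := fun B _ _ y y' =>
  if h : (∀ i, IsNilpotent (y i)) ∧ (∀ i, IsNilpotent (y' i)) then
    (Classical.choice (exists_coreOutput D hcf B y y' h.1 h.2)).F j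
  else 0

variable {B : Type} [CommRing B] [Algebra W B]

theorem coreOp_eq {y y' : Fin g → B} (hy : ∀ i, IsNilpotent (y i)) (hy' : ∀ i, IsNilpotent (y' i))
    (O : CoreOutput D B y y') (j : Fin g) : coreOp D hcf j B y y' = O.F j := by
  unfold coreOp
  rw [dif_pos ⟨hy, hy'⟩]
  exact CoreOutput.F_unique D O _ hy hy' j

theorem coreOp_isNilpotent {y y' : Fin g → B} (hy : ∀ i, IsNilpotent (y i))
    (hy' : ∀ i, IsNilpotent (y' i)) (j : Fin g) : IsNilpotent (coreOp D hcf j B y y') := by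
  obtain ⟨O⟩ := exists_coreOutput D hcf B y y' hy hy'
  rw [coreOp_eq D hcf hy hy' O]
  exact isNilpotent_of_mem_coordIdeal hy hy' (O.hF j)

theorem coreOp_isNatural (j : Fin g) : (coreOp D hcf j).IsNatural := by
  intro B B' _ _ _ _ β y y' hy hy'
  obtain ⟨O⟩ := exists_coreOutput D hcf B y y' hy hy'
  have hβy : ∀ i, IsNilpotent ((β ∘ y) i) := fun i => (hy i).map β
  have hβy' : ∀ i, IsNilpotent ((β ∘ y') i) := fun i => (hy' i).map β
  obtain ⟨O'⟩ := exists_coreOutput D hcf B' (β ∘ y) (β ∘ y') hβy hβy'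
  rw [coreOp_eq D hcf hy hy' O]
  have := coreOp_eq D hcf hβy hβy' O' j
  rw [show (fun j => β (y j)) = β ∘ y from rfl, show (fun j => β (y' j)) = β ∘ y' from rfl, this]
  exact CoreOutput.F_natural D β O O' hy hy' j

/-- `(y, y') ↦ F (F (y, y'), s₀)`. -/
noncomputable def shiftOp (s₀ : Fin g → W) (j : Fin g) : Operation W g := fun B _ _ y y' =>
  coreOp D hcf j B (fun i => coreOp D hcf i B y y') (fun i => algebraMap W B (s₀ i))

omit [IsLocalRing W] in
theorem isNilpotent_algebraMap_of_dvd_pow {ℓ a : W} (hℓ : IsNilpotent (algebraMap W B ℓ))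
    (ha : ∃ k, ℓ ∣ a ^ k) : IsNilpotent (algebraMap W B a) := by
  obtain ⟨k, c, hc⟩ := ha
  obtain ⟨n, hn⟩ := hℓ
  refine ⟨k * n, ?_⟩
  rw [← map_pow, pow_mul, hc, mul_pow, map_mul, map_pow, hn, zero_mul]

theorem shiftOp_isNaturalAt (ℓ : W) (s₀ : Fin g → W) (hs₀ : ∀ i, ∃ k, ℓ ∣ s₀ i ^ k) (j : Fin g) :
    (shiftOp D hcf s₀ j).IsNaturalAt ℓ := by
  intro B B' _ _ _ _ β hℓ y y' hy hy'
  have hs₀B : ∀ i, IsNilpotent (algebraMap W B (s₀ i)) := fun i =>
    isNilpotent_algebraMap_of_dvd_pow hℓ (hs₀ i)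
  unfold shiftOp
  have h1 := coreOp_isNatural D hcf j B B' β (fun i => coreOp D hcf i B y y')
    (fun i => algebraMap W B (s₀ i)) (fun i => coreOp_isNilpotent D hcf hy hy' i) hs₀B
  rw [← h1]
  have h2 : (fun i => coreOp D hcf i B' (fun j => β (y j)) (fun j => β (y' j))) =
      fun i => β (coreOp D hcf i B y y') :=
    funext fun i => coreOp_isNatural D hcf i B B' β y y' hy hy'
  have h3 : (fun i => algebraMap W B' (s₀ i)) = fun i => β (algebraMap W B (s₀ i)) :=
    funext fun i => (β.commutes (s₀ i)).symm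
  rw [h2, h3]

/-- `y` is the sum of `x` and `x'`, as seen by the core algebra over every `W`-algebra in which
`x, x'` become nilpotent (the output of the geometric chapter G5). -/
def IsCoreSum (x x' y : Fin g → W) : Prop :=
  ∀ (B : Type) [CommRing B] [Algebra W B], (∀ i, IsNilpotent (algebraMap W B (x i))) →
    (∀ i, IsNilpotent (algebraMap W B (x' i))) →
    ∀ (O : CoreOutput D B (algebraMap W B ∘ x) (algebraMap W B ∘ x')) (j : Fin g),
      O.F j = algebraMap W B (y j)

theorem coreOp_of_isCoreSum {x x' y : Fin g → W} (h : IsCoreSum D x x' y)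
    (hx : ∀ i, IsNilpotent (algebraMap W B (x i))) (hx' : ∀ i, IsNilpotent (algebraMap W B (x' i)))
    (j : Fin g) :
    coreOp D hcf j B (fun i => algebraMap W B (x i)) (fun i => algebraMap W B (x' i)) =
      algebraMap W B (y j) := by
  obtain ⟨O⟩ := exists_coreOutput D hcf B (algebraMap W B ∘ x) (algebraMap W B ∘ x') hx hx'
  rw [← h B hx hx' O j]
  exact coreOp_eq D hcf hx hx' O j

theorem shiftOp_of_isCoreSum {x x' y s₀ w : Fin g → W} (h1 : IsCoreSum D x x' y)
    (h2 : IsCoreSum D y s₀ w)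
    (hx : ∀ i, IsNilpotent (algebraMap W B (x i))) (hx' : ∀ i, IsNilpotent (algebraMap W B (x' i)))
    (hs₀ : ∀ i, IsNilpotent (algebraMap W B (s₀ i))) (j : Fin g) :
    shiftOp D hcf s₀ j B (fun i => algebraMap W B (x i)) (fun i => algebraMap W B (x' i)) =
      algebraMap W B (w j) := by
  unfold shiftOp
  have h3 : (fun i => coreOp D hcf i B (fun i => algebraMap W B (x i))
      (fun i => algebraMap W B (x' i))) = fun i => algebraMap W B (y i) :=
    funext fun i => coreOp_of_isCoreSum D hcf h1 hx hx' i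
  rw [h3]
  have hy : ∀ i, IsNilpotent (algebraMap W B (y i)) := by
    intro i
    rw [← coreOp_of_isCoreSum D hcf h1 hx hx' i]
    exact coreOp_isNilpotent D hcf hx hx' i
  exact coreOp_of_isCoreSum D hcf h2 hy hs₀ j

end Op

section Main

variable {Kbar : Type} [Field Kbar] {Γ : Type*} [Group Γ] [MulSemiringAction Γ Kbar]
variable {A : ValuationSubring Kbar} {W0 : Type} [CommRing W0] [Algebra W0 Kbar]
variable {M : Type} [AddCommGroup M] [DistribMulAction Γ M]
variable {V : Type v} [AddCommGroup V] [Module A V] {g d : ℕ}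

theorem isNilpotent_mk_of_dvd_pow (ℓ : A) (n : ℕ) {a : A} (ha : ∃ k, ℓ ∣ a ^ k) :
    IsNilpotent (algebraMap A (A ⧸ Ideal.span {ℓ ^ n}) a) := by
  obtain ⟨k, c, hc⟩ := ha
  refine ⟨k * n, ?_⟩
  rw [← map_pow, pow_mul, hc, mul_pow, Ideal.Quotient.algebraMap_eq,
    Ideal.Quotient.eq_zero_iff_mem]
  exact Ideal.mul_mem_right _ _ (Ideal.mem_span_singleton_self _)

/-- **A4/A5 with the core algebra plugged in.**  `mid z z'` are the coordinates of
`θ (x z) + θ (x z')` and `s₀ z0 z0'` the coordinates of the constant shift on the pair of cosets of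
`z0, z0'`. -/
theorem order_main_of_coreSum [Finite M] (hW : IsFixedRing Γ A W0) (ℓ : A)
    (hrank : ∀ a : A, a ≠ 0 → ∃ m : ℕ, a ∣ ℓ ^ m)
    (D : CoreData A V g d) (hcf : ClosedFibre D (IsLocalRing.ResidueField A))
    {M0 : AddSubgroup M} (hM0 : ∀ (σ : Γ) (z : M), σ • z - z ∈ M0)
    {x : M → Fin g → A} (hxnil : ∀ z j, ∃ k, ℓ ∣ x z j ^ k)
    (hxeq : ∀ (σ : Γ) z j, (x (σ • z) j : Kbar) = σ • (x z j : Kbar))
    (hxsep : ∀ z z', z - z' ∈ M0 → x z = x z' → z = z')
    (mid : M → M → Fin g → A) (s₀ : M → M → Fin g → A)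
    (hs₀nil : ∀ z0 z0' j, ∃ k, ℓ ∣ s₀ z0 z0' j ^ k)
    (hsum1 : ∀ z z', IsCoreSum D (x z) (x z') (mid z z'))
    (hsum2 : ∀ z0 z0' z z', z - z0 ∈ M0 → z' - z0' ∈ M0 →
      IsCoreSum D (mid z z') (s₀ z0 z0') (x (z + z'))) :
    (∀ h ∈ order W0 M0 x, IsEquivariantFun Γ h) ∧
    (∀ h ∈ order W0 M0 x, ∀ z, h z ∈ A) ∧
    (Subalgebra.toSubmodule (order W0 M0 x)).FG ∧
    (∀ z z' : M, (∀ f ∈ order W0 M0 x, f z = f z') → z = z') ∧
    ∀ s ∈ genSet M0 x, HasCoprod (order W0 M0 x) s := by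
  refine order_main hW ℓ hrank hM0 hxnil hxeq hxsep ?_
  intro j z0 z0'
  refine ⟨shiftOp D hcf (s₀ z0 z0') j, shiftOp_isNaturalAt D hcf ℓ _ (hs₀nil z0 z0') j, ?_⟩
  intro z z' hz hz' n
  have := shiftOp_of_isCoreSum (B := A ⧸ Ideal.span {ℓ ^ n}) D hcf (hsum1 z z')
    (hsum2 z0 z0' z z' hz hz')
    (fun i => isNilpotent_mk_of_dvd_pow ℓ n (hxnil z i))
    (fun i => isNilpotent_mk_of_dvd_pow ℓ n (hxnil z' i))
    (fun i => isNilpotent_mk_of_dvd_pow ℓ n (hs₀nil z0 z0' i)) j
  exact this.symm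

end Main

end Fermat.Agent.FF.OrderCoordF
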