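/-
Programme FF (S19), glue between chapter G4 (`ThetaKer5`, helper5) and the assembly (`Assembly8`):
the `ThetaInput` of the assembly from the hypotheses of `ThetaKer5` (abstract disc model + abstract
place reduction `r`), a group `Γ` acting on `Pic⁰` through semilinear automorphisms which preserve
the parameter `φ` and the reduction of places, and `Γ`-invariant lifts `Pt` of the reductions.
-/
import Mathlib
import Fermat.Agent.FF.Assembly8
import Fermat.Agent.FF.ThetaKer5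

set_option autoImplicit false

open AlgebraicCurve IsLocalRing

namespace Fermat.Agent.FF.ThetaGlue8

open Fermat.Agent.FF.CoreIface8 Fermat.Agent.FF.GeomIface8 Fermat.Agent.FF.Theta8
  Fermat.Agent.FF.Assembly8 Fermat.Agent.FF.ThetaKer5 AlgebraicCurve.SemilinearAut

variable {K : Type} [Field K] {F : Type*} [Field F] [Algebra K F]
variable {A : ValuationSubring K} {g d : ℕ}
variable {Γ : Type*} [Group Γ] [MulSemiringAction Γ K]

/-- the automorphism of `A` induced by `σ`. -/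
def sigmaA (hΓA : ∀ (σ : Γ) (a : K), a ∈ A → σ • a ∈ A) (σ : Γ) : A ≃+* A where
  toFun a := ⟨σ • (a : K), hΓA σ _ a.2⟩
  invFun a := ⟨σ⁻¹ • (a : K), hΓA σ⁻¹ _ a.2⟩
  left_inv a := Subtype.ext (inv_smul_smul σ (a : K))
  right_inv a := Subtype.ext (smul_inv_smul σ (a : K))
  map_mul' a b := Subtype.ext (smul_mul' σ (a : K) (b : K))
  map_add' a b := Subtype.ext (smul_add σ (a : K) (b : K))

theorem sigmaA_tuple (hΓA : ∀ (σ : Γ) (a : K), a ∈ A → σ • a ∈ A) (σ : Γ) (x : Fin g → A) :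
    (fun i => sigmaA hΓA σ (x i)) = smulTuple hΓA σ x := rfl

variable [DistribMulAction Γ (Pic0 K F)]
variable (Mod : DiscModel A F g d) (hdeg : ∀ (j : Fin d) (t : A), (Mod.P j t).deg = 1)
variable {κ : Type*} [Field κ] {Fb : Type*} [Field Fb] [Algebra κ Fb]
variable (r : Place K F → Place κ Fb)

/-- **the input of the assembly from chapter G4.** -/
noncomputable def thetaInput
    (hΓA : ∀ (σ : Γ) (a : K), a ∈ A → σ • a ∈ A)
    (γ : Γ → SemilinearAut K F)
    (hγ : ∀ (σ : Γ) (z : Pic0 K F), σ • z = γ σ • z)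
    (hγK : ∀ (σ : Γ) (a : K), baseAut (γ σ) a = σ • a)
    (hγφ : ∀ σ : Γ, γ σ • Mod.φ = Mod.φ)
    (hγr : ∀ (σ : Γ) (P : Place K F), r (γ σ • P) = r P)
    (h1 : ∀ (j : Fin d) (t : A), t ∈ maximalIdeal A → r (Mod.P j t) = r (Mod.P j 0))
    (hdisj : ∀ (j j' : Fin d) (t t' : A), t ∈ maximalIdeal A → t' ∈ maximalIdeal A →
      Mod.P j t = Mod.P j' t' → j = j')
    (h2 : ∀ (j : Fin g) (Q : Place K F), r Q = Pb Mod r j →
      ∃ t : A, t ∈ maximalIdeal A ∧ Q = Mod.P (Fin.castLE Mod.hgd j) t)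
    (h3 : Function.Injective (Pb Mod r))
    (h4 : NonSpecial Mod r)
    (h5 : ∀ D : Divisor K F, D ∈ Divisor.principal (K := K) (F := F) →
      Finsupp.mapDomain r D ∈ Divisor.principal (K := κ) (F := Fb))
    (h6 : RiemannEff (K := K) (F := F) (g := g))
    (h7 : WeakSemicont Mod r)
    {Jb : Type*} [AddCommGroup Jb] (red : Pic0 K F →+ Jb)
    (hred : ∀ D : Divisor.degZero (K := K) (F := F), red (Pic0.mk D) = 0 ↔
      Finsupp.mapDomain r (D : Divisor K F) ∈ Divisor.principal (K := κ) (F := Fb))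
    (hredΓ : ∀ (σ : Γ) (z : Pic0 K F), red (σ • z) = red z)
    {M : Type} [AddCommGroup M] [DistribMulAction Γ M] (emb : M →+ Pic0 K F)
    (emb_inj : Function.Injective emb) (emb_smul : ∀ (σ : Γ) (z : M), emb (σ • z) = σ • emb z)
    (Pt : M → Pic0 K F) (red_Pt : ∀ z, red (Pt z) = red (emb z))
    (Pt_congr : ∀ z z', red (emb z) = red (emb z') → Pt z = Pt z')
    (Pt_smul : ∀ (σ : Γ) (z : M), σ • Pt z = Pt z) :
    ThetaInput Mod hdeg Γ M Jb where
  hΓA := hΓA
  emb := emb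
  emb_inj := emb_inj
  emb_smul := emb_smul
  red := red
  red_smul := hredΓ
  theta_inj x x' hx hx' h := theta_injective Mod hdeg r h1 hdisj h4 h7 x x' hx hx' h
  red_theta x hx :=
    (red_eq_zero_iff Mod hdeg r h1 h2 h3 h4 h5 h6 red hred _).2 ⟨x, hx, rfl⟩
  theta_surj z hz := by
    obtain ⟨x, hx, hxz⟩ := (red_eq_zero_iff Mod hdeg r h1 h2 h3 h4 h5 h6 red hred z).1 hz
    exact ⟨x, hx, hxz.symm⟩
  theta_smul σ x hx := by
    rw [hγ, ← sigmaA_tuple hΓA σ x]
    refine (smul_theta Mod hdeg r h2 (γ σ) (sigmaA hΓA σ) (fun a => (hγK σ (a : K)).symm)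
      (hγφ σ) (fun j t ht => ?_) x hx).symm
    rw [hγr, h1 _ t ht]
    rfl
  Pt := Pt
  red_Pt := red_Pt
  Pt_congr := Pt_congr
  Pt_smul := Pt_smul

end Fermat.Agent.FF.ThetaGlue8
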