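/-
Programme FF (S19), integration (helper8): the `ThetaInput` of the assembly for the disc model of an
abstract place reduction `C : DiscOfRedA.RedCtxV`.

Inputs: the chosen data of chapter G2a (`φ`, the `d` distinct simple zeros `Pb j` of `ρ φ`, the first
`g` of them non-special), `LHyp` on both fibres, Riemann's inequality with the constant `g` on both
fibres and one divisor with `δ = 0` on the special fibre (G6), semicontinuity (G3a), a group `Γ`
acting through semilinear automorphisms preserving `A`, `φ` and the reduction of places (G0(c)), a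
reduction homomorphism `red` on `Pic⁰` (G0(a)), a finite `Γ`-stable subgroup `M ↪ Pic⁰`, and
`Γ`-invariant lifts of the places outside a finite set (G2b).
-/
import Mathlib
import Fermat.Agent.FF.ThetaGlue8
import Fermat.Agent.FF.ThetaBridge5
import Fermat.Agent.FF.InvLift8

set_option autoImplicit false

open AlgebraicCurve IsLocalRing

namespace Fermat.Agent.FF.AbsTheta8

open Fermat.Agent.FF.CoreIface8 Fermat.Agent.FF.GeomIface8 Fermat.Agent.FF.Theta8
  Fermat.Agent.FF.Assembly8 Fermat.Agent.FF.ThetaKer5 Fermat.Agent.FF.ThetaBridge5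
  Fermat.Agent.FF.ThetaGlue8 Fermat.Agent.FF.DiscOfRedA Fermat.Agent.FF.UniqueZeroA
  Fermat.Agent.FF.SpecRR1 Fermat.Agent.FF.InvLift8 Fermat.Agent.RR.LSpace
  AlgebraicCurve.SemilinearAut

variable {K : Type} [Field K] {F : Type*} [Field F] [Algebra K F]
variable {κ : Type*} [Field κ] {Fb : Type*} [Field Fb] [Algebra κ Fb]
variable {A : ValuationSubring K} (C : RedCtxV A F κ Fb)
variable {d : ℕ} (φ : C.O) (Pb : Fin d → Place κ Fb)
variable (hPb : ∀ j, (Pb j).ord (C.ρ φ) = 1)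
variable (hnp : ∀ j P, C.r P = Pb j → 0 ≤ P.ord (φ : F))
variable (g : ℕ) (hgd : g ≤ d) (hφ : C.ρ φ ≠ 0)
variable {Γ : Type*} [Group Γ] [MulSemiringAction Γ K] [DistribMulAction Γ (Pic0 K F)]

/-- **the input of the assembly for the disc model of an abstract place reduction.** -/
theorem nonempty_thetaInput
    (hinj : Function.Injective Pb) (HL : LHyp K F) (HLb : LHyp κ Fb)
    (hell : ell (∑ j : Fin g, Finsupp.single (Pb (Fin.castLE hgd j)) (1 : ℤ)) ≤ 1)
    (hsemi : ∀ D : Divisor K F, ell D ≤ ell (Finsupp.mapDomain C.r D))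
    (hR : ∀ D : Divisor K F, Divisor.degree D + 1 - (g : ℤ) ≤ ell D)
    (hRb : ∀ D : Divisor κ Fb, Divisor.degree D + 1 - (g : ℤ) ≤ ell D)
    [Infinite κ] {D₀ : Divisor κ Fb} (h0 : delta (g : ℤ) D₀ = 0)
    (hΓA : ∀ (σ : Γ) (a : K), a ∈ A → σ • a ∈ A)
    (γ : Γ → SemilinearAut K F)
    (hγ : ∀ (σ : Γ) (z : Pic0 K F), σ • z = γ σ • z)
    (hγK : ∀ (σ : Γ) (a : K), baseAut (γ σ) a = σ • a)
    (hγφ : ∀ σ : Γ, γ σ • (φ : F) = (φ : F))
    (hγr : ∀ (σ : Γ) (P : Place K F), C.r (γ σ • P) = C.r P)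
    {Jb : Type*} [AddCommGroup Jb] (red : Pic0 K F →+ Jb)
    (hred : ∀ D : Divisor.degZero (K := K) (F := F), red (Pic0.mk D) = 0 ↔
      Finsupp.mapDomain C.r (D : Divisor K F) ∈ Divisor.principal (K := κ) (F := Fb))
    (hredΓ : ∀ (σ : Γ) (z : Pic0 K F), red (σ • z) = red z)
    {M : Type} [AddCommGroup M] [DistribMulAction Γ M] (emb : M →+ Pic0 K F)
    (emb_inj : Function.Injective emb) (emb_smul : ∀ (σ : Γ) (z : M), emb (σ • z) = σ • emb z)
    (Sbad : Finset (Place κ Fb)) (P₁ : Place κ Fb) (hP₁ : P₁ ∉ Sbad)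
    (hlift : ∀ Qb : Place κ Fb, Qb ∉ Sbad →
      ∃ Q : Place K F, C.r Q = Qb ∧ ∀ σ : Γ, γ σ • Q = Q) :
    Nonempty (ThetaInput (C.discModel φ Pb hPb hnp g hgd hφ) (fun _ _ => HL.deg_eq_one _) Γ M Jb) := by
  have hex : ∀ z : Pic0 K F, ∃ y : Pic0 K F, red y = red z ∧ ∀ σ : Γ, σ • y = y := by
    intro z
    obtain ⟨y, hy1, hy2⟩ := exists_invariant_lift γ C.r HL HLb (g : ℤ) hRb red hred h0 Sbad P₁ hP₁
      hlift z
    exact ⟨y, hy1, fun σ => by rw [hγ]; exact hy2 σ⟩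
  obtain ⟨Pt, hPt1, hPt2, hPt3⟩ := exists_Pt red emb hex
  exact ⟨thetaInput (C.discModel φ Pb hPb hnp g hgd hφ) (fun _ _ => HL.deg_eq_one _) C.r hΓA γ hγ hγK
    hγφ hγr (h1_of_red C φ Pb hPb hnp g hgd hφ) (hdisj_of_red C φ Pb hPb hnp g hgd hφ hinj)
    (h2_of_red C φ Pb hPb hnp g hgd hφ) (h3_of_red C φ Pb hPb hnp g hgd hφ hinj)
    (nonSpecial_of_red C φ Pb hPb hnp g hgd hφ HLb hell) (h5_of_red C)
    (riemannEff_of_riemann HL g hR)
    (weakSemicont_of_semicont _ C.r HL (fun x _ => hsemi _)) red hred hredΓ emb emb_inj emb_smul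
    Pt hPt1 hPt2 hPt3⟩

end Fermat.Agent.FF.AbsTheta8
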