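/-
Programme FF (S19), chapter A4 (lead): the rank-one property of a valuation subring of an algebraic
extension of `ℚ` lying over a prime `ℓ`: every nonzero element divides a power of `ℓ`, and every
element of the maximal ideal has a power divisible by `ℓ`.
-/
import Mathlib

set_option autoImplicit false

namespace Fermat.Agent.FF.OrderCoordE

variable {Kbar : Type*} [Field Kbar] [CharZero Kbar] [Algebra.IsAlgebraic ℚ Kbar]

omit [CharZero Kbar] [Algebra.IsAlgebraic ℚ Kbar] in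
/-- an element of `K̄` integral over `ℤ` lies in every valuation subring. -/
theorem mem_of_isIntegral_int (A : ValuationSubring Kbar) {x : Kbar} (hx : IsIntegral ℤ x) :
    x ∈ A := by
  have h1 : IsIntegral A x := hx.tower_top
  obtain ⟨y, hy⟩ := (IsIntegrallyClosed.isIntegral_iff (R := A) (K := Kbar)).1 h1
  rw [← hy]
  exact y.2

/-- every nonzero element of `A` divides a nonzero integer. -/
theorem exists_int_dvd (A : ValuationSubring Kbar) (a : A) (ha : a ≠ 0) :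
    ∃ N : ℤ, N ≠ 0 ∧ a ∣ (N : A) := by
  have ha' : (a : Kbar) ≠ 0 := fun h => ha (Subtype.ext h)
  have halg : IsAlgebraic ℤ ((a : Kbar)⁻¹) := by
    rw [IsFractionRing.isAlgebraic_iff ℤ ℚ Kbar]
    exact Algebra.IsAlgebraic.isAlgebraic _
  obtain ⟨N, hN0, hN⟩ := halg.exists_integral_multiple
  refine ⟨N, hN0, ⟨⟨N • (a : Kbar)⁻¹, mem_of_isIntegral_int A hN⟩, ?_⟩⟩
  apply Subtype.ext
  push_cast
  rw [zsmul_eq_mul]
  field_simp

omit [CharZero Kbar] [Algebra.IsAlgebraic ℚ Kbar] in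
/-- an integer prime to `ℓ` is a unit of `A` when `ℓ` is not. -/
theorem isUnit_intCast_of_coprime (A : ValuationSubring Kbar) (ℓ : ℕ)
    (hℓA : ¬ IsUnit ((ℓ : ℕ) : A)) (u : ℤ) (hu : IsCoprime u (ℓ : ℤ)) : IsUnit ((u : ℤ) : A) := by
  obtain ⟨s, t, hst⟩ := hu
  have h1 : ((s : ℤ) : A) * (u : A) = 1 - (t : A) * ((ℓ : ℕ) : A) := by
    have := congrArg (fun n : ℤ => (n : A)) hst
    push_cast at this
    rw [← this]; ring
  have h2 : (t : A) * ((ℓ : ℕ) : A) ∈ nonunits A := by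
    rw [← IsLocalRing.mem_maximalIdeal]
    exact Ideal.mul_mem_left _ _ ((IsLocalRing.mem_maximalIdeal _).2 hℓA)
  have h3 : IsUnit (((s : ℤ) : A) * (u : A)) := by
    rw [h1]
    exact IsLocalRing.isUnit_one_sub_self_of_mem_nonunits _ h2
  exact isUnit_of_mul_isUnit_right h3

/-- **rank one**: every nonzero element of `A` divides a power of `ℓ`. -/
theorem exists_dvd_pow (A : ValuationSubring Kbar) (ℓ : ℕ) (hℓ : ℓ.Prime)
    (hℓA : ¬ IsUnit ((ℓ : ℕ) : A)) (a : A) (ha : a ≠ 0) :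
    ∃ m : ℕ, a ∣ ((ℓ : ℕ) : A) ^ m := by
  obtain ⟨N, hN0, hN⟩ := exists_int_dvd A a ha
  have hnat : N.natAbs ≠ 0 := Int.natAbs_ne_zero.2 hN0
  obtain ⟨m, u, hu, hNu⟩ := Nat.exists_eq_pow_mul_and_not_dvd hnat ℓ hℓ.ne_one
  have hcop : IsCoprime (u : ℤ) (ℓ : ℤ) := by
    rw [Nat.isCoprime_iff_coprime]
    exact ((Nat.Prime.coprime_iff_not_dvd hℓ).2 hu).symm
  have hunit : IsUnit (((u : ℕ) : ℤ) : A) := isUnit_intCast_of_coprime A ℓ hℓA u hcop
  have h1 : a ∣ ((N.natAbs : ℕ) : A) := by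
    have h2 : ((N.natAbs : ℕ) : A) = (((N.natAbs : ℕ) : ℤ) : A) := (Int.cast_natCast _).symm
    rw [h2]
    rcases Int.natAbs_eq N with h | h
    · rw [← h]; exact hN
    · have h3 : ((N.natAbs : ℕ) : ℤ) = -N := by omega
      rw [h3, Int.cast_neg]; exact (dvd_neg).2 hN
  rw [hNu] at h1
  push_cast at h1
  refine ⟨m, ?_⟩
  have hunit' : IsUnit ((u : ℕ) : A) := by simpa using hunit
  exact (hunit'.dvd_mul_right).1 h1

open Polynomial in
/-- every non-unit of `A` has a power divisible by `ℓ`. -/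
theorem exists_pow_dvd_of_not_isUnit (A : ValuationSubring Kbar) (ℓ : ℕ) (hℓ : ℓ.Prime)
    (hℓA : ¬ IsUnit ((ℓ : ℕ) : A)) (a : A) (ha : ¬ IsUnit a) :
    ∃ k : ℕ, ((ℓ : ℕ) : A) ∣ a ^ k := by
  have : Fact ℓ.Prime := ⟨hℓ⟩
  -- a primitive integer polynomial killing `a`
  have halg : IsAlgebraic ℤ (a : Kbar) := by
    rw [IsFractionRing.isAlgebraic_iff ℤ ℚ Kbar]
    exact Algebra.IsAlgebraic.isAlgebraic _
  obtain ⟨p0, hp0, hp0a⟩ := halg
  set p := p0.primPart with hp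
  have hprim : p.IsPrimitive := p0.isPrimitive_primPart
  have hpa : aeval (a : Kbar) p = 0 := aeval_primPart_eq_zero hp0 hp0a
  have hpaA : aeval a p = 0 := by
    apply Subtype.ext
    have := Polynomial.aeval_algHom_apply (A.subtype.toIntAlgHom) a p
    rw [ZeroMemClass.coe_zero, ← hpa]
    exact this.symm
  -- reduction modulo `ℓ`
  set pbar := p.map (Int.castRingHom (ZMod ℓ)) with hpbar_def
  have hpbar : pbar ≠ 0 := by
    intro h0
    have hdvd : C ((ℓ : ℕ) : ℤ) ∣ p := by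
      rw [C_dvd_iff_dvd_coeff]
      intro i
      have := congrArg (fun q => q.coeff i) h0
      simp only [hpbar_def, coeff_map, coeff_zero, eq_intCast] at this
      exact (ZMod.intCast_zmod_eq_zero_iff_dvd _ _).1 this
    have h1 : IsUnit (((ℓ : ℕ) : ℤ)) := hprim _ hdvd
    rw [Int.ofNat_isUnit, Nat.isUnit_iff] at h1
    exact hℓ.ne_one h1
  obtain ⟨qbar, hq1, hq2⟩ := exists_eq_pow_rootMultiplicity_mul_and_not_dvd pbar hpbar 0
  set n := pbar.rootMultiplicity 0 with hn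
  obtain ⟨q, hq⟩ : ∃ q : ℤ[X], q.map (Int.castRingHom (ZMod ℓ)) = qbar :=
    Polynomial.map_surjective _ (ZMod.intCast_surjective) qbar
  have hdiff : C ((ℓ : ℕ) : ℤ) ∣ p - X ^ n * q := by
    rw [C_dvd_iff_dvd_coeff]
    intro i
    rw [← ZMod.intCast_zmod_eq_zero_iff_dvd]
    have h2 : (p - X ^ n * q).map (Int.castRingHom (ZMod ℓ)) = 0 := by
      rw [Polynomial.map_sub, Polynomial.map_mul, Polynomial.map_pow, map_X, hq, ← hpbar_def]
      rw [hq1]
      simp
    have h3 : ((p - X ^ n * q).map (Int.castRingHom (ZMod ℓ))).coeff i = 0 := by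
      rw [h2, coeff_zero]
    rw [coeff_map, eq_intCast] at h3
    exact h3
  obtain ⟨r, hr⟩ := hdiff
  have heval : a ^ n * aeval a q = -(((ℓ : ℕ) : A) * aeval a r) := by
    have h3 := congrArg (aeval a) hr
    simp only [map_sub, map_mul, map_pow, aeval_X, aeval_C, hpaA, zero_sub] at h3
    have h4 : algebraMap ℤ A ((ℓ : ℕ) : ℤ) = ((ℓ : ℕ) : A) := by simp
    rw [h4] at h3
    rw [← h3, neg_neg]
  -- `q(a)` is a unit
  have hqunit : IsUnit (aeval a q) := by
    have h1 : a ∣ aeval a q - algebraMap ℤ A (q.coeff 0) := by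
      have h5 := map_dvd (aeval a) (X_dvd_sub_C (p := q))
      simpa using h5
    have hc : IsCoprime (q.coeff 0) ((ℓ : ℕ) : ℤ) := by
      have h6 : ¬ ((ℓ : ℕ) : ℤ) ∣ q.coeff 0 := by
        intro hdvd
        apply hq2
        rw [C_0, sub_zero, X_dvd_iff, ← hq, coeff_map, eq_intCast]
        exact (ZMod.intCast_zmod_eq_zero_iff_dvd _ _).2 hdvd
      have hp' : Prime ((ℓ : ℕ) : ℤ) := Nat.prime_iff_prime_int.1 hℓ
      exact (IsCoprime.symm ((Prime.coprime_iff_not_dvd hp').2 h6))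
    have hu : IsUnit ((q.coeff 0 : ℤ) : A) := isUnit_intCast_of_coprime A ℓ hℓA _ hc
    obtain ⟨t, ht⟩ := h1
    have h7 : ((q.coeff 0 : ℤ) : A) = aeval a q + -(a * t) := by
      rw [← ht]
      simp
    rw [h7] at hu
    rcases IsLocalRing.isUnit_or_isUnit_of_isUnit_add hu with h8 | h8
    · exact h8
    · exfalso
      rw [IsUnit.neg_iff] at h8
      exact ha (isUnit_of_mul_isUnit_left h8)
  obtain ⟨v, hv⟩ := hqunit
  refine ⟨n, ⟨-(aeval a r) * ((v⁻¹ : Aˣ) : A), ?_⟩⟩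
  have h9 : a ^ n = a ^ n * aeval a q * ((v⁻¹ : Aˣ) : A) := by
    rw [← hv, mul_assoc, Units.mul_inv, mul_one]
  rw [h9, heval]
  ring

end Fermat.Agent.FF.OrderCoordE
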