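/-
Programme FF (S19), chapter C, Galois side (helper8): the inertia group `Γ = I(A)` of a valuation
subring `A` of `ℚ̄`, its actions, the fixed ring `W₀ = A^Γ`, and the rank-one facts for `ℓ`.
-/
import Mathlib
import Fermat.Prelude.Def_FLTPrelim_Ramification
import Fermat.Prelude.Def_ModularCurve_ArithmeticGalois
import Fermat.Agent.FF.OrderCoordC
import Fermat.Agent.FF.OrderCoordE

set_option autoImplicit false

open AlgebraicCurve ModularCurve IsLocalRing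
open scoped Pointwise

noncomputable section

namespace Fermat.Agent.FF.InertiaWire8

open Fermat.Agent.FF.OrderCoordC

/-- `ℚ̄`. -/
abbrev Qb : Type := AlgebraicClosure ℚ

/-- the absolute Galois group of `ℚ`. -/
abbrev GQ : Type := Qb ≃ₐ[ℚ] Qb

variable (A : ValuationSubring Qb)

/-- the inertia group of `A`. -/
abbrev Iner : Subgroup GQ := A.inertiaSubgroupIn ℚ

theorem mem_decomposition_of_mem_inertia {σ : GQ} (hσ : σ ∈ A.inertiaSubgroupIn ℚ) :
    σ ∈ A.decompositionSubgroup ℚ := by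
  obtain ⟨τ, _, rfl⟩ := hσ
  exact τ.2

theorem apply_mem_of_mem_decomposition {σ : GQ} (hσ : σ ∈ A.decompositionSubgroup ℚ) {a : Qb}
    (ha : a ∈ A) : σ a ∈ A := by
  have h2 : σ • A = A := hσ
  rw [← h2]
  exact ⟨a, ha, rfl⟩

/-- `Γ` preserves `A`. -/
theorem hΓA (σ : Iner A) (a : Qb) (ha : a ∈ A) : σ • a ∈ A :=
  apply_mem_of_mem_decomposition A (mem_decomposition_of_mem_inertia A σ.2) ha

/-- the fixed ring `A^Γ`. -/
def W0 : Subring Qb where
  carrier := {a | a ∈ A ∧ ∀ σ : Iner A, σ • a = a}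
  mul_mem' := by
    rintro a b ⟨ha, ha'⟩ ⟨hb, hb'⟩
    exact ⟨A.mul_mem _ _ ha hb, fun σ => by rw [smul_mul', ha' σ, hb' σ]⟩
  one_mem' := ⟨A.one_mem, fun σ => smul_one σ⟩
  add_mem' := by
    rintro a b ⟨ha, ha'⟩ ⟨hb, hb'⟩
    exact ⟨A.add_mem _ _ ha hb, fun σ => by rw [smul_add, ha' σ, hb' σ]⟩
  zero_mem' := ⟨A.zero_mem, fun σ => smul_zero σ⟩
  neg_mem' := by
    rintro a ⟨ha, ha'⟩
    exact ⟨A.neg_mem _ ha, fun σ => by rw [smul_neg, ha' σ]⟩

theorem isFixedRing_W0 : IsFixedRing (Iner A) A (W0 A) := by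
  refine ⟨Subtype.val_injective, fun a => ⟨?_, ?_⟩⟩
  · rintro ⟨w, rfl⟩
    exact w.2
  · intro h
    exact ⟨⟨a, h⟩, rfl⟩

variable {A}
variable {ℓ : ℕ}

theorem not_isUnit_natCast (hA : A.LiesOverPrime ℓ) : ¬ IsUnit ((ℓ : ℕ) : A) := by
  intro h
  have h1 : (ℓ : Qb) ∈ A.nonunits := hA
  rw [ValuationSubring.mem_nonunits_iff_exists_mem_maximalIdeal] at h1
  obtain ⟨ha, hmem⟩ := h1
  rw [mem_maximalIdeal, mem_nonunits_iff] at hmem
  apply hmem
  have : (⟨(ℓ : Qb), ha⟩ : A) = ((ℓ : ℕ) : A) := Subtype.ext (by simp)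
  rw [this]
  exact h

theorem isAlgebraic_rat_Qb : Algebra.IsAlgebraic ℚ Qb := by
  have h : (DivisionRing.toRatAlgebra : Algebra ℚ (AlgebraicClosure ℚ)) =
      AlgebraicClosure.instAlgebra ℚ := Subsingleton.elim _ _
  rw [h]; infer_instance

/-- rank one: every nonzero element of `A` divides a power of `ℓ`. -/
theorem hrank (hℓ : ℓ.Prime) (hA : A.LiesOverPrime ℓ) (a : A) (ha : a ≠ 0) :
    ∃ m : ℕ, a ∣ ((ℓ : ℕ) : A) ^ m :=
  haveI := isAlgebraic_rat_Qb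
  OrderCoordE.exists_dvd_pow A ℓ hℓ (not_isUnit_natCast hA) a ha

/-- every element of the maximal ideal has a power divisible by `ℓ`. -/
theorem hℓm (hℓ : ℓ.Prime) (hA : A.LiesOverPrime ℓ) (a : A) (ha : a ∈ maximalIdeal A) :
    ∃ k : ℕ, ((ℓ : ℕ) : A) ∣ a ^ k :=
  haveI := isAlgebraic_rat_Qb
  OrderCoordE.exists_pow_dvd_of_not_isUnit A ℓ hℓ (not_isUnit_natCast hA) a
    (by rwa [mem_maximalIdeal, mem_nonunits_iff] at ha)

end Fermat.Agent.FF.InertiaWire8
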