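/-
Programme FF (S19), chapter C over `ℚ̄` (helper8): `Assembly8.order_main_of_theta` specialised to
`K = ℚ̄`, `Γ` = the inertia group of `A`, `W₀ = A^Γ`, `ℓ` the residue characteristic.
-/
import Mathlib
import Fermat.Agent.FF.Assembly8
import Fermat.Agent.FF.InertiaWire8

set_option autoImplicit false

open AlgebraicCurve IsLocalRing

namespace Fermat.Agent.FF.AssemblyQb8

open Fermat.Agent.FF.CoreIface8 Fermat.Agent.FF.GeomIface8 Fermat.Agent.FF.Assembly8
  Fermat.Agent.FF.InertiaWire8 Fermat.Agent.FF.OrderCoordD Fermat.Agent.FF.HopfOrderB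
  Fermat.Agent.FF.HopfOrderC

universe v

variable {A : ValuationSubring Qb} {F : Type*} [Field F] [Algebra Qb F] {g d : ℕ}
variable [DistribMulAction (Iner A) (Pic0 Qb F)]
variable {Mod : DiscModel A F g d} {hdeg : ∀ (j : Fin d) (t : A), (Mod.P j t).deg = 1}
variable {M : Type} [AddCommGroup M] [Finite M] [DistribMulAction (Iner A) M]
variable {Jb : Type*} [AddCommGroup Jb]
variable {V : Type v} [AddCommGroup V] [Module A V] {D : CoreData A V g d}

/-- **ASSEMBLY over `ℚ̄`.** -/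
theorem order_main_Qb (I : ThetaInput Mod hdeg (Iner A) M Jb) {ℓ : ℕ} (hℓ : ℓ.Prime)
    (hA : A.LiesOverPrime ℓ)
    (hcf : ClosedFibre D (IsLocalRing.ResidueField A)) (L : LatticeModel Mod D)
    (hdisj : ∀ (j j' : Fin d) (t t' : A), t ∈ maximalIdeal A → t' ∈ maximalIdeal A →
      Mod.P j t = Mod.P j' t' → j = j') :
    (∀ h ∈ order (W0 A) I.M0 I.x, IsEquivariantFun (Iner A) h) ∧
    (∀ h ∈ order (W0 A) I.M0 I.x, ∀ z, h z ∈ A) ∧
    (Subalgebra.toSubmodule (order (W0 A) I.M0 I.x)).FG ∧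
    (∀ z z' : M, (∀ f ∈ order (W0 A) I.M0 I.x, f z = f z') → z = z') ∧
    ∀ s ∈ genSet I.M0 I.x, HasCoprod (order (W0 A) I.M0 I.x) s :=
  I.order_main_of_theta (isFixedRing_W0 A) ((ℓ : ℕ) : A) (hrank hℓ hA) (hℓm hℓ hA) hcf L hdisj

end Fermat.Agent.FF.AssemblyQb8
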