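/-
Programme FF (S19), bridges requested by the designer (helper8 msg 172), complement of
`FF/ThetaBridge5` (helper5):

* (B2) `riemann_inequality_genus` : `deg D + 1 - genus K F ≤ l(D)` for a function field with a
  generator over an algebraically closed field of characteristic zero (from Riemann–Roch,
  `RR/RRMain`), `riemannEff_genus : ThetaKer5.RiemannEff` with `g := genus K F`, and the same with
  `genusFF K F`;
* (B4) `nonSpecial_of_pts` : `ThetaKer5.NonSpecial Mod r` from `SpecRR1.ell (pts T) = 1` and an
  enumeration `ThetaKer5.Pb Mod r` of `T` by `Fin g` (`T.card = g`, all centres in `T`, injective).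
-/
import Mathlib
import Fermat.Agent.FF.ThetaBridge5
import Fermat.Agent.RR.RRMain

set_option autoImplicit false

open AlgebraicCurve IsLocalRing

namespace Fermat.Agent.FF.Bridge5

open Fermat.Agent.X0.FF Fermat.Agent.FF.GeomIface8 Fermat.Agent.FF.Meaning8 Fermat.Agent.FF.Theta8
  Fermat.Agent.FF.ThetaKer5 Fermat.Agent.RR.LSpace Fermat.Agent.FF.SpecRR1
  Fermat.Agent.FF.ThetaBridge5

section Riemann

variable {K F : Type*} [Field K] [Field F] [Algebra K F] [IsAlgClosed K] [CharZero K] {x : F}
  [HasCanonicalDivisor (K := K) (F := F)]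

/-- **Riemann's inequality with the Prelude genus** (characteristic zero). -/
theorem riemann_inequality_genus (hx : IsGen K x) (D : Divisor K F) :
    Divisor.degree D + 1 - (genus K F : ℤ) ≤ ell D := by
  have hω₀ := D_ne_zero hx
  have hW := fun v => canonicalDivisorOf_apply (K := K) (F := F) hω₀ v
  have h0 := Fermat.Agent.RR.RRMain.riemann_roch_genus hx hω₀ hW D
  unfold ell
  have : (0 : ℤ) ≤ (Module.finrank K (riemannRochSpace (canonicalDivisorOf hω₀ - D)) : ℤ) :=
    Int.natCast_nonneg _
  omega

/-- Riemann's inequality with `genusFF`. -/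
theorem riemann_inequality_genusFF (hx : IsGen K x) (D : Divisor K F) :
    Divisor.degree D + 1 - (genusFF K F : ℤ) ≤ ell D := by
  rw [← Fermat.Agent.RR.RRMain.genus_eq_genusFF hx]
  exact riemann_inequality_genus hx D

/-- **(B2)** `RiemannEff` with `g := genus K F`. -/
theorem riemannEff_genus (hx : IsGen K x) : RiemannEff (K := K) (F := F) (g := genus K F) :=
  riemannEff_of_riemann (Fermat.Agent.RR.LHypGen.lHyp_of_isGen hx) (genus K F)
    (riemann_inequality_genus hx)

/-- `RiemannEff` with `g := genusFF K F`. -/
theorem riemannEff_genusFF (hx : IsGen K x) :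
    RiemannEff (K := K) (F := F) (g := genusFF K F) :=
  riemannEff_of_riemann (Fermat.Agent.RR.LHypGen.lHyp_of_isGen hx) (genusFF K F)
    (riemann_inequality_genusFF hx)

end Riemann

section NonSpecial

variable {K : Type*} [Field K] {F : Type*} [Field F] [Algebra K F]
variable {A : ValuationSubring K} {g d : ℕ} (M : DiscModel A F g d)
variable {κ : Type*} [Field κ] {Fb : Type*} [Field Fb] [Algebra κ Fb]
variable (r : Place K F → Place κ Fb)

open Classical in
/-- the image of an injective enumeration of a set of cardinality `g` by `Fin g` inside the set is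
the whole set. -/
theorem image_Pb_eq (T : Finset (Place κ Fb)) (hcard : T.card = g)
    (hmem : ∀ j, Pb M r j ∈ T) (h3 : Function.Injective (Pb M r)) :
    Finset.univ.image (Pb M r) = T := by
  apply Finset.eq_of_subset_of_card_le
  · intro Q hQ
    obtain ⟨j, -, rfl⟩ := Finset.mem_image.1 hQ
    exact hmem j
  · rw [Finset.card_image_of_injective _ h3, Finset.card_univ, Fintype.card_fin, hcard]

/-- **(B4)** `NonSpecial` from `l̄(pts T) = 1` and an enumeration of `T` by the centres. -/
theorem nonSpecial_of_pts (HLb : LHyp κ Fb) (T : Finset (Place κ Fb)) (hcard : T.card = g)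
    (hT : ell (pts T) = 1) (hmem : ∀ j, Pb M r j ∈ T) (h3 : Function.Injective (Pb M r)) :
    NonSpecial M r := by
  apply nonSpecial_of_ell_eq_one M r HLb
  rw [Ebar_eq_pts M r h3, image_Pb_eq M r T hcard hmem h3]
  exact hT

/-- variant: the centres are given by a bijection `Pbar : Fin g → T`. -/
theorem nonSpecial_of_pts' (HLb : LHyp κ Fb) (T : Finset (Place κ Fb))
    (hT : ell (pts T) = 1) (Pbar : Fin g → T) (hbij : Function.Bijective Pbar)
    (hPb : ∀ j, Pb M r j = (Pbar j : Place κ Fb)) : NonSpecial M r := by
  have hcard : T.card = g := by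
    have := Fintype.card_of_bijective hbij
    rw [Fintype.card_fin, Fintype.card_coe] at this
    exact this.symm
  refine nonSpecial_of_pts M r HLb T hcard hT (fun j => by rw [hPb]; exact (Pbar j).2) ?_
  intro j j' h
  rw [hPb, hPb] at h
  exact hbij.1 (Subtype.ext h)

end NonSpecial

end Fermat.Agent.FF.Bridge5
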