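/-
Programme FF (S19), chapter G6c / P3 (helper7): pure algebra for the descent of integrality.

* `isIntegral_of_coeff_isIntegral` : a root of a monic polynomial with integral coefficients is
  integral;
* `isIntegral_subring_of_adjoin` : `y` integral over `k[T]`, `k` integral over `ℤ`, `T ∈ S`
  (a subring) ⇒ `y` integral over `S`;
* `isIntegral_of_map` : integrality descends along an injective ring hom;
* `isIntegral_descent` : `φ y₀` integral over `k[φ T₀]` ⇒ `y₀` integral over `κ[T₀]`.
-/
import Mathlib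
import Fermat.Agent.RED.PUR.ChartGeneric22

set_option autoImplicit false

open Polynomial

namespace Fermat.Agent.FF.ChartInst7

open Fermat.Agent.RED.PUR.ChartGeneric22

theorem isIntegral_of_coeff_isIntegral {R L : Type*} [CommRing R] [Field L] [Algebra R L] {y : L}
    (P : L[X]) (hP : P.Monic) (hc : ∀ i, IsIntegral R (P.coeff i)) (hy : P.eval y = 0) :
    IsIntegral R y := by
  have h1 : IsIntegral (integralClosure R L) y :=
    (isIntegral_subalgebra_iff (integralClosure R L) y).mpr ⟨P, hP, hc, hy⟩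
  exact isIntegral_trans y h1

/-- integrality over a subring, in terms of polynomials. -/
theorem isIntegral_subring_iff {L : Type*} [Field L] (S : Subring L) (x : L) :
    IsIntegral S x ↔ ∃ P : L[X], P.Monic ∧ (∀ i, P.coeff i ∈ S) ∧ P.eval x = 0 := by
  constructor
  · rintro ⟨p, hp, hx⟩
    refine ⟨p.map (algebraMap S L), hp.map _, fun i => ?_, ?_⟩
    · rw [coeff_map]
      exact (p.coeff i).2
    · rwa [eval_map]
  · rintro ⟨P, hP, hcoeff, hx⟩
    have hl : P ∈ lifts (algebraMap S L) := by
      rw [lifts_iff_coeff_lifts]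
      intro n
      exact ⟨⟨P.coeff n, hcoeff n⟩, rfl⟩
    obtain ⟨q, hq, -, hqm⟩ := lifts_and_natDegree_eq_and_monic hl hP
    refine ⟨q, hqm, ?_⟩
    rw [← eval_map, hq, hx]

theorem isIntegral_subring_of_adjoin {k L : Type*} [Field k] [Field L] [Algebra k L]
    (S : Subring L) (hk : ∀ c : k, IsIntegral ℤ c) {T : L} (hT : T ∈ S) {y : L}
    (h : IsIntegral (Algebra.adjoin k {T}) y) : IsIntegral S y := by
  obtain ⟨P, hP, hcoeff, hy⟩ := (isIntegral_subalgebra_iff _ y).mp h
  refine isIntegral_of_coeff_isIntegral P hP (fun i => ?_) hy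
  have hi := hcoeff i
  generalize P.coeff i = z at hi
  induction hi using Algebra.adjoin_induction with
  | mem x hx =>
    rw [Set.mem_singleton_iff] at hx
    subst hx
    exact isIntegral_algebraMap (R := S) (x := ⟨x, hT⟩)
  | algebraMap c =>
    have h1 : IsIntegral ℤ (algebraMap k L c) := (hk c).map (algebraMap k L).toIntAlgHom
    exact h1.tower_top
  | add x y _ _ hx hy => exact hx.add hy
  | mul x y _ _ hx hy => exact hx.mul hy

theorem isIntegral_of_map {R L₀ L : Type*} [CommRing R] [Field L₀] [Field L] [Algebra R L₀]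
    (φ : L₀ →+* L) (S₀ : Subalgebra R L₀) {y₀ : L₀}
    (h : IsIntegral (S₀.toSubring.map φ) (φ y₀)) : IsIntegral S₀ y₀ := by
  obtain ⟨P, hP, hcoeff, hy⟩ := (isIntegral_subring_iff _ _).mp h
  have hinj : Function.Injective φ := φ.injective
  have hc : ∀ i, ∃ s ∈ S₀, φ s = P.coeff i := by
    intro i
    obtain ⟨s, hs, hs'⟩ := Subring.mem_map.mp (hcoeff i)
    exact ⟨s, hs, hs'⟩
  have hl : P ∈ lifts φ := by
    rw [lifts_iff_coeff_lifts]
    intro n
    obtain ⟨s, -, hs⟩ := hc n
    exact ⟨s, hs⟩
  obtain ⟨q, hq, -, hqm⟩ := lifts_and_natDegree_eq_and_monic hl hP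
  rw [isIntegral_subalgebra_iff]
  refine ⟨q, hqm, fun i => ?_, ?_⟩
  · obtain ⟨s, hs, hs'⟩ := hc i
    have : q.coeff i = s := by
      apply hinj
      rw [hs', ← hq, coeff_map]
    rw [this]
    exact hs
  · apply hinj
    rw [map_zero, ← eval₂_at_apply, ← eval_map, hq, hy]

/-- **Descent of integrality.** -/
theorem isIntegral_descent {κ k L₀ L : Type*} [CommRing κ] [Field k] [Field L₀] [Field L]
    [Algebra κ L₀] [Algebra k L] (φ : L₀ →+* L) (hk : ∀ c : k, IsIntegral ℤ c) (T₀ y₀ : L₀)
    (h : IsIntegral (Algebra.adjoin k {φ T₀}) (φ y₀)) :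
    IsIntegral (Algebra.adjoin κ {T₀}) y₀ := by
  apply isIntegral_of_map φ
  refine isIntegral_subring_of_adjoin _ hk ?_ h
  exact Subring.mem_map.mpr ⟨T₀, Algebra.self_mem_adjoin_singleton κ T₀, rfl⟩

/-- integrality inside an intermediate field implies integrality in the ambient field. -/
theorem isIntegral_coe_of_mem_chart {k Ω : Type*} [Field k] [Field Ω] [Algebra k Ω]
    (E : IntermediateField k Ω) {x y : E} (hy : y ∈ chart k x) :
    IsIntegral (Algebra.adjoin k {(x : Ω)}) (y : Ω) := by
  rw [mem_chart_iff, isIntegral_subalgebra_iff] at hy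
  obtain ⟨P, hP, hcoeff, hPy⟩ := hy
  rw [isIntegral_subalgebra_iff]
  refine ⟨P.map (algebraMap E Ω), hP.map _, fun i => ?_, ?_⟩
  · rw [coeff_map]
    have h1 : (Algebra.adjoin k {x}).map E.val = Algebra.adjoin k {(x : Ω)} := by
      rw [AlgHom.map_adjoin_singleton]
      rfl
    rw [← h1]
    exact ⟨P.coeff i, hcoeff i, rfl⟩
  · rw [eval_map]
    have h2 := Polynomial.hom_eval₂ P (RingHom.id E) (algebraMap E Ω) y
    rw [RingHom.comp_id, eval₂_id, hPy, map_zero] at h2
    exact h2.symm

/-- integrality in the ambient field implies integrality inside an intermediate field. -/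
theorem mem_chart_of_isIntegral_coe {k Ω : Type*} [Field k] [Field Ω] [Algebra k Ω]
    (E : IntermediateField k Ω) {x y : E}
    (hy : IsIntegral (Algebra.adjoin k {(x : Ω)}) (y : Ω)) : y ∈ chart k x := by
  have h1 : (Algebra.adjoin k {x}).map E.val = Algebra.adjoin k {(x : Ω)} := by
    rw [AlgHom.map_adjoin_singleton]
    rfl
  rw [mem_chart_iff]
  apply isIntegral_of_map (algebraMap E Ω) (Algebra.adjoin k {x})
  have h2 : (Algebra.adjoin k {x}).toSubring.map (algebraMap E Ω) =
      (Algebra.adjoin k {(x : Ω)}).toSubring := by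
    rw [← h1]
    rfl
  rw [h2]
  exact hy

end Fermat.Agent.FF.ChartInst7
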