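/-
Programme FF (S19), chapter G6c / P3 (helper7): **(S2) at the level of `A`.**

`A ≤ ℚ̄` over `ℓ ∤ M`, `k = ResidueField A`, `F̃ = modularFunctionFieldFullC k M`, `t = tF M hmem` the
Hauptmodul of `Fbar M`, `t̃ = tq k n e` its reduction.  Under the smoothness targets of MODEL
(`ModelFinal4.SmoothTargets n e M A`, unconditional at the auxiliary level):

* `exists_red_eq_of_isIntegral` : every `y ∈ F̃` integral over `k[t̃]` is the coefficientwise
  reduction of an `A`-integral series lying in the chart `chart A t`;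
* `exists_red_eq_of_isIntegral_inv` : the same for `k[t̃⁻¹]` and `chart A t⁻¹`.

Proof: descend `y` to a large number field `K` (`ResidueUnion1`), the integrality descends
(`ChartInst7A.isIntegral_descent`), apply (S2) at the DVR level (`FibreSurj17.exists_chartRed_eq`,
smooth charts from the targets) and come back to `A` (`ChartUnion1`, `IntegralQExp1`).
-/
import Fermat.Agent.FF.ChartInst7A
import Fermat.Agent.ES.RED.FracRed16
import Fermat.Agent.RED.ModelFinal4

set_option autoImplicit false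
set_option linter.unusedSectionVars false
set_option linter.style.haveILetI false

noncomputable section

namespace Fermat.Agent.FF.ChartInst7

open Polynomial HahnSeries ModularCurve IntermediateField
open scoped MatrixGroups

open Fermat.Agent.RED.Interface4 Fermat.Agent.RED.DESC Fermat.Agent.RED.DESC.NumberFieldDVR27
open Fermat.Agent.RED.DESC.PlaceExtend27
open Fermat.Agent.RED.PUR.GaussGen8 Fermat.Agent.RED.PUR.KtGauss8 Fermat.Agent.RED.PUR.G1Package8
  Fermat.Agent.RED.PUR.GaussBridge10 Fermat.Agent.RED.PUR.ChartGeneric22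
  Fermat.Agent.ES.RED.FibreSurj17
open Fermat.Agent.RED.BASE.EtaQuot12 Fermat.Agent.RED.BASE.Interface12
open Fermat.Agent.RED.ModelIface4 Fermat.Agent.RED.ModelTargets4 Fermat.Agent.RED.ModelFinal4
  Fermat.Agent.RED.ModelAsm4
open Fermat.Agent.X0 Fermat.Agent.ES.RED

variable (A : ValuationSubring Qbar) {M : ℕ} [NeZero M]

/-- every element of the residue field of `A` is integral over `ℤ`. -/
theorem isIntegral_int_residue (ℓ : ℕ) [Fact ℓ.Prime] (hA : A.LiesOverPrime ℓ)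
    (c : IsLocalRing.ResidueField ↥A) : IsIntegral ℤ c := by
  haveI : FiniteDimensional ℚ (⊥ : IntermediateField ℚ Qbar) := inferInstance
  obtain ⟨K₁, hfin, -, H⟩ := ResidueUnion1.exists_residue_descent A ⊥ c
  obtain ⟨c₀, rfl⟩ := H K₁ le_rfl
  haveI := hfin
  haveI : Finite (IsLocalRing.ResidueField ↥(AK A K₁)) :=
    finite_residueField_AK A K₁ (Fact.out : ℓ.Prime).ne_zero hA
  have h0 : IsIntegral ℤ c₀ := IsIntegral.of_finite ℤ c₀
  obtain ⟨p, hp, hpc⟩ := h0
  refine ⟨p, hp, ?_⟩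
  have h1 : (resMap A K₁).comp (algebraMap ℤ (IsLocalRing.ResidueField ↥(AK A K₁))) =
      algebraMap ℤ (IsLocalRing.ResidueField ↥A) := RingHom.ext_int _ _
  rw [← h1, ← Polynomial.hom_eval₂, hpc, map_zero]

/-- **From level `K` to `A`, element form.**  An element of the chart `chart (A ∩ K) s` has an
`A`-integral series, lying in the chart over `A`, whose reduction is the base change of its
reduction at level `K`. -/
theorem exists_series_of_chart (K : IntermediateField ℚ Qbar) [FiniteDimensional ℚ K]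
    [IsDiscreteValuationRing ↥(AK A K)] {π : ↥(AK A K)} (hπ : Irreducible π)
    (s : ↥(FK M K)) (hs : (s : LaurentSeries K) ∈ gaussRing (AK A K))
    (hsT : ∃ T : LaurentSeries ↥(AK A K), embK (AK A K) T = (s : LaurentSeries K))
    (x : ↥(chart ↥(AK A K) s)) :
    ∃ (Y : LaurentSeries ↥A) (hY : coeffMap A.subtype Y ∈ Fbar M),
      (⟨_, hY⟩ : ↥(Fbar M)) ∈ chart ↥A (baseChangeHom M K s) ∧
      coeffMap (IsLocalRing.residue ↥A) Y =
        coeffMap (resMap A K) (chartRed hπ (FK_le_fracField A K M) s hs x) := by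
  have hE : FK M K ≤ fracField (AK A K) := FK_le_fracField A K M
  obtain ⟨Y₀, hY₀⟩ := IntegralQExp1.exists_embK_of_mem_chart (AK A K) (FK M K) hE hsT x.2
  have h1 : coeffMap A.subtype (coeffMap (incl A K) Y₀) =
      ((baseChangeHom M K (x : ↥(FK M K)) : ↥(Fbar M)) : LaurentSeries Qbar) := by
    rw [GaussUnit25.coeffMap_subtype_incl, hY₀, coe_baseChangeHom]
  refine ⟨coeffMap (incl A K) Y₀, by rw [h1]; exact (baseChangeHom M K (x : ↥(FK M K))).2, ?_, ?_⟩
  · have h2 : (⟨coeffMap A.subtype (coeffMap (incl A K) Y₀),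
        by rw [h1]; exact (baseChangeHom M K (x : ↥(FK M K))).2⟩ : ↥(Fbar M)) =
        baseChangeHom M K (x : ↥(FK M K)) := Subtype.ext h1
    rw [h2]
    exact ChartUnion1.baseChangeHom_mem_chart A M K s x x.2
  · rw [GaussUnit25.coeffMap_residue_incl]
    congr 1
    have h3 : chartRed hπ hE s hs x =
        gaussRed (AK A K) ⟨embK (AK A K) Y₀, embK_mem (AK A K) Y₀⟩ := by
      rw [chartRed_apply]
      congr 1
      exact Subtype.ext hY₀.symm
    rw [h3, gaussRed_embK]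

/-- The Gauss package AND the smoothness of both charts at a large number field `K`, for the
Hauptmodul, plus a prescribed descent of `y`. -/
theorem exists_level_smooth (n e : ℕ) [NeZero n] (ℓ : ℕ) [Fact ℓ.Prime] (hℓM : ¬ ℓ ∣ M)
    (hmem : TMem n e M) (hgen : TGenBase n e) (hA : A.LiesOverPrime ℓ)
    (hsm : SmoothTargets n e M A)
    {y : LaurentSeries (IsLocalRing.ResidueField ↥A)}
    (hy : y ∈ modularFunctionFieldFullC (IsLocalRing.ResidueField ↥A) M) :
    ∃ (K : IntermediateField ℚ Qbar) (_ : FiniteDimensional ℚ K)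
      (_ : IsDiscreteValuationRing ↥(AK A K)) (π : ↥(AK A K)) (_ : Irreducible π)
      (t : ↥(FK M K)) (_ : (t : LaurentSeries K) = tq K n e)
      (ht : (t : LaurentSeries K) ∈ gaussRing (AK A K))
      (_ : Transcendental (Res (AK A K)) (gaussRed (AK A K) ⟨(t : LaurentSeries K), ht⟩))
      (m : ℕ) (_ : relfinrank (Kt (AK A K) ⟨(t : LaurentSeries K), ht⟩) (FK M K) ≠ 0)
      (_ : DegLe (AK A K) (FK M K) ⟨(t : LaurentSeries K), ht⟩ m)
      (_ : Irr (AK A K) (FK M K) ⟨(t : LaurentSeries K), ht⟩ m)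
      (_ : SmoothChart (AK A K) (FK M K) π t) (_ : SmoothChart (AK A K) (FK M K) π t⁻¹),
      ∃ y₀ ∈ modularFunctionFieldFullC (Res (AK A K)) M, coeffMap (resMap A K) y₀ = y := by
  have hℓ : ℓ.Prime := Fact.out
  obtain ⟨cv, ⟨K₃, hK₃, hoff⟩, ⟨K₄, hK₄, hover⟩, ⟨K₅, hK₅, hinf⟩⟩ := hsm
  obtain ⟨K₁, hK₁, hT⟩ := Fermat.Agent.RED.BASE.TBridge15.exists_tq_mem n e M hmem
  obtain ⟨K₂, hK₂, hJ⟩ := Fermat.Agent.RED.BASE.JInKt25.exists_j_mem_adjoin n e hgen
  haveI := hK₁
  haveI := hK₂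
  haveI := hK₃
  haveI := hK₄
  haveI := hK₅
  obtain ⟨K, hKfd, hle, hdesc⟩ :=
    ResidueUnion1.exists_fullC_descent A M (K₁ ⊔ K₂ ⊔ K₃ ⊔ K₄ ⊔ K₅) hy
  haveI := hKfd
  have hle1 : K₁ ≤ K := le_trans (le_trans (le_trans (le_trans le_sup_left le_sup_left)
    le_sup_left) le_sup_left) hle
  have hle2 : K₂ ≤ K := le_trans (le_trans (le_trans (le_trans le_sup_right le_sup_left)
    le_sup_left) le_sup_left) hle
  have hle3 : K₃ ≤ K := le_trans (le_trans (le_trans le_sup_right le_sup_left) le_sup_left) hle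
  have hle4 : K₄ ≤ K := le_trans (le_trans le_sup_right le_sup_left) hle
  have hle5 : K₅ ≤ K := le_trans le_sup_right hle
  have hdvr : IsDiscreteValuationRing ↥(AK A K) := isDiscreteValuationRing_AK A K hℓ.ne_zero hA
  obtain ⟨ϖ, hϖ⟩ := IsDiscreteValuationRing.exists_irreducible ↥(AK A K)
  haveI : CharP (Res (AK A K)) ℓ := charP_residueField_AK A K hℓ hA
  have hfin : Finite (↥(AK A K) ⧸ (Ideal.span {ϖ} : Ideal ↥(AK A K))) := by
    have h1 : Finite (IsLocalRing.ResidueField ↥(AK A K)) :=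
      finite_residueField_AK A K hℓ.ne_zero hA
    rw [← hϖ.maximalIdeal_eq]
    exact h1
  have hE : FK M K ≤ fracField (AK A K) := FK_le_fracField A K M
  have htE : tq K n e ∈ FK M K := hT K hle1
  let t : ↥(FK M K) := ⟨tq K n e, htE⟩
  have ht : ((t : ↥(FK M K)) : LaurentSeries K) ∈ gaussRing (AK A K) :=
    tq_mem_gaussRing (AK A K) n e
  have htr : Transcendental (Res (AK A K))
      (gaussRed (AK A K) ⟨((t : ↥(FK M K)) : LaurentSeries K), ht⟩) :=
    transcendental_gaussRed_tq (AK A K) n e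
  have hjt : jqModC K ∈ Kt (AK A K) ⟨((t : ↥(FK M K)) : LaurentSeries K), ht⟩ := hJ K hle2
  obtain ⟨m, -, hdeg, hirr⟩ := Fermat.Agent.RED.PUR.GaussInst25.exists_degLe_irr_FK A K hϖ ℓ M hℓM
    ⟨((t : ↥(FK M K)) : LaurentSeries K), ht⟩ htE hjt
  have hn : relfinrank (Kt (AK A K) ⟨((t : ↥(FK M K)) : LaurentSeries K), ht⟩) (FK M K) ≠ 0 :=
    Fermat.Agent.RED.ModelMain4.relfinrank_ne_zero (AK A K) M _ htE hjt
  have hfd : FiniteDimensional ↥(IntermediateField.adjoin K {t}) ↥(FK M K) :=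
    finiteDimensional_adjoin t hn
  have htrK : Transcendental K t :=
    transcendental_of_coe t (transcendental_t (tG := ⟨(t : LaurentSeries K), ht⟩) hϖ htr)
  have h0 : SmoothChart (AK A K) (FK M K) ϖ t :=
    smoothChart_of_split (hoff K hKfd hle3 ϖ hϖ t rfl) (hover K hKfd hle4 ϖ hϖ t rfl)
  have h1 : SmoothChart (AK A K) (FK M K) ϖ t⁻¹ :=
    smoothChart_inv_of_split hϖ htrK h0 (hinf K hKfd hle5 ϖ hϖ t rfl)
  exact ⟨K, hKfd, hdvr, ϖ, hϖ, t, rfl, ht, htr, m, hn, hdeg, hirr, h0, h1, hdesc K le_rfl⟩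

/-- **(S2) at the level of `A`, chart `t`.** -/
theorem exists_red_eq_of_isIntegral (n e : ℕ) [NeZero n] (ℓ : ℕ) [Fact ℓ.Prime] (hℓM : ¬ ℓ ∣ M)
    (hmem : TMem n e M) (hgen : TGenBase n e) (hA : A.LiesOverPrime ℓ)
    (hsm : SmoothTargets n e M A)
    {y : LaurentSeries (IsLocalRing.ResidueField ↥A)}
    (hy : y ∈ modularFunctionFieldFullC (IsLocalRing.ResidueField ↥A) M)
    (hint : IsIntegral ↥(Algebra.adjoin (IsLocalRing.ResidueField ↥A)
      {tq (IsLocalRing.ResidueField ↥A) n e}) y) :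
    ∃ (Y : LaurentSeries ↥A) (hY : coeffMap A.subtype Y ∈ Fbar M),
      (⟨_, hY⟩ : ↥(Fbar M)) ∈ chart ↥A (tF M hmem) ∧
      coeffMap (IsLocalRing.residue ↥A) Y = y := by
  obtain ⟨K, hKfd, hdvr, ϖ, hϖ, t, htq, ht, htr, m, hn, hdeg, hirr, hsm0, -, y₀, hy₀, rfl⟩ :=
    exists_level_smooth A n e ℓ hℓM hmem hgen hA hsm hy
  haveI := hKfd
  haveI := hdvr
  have hE : FK M K ≤ fracField (AK A K) := FK_le_fracField A K M
  have hsT : ∃ T : LaurentSeries ↥(AK A K), embK (AK A K) T = (t : LaurentSeries K) :=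
    ⟨tq ↥(AK A K) n e, by rw [htq]; exact coeffMap_tq ↥(AK A K) (AK A K).subtype n e⟩
  have hbc : baseChangeHom M K t = tF M hmem :=
    Fermat.Agent.RED.CUSP.RankConcrete16.baseChangeHom_eq_tF M K hmem t htq
  have hres : y₀ ∈ resField (AK A K) (FK M K) := by
    rw [GaussUnit25.resField_FK_eq A K ℓ hA M hℓM]
    exact hy₀
  -- the reduction of the Hauptmodul at level `K`
  have hred_t : gaussRed (AK A K) ⟨(t : LaurentSeries K), ht⟩ = tq (Res (AK A K)) n e := by
    have h2 : (⟨(t : LaurentSeries K), ht⟩ : gaussRing (AK A K)) =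
        ⟨tq K n e, tq_mem_gaussRing (AK A K) n e⟩ := Subtype.ext htq
    rw [h2, gaussRed_tq]
  -- descent of the integrality
  have hint₀ : IsIntegral ↥(Algebra.adjoin (Res (AK A K))
      {gaussRed (AK A K) ⟨(t : LaurentSeries K), ht⟩}) y₀ := by
    rw [hred_t]
    apply isIntegral_descent (κ := Res (AK A K)) (k := IsLocalRing.ResidueField ↥A)
      (coeffMap (resMap A K)) (isIntegral_int_residue A ℓ hA)
    rw [coeffMap_tq]
    exact hint
  obtain ⟨b, hb⟩ := exists_chartRed_eq hϖ hE t ht htr hn hdeg hirr hsm0 hres hint₀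
  obtain ⟨Y, hY, hYc, hYred⟩ := exists_series_of_chart A K hϖ t ht hsT b
  rw [hbc] at hYc
  exact ⟨Y, hY, hYc, by rw [hYred, hb]⟩

/-- **(S2) at the level of `A`, chart `t⁻¹`.** -/
theorem exists_red_eq_of_isIntegral_inv (n e : ℕ) [NeZero n] (ℓ : ℕ) [Fact ℓ.Prime]
    (hℓM : ¬ ℓ ∣ M) (hmem : TMem n e M) (hgen : TGenBase n e) (hA : A.LiesOverPrime ℓ)
    (hsm : SmoothTargets n e M A)
    {y : LaurentSeries (IsLocalRing.ResidueField ↥A)}
    (hy : y ∈ modularFunctionFieldFullC (IsLocalRing.ResidueField ↥A) M)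
    (hint : IsIntegral ↥(Algebra.adjoin (IsLocalRing.ResidueField ↥A)
      {(tq (IsLocalRing.ResidueField ↥A) n e)⁻¹}) y) :
    ∃ (Y : LaurentSeries ↥A) (hY : coeffMap A.subtype Y ∈ Fbar M),
      (⟨_, hY⟩ : ↥(Fbar M)) ∈ chart ↥A (tF M hmem)⁻¹ ∧
      coeffMap (IsLocalRing.residue ↥A) Y = y := by
  obtain ⟨K, hKfd, hdvr, ϖ, hϖ, t, htq, ht, htr, m, hn, hdeg, hirr, -, hsm1, y₀, hy₀, rfl⟩ :=
    exists_level_smooth A n e ℓ hℓM hmem hgen hA hsm hy
  haveI := hKfd
  haveI := hdvr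
  have hE : FK M K ≤ fracField (AK A K) := FK_le_fracField A K M
  have hsT : ∃ T : LaurentSeries ↥(AK A K),
      embK (AK A K) T = ((t⁻¹ : ↥(FK M K)) : LaurentSeries K) := by
    obtain ⟨T, hT⟩ := FracRed16.exists_tq_mul_eq_one ↥(AK A K) n e
    refine ⟨T, ?_⟩
    have h1 : tq K n e * embK (AK A K) T = 1 := by
      have := congrArg (embK (AK A K)) hT
      rw [map_mul, map_one] at this
      rw [← this]
      congr 1
      exact (coeffMap_tq ↥(AK A K) (AK A K).subtype n e).symm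
    show embK (AK A K) T = ((t : LaurentSeries K))⁻¹
    rw [htq]
    exact eq_inv_of_mul_eq_one_right h1
  have hbc : baseChangeHom M K t⁻¹ = (tF M hmem)⁻¹ := by
    rw [map_inv₀, Fermat.Agent.RED.CUSP.RankConcrete16.baseChangeHom_eq_tF M K hmem t htq]
  have hres : y₀ ∈ resField (AK A K) (FK M K) := by
    rw [GaussUnit25.resField_FK_eq A K ℓ hA M hℓM]
    exact hy₀
  have hred_t : gaussRed (AK A K) ⟨(t : LaurentSeries K), ht⟩ = tq (Res (AK A K)) n e := by
    have h2 : (⟨(t : LaurentSeries K), ht⟩ : gaussRing (AK A K)) =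
        ⟨tq K n e, tq_mem_gaussRing (AK A K) n e⟩ := Subtype.ext htq
    rw [h2, gaussRed_tq]
  have hint₀ : IsIntegral ↥(Algebra.adjoin (Res (AK A K))
      {(gaussRed (AK A K) ⟨(t : LaurentSeries K), ht⟩)⁻¹}) y₀ := by
    rw [hred_t]
    apply isIntegral_descent (κ := Res (AK A K)) (k := IsLocalRing.ResidueField ↥A)
      (coeffMap (resMap A K)) (isIntegral_int_residue A ℓ hA)
    rw [map_inv₀, coeffMap_tq]
    exact hint
  obtain ⟨b, hb⟩ := exists_chartRed_inv_eq hϖ hE t ht htr hn hdeg hirr hsm1 hres hint₀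
  obtain ⟨Y, hY, hYc, hYred⟩ :=
    exists_series_of_chart A K hϖ t⁻¹ (tinv_mem_gaussRing t ht htr) hsT b
  rw [hbc] at hYc
  exact ⟨Y, hY, hYc, by rw [hYred, hb]⟩

end Fermat.Agent.FF.ChartInst7
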