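/-
Programme FF (S19), chapter G6c / P3 (helper7): (S2) and (E) at the level of `A`, packaged for the
instantiation of `GoodRed8.lifting`.

Setting of `ES/RED/RedInst15`: `(n, e)` a Hauptmodul datum, `n ∣ M`, `ℓ ∤ M`, `A ≤ ℚ̄` over `ℓ`,
`k = ResidueField A`, `F̃ = modularFunctionFieldFullC k M`, `t = tF M hmem`, `t̃ = tRes …`.

* `smoothTargets` : the smoothness targets of MODEL hold at such a level (`S18Exports4.targetsHyp`);
* `exists_gaussA_red_eq` / `exists_gaussA_red_eq_inv` : **(S2)** every `y ∈ F̃` in the chart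
  `chart k t̃` (integral closure of `k[t̃]` in `F̃`) is `redA b` with `b ∈ gaussA A (Fbar M)`,
  `b ∈ chart A t`;  same for `t̃⁻¹`, `t⁻¹`;
* `exists_tinv_pow_mul_mem_chart` / `exists_t_pow_mul_mem_chart` : **(E)**.
-/
import Fermat.Agent.FF.ChartInst7B
import Fermat.Agent.RED.S18Exports4
import Fermat.Agent.ES.RED.SpecialInv25

set_option autoImplicit false
set_option linter.unusedSectionVars false
set_option linter.style.haveILetI false

noncomputable section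

namespace Fermat.Agent.FF.ChartInst7

open Polynomial HahnSeries ModularCurve
open scoped MatrixGroups

open Fermat.Agent.RED.Interface4 Fermat.Agent.RED.PUR.ChartGeneric22
open Fermat.Agent.RED.BASE.EtaQuot12 Fermat.Agent.RED.BASE.Interface12
open Fermat.Agent.RED.ModelFinal4
open Fermat.Agent.X0 Fermat.Agent.ES.RED Fermat.Agent.ES.RED.SpecialGen25
  Fermat.Agent.ES.RED.SpecialInv25

variable (n e M : ℕ) [NeZero n] [NeZero M] (ℓ : ℕ) [Fact ℓ.Prime] (hℓM : ¬ ℓ ∣ M)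
  (hmem : TMem n e M) (hgen : TGenBase n e)
  (A : ValuationSubring Qbar) (hA : A.LiesOverPrime ℓ)

include hℓM hA in
/-- The smoothness targets of MODEL at a Hauptmodul level. -/
theorem smoothTargets (hb : Fermat.Agent.RED.BASE.Hauptmodul12.BaseHyp n e) (hnM : n ∣ M)
    (cv : SL(2, ℤ) → Option Fermat.Agent.X0.Kbar)
    (hcv : Fermat.Agent.RED.BASE.MainCusp12.CuspExports n e M cv) :
    SmoothTargets n e M A :=
  ⟨cv, Fermat.Agent.RED.S18Exports4.targetsHyp hb M hnM ℓ hℓM A hA cv hcv⟩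

/-- **(S2) over `A`, chart `t`**, in terms of `Setup8.gaussA` / `Setup8.redA`. -/
theorem exists_gaussA_red_eq (hsm : SmoothTargets n e M A)
    (y : ↥(modularFunctionFieldFullC (IsLocalRing.ResidueField ↥A) M))
    (hy : y ∈ chart (IsLocalRing.ResidueField ↥A) (tRes n e M ℓ hℓM hmem hgen A hA)) :
    ∃ b : ↥(Setup8.gaussA A (Fbar M)), (b : ↥(Fbar M)) ∈ chart ↥A (tF M hmem) ∧
      Setup8.redA A (Fbar M) b = (y : LaurentSeries (IsLocalRing.ResidueField ↥A)) := by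
  have hint := isIntegral_coe_of_mem_chart _ hy
  rw [coe_tRes] at hint
  obtain ⟨Y, hY, hYc, hYred⟩ :=
    exists_red_eq_of_isIntegral A n e ℓ hℓM hmem hgen hA hsm y.2 hint
  exact ⟨Setup8.ofSeries A (Fbar M) Y hY, hYc, by rw [Setup8.redA_ofSeries]; exact hYred⟩

/-- **(S2) over `A`, chart `t⁻¹`**, in terms of `Setup8.gaussA` / `Setup8.redA`. -/
theorem exists_gaussA_red_eq_inv (hsm : SmoothTargets n e M A)
    (y : ↥(modularFunctionFieldFullC (IsLocalRing.ResidueField ↥A) M))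
    (hy : y ∈ chart (IsLocalRing.ResidueField ↥A) (tRes n e M ℓ hℓM hmem hgen A hA)⁻¹) :
    ∃ b : ↥(Setup8.gaussA A (Fbar M)), (b : ↥(Fbar M)) ∈ chart ↥A (tF M hmem)⁻¹ ∧
      Setup8.redA A (Fbar M) b = (y : LaurentSeries (IsLocalRing.ResidueField ↥A)) := by
  have hint := isIntegral_coe_of_mem_chart _ hy
  have hcoe : (((tRes n e M ℓ hℓM hmem hgen A hA)⁻¹ :
      ↥(modularFunctionFieldFullC (IsLocalRing.ResidueField ↥A) M)) :
      LaurentSeries (IsLocalRing.ResidueField ↥A)) =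
      (tq (IsLocalRing.ResidueField ↥A) n e)⁻¹ := by
    push_cast
    rw [coe_tRes]
  rw [hcoe] at hint
  obtain ⟨Y, hY, hYc, hYred⟩ :=
    exists_red_eq_of_isIntegral_inv A n e ℓ hℓM hmem hgen hA hsm y.2 hint
  exact ⟨Setup8.ofSeries A (Fbar M) Y hY, hYc, by rw [Setup8.redA_ofSeries]; exact hYred⟩

/-- **(E), chart `t`**: `b ∈ chart A t ⇒ t⁻¹ ^ m * b ∈ chart A t⁻¹` for some `m`. -/
theorem exists_tinv_pow_mul_mem_chart {t : ↥(Fbar M)} (ht : t ≠ 0) {b : ↥(Fbar M)}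
    (hb : b ∈ chart ↥A t) : ∃ m : ℕ, t⁻¹ ^ m * b ∈ chart ↥A t⁻¹ := by
  have hb' : b ∈ chart ↥A (t⁻¹)⁻¹ := by rw [inv_inv]; exact hb
  exact exists_pow_mul_mem_chart (inv_ne_zero ht) hb'

/-- **(E), chart `t⁻¹`**: `b ∈ chart A t⁻¹ ⇒ t ^ m * b ∈ chart A t` for some `m`. -/
theorem exists_t_pow_mul_mem_chart {t : ↥(Fbar M)} (ht : t ≠ 0) {b : ↥(Fbar M)}
    (hb : b ∈ chart ↥A t⁻¹) : ∃ m : ℕ, t ^ m * b ∈ chart ↥A t :=
  exists_pow_mul_mem_chart ht hb

end Fermat.Agent.FF.ChartInst7
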