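/-
Programme FF (S19), chapter G0(d) / P2 + P4 (helper8): LIFTING OF SECTIONS on a two-chart model, in
abstract algebraic form.  No Riemann–Roch, no genus, no duality, no finiteness over the base.

Setting.  `O` a commutative ring (the Gauss ring), `t s : O` with `t * s = 1`, subrings `B0 ∋ t`,
`B1 ∋ s` (the two charts) and `A0 ≤ B0 ⊓ B1` (constants).  `ρ : O →+* Fb` the reduction, `Fb` a
`κ`-algebra with `κ ⊆ ρ(A0)`; `Bb0 ∋ ρ t`, `Bb1 ∋ ρ s` subalgebras of `Fb` (the charts of the special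
fibre).
`Lam n = {b ∈ B0 | s ^ n * b ∈ B1}` and `Lb n = {f ∈ Bb0 | ρ s ^ n * f ∈ Bb1}` are the sections of
`O(n (t)_∞)` on the model and on the special fibre.

* `pt_of_h1`  : (H1) `Bb0[1/t̄] = Bb0 + t̄ ^ m Bb1` for `m ≥ c` implies
  (PT) `Lb (n+1) = Lb n + t̄ Lb n` for `n > c`.
* `h1_of_generators` : (H1) from module generators `e i` of `Bb0` over `κ[t̄]` with `s̄ ^ c e i ∈ Bb1`.
* `lifting` : **(GR)** from (S2) `ρ(B0) ⊇ Bb0`, `ρ(B1) ⊇ Bb1`, (E) `B0 ⊆ ⋃ t ^ m B1`,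
  `B1 ⊆ ⋃ s ^ m B0`, (PT), and finite generation of ONE `Lb n₀` over `κ`: for all large `n` every
  element of `Lb n` is the reduction of an element of `Lam n`.
-/
import Mathlib

set_option autoImplicit false

namespace Fermat.Agent.FF.GoodRed8

section Special

variable {κ : Type*} [Field κ] {Fb : Type*} [CommRing Fb] [Algebra κ Fb]
variable (Bb0 Bb1 : Subalgebra κ Fb) (tb sb : Fb)

/-- sections of `O(n (t̄)_∞)` on the special fibre, through the two charts. -/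
def Lb (n : ℕ) : Submodule κ Fb where
  carrier := {f | f ∈ Bb0 ∧ sb ^ n * f ∈ Bb1}
  add_mem' := by
    rintro f f' ⟨h1, h2⟩ ⟨h1', h2'⟩
    exact ⟨Bb0.add_mem h1 h1', by rw [mul_add]; exact Bb1.add_mem h2 h2'⟩
  zero_mem' := ⟨Bb0.zero_mem, by rw [mul_zero]; exact Bb1.zero_mem⟩
  smul_mem' := by
    rintro a f ⟨h1, h2⟩
    exact ⟨Bb0.smul_mem h1 a, by rw [mul_smul_comm]; exact Bb1.smul_mem h2 a⟩

theorem mem_Lb {n : ℕ} {f : Fb} : f ∈ Lb Bb0 Bb1 sb n ↔ f ∈ Bb0 ∧ sb ^ n * f ∈ Bb1 := Iff.rfl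

variable {Bb0 Bb1 tb sb}
variable (hts : tb * sb = 1) (htb : tb ∈ Bb0) (hsb : sb ∈ Bb1)

include hts in
theorem pow_mul_pow_cancel (a b : ℕ) (f : Fb) : sb ^ (a + b) * (tb ^ a * f) = sb ^ b * f := by
  have h : sb ^ a * tb ^ a = 1 := by rw [← mul_pow, mul_comm, hts, one_pow]
  calc sb ^ (a + b) * (tb ^ a * f) = (sb ^ a * tb ^ a) * (sb ^ b * f) := by rw [pow_add]; ring
    _ = sb ^ b * f := by rw [h, one_mul]

include hsb in
theorem Lb_mono {n : ℕ} {f : Fb} (hf : f ∈ Lb Bb0 Bb1 sb n) : f ∈ Lb Bb0 Bb1 sb (n + 1) := by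
  refine ⟨hf.1, ?_⟩
  rw [pow_succ, mul_assoc, mul_comm sb, ← mul_assoc]
  exact Bb1.mul_mem hf.2 hsb

include hts htb in
theorem mul_mem_Lb_succ {n : ℕ} {f : Fb} (hf : f ∈ Lb Bb0 Bb1 sb n) :
    tb * f ∈ Lb Bb0 Bb1 sb (n + 1) := by
  refine ⟨Bb0.mul_mem htb hf.1, ?_⟩
  have := pow_mul_pow_cancel hts 1 n f
  rw [pow_one, add_comm] at this
  rw [this]
  exact hf.2

/-- (H1): `Bb0[1/t̄] = Bb0 + t̄ ^ m Bb1` for `m ≥ c`. -/
def H1 (Bb0 Bb1 : Subalgebra κ Fb) (tb : Fb) (c : ℕ) : Prop :=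
  ∀ m, c ≤ m → ∀ w : Fb, (∃ k, tb ^ k * w ∈ Bb0) → ∃ g ∈ Bb0, ∃ r ∈ Bb1, w = g + tb ^ m * r

/-- (PT): `Lb (n+1) = Lb n + t̄ Lb n` for `n ≥ c`. -/
def PT (Bb0 Bb1 : Subalgebra κ Fb) (tb sb : Fb) (c : ℕ) : Prop :=
  ∀ n, c ≤ n → ∀ f ∈ Lb Bb0 Bb1 sb (n + 1),
    ∃ g₁ ∈ Lb Bb0 Bb1 sb n, ∃ g₂ ∈ Lb Bb0 Bb1 sb n, f = g₁ + tb * g₂

include hts htb hsb in
/-- the pencil trick. -/
theorem pt_of_h1 {c : ℕ} (h1 : H1 Bb0 Bb1 tb c) : PT Bb0 Bb1 tb sb (c + 1) := by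
  intro n hn f hf
  obtain ⟨n', rfl⟩ : ∃ n', n = n' + 1 := ⟨n - 1, by omega⟩
  have hw : tb ^ 1 * (sb * f) ∈ Bb0 := by
    rw [pow_one, ← mul_assoc, hts, one_mul]; exact hf.1
  obtain ⟨g₂, hg₂, r, hr, hwr⟩ := h1 n' (by omega) (sb * f) ⟨1, hw⟩
  have hg₂' : g₂ ∈ Lb Bb0 Bb1 sb (n' + 1) := by
    refine ⟨hg₂, ?_⟩
    have : g₂ = sb * f - tb ^ n' * r := by rw [hwr]; ring
    rw [this, mul_sub]
    refine Bb1.sub_mem ?_ ?_
    · have : sb ^ (n' + 1) * (sb * f) = sb ^ (n' + 1 + 1) * f := by ring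
      rw [this]; exact hf.2
    · have := pow_mul_pow_cancel hts n' 1 r
      rw [this, pow_one]
      exact Bb1.mul_mem hsb hr
  have hf' : f = tb ^ (n' + 1) * r + tb * g₂ := by
    have h1' : f = tb * (sb * f) := by rw [← mul_assoc, hts, one_mul]
    rw [h1', hwr]; ring
  refine ⟨tb ^ (n' + 1) * r, ⟨?_, ?_⟩, g₂, hg₂', hf'⟩
  · have : tb ^ (n' + 1) * r = f - tb * g₂ := by rw [hf']; ring
    rw [this]
    exact Bb0.sub_mem hf.1 (Bb0.mul_mem htb hg₂)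
  · have := pow_mul_pow_cancel hts (n' + 1) 0 r
    rw [pow_zero, one_mul, add_zero] at this
    rw [this]; exact hr

include hts in
theorem pow_mul_pow_eq_one (a : ℕ) : sb ^ a * tb ^ a = 1 := by
  rw [← mul_pow, mul_comm, hts, one_pow]

include hts in
/-- (H1) from module generators of `Bb0` over `κ[t̄]`. -/
theorem h1_of_generators {ι : Type*} [Fintype ι] (e : ι → Fb) (c : ℕ) (he : ∀ i, e i ∈ Bb0)
    (hc : ∀ i, sb ^ c * e i ∈ Bb1) (hsb : sb ∈ Bb1) (htb : tb ∈ Bb0)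
    (hgen : ∀ y ∈ Bb0, ∃ P : ι → Polynomial κ, y = ∑ i, Polynomial.aeval tb (P i) * e i) :
    H1 Bb0 Bb1 tb c := by
  intro m hm w ⟨k, hk⟩
  -- the set of decomposable elements is closed under addition
  have hadd : ∀ w₁ w₂ : Fb, (∃ g ∈ Bb0, ∃ r ∈ Bb1, w₁ = g + tb ^ m * r) →
      (∃ g ∈ Bb0, ∃ r ∈ Bb1, w₂ = g + tb ^ m * r) →
      ∃ g ∈ Bb0, ∃ r ∈ Bb1, w₁ + w₂ = g + tb ^ m * r := by
    rintro w₁ w₂ ⟨g, hg, r, hr, rfl⟩ ⟨g', hg', r', hr', rfl⟩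
    exact ⟨g + g', Bb0.add_mem hg hg', r + r', Bb1.add_mem hr hr', by ring⟩
  have hsum : ∀ (s : Finset ι) (f : ι → Fb),
      (∀ i ∈ s, ∃ g ∈ Bb0, ∃ r ∈ Bb1, f i = g + tb ^ m * r) →
      ∃ g ∈ Bb0, ∃ r ∈ Bb1, ∑ i ∈ s, f i = g + tb ^ m * r := by
    classical
    intro s f
    induction s using Finset.induction_on with
    | empty => intro _; exact ⟨0, Bb0.zero_mem, 0, Bb1.zero_mem, by simp⟩
    | insert a s ha ih =>
      intro h
      rw [Finset.sum_insert ha]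
      exact hadd _ _ (h a (Finset.mem_insert_self a s))
        (ih fun i hi => h i (Finset.mem_insert_of_mem hi))
  -- monomials
  have hmono : ∀ (i : ι) (n : ℕ) (a : κ),
      ∃ g ∈ Bb0, ∃ r ∈ Bb1, sb ^ k * (Polynomial.aeval tb (Polynomial.monomial n a) * e i) =
        g + tb ^ m * r := by
    intro i n a
    rw [Polynomial.aeval_monomial]
    by_cases hnk : k ≤ n
    · obtain ⟨n', rfl⟩ := Nat.exists_eq_add_of_le hnk
      refine ⟨algebraMap κ Fb a * tb ^ n' * e i,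
        Bb0.mul_mem (Bb0.mul_mem (Bb0.algebraMap_mem a) (Bb0.pow_mem htb n')) (he i), 0,
        Bb1.zero_mem, ?_⟩
      have := pow_mul_pow_eq_one hts k
      calc sb ^ k * (algebraMap κ Fb a * tb ^ (k + n') * e i)
          = (sb ^ k * tb ^ k) * (algebraMap κ Fb a * tb ^ n' * e i) := by rw [pow_add]; ring
        _ = algebraMap κ Fb a * tb ^ n' * e i + tb ^ m * 0 := by rw [this]; ring
    · rw [not_le] at hnk
      obtain ⟨k', rfl⟩ := Nat.exists_eq_add_of_le hnk.le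
      obtain ⟨m', rfl⟩ := Nat.exists_eq_add_of_le hm
      refine ⟨0, Bb0.zero_mem, algebraMap κ Fb a * (sb ^ (m' + k') * (sb ^ c * e i)),
        Bb1.mul_mem (Bb1.algebraMap_mem a) (Bb1.mul_mem (Bb1.pow_mem hsb _) (hc i)), ?_⟩
      have h1 := pow_mul_pow_eq_one hts n
      have h2 := pow_mul_pow_eq_one hts (c + m')
      calc sb ^ (n + k') * (algebraMap κ Fb a * tb ^ n * e i)
          = (sb ^ n * tb ^ n) * (algebraMap κ Fb a * (sb ^ k' * e i)) := by rw [pow_add]; ring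
        _ = (sb ^ (c + m') * tb ^ (c + m')) * (algebraMap κ Fb a * (sb ^ k' * e i)) := by
            rw [h1, h2]
        _ = 0 + tb ^ (c + m') * (algebraMap κ Fb a * (sb ^ (m' + k') * (sb ^ c * e i))) := by
            rw [pow_add sb c m', pow_add sb m' k']; ring
  -- polynomials
  have hpoly : ∀ (i : ι) (P : Polynomial κ),
      ∃ g ∈ Bb0, ∃ r ∈ Bb1, sb ^ k * (Polynomial.aeval tb P * e i) = g + tb ^ m * r := by
    intro i P
    induction P using Polynomial.induction_on' with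
    | add p q hp hq =>
      rw [map_add, add_mul, mul_add]
      exact hadd _ _ hp hq
    | monomial n a => exact hmono i n a
  obtain ⟨P, hP⟩ := hgen _ hk
  have hw : w = ∑ i, sb ^ k * (Polynomial.aeval tb (P i) * e i) := by
    rw [← Finset.mul_sum, ← hP, ← mul_assoc, pow_mul_pow_eq_one hts, one_mul]
  rw [hw]
  exact hsum _ _ fun i _ => hpoly i (P i)

end Special

section Lifting

variable {κ : Type*} [Field κ] {Fb : Type*} [CommRing Fb] [Algebra κ Fb]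
variable {Bb0 Bb1 : Subalgebra κ Fb}
variable {O : Type*} [CommRing O] {A0 B0 B1 : Subring O} {t s : O} {ρ : O →+* Fb}

/-- sections of `O(n (t)_∞)` on the model, through the two charts. -/
def Lam (B0 B1 : Subring O) (s : O) (n : ℕ) : Set O := {b | b ∈ B0 ∧ s ^ n * b ∈ B1}

variable (hts : t * s = 1) (ht : t ∈ B0) (hs : s ∈ B1) (hA0 : A0 ≤ B0) (hA1 : A0 ≤ B1)
  (hκ : ∀ a : κ, ∃ c ∈ A0, ρ c = algebraMap κ Fb a)

include hA0 hA1 hκ in
/-- the reductions of the sections of level `n`, as a `κ`-subspace. -/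
def redLam (n : ℕ) : Submodule κ Fb where
  carrier := {y | ∃ b ∈ Lam B0 B1 s n, ρ b = y}
  add_mem' := by
    rintro y y' ⟨b, hb, rfl⟩ ⟨b', hb', rfl⟩
    exact ⟨b + b', ⟨B0.add_mem hb.1 hb'.1, by rw [mul_add]; exact B1.add_mem hb.2 hb'.2⟩,
      map_add ρ b b'⟩
  zero_mem' := ⟨0, ⟨B0.zero_mem, by rw [mul_zero]; exact B1.zero_mem⟩, map_zero ρ⟩
  smul_mem' := by
    rintro a y ⟨b, hb, rfl⟩
    obtain ⟨c, hc, hca⟩ := hκ a
    refine ⟨c * b, ⟨B0.mul_mem (hA0 hc) hb.1, ?_⟩, ?_⟩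
    · rw [mul_left_comm]; exact B1.mul_mem (hA1 hc) hb.2
    · rw [map_mul, hca, Algebra.smul_def]

theorem mem_redLam {n : ℕ} {y : Fb} :
    y ∈ redLam (s := s) hA0 hA1 hκ n ↔ ∃ b ∈ Lam B0 B1 s n, ρ b = y := Iff.rfl

include hs in
theorem Lam_mono {n : ℕ} {b : O} (hb : b ∈ Lam B0 B1 s n) : b ∈ Lam B0 B1 s (n + 1) := by
  refine ⟨hb.1, ?_⟩
  rw [pow_succ, mul_assoc, mul_comm s, ← mul_assoc]
  exact B1.mul_mem hb.2 hs

include hs in
theorem Lam_mono' {n m : ℕ} (hnm : n ≤ m) {b : O} (hb : b ∈ Lam B0 B1 s n) :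
    b ∈ Lam B0 B1 s m := by
  obtain ⟨k, rfl⟩ := Nat.exists_eq_add_of_le hnm
  induction k with
  | zero => exact hb
  | succ k ih => exact Lam_mono hs (ih (Nat.le_add_right n k))

include hts ht in
theorem mul_mem_Lam_succ {n : ℕ} {b : O} (hb : b ∈ Lam B0 B1 s n) :
    t * b ∈ Lam B0 B1 s (n + 1) := by
  refine ⟨B0.mul_mem ht hb.1, ?_⟩
  have : s ^ (n + 1) * (t * b) = (t * s) * (s ^ n * b) := by rw [pow_succ]; ring
  rw [this, hts, one_mul]
  exact hb.2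

include hs in
theorem redLam_mono {n m : ℕ} (hnm : n ≤ m) :
    redLam (s := s) hA0 hA1 hκ n ≤ redLam (s := s) hA0 hA1 hκ m := by
  rintro y ⟨b, hb, rfl⟩
  exact ⟨b, Lam_mono' hs hnm hb, rfl⟩

include hts ht in
theorem mul_mem_redLam_succ {n : ℕ} {y : Fb} (hy : y ∈ redLam (s := s) hA0 hA1 hκ n) :
    ρ t * y ∈ redLam (s := s) hA0 hA1 hκ (n + 1) := by
  obtain ⟨b, hb, rfl⟩ := hy
  exact ⟨t * b, mul_mem_Lam_succ hts ht hb, map_mul ρ t b⟩

include hts ht in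
theorem pow_mul_mem_redLam {n : ℕ} {y : Fb} (hy : y ∈ redLam (s := s) hA0 hA1 hκ n) (a : ℕ) :
    ρ t ^ a * y ∈ redLam (s := s) hA0 hA1 hκ (n + a) := by
  induction a with
  | zero => simpa using hy
  | succ a ih =>
    rw [pow_succ, mul_assoc, mul_comm (ρ t), ← mul_assoc, mul_comm _ (ρ t), ← add_assoc]
    exact mul_mem_redLam_succ hts ht hA0 hA1 hκ ih

include hts ht hs hA0 hA1 hκ in
/-- **(GR) lifting of sections.** -/
theorem lifting
    (hS0 : ∀ y ∈ Bb0, ∃ b ∈ B0, ρ b = y) (hS1 : ∀ y ∈ Bb1, ∃ b ∈ B1, ρ b = y)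
    (hE0 : ∀ b ∈ B0, ∃ m, s ^ m * b ∈ B1) (hE1 : ∀ b ∈ B1, ∃ m, t ^ m * b ∈ B0)
    {n₀ : ℕ} (hPT : PT Bb0 Bb1 (ρ t) (ρ s) n₀) (hfin : (Lb Bb0 Bb1 (ρ s) n₀).FG) :
    ∃ n₁, ∀ n, n₁ ≤ n → ∀ f ∈ Lb Bb0 Bb1 (ρ s) n, ∃ b ∈ Lam B0 B1 s n, ρ b = f := by
  classical
  have htsb : ρ t * ρ s = 1 := by rw [← map_mul, hts, map_one]
  set S := fun j => redLam (s := s) hA0 hA1 hκ (n₀ + j) with hSdef
  have hSmono : ∀ {i j}, i ≤ j → S i ≤ S j := fun h =>
    redLam_mono hs hA0 hA1 hκ (Nat.add_le_add_left h n₀)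
  have hSmul : ∀ {j} {y : Fb}, y ∈ S j → ∀ a, ρ t ^ a * y ∈ S (j + a) := by
    intro j y hy a
    have := pow_mul_mem_redLam hts ht hA0 hA1 hκ hy a
    rwa [add_assoc] at this
  -- (m3): every element of `Lb n₀` lies in some `S k`
  have h3 : ∀ f ∈ Lb Bb0 Bb1 (ρ s) n₀, ∃ k, f ∈ S k := by
    intro f hf
    obtain ⟨b, hb, rfl⟩ := hS0 f hf.1
    obtain ⟨m, hm⟩ := hE0 b hb
    refine ⟨m, b, ⟨hb, ?_⟩, rfl⟩
    have : s ^ (n₀ + m) * b = s ^ n₀ * (s ^ m * b) := by rw [pow_add]; ring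
    rw [this]
    exact B1.mul_mem (B1.pow_mem hs _) hm
  -- (m4): `t̄ ^ k f` lies in `S k` for some `k`
  have h4 : ∀ f ∈ Lb Bb0 Bb1 (ρ s) n₀, ∃ k, ρ t ^ k * f ∈ S k := by
    intro f hf
    obtain ⟨b₁, hb₁, hρ⟩ := hS1 _ hf.2
    obtain ⟨m, hm⟩ := hE1 b₁ hb₁
    refine ⟨m, t ^ (n₀ + m) * b₁, ⟨?_, ?_⟩, ?_⟩
    · have : t ^ (n₀ + m) * b₁ = t ^ n₀ * (t ^ m * b₁) := by rw [pow_add]; ring
      rw [this]
      exact B0.mul_mem (B0.pow_mem ht _) hm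
    · have : s ^ (n₀ + m) * (t ^ (n₀ + m) * b₁) = (t * s) ^ (n₀ + m) * b₁ := by
        rw [mul_pow]; ring
      rw [this, hts, one_pow, one_mul]
      exact hb₁
    · rw [map_mul, map_pow, hρ]
      have h1 : ρ t ^ n₀ * ρ s ^ n₀ = 1 := by rw [← mul_pow, htsb, one_pow]
      calc ρ t ^ (n₀ + m) * (ρ s ^ n₀ * f) = (ρ t ^ n₀ * ρ s ^ n₀) * (ρ t ^ m * f) := by
            rw [pow_add]; ring
        _ = ρ t ^ m * f := by rw [h1, one_mul]
  -- uniform `k`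
  obtain ⟨G, hG⟩ := hfin
  have hGmem : ∀ f ∈ G, f ∈ Lb Bb0 Bb1 (ρ s) n₀ := fun f hf => hG ▸ Submodule.subset_span hf
  have hk3 : ∃ k, ∀ f ∈ G, f ∈ S k := by
    choose! k3 hk3 using h3
    refine ⟨G.sup k3, fun f hf => hSmono (Finset.le_sup hf) (hk3 f (hGmem f hf))⟩
  have hk4 : ∃ k, ∀ f ∈ G, ρ t ^ k * f ∈ S k := by
    choose! k4 hk4 using h4
    refine ⟨G.sup k4, fun f hf => ?_⟩
    obtain ⟨e, he⟩ := Nat.exists_eq_add_of_le (Finset.le_sup (f := k4) hf)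
    have := hSmul (hk4 f (hGmem f hf)) e
    rw [← mul_assoc, ← pow_add, add_comm e, ← he] at this
    exact this
  obtain ⟨k3, hk3⟩ := hk3
  obtain ⟨k4, hk4⟩ := hk4
  set k := max k3 k4 with hk
  have hL3 : Lb Bb0 Bb1 (ρ s) n₀ ≤ S k := by
    rw [← hG, Submodule.span_le]
    intro f hf
    exact hSmono (le_max_left _ _) (hk3 f hf)
  have hL4 : ∀ f ∈ Lb Bb0 Bb1 (ρ s) n₀, ρ t ^ k * f ∈ S k := by
    intro f hf
    rw [← hG] at hf
    induction hf using Submodule.span_induction with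
    | mem f hf =>
      obtain ⟨e, he⟩ := Nat.exists_eq_add_of_le (le_max_right k3 k4)
      have := hSmul (hk4 f hf) e
      rw [← mul_assoc, ← pow_add, add_comm e, ← he, ← hk] at this
      exact this
    | zero => rw [mul_zero]; exact (S k).zero_mem
    | add x y _ _ hx hy => rw [mul_add]; exact (S k).add_mem hx hy
    | smul a x _ hx => rw [mul_smul_comm]; exact (S k).smul_mem a hx
  -- decomposition of `Lb (n₀ + m)`
  have hdec : ∀ m, ∀ f ∈ Lb Bb0 Bb1 (ρ s) (n₀ + m), ∃ g : ℕ → Fb,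
      (∀ b, g b ∈ Lb Bb0 Bb1 (ρ s) n₀) ∧ f = ∑ b ∈ Finset.range (m + 1), ρ t ^ b * g b := by
    intro m
    induction m with
    | zero =>
      intro f hf
      exact ⟨fun _ => f, fun _ => hf, by simp⟩
    | succ m ih =>
      intro f hf
      obtain ⟨g₁, hg₁, g₂, hg₂, rfl⟩ := hPT (n₀ + m) (Nat.le_add_right _ _) f hf
      obtain ⟨γ₁, hγ₁, rfl⟩ := ih g₁ hg₁
      obtain ⟨γ₂, hγ₂, rfl⟩ := ih g₂ hg₂
      refine ⟨fun b => (if b ≤ m then γ₁ b else 0) + (if b = 0 then 0 else γ₂ (b - 1)),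
        fun b => ?_, ?_⟩
      · refine Submodule.add_mem _ ?_ ?_
        · split_ifs
          · exact hγ₁ b
          · exact Submodule.zero_mem _
        · split_ifs
          · exact Submodule.zero_mem _
          · exact hγ₂ _
      · simp only [mul_add, Finset.sum_add_distrib]
        congr 1
        · rw [Finset.sum_range_succ _ (m + 1)]
          simp only [show ¬ (m + 1 ≤ m) by omega, if_false, mul_zero, add_zero]
          apply Finset.sum_congr rfl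
          intro b hb
          rw [if_pos (by rw [Finset.mem_range] at hb; omega)]
        · rw [Finset.sum_range_succ' _ (m + 1)]
          simp only [if_true, mul_zero, add_zero, Nat.add_one_ne_zero, if_false,
            Nat.add_sub_cancel]
          rw [Finset.mul_sum]
          apply Finset.sum_congr rfl
          intro b _
          rw [pow_succ]; ring
  refine ⟨n₀ + (k + k), fun n hn f hf => ?_⟩
  obtain ⟨m, rfl⟩ := Nat.exists_eq_add_of_le hn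
  rw [add_assoc] at hf
  obtain ⟨γ, hγ, rfl⟩ := hdec _ f hf
  have hmem : ∑ b ∈ Finset.range (k + k + m + 1), ρ t ^ b * γ b ∈ S (k + k + m) := by
    refine Submodule.sum_mem _ fun b hb => ?_
    rw [Finset.mem_range] at hb
    by_cases hbk : k ≤ b
    · obtain ⟨e, rfl⟩ := Nat.exists_eq_add_of_le hbk
      have := hSmul (hL4 _ (hγ (k + e))) e
      rw [← mul_assoc, ← pow_add, add_comm e k] at this
      exact hSmono (by omega) this
    · have := hSmul (hL3 (hγ b)) b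
      exact hSmono (by omega) this
  obtain ⟨b, hb, hρb⟩ := hmem
  exact ⟨b, by rwa [add_assoc], hρb⟩

end Lifting

end Fermat.Agent.FF.GoodRed8
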