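/-
Programme FF (S19), chapter G6c / P3 (helper7): the CONCRETE instance of the hypotheses
`hts ht hs hA0 hA1 hκ hS0 hS1 hE0 hE1` of `GoodRed8.lifting`.

Setting of `ES/RED/RedInst15`: `(n, e)` a Hauptmodul datum, `n ∣ M`, `ℓ ∤ M`, `A ≤ ℚ̄` over `ℓ`,
`k = ResidueField A`, `F̃ = modularFunctionFieldFullC k M`, `t = tF M hmem`, `t̃ = tRes …`.

* `↥(intF A M)` : the elements of `Fbar M` with `A`-integral `q`-expansion (the ring `O`);
  `ρ = redF A M ℓ hA hℓM : ↥(intF A M) →+* F̃`;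
* `tO sO : ↥(intF A M)` : `t`, `t⁻¹`;  `B0 B1 A0 : Subring ↥(intF A M)` : the charts `chart A t`,
  `chart A t⁻¹` and the constants;  `Bb0 Bb1 : Subalgebra k F̃` : `chart k t̃`, `chart k t̃⁻¹`;
* `lifting_inst` : `GoodRed8.lifting` with everything but `(PT)` and `hfin` discharged.
-/
import Fermat.Agent.FF.ChartInst7C
import Fermat.Agent.FF.GoodRed8
import Fermat.Agent.ES.RED.ChartIntegralA1

set_option autoImplicit false
set_option linter.unusedSectionVars false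
set_option linter.style.haveILetI false

noncomputable section

namespace Fermat.Agent.FF.ChartInst7

open Polynomial HahnSeries ModularCurve
open scoped MatrixGroups

open Fermat.Agent.RED.Interface4 Fermat.Agent.RED.PUR.ChartGeneric22
open Fermat.Agent.RED.BASE.EtaQuot12 Fermat.Agent.RED.BASE.Interface12
open Fermat.Agent.RED.ModelFinal4
open Fermat.Agent.X0 Fermat.Agent.ES.RED Fermat.Agent.ES.RED.SpecialGen25
  Fermat.Agent.ES.RED.SpecialInv25 Fermat.Agent.ES.RED.ChartIntegralA1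
open Fermat.Agent.FF.GoodRed8

variable (n e M : ℕ) [NeZero n] [NeZero M] (ℓ : ℕ) [Fact ℓ.Prime] (hℓM : ¬ ℓ ∣ M)
  (hmem : TMem n e M) (hgen : TGenBase n e)
  (A : ValuationSubring Qbar) (hA : A.LiesOverPrime ℓ)

/-- `t ∈ intF`. -/
theorem tF_mem_intF : tF M hmem ∈ intF A M :=
  (mem_intF_iff A M).mpr ⟨tq ↥A n e, (coe_tF n e M hmem A).symm⟩

/-- `t⁻¹ ∈ intF`. -/
theorem tF_inv_mem_intF : (tF M hmem)⁻¹ ∈ intF A M :=
  (mem_intF_iff A M).mpr ⟨tqInv ↥A n e, (coe_tF_inv n e M hmem A).symm⟩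

/-- `t` as an element of `intF`. -/
def tO : ↥(intF A M) := ⟨tF M hmem, tF_mem_intF n e M hmem A⟩

/-- `t⁻¹` as an element of `intF`. -/
def sO : ↥(intF A M) := ⟨(tF M hmem)⁻¹, tF_inv_mem_intF n e M hmem A⟩

theorem tF_ne_zero' : tF M hmem ≠ 0 := (isGen_tF n e M hmem).ne_zero

theorem tO_mul_sO : tO n e M hmem A * sO n e M hmem A = 1 := by
  apply Subtype.ext
  show tF M hmem * (tF M hmem)⁻¹ = 1
  exact mul_inv_cancel₀ (tF_ne_zero' n e M hmem)

/-- the chart `chart A t` inside `intF`. -/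
def B0 : Subring ↥(intF A M) := (chartRing A M (tF M hmem)).comap (intF A M).subtype

/-- the chart `chart A t⁻¹` inside `intF`. -/
def B1 : Subring ↥(intF A M) := (chartRing A M (tF M hmem)⁻¹).comap (intF A M).subtype

theorem mem_B0_iff (b : ↥(intF A M)) :
    b ∈ B0 n e M hmem A ↔ ((b : ↥(intF A M)) : ↥(Fbar M)) ∈ chart ↥A (tF M hmem) := Iff.rfl

theorem mem_B1_iff (b : ↥(intF A M)) :
    b ∈ B1 n e M hmem A ↔ ((b : ↥(intF A M)) : ↥(Fbar M)) ∈ chart ↥A (tF M hmem)⁻¹ := Iff.rfl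

theorem mem_B0_iff_isIntegral (b : ↥(intF A M)) :
    b ∈ B0 n e M hmem A ↔
      IsIntegral ↥(Algebra.adjoin ↥A {tF M hmem}) ((b : ↥(intF A M)) : ↥(Fbar M)) := Iff.rfl

theorem mem_B1_iff_isIntegral (b : ↥(intF A M)) :
    b ∈ B1 n e M hmem A ↔
      IsIntegral ↥(Algebra.adjoin ↥A {(tF M hmem)⁻¹}) ((b : ↥(intF A M)) : ↥(Fbar M)) := Iff.rfl

/-- the constants, as a ring hom `A → intF`. -/
def constO : ↥A →+* ↥(intF A M) where
  toFun a := ⟨algebraMap Qbar ↥(Fbar M) (a : Qbar), algebraMap_mem_intF A M a⟩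
  map_one' := by apply Subtype.ext; simp
  map_mul' a b := by apply Subtype.ext; simp
  map_zero' := by apply Subtype.ext; simp
  map_add' a b := by apply Subtype.ext; simp

/-- the subring of constants. -/
def A0 : Subring ↥(intF A M) := (constO M A).range

theorem tO_mem_B0 : tO n e M hmem A ∈ B0 n e M hmem A := self_mem_chart (R := ↥A) (tF M hmem)

theorem sO_mem_B1 : sO n e M hmem A ∈ B1 n e M hmem A := self_mem_chart (R := ↥A) (tF M hmem)⁻¹

theorem A0_le_B0 : A0 M A ≤ B0 n e M hmem A := by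
  rintro _ ⟨a, rfl⟩
  exact Subalgebra.algebraMap_mem (chart ↥A (tF M hmem)) a

theorem A0_le_B1 : A0 M A ≤ B1 n e M hmem A := by
  rintro _ ⟨a, rfl⟩
  exact Subalgebra.algebraMap_mem (chart ↥A (tF M hmem)⁻¹) a

/-- the reduction of a constant. -/
theorem redF_constO (a : ↥A) :
    redF A M ℓ hA hℓM (constO M A a) =
      algebraMap (IsLocalRing.ResidueField ↥A)
        ↥(modularFunctionFieldFullC (IsLocalRing.ResidueField ↥A) M) (IsLocalRing.residue ↥A a) :=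
  redF_algebraMap A M ℓ hA hℓM a

theorem redF_constO_mul (a : ↥A) (b : ↥(intF A M)) :
    redF A M ℓ hA hℓM (constO M A a * b) =
      algebraMap (IsLocalRing.ResidueField ↥A)
        ↥(modularFunctionFieldFullC (IsLocalRing.ResidueField ↥A) M) (IsLocalRing.residue ↥A a) *
        redF A M ℓ hA hℓM b := by
  rw [map_mul, redF_constO]

theorem exists_A0_red_eq (a : IsLocalRing.ResidueField ↥A) :
    ∃ c ∈ A0 M A, redF A M ℓ hA hℓM c =
      algebraMap (IsLocalRing.ResidueField ↥A)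
        ↥(modularFunctionFieldFullC (IsLocalRing.ResidueField ↥A) M) a := by
  obtain ⟨a', rfl⟩ := IsLocalRing.residue_surjective a
  exact ⟨constO M A a', ⟨a', rfl⟩, redF_constO M ℓ hℓM A hA a'⟩

/-- the `hconst` shape of `SpecialRR6I`. -/
theorem exists_A0_const (a : ↥A) :
    ∃ c ∈ A0 M A, ((c : ↥(intF A M)) : ↥(Fbar M)) = algebraMap Qbar ↥(Fbar M) (a : Qbar) ∧
      redF A M ℓ hA hℓM c =
        algebraMap (IsLocalRing.ResidueField ↥A)
          ↥(modularFunctionFieldFullC (IsLocalRing.ResidueField ↥A) M)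
          (IsLocalRing.residue ↥A a) :=
  ⟨constO M A a, ⟨a, rfl⟩, rfl, redF_constO M ℓ hℓM A hA a⟩

/-- `ρ t = t̃`. -/
theorem redF_tO : redF A M ℓ hA hℓM (tO n e M hmem A) = tRes n e M ℓ hℓM hmem hgen A hA := by
  apply Subtype.ext
  rw [coe_redF_eq_of ℓ hA hℓM (y := tO n e M hmem A) (Y := tq ↥A n e)
    (coe_tF n e M hmem A).symm, coe_tRes_eq]

/-- `ρ t⁻¹ = t̃⁻¹`. -/
theorem redF_sO :
    redF A M ℓ hA hℓM (sO n e M hmem A) = (tRes n e M ℓ hℓM hmem hgen A hA)⁻¹ := by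
  apply Subtype.ext
  rw [coe_redF_eq_of ℓ hA hℓM (y := sO n e M hmem A) (Y := tqInv ↥A n e)
    (coe_tF_inv n e M hmem A).symm, coe_tRes_inv]

/-- the chart `chart k t̃` of the special fibre. -/
abbrev Bb0 : Subalgebra (IsLocalRing.ResidueField ↥A)
    ↥(modularFunctionFieldFullC (IsLocalRing.ResidueField ↥A) M) :=
  chart (IsLocalRing.ResidueField ↥A) (tRes n e M ℓ hℓM hmem hgen A hA)

/-- the chart `chart k t̃⁻¹` of the special fibre. -/
abbrev Bb1 : Subalgebra (IsLocalRing.ResidueField ↥A)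
    ↥(modularFunctionFieldFullC (IsLocalRing.ResidueField ↥A) M) :=
  chart (IsLocalRing.ResidueField ↥A) (tRes n e M ℓ hℓM hmem hgen A hA)⁻¹

/-- **(S2), chart `t`.** -/
theorem exists_B0_red_eq (hsm : SmoothTargets n e M A)
    (y : ↥(modularFunctionFieldFullC (IsLocalRing.ResidueField ↥A) M))
    (hy : y ∈ Bb0 n e M ℓ hℓM hmem hgen A hA) :
    ∃ b ∈ B0 n e M hmem A, redF A M ℓ hA hℓM b = y := by
  have hint := isIntegral_coe_of_mem_chart _ hy
  rw [coe_tRes] at hint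
  obtain ⟨Y, hY, hYc, hYred⟩ :=
    exists_red_eq_of_isIntegral A n e ℓ hℓM hmem hgen hA hsm y.2 hint
  refine ⟨⟨⟨coeffMap A.subtype Y, hY⟩, (mem_intF_iff A M).mpr ⟨Y, rfl⟩⟩, hYc, ?_⟩
  apply Subtype.ext
  rw [coe_redF_eq_of ℓ hA hℓM (Y := Y) rfl, hYred]

/-- **(S2), chart `t⁻¹`.** -/
theorem exists_B1_red_eq (hsm : SmoothTargets n e M A)
    (y : ↥(modularFunctionFieldFullC (IsLocalRing.ResidueField ↥A) M))
    (hy : y ∈ Bb1 n e M ℓ hℓM hmem hgen A hA) :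
    ∃ b ∈ B1 n e M hmem A, redF A M ℓ hA hℓM b = y := by
  have hint := isIntegral_coe_of_mem_chart _ hy
  have hcoe : (((tRes n e M ℓ hℓM hmem hgen A hA)⁻¹ :
      ↥(modularFunctionFieldFullC (IsLocalRing.ResidueField ↥A) M)) :
      LaurentSeries (IsLocalRing.ResidueField ↥A)) =
      (tq (IsLocalRing.ResidueField ↥A) n e)⁻¹ := by
    push_cast
    rw [coe_tRes]
  rw [hcoe] at hint
  obtain ⟨Y, hY, hYc, hYred⟩ :=
    exists_red_eq_of_isIntegral_inv A n e ℓ hℓM hmem hgen hA hsm y.2 hint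
  refine ⟨⟨⟨coeffMap A.subtype Y, hY⟩, (mem_intF_iff A M).mpr ⟨Y, rfl⟩⟩, hYc, ?_⟩
  apply Subtype.ext
  rw [coe_redF_eq_of ℓ hA hℓM (Y := Y) rfl, hYred]

/-- **(E), chart `t`.** -/
theorem exists_sO_pow_mul_mem_B1 (b : ↥(intF A M)) (hb : b ∈ B0 n e M hmem A) :
    ∃ m : ℕ, sO n e M hmem A ^ m * b ∈ B1 n e M hmem A := by
  obtain ⟨m, hm⟩ := exists_tinv_pow_mul_mem_chart M A (tF_ne_zero' n e M hmem) hb
  exact ⟨m, hm⟩

/-- **(E), chart `t⁻¹`.** -/
theorem exists_tO_pow_mul_mem_B0 (b : ↥(intF A M)) (hb : b ∈ B1 n e M hmem A) :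
    ∃ m : ℕ, tO n e M hmem A ^ m * b ∈ B0 n e M hmem A := by
  obtain ⟨m, hm⟩ := exists_t_pow_mul_mem_chart M A (tF_ne_zero' n e M hmem) hb
  exact ⟨m, hm⟩

/-- **`GoodRed8.lifting`, instantiated**: everything except `(PT)` and the finiteness of one
`Lb n₀` (special-fibre inputs) is discharged. -/
theorem lifting_inst (hsm : SmoothTargets n e M A) {n₀ : ℕ}
    (hPT : PT (Bb0 n e M ℓ hℓM hmem hgen A hA) (Bb1 n e M ℓ hℓM hmem hgen A hA)
      (tRes n e M ℓ hℓM hmem hgen A hA) (tRes n e M ℓ hℓM hmem hgen A hA)⁻¹ n₀)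
    (hfin : (Lb (Bb0 n e M ℓ hℓM hmem hgen A hA) (Bb1 n e M ℓ hℓM hmem hgen A hA)
      (tRes n e M ℓ hℓM hmem hgen A hA)⁻¹ n₀).FG) :
    ∃ n₁, ∀ m, n₁ ≤ m → ∀ f ∈ Lb (Bb0 n e M ℓ hℓM hmem hgen A hA)
      (Bb1 n e M ℓ hℓM hmem hgen A hA) (tRes n e M ℓ hℓM hmem hgen A hA)⁻¹ m,
      ∃ b ∈ Lam (B0 n e M hmem A) (B1 n e M hmem A) (sO n e M hmem A) m,
        redF A M ℓ hA hℓM b = f := by
  have hρt := redF_tO n e M ℓ hℓM hmem hgen A hA
  have hρs := redF_sO n e M ℓ hℓM hmem hgen A hA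
  have key := lifting (κ := IsLocalRing.ResidueField ↥A)
    (Bb0 := Bb0 n e M ℓ hℓM hmem hgen A hA) (Bb1 := Bb1 n e M ℓ hℓM hmem hgen A hA)
    (A0 := A0 M A) (B0 := B0 n e M hmem A) (B1 := B1 n e M hmem A)
    (t := tO n e M hmem A) (s := sO n e M hmem A) (ρ := redF A M ℓ hA hℓM)
    (tO_mul_sO n e M hmem A) (tO_mem_B0 n e M hmem A) (sO_mem_B1 n e M hmem A)
    (A0_le_B0 n e M hmem A) (A0_le_B1 n e M hmem A) (exists_A0_red_eq M ℓ hℓM A hA)
    (exists_B0_red_eq n e M ℓ hℓM hmem hgen A hA hsm)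
    (exists_B1_red_eq n e M ℓ hℓM hmem hgen A hA hsm)
    (exists_sO_pow_mul_mem_B1 n e M hmem A) (exists_tO_pow_mul_mem_B0 n e M hmem A)
    (n₀ := n₀) (by rw [hρt, hρs]; exact hPT) (by rw [hρs]; exact hfin)
  rw [hρs] at key
  exact key

end Fermat.Agent.FF.ChartInst7
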