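/-
Programme FF (S19), chapter G2 (helper3): **the generic fibre of a separable generator is reduced.**

`F / K` a function field in one variable, `x : F` a generator (`IsGen K x`: transcendental, `F / K(x)`
finite) such that `F / K(x)` is SEPARABLE; any characteristic.  Then only finitely many `c : K` admit a
place `v` with `ord_v (x - c) ≥ 2`  (`finite_ramified_values`).

Proof: `B = intRing K x` (integral closure of `K[x]`) is a Dedekind domain, finite over the PID
`A₀ = K[x]`; a prime `w` of `B` with `w ^ 2 ∣ (x - c) B` divides the different ideal
(`pow_sub_one_dvd_differentIdeal`), which is nonzero by separability; so only finitely many primes are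
ramified, and each lies over exactly one value `c`.
-/
import Mathlib
import Fermat.Agent.ES.RED.SumOrdSep15
import Fermat.Agent.X0.FFDedekind

set_option autoImplicit false
set_option linter.unusedSectionVars false

open AlgebraicCurve IntermediateField Polynomial IsDedekindDomain
open scoped IntermediateField.algebraAdjoinAdjoin

noncomputable section

namespace Fermat.Agent.FF.SepFibre3

open Fermat.Agent.X0 Fermat.Agent.X0.FF Fermat.Agent.X0.FFDedekind Fermat.Agent.ES.RED.SumOrdSep15

variable {K F : Type*} [Field K] [Field F] [Algebra K F] {x : F}

/-- `x - c` as an element of `K[x]`. -/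
def genSub (x : F) (c : K) : polyRing K x := genA K x - algebraMap K (polyRing K x) c

theorem coe_genSub (x : F) (c : K) : ((genSub x c : polyRing K x) : F) = x - algebraMap K F c := rfl

theorem genSub_ne_zero (hx : Transcendental K x) (c : K) : genSub x c ≠ 0 := by
  intro h
  apply hx
  have h1 : x - algebraMap K F c = 0 := by
    rw [← coe_genSub, h]; rfl
  rw [sub_eq_zero] at h1
  rw [h1]
  exact isAlgebraic_algebraMap c

theorem span_genSub_isMaximal (hx : Transcendental K x) (c : K) :
    (Ideal.span {genSub x c}).IsMaximal := by
  let e := Polynomial.algEquivOfTranscendental K x hx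
  have he : e (X - C c) = genSub x c := by
    apply Subtype.ext
    simp [e, genSub]
  have h1 : (Ideal.span {(X - C c : K[X])}).IsMaximal :=
    PrincipalIdealRing.isMaximal_of_irreducible (Polynomial.irreducible_X_sub_C c)
  have h2 : Ideal.span {genSub x c} = Ideal.map e.toRingEquiv (Ideal.span {(X - C c : K[X])}) := by
    rw [Ideal.map_span, Set.image_singleton]
    show _ = Ideal.span {e (X - C c)}
    rw [he]
  rw [h2]
  exact Ideal.map_isMaximal_of_equiv e.toRingEquiv

section Different

attribute [local instance] FractionRing.liftAlgebra FractionRing.isScalarTower_liftAlgebra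

set_option synthInstance.maxHeartbeats 400000 in
set_option maxHeartbeats 1000000 in
/-- **Generic fibres of a separable generator are reduced**: only finitely many values `c` are taken
with multiplicity `≥ 2` at some place. -/
theorem finite_ramified_values (hx : IsGen K x) [Algebra.IsSeparable K⟮x⟯ F] :
    {c : K | ∃ v : Place K F, 2 ≤ v.ord (x - algebraMap K F c)}.Finite := by
  classical
  have hDed := isDedekindDomain_intRing_sep hx
  have hFrac := isFractionRing_intRing hx
  have hFin := finite_intRing_sep hx
  have hPID := isPrincipalIdealRing_polyRing hx.transcendental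
  have hfaith : FaithfulSMul (polyRing K x) (intRing K x) :=
    (faithfulSMul_iff_algebraMap_injective _ _).mpr
      (fun a b h => Subtype.ext (congrArg (fun z : intRing K x => (z : F)) h))
  have hsep : Algebra.IsSeparable (FractionRing (polyRing K x)) (FractionRing (intRing K x)) := by
    refine Algebra.IsSeparable.of_equiv_equiv
      (FractionRing.algEquiv (polyRing K x) K⟮x⟯).symm.toRingEquiv
      (FractionRing.algEquiv (intRing K x) F).symm.toRingEquiv ?_
    ext _
    exact IsFractionRing.algEquiv_commutes (FractionRing.algEquiv (polyRing K x) K⟮x⟯).symm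
      (FractionRing.algEquiv (intRing K x) F).symm _
  have hD : differentIdeal (polyRing K x) (intRing K x) ≠ ⊥ := differentIdeal_ne_bot
  have hfin := Ideal.finite_factors (I := differentIdeal (polyRing K x) (intRing K x)) hD
  -- the value of `x` at a prime of `B`
  let val : HeightOneSpectrum (intRing K x) → K := fun w =>
    if h : ∃ c : K, algebraMap (polyRing K x) (intRing K x) (genSub x c) ∈ w.asIdeal
    then h.choose else 0
  refine (hfin.image val).subset ?_
  rintro c ⟨v, hv⟩
  have hxc : x - algebraMap K F c ∈ v.toValuationSubring := mem_of_ord_nonneg v (by omega)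
  have hxv : x ∈ v.toValuationSubring := by
    have := add_mem hxc (v.algebraMap_mem' c)
    simpa using this
  have hB := intRing_le_of_mem v hxv
  set w := centreSpec v hB with hw
  have hvw : Place.ofHeightOneSpectrum (K := K) (F := F) w = v :=
    ofHeightOneSpectrum_centreSpec v hB
  set b : intRing K x := algebraMap (polyRing K x) (intRing K x) (genSub x c) with hb
  have hbF : algebraMap (intRing K x) F b = x - algebraMap K F c := rfl
  have hb0 : b ≠ 0 := by
    intro h0
    have : x - algebraMap K F c = 0 := by rw [← hbF, h0, map_zero]
    exact (hx.sub_algebraMap_ne_zero c) this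
  -- `w ^ 2 ∣ (b)`
  have hdvd : w.asIdeal ^ 2 ∣ Ideal.span {b} := by
    rw [← HeightOneSpectrum.intValuation_le_pow_iff_dvd]
    have h1 := ord_ofHeightOneSpectrum (K := K) (F := F) w (algebraMap (intRing K x) F b)
    rw [hvw, hbF] at h1
    have h2 : w.valuation F (algebraMap (intRing K x) F b) = w.intValuation b :=
      HeightOneSpectrum.valuation_of_algebraMap w b
    rw [← hbF] at h1
    rw [h2] at h1
    have h0 : w.intValuation b ≠ 0 := by
      rw [← h2, Valuation.ne_zero_iff]
      exact (map_ne_zero_iff _ (IsFractionRing.injective (intRing K x) F)).mpr hb0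
    rw [← WithZero.log_le_iff_le_exp h0]
    rw [hbF] at h1
    push_cast
    omega
  have hmax := span_genSub_isMaximal hx.transcendental c
  have hpne : Ideal.span {genSub x c} ≠ ⊥ := by
    rw [Ne, Ideal.span_singleton_eq_bot]
    exact genSub_ne_zero hx.transcendental c
  have hmap : (Ideal.span {genSub x c}).map (algebraMap (polyRing K x) (intRing K x)) =
      Ideal.span {b} := by
    rw [Ideal.map_span, Set.image_singleton]
  have hdiff := pow_sub_one_dvd_differentIdeal (polyRing K x) (p := Ideal.span {genSub x c})
    w.asIdeal 2 hpne (hmap ▸ hdvd)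
  have hdiff' : w.asIdeal ∣ differentIdeal (polyRing K x) (intRing K x) := by
    simpa using hdiff
  refine ⟨w, hdiff', ?_⟩
  -- `val w = c`
  have hmem : b ∈ w.asIdeal := by
    have h1 : Ideal.span {b} ≤ w.asIdeal ^ 2 := Ideal.le_of_dvd hdvd
    have h2 : w.asIdeal ^ 2 ≤ w.asIdeal := Ideal.pow_le_self (by norm_num)
    exact h2 (h1 (Ideal.subset_span rfl))
  have hex : ∃ c' : K, algebraMap (polyRing K x) (intRing K x) (genSub x c') ∈ w.asIdeal :=
    ⟨c, hmem⟩
  show val w = c
  simp only [val, dif_pos hex]
  by_contra hne
  have h2 := hex.choose_spec
  have h3 : algebraMap (polyRing K x) (intRing K x)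
      (algebraMap K (polyRing K x) (hex.choose - c)) ∈ w.asIdeal := by
    have h4 : algebraMap (polyRing K x) (intRing K x)
        (algebraMap K (polyRing K x) (hex.choose - c)) =
        b - algebraMap (polyRing K x) (intRing K x) (genSub x hex.choose) := by
      rw [hb, ← map_sub]
      congr 1
      simp only [genSub, map_sub]
      ring
    rw [h4]
    exact sub_mem hmem h2
  have hunit : IsUnit (algebraMap (polyRing K x) (intRing K x)
      (algebraMap K (polyRing K x) (hex.choose - c))) := by
    apply IsUnit.map
    apply IsUnit.map
    exact IsUnit.mk0 _ (sub_ne_zero.mpr hne)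
  exact w.isPrime.ne_top (Ideal.eq_top_of_isUnit_mem _ h3 hunit)

end Different

end Fermat.Agent.FF.SepFibre3
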