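/-
Programme FF (S19), chapter G2 (helper3): **nice places of a separable generator.**

`F / K` a function field with `LSpace.LHyp`, `x : F` a separable generator.  A place `v` is NICE if
`ord_v (x - c) = 1` for some constant `c` (`x` is regular at `v` and is a local parameter up to the
constant `c = x(v)`).

* `exists_bad_finset` : all places outside a finite set are nice;
* `infinite_compl_finset` : the complement of a finite set of places is infinite;
* `exists_nonspecial_good` : given Riemann's inequality with the constant `g` and one divisor with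
  `δ = 0` (SpecRR1), outside any finite set of places there are `g` distinct places `T` with
  `l(∑_{P ∈ T} P) = 1`;
* `ord_prod_sub_eq_one` : if `v` is nice with value `c₀ ∈ V` then `ord_v (∏_{c ∈ V} (x - c)) = 1`.
-/
import Mathlib
import Fermat.Agent.FF.SepFibre3
import Fermat.Agent.FF.SpecRR1B
import Fermat.Agent.FF.GeomIface8

set_option autoImplicit false
set_option linter.unusedSectionVars false

open AlgebraicCurve IntermediateField

noncomputable section

namespace Fermat.Agent.FF.NicePlace3

open Fermat.Agent.X0 Fermat.Agent.X0.FF Fermat.Agent.ES.RED.SumOrdSep15 Fermat.Agent.FF.SepFibre3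
  Fermat.Agent.RR.LSpace Fermat.Agent.FF.SpecRR1 Fermat.Agent.FF.GeomIface8

section General

variable {K F : Type*} [Field K] [Field F] [Algebra K F] {x : F}

/-- a place lies over at most one value of `x`. -/
theorem value_unique (v : Place K F) {c c' : K}
    (h : 0 < v.ord (x - algebraMap K F c)) (h' : 0 < v.ord (x - algebraMap K F c')) : c = c' := by
  by_contra hne
  have e : algebraMap K F (c' - c) = (x - algebraMap K F c) - (x - algebraMap K F c') := by
    rw [map_sub]; ring
  have hne' : (x - algebraMap K F c) - (x - algebraMap K F c') ≠ 0 := by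
    rw [← e, Ne, map_eq_zero, sub_eq_zero]
    exact fun h => hne h.symm
  have h1 := ord_sub_ge v hne'
  rw [← e, ord_algebraMap] at h1
  have h2 := lt_min h h'
  omega

/-- if `v` is a zero of `x - c₀`, then `x - c` is a unit at `v` for `c ≠ c₀`. -/
theorem ord_sub_eq_zero_of_ne (v : Place K F) {c₀ c : K} (h : 0 < v.ord (x - algebraMap K F c₀))
    (hne : c ≠ c₀) : v.ord (x - algebraMap K F c) = 0 := by
  have hc : algebraMap K F (c₀ - c) ≠ 0 := by
    rw [Ne, map_eq_zero, sub_eq_zero]
    exact fun h => hne h.symm
  have e : x - algebraMap K F c = algebraMap K F (c₀ - c) + (x - algebraMap K F c₀) := by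
    rw [map_sub]; ring
  rw [e, ord_add_eq_of_lt v hc (by rw [ord_algebraMap]; exact h), ord_algebraMap]

/-- `x` is regular at a zero of `x - c`. -/
theorem ord_nonneg_of_ord_sub_pos (v : Place K F) {c : K} (h : 0 < v.ord (x - algebraMap K F c)) :
    0 ≤ v.ord x := by
  by_cases hx0 : x = 0
  · rw [hx0, Place.ord_zero]
  have e : x = (x - algebraMap K F c) + algebraMap K F c := by ring
  have h1 := ord_add_ge v (f := x - algebraMap K F c) (g := algebraMap K F c) (by rw [← e]; exact hx0)
  rw [← e, ord_algebraMap] at h1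
  have h2 : 0 ≤ min (v.ord (x - algebraMap K F c)) 0 := le_min h.le le_rfl
  omega

/-- `x - c` is regular where `x` is. -/
theorem ord_sub_nonneg (v : Place K F) (c : K) (hne : x - algebraMap K F c ≠ 0)
    (h : 0 ≤ v.ord x) : 0 ≤ v.ord (x - algebraMap K F c) := by
  have h2 := ord_sub_ge v hne
  rw [ord_algebraMap] at h2
  exact le_trans (le_min h le_rfl) h2

/-- **the product of the `x - c`, `c ∈ V`, has a simple zero at a nice place with value in `V`.** -/
theorem ord_prod_sub_eq_one (v : Place K F) (V : Finset K)
    (hne : ∀ c ∈ V, x - algebraMap K F c ≠ 0) {c₀ : K}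
    (hc₀ : c₀ ∈ V) (h1 : v.ord (x - algebraMap K F c₀) = 1) :
    v.ord (∏ c ∈ V, (x - algebraMap K F c)) = 1 := by
  classical
  rw [ord_finset_prod v V _ hne, Finset.sum_eq_single_of_mem c₀ hc₀, h1]
  intro c _ hne'
  exact ord_sub_eq_zero_of_ne v (by omega) hne'

/-- the product of the `x - c` is regular where `x` is. -/
theorem ord_prod_sub_nonneg (v : Place K F) (V : Finset K)
    (hne : ∀ c ∈ V, x - algebraMap K F c ≠ 0)
    (h : 0 ≤ v.ord x) : 0 ≤ v.ord (∏ c ∈ V, (x - algebraMap K F c)) := by
  classical
  rw [ord_finset_prod v V _ hne]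
  exact Finset.sum_nonneg fun c hc => ord_sub_nonneg v c (hne c hc) h

/-- a product with a zero at `v` has a factor with a zero at `v`. -/
theorem exists_ord_pos_of_ord_prod_pos {ι : Type*} (v : Place K F) (V : Finset ι) (f : ι → F)
    (hne : ∀ i ∈ V, f i ≠ 0) (h : 0 < v.ord (∏ i ∈ V, f i)) : ∃ i ∈ V, 0 < v.ord (f i) := by
  classical
  rw [ord_finset_prod v V f hne] at h
  by_contra hcon
  push Not at hcon
  have := Finset.sum_nonpos hcon
  omega

end General


variable {K F : Type*} [Field K] [IsAlgClosed K] [Field F] [Algebra K F] {x : F}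

/-- every fibre of a separable generator is nonempty. -/
theorem exists_zero_sub (hx : IsGen K x) [Algebra.IsSeparable K⟮x⟯ F] (c : K) :
    ∃ v : Place K F, 0 < v.ord (x - algebraMap K F c) := by
  by_contra h
  push Not at h
  have hsum := sum_ord_fibre_sep hx c
  rw [finsum_eq_zero_of_forall_eq_zero] at hsum
  · have : 0 < Module.finrank K⟮x⟯ F := by
      have := hx.finite
      exact Module.finrank_pos
    omega
  · intro v
    have hv : ¬ 0 < v.ord (x - algebraMap K F c) := not_lt.2 (h v)
    simp [hv]

/-- **all places outside a finite set are nice.** -/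
theorem exists_bad_finset (HL : LHyp K F) (hx : IsGen K x) [Algebra.IsSeparable K⟮x⟯ F] :
    ∃ S : Finset (Place K F), ∀ v, v ∉ S → ∃ c : K, v.ord (x - algebraMap K F c) = 1 := by
  classical
  have hB := finite_ramified_values (K := K) (F := F) hx
  have hpoles := finite_poles_sep hx
  have hfib : ∀ c : K, {v : Place K F | 0 < v.ord (x - algebraMap K F c)}.Finite :=
    finite_fibre_sep hx
  refine ⟨hpoles.toFinset ∪ hB.toFinset.biUnion (fun c => (hfib c).toFinset), fun v hv => ?_⟩
  rw [Finset.mem_union, not_or] at hv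
  obtain ⟨hv1, hv2⟩ := hv
  have hnn : 0 ≤ v.ord x := by
    by_contra h
    exact hv1 ((Set.Finite.mem_toFinset _).2 (not_le.1 h))
  obtain ⟨c, hc⟩ := HL.residue v x (mem_of_ord_nonneg v hnn)
  have hpos : 0 < v.ord (x - algebraMap K F c) := by
    rcases hc with hc | hc
    · exact absurd (sub_eq_zero.2 hc) (hx.sub_algebraMap_ne_zero c)
    · exact hc
  refine ⟨c, ?_⟩
  by_contra hne
  have h2 : 2 ≤ v.ord (x - algebraMap K F c) := by omega
  apply hv2
  rw [Finset.mem_biUnion]
  exact ⟨c, (Set.Finite.mem_toFinset _).2 ⟨v, h2⟩, (Set.Finite.mem_toFinset _).2 hpos⟩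

/-- **all places outside a finite set are nice, and the whole fibre of `x` through them is
reduced.** -/
theorem exists_bad_finset_strong (HL : LHyp K F) (hx : IsGen K x) [Algebra.IsSeparable K⟮x⟯ F] :
    ∃ S : Finset (Place K F), ∀ v, v ∉ S → ∃ c : K, 0 < v.ord (x - algebraMap K F c) ∧
      ∀ w : Place K F, w.ord (x - algebraMap K F c) ≤ 1 := by
  classical
  have hB := finite_ramified_values (K := K) (F := F) hx
  have hpoles := finite_poles_sep hx
  have hfib : ∀ c : K, {v : Place K F | 0 < v.ord (x - algebraMap K F c)}.Finite :=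
    finite_fibre_sep hx
  refine ⟨hpoles.toFinset ∪ hB.toFinset.biUnion (fun c => (hfib c).toFinset), fun v hv => ?_⟩
  rw [Finset.mem_union, not_or] at hv
  obtain ⟨hv1, hv2⟩ := hv
  have hnn : 0 ≤ v.ord x := by
    by_contra h
    exact hv1 ((Set.Finite.mem_toFinset _).2 (not_le.1 h))
  obtain ⟨c, hc⟩ := HL.residue v x (mem_of_ord_nonneg v hnn)
  have hpos : 0 < v.ord (x - algebraMap K F c) := by
    rcases hc with hc | hc
    · exact absurd (sub_eq_zero.2 hc) (hx.sub_algebraMap_ne_zero c)
    · exact hc
  refine ⟨c, hpos, fun w => ?_⟩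
  by_contra hne
  have h2 : 2 ≤ w.ord (x - algebraMap K F c) := by omega
  apply hv2
  rw [Finset.mem_biUnion]
  exact ⟨c, (Set.Finite.mem_toFinset _).2 ⟨w, h2⟩, (Set.Finite.mem_toFinset _).2 hpos⟩

/-- **infinitely many places**: the complement of a finite set of places is
infinite. -/
theorem infinite_compl_finset (hx : IsGen K x) [Algebra.IsSeparable K⟮x⟯ F]
    (S : Finset (Place K F)) : {v : Place K F | v ∉ S}.Infinite := by
  classical
  choose z hz using exists_zero_sub (F := F) hx
  have hinj : Function.Injective z := fun c c' h => value_unique (z c) (hz c) (h ▸ hz c')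
  have hrange : (Set.range z).Infinite := Set.infinite_range_of_injective hinj
  exact (hrange.sdiff S.finite_toSet).mono fun v hv => hv.2

/-- there is a place outside any finite set. -/
theorem exists_not_mem_finset (hx : IsGen K x) [Algebra.IsSeparable K⟮x⟯ F]
    (S : Finset (Place K F)) : ∃ v : Place K F, v ∉ S :=
  (infinite_compl_finset hx S).nonempty

/-- **a non-special divisor of `g` distinct places outside a finite set.** -/
theorem exists_nonspecial_good (HL : LHyp K F) (hx : IsGen K x)
    [Algebra.IsSeparable K⟮x⟯ F] (g : ℕ)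
    (hR : ∀ D : Divisor K F, Divisor.degree D + 1 - (g : ℤ) ≤ ell D) {D₀ : Divisor K F}
    (h0 : delta (g : ℤ) D₀ = 0) (S : Finset (Place K F)) :
    ∃ T : Finset (Place K F), T.card = g ∧ ell (pts T) = 1 ∧ ∀ v ∈ T, v ∉ S := by
  obtain ⟨T, hTX, hT⟩ := exists_nonspecial_of_infinite HL g hR h0 {v | v ∉ S}
    (infinite_compl_finset hx S)
  exact ⟨T, hT.1, hT.2, fun v hv => hTX hv⟩

/-- the factors `x - c` are nonzero. -/
theorem sub_algebraMap_ne_zero' (hx : Transcendental K x) (c : K) : x - algebraMap K F c ≠ 0 := by
  intro h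
  apply hx
  rw [sub_eq_zero.1 h]
  exact isAlgebraic_algebraMap c

end Fermat.Agent.FF.NicePlace3
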