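/-
FF/PolePres1 (helper1): **reduction preserves poles and zeros of functions whose pole degree does
not drop** — abstract function-field lemma for chapter G2 (choice of the data `φ`, `Pb`).

Setting: `F / K` and `F̄ / κ` with `LHyp`, a map `r` on places, a function `y ≠ 0` of `F` and
`ȳ ≠ 0` of `F̄` with `r_* (div y) = div ȳ` (`hpush`) and `deg (y)_∞ = deg (ȳ)_∞` (`hdeg`).  Then

* `mapDomain_poleDiv`, `mapDomain_zeroDiv` : `r_* (y)_∞ = (ȳ)_∞`, `r_* (y)_0 = (ȳ)_0`;
* `pole_of_pole`, `zero_of_zero` : poles of `y` reduce to poles of `ȳ`, zeros to zeros;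
* `ord_nonneg_of_ord_nonneg` : if `ȳ` is regular at `r P` then `y` is regular at `P`;
* `exists_over_zero` : every zero of `ȳ` is the reduction of a zero of `y`.

Also: `poleDiv (x ^ n - c) = n • poleDiv x`, `zeroDiv`, degrees, and the enumeration of the zeros of a
function all of whose zeros are simple (`exists_enum_zeros`).
-/
import Mathlib
import Fermat.Agent.RR.Riemann
import Fermat.Agent.X0.FFDict
import Fermat.Agent.FF.UniqueZeroA
import Fermat.Agent.FF.SpecRR1A

set_option autoImplicit false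

namespace Fermat.Agent.FF.PolePres1

open AlgebraicCurve Fermat.Agent.RR.LSpace Fermat.Agent.RR.Riemann Fermat.Agent.X0.FF

variable {K F : Type*} [Field K] [Field F] [Algebra K F]

/-! ### zero divisors -/

/-- The zero divisor of a nonzero function. -/
noncomputable def zeroDiv (H : LHyp K F) {f : F} (hf : f ≠ 0) : Divisor K F :=
  (divOf H hf).mapRange (fun n => max 0 n) (by simp)

theorem zeroDiv_apply (H : LHyp K F) {f : F} (hf : f ≠ 0) (v : Place K F) :
    zeroDiv H hf v = max 0 (v.ord f) := by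
  rw [zeroDiv, Finsupp.mapRange_apply, divOf_apply]

theorem zeroDiv_nonneg (H : LHyp K F) {f : F} (hf : f ≠ 0) : 0 ≤ zeroDiv H hf := by
  intro v
  rw [zeroDiv_apply]
  simp

theorem divOf_eq_zeroDiv_sub_poleDiv (H : LHyp K F) {f : F} (hf : f ≠ 0) :
    divOf H hf = zeroDiv H hf - poleDiv H hf := by
  ext v
  rw [Finsupp.sub_apply, zeroDiv_apply, poleDiv_apply, divOf_apply]
  rcases le_total 0 (v.ord f) with h | h
  · rw [max_eq_right h, max_eq_left (by omega)]; ring
  · rw [max_eq_left h, max_eq_right (by omega)]; ring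

theorem degree_zeroDiv (H : LHyp K F) {f : F} (hf : f ≠ 0) :
    Divisor.degree (zeroDiv H hf) = Divisor.degree (poleDiv H hf) := by
  have h := congrArg Divisor.degree (divOf_eq_zeroDiv_sub_poleDiv H hf)
  rw [degree_divOf, map_sub] at h
  omega

theorem zeroDiv_eq_poleDiv_inv (H : LHyp K F) {f : F} (hf : f ≠ 0) :
    zeroDiv H hf = poleDiv H (inv_ne_zero hf) := by
  ext v
  rw [zeroDiv_apply, poleDiv_apply, v.ord_inv, neg_neg]

/-! ### the pole divisor of `x ^ n - c` -/

theorem ord_pow_sub_const_of_pole (v : Place K F) {x : F} (hx : v.ord x < 0) {n : ℕ} (hn : 0 < n)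
    (c : K) : v.ord (x ^ n - algebraMap K F c) = n * v.ord x := by
  have hx0 : x ≠ 0 := by
    intro h; rw [h, Place.ord_zero] at hx; exact lt_irrefl _ hx
  have hpow : v.ord (x ^ n) = n * v.ord x := ord_pow v x n
  have hlt : v.ord (x ^ n) < v.ord (-(algebraMap K F c)) := by
    rw [ord_neg, ord_algebraMap, hpow]
    have : (0 : ℤ) < n := by exact_mod_cast hn
    nlinarith
  rw [sub_eq_add_neg, ord_add_eq_of_lt v (pow_ne_zero n hx0) hlt, hpow]

theorem ord_pow_sub_const_nonneg (v : Place K F) {x : F} (hx : 0 ≤ v.ord x) (n : ℕ) (c : K)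
    (hne : x ^ n - algebraMap K F c ≠ 0) : 0 ≤ v.ord (x ^ n - algebraMap K F c) := by
  have h1 : 0 ≤ v.ord (x ^ n) := by
    rw [ord_pow]
    have : (0 : ℤ) ≤ n := by exact_mod_cast Nat.zero_le n
    positivity
  have h2 := ord_sub_ge v hne
  rw [ord_algebraMap] at h2
  exact le_trans (le_min h1 le_rfl) h2

/-- **`(x ^ n - c)_∞ = n (x)_∞`.** -/
theorem poleDiv_pow_sub_const (H : LHyp K F) {x : F} (hx0 : x ≠ 0) {n : ℕ} (hn : 0 < n) (c : K)
    (hne : x ^ n - algebraMap K F c ≠ 0) :
    poleDiv H hne = n • poleDiv H hx0 := by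
  ext v
  rw [Finsupp.smul_apply, poleDiv_apply, poleDiv_apply, nsmul_eq_mul]
  rcases lt_or_ge (v.ord x) 0 with h | h
  · have hn' : (0 : ℤ) < n := by exact_mod_cast hn
    have h1 : (n : ℤ) * v.ord x ≤ 0 := by nlinarith
    rw [ord_pow_sub_const_of_pole v h hn c, max_eq_right (by omega), max_eq_right (by omega)]
    ring
  · have := ord_pow_sub_const_nonneg v h n c hne
    rw [max_eq_left (by omega), max_eq_left (by omega), mul_zero]

/-- **`(x - c)_∞ = (x)_∞`.** -/
theorem poleDiv_sub_const (H : LHyp K F) {x : F} (hx0 : x ≠ 0) (c : K)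
    (hne : x - algebraMap K F c ≠ 0) : poleDiv H hne = poleDiv H hx0 := by
  have hne' : x ^ 1 - algebraMap K F c ≠ 0 := by rwa [pow_one]
  have h1 := poleDiv_pow_sub_const H hx0 Nat.one_pos c hne'
  rw [one_smul] at h1
  rw [← h1]
  ext v
  rw [poleDiv_apply, poleDiv_apply, pow_one]

theorem ord_prod_sub_const (v : Place K F) {x : F} (V : Finset K)
    (hne : ∀ a ∈ V, x - algebraMap K F a ≠ 0) :
    (v.ord x < 0 → v.ord (∏ a ∈ V, (x - algebraMap K F a)) = V.card * v.ord x) ∧
      (0 ≤ v.ord x → 0 ≤ v.ord (∏ a ∈ V, (x - algebraMap K F a))) := by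
  classical
  induction V using Finset.induction_on with
  | empty => simp
  | insert a V ha ih =>
    have hne' : ∀ b ∈ V, x - algebraMap K F b ≠ 0 := fun b hb => hne b (Finset.mem_insert_of_mem hb)
    have hna : x - algebraMap K F a ≠ 0 := hne a (Finset.mem_insert_self a V)
    have hprod : ∏ b ∈ V, (x - algebraMap K F b) ≠ 0 := Finset.prod_ne_zero_iff.2 hne'
    obtain ⟨ih1, ih2⟩ := ih hne'
    rw [Finset.prod_insert ha, v.ord_mul hna hprod, Finset.card_insert_of_notMem ha]
    constructor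
    · intro hx
      have h1 := ord_pow_sub_const_of_pole v hx Nat.one_pos a
      rw [pow_one] at h1
      rw [h1, ih1 hx]
      push_cast
      ring
    · intro hx
      have h1 := ord_pow_sub_const_nonneg v hx 1 a (by rwa [pow_one])
      rw [pow_one] at h1
      have := ih2 hx
      omega

/-- **`(∏_{a ∈ V} (x - a))_∞ = #V (x)_∞`.** -/
theorem poleDiv_prod_sub_const (H : LHyp K F) {x : F} (hx0 : x ≠ 0) (V : Finset K)
    (hne : ∏ a ∈ V, (x - algebraMap K F a) ≠ 0) :
    poleDiv H hne = V.card • poleDiv H hx0 := by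
  ext v
  rw [Finsupp.smul_apply, poleDiv_apply, poleDiv_apply, nsmul_eq_mul]
  obtain ⟨h1, h2⟩ := ord_prod_sub_const v V (Finset.prod_ne_zero_iff.1 hne)
  rcases lt_or_ge (v.ord x) 0 with h | h
  · have hc : (0 : ℤ) ≤ V.card := by exact_mod_cast Nat.zero_le _
    have h3 : (V.card : ℤ) * v.ord x ≤ 0 := by nlinarith
    rw [h1 h, max_eq_right (by omega), max_eq_right (by omega)]
    ring
  · have := h2 h
    rw [max_eq_left (by omega), max_eq_left (by omega), mul_zero]

/-! ### push-forward of effective divisors -/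

variable {κ Fb : Type*} [Field κ] [Field Fb] [Algebra κ Fb]

theorem le_mapDomain_apply (r : Place K F → Place κ Fb) {D : Divisor K F} (hD : 0 ≤ D)
    (P : Place K F) : D P ≤ Finsupp.mapDomain r D (r P) := by
  classical
  rw [UniqueZeroA.mapDomain_apply_eq_sum]
  by_cases hP : P ∈ D.support
  · exact Finset.single_le_sum (f := fun P => D P) (fun i _ => by simpa using hD i)
      (Finset.mem_filter.2 ⟨hP, rfl⟩)
  · rw [Finsupp.notMem_support_iff.1 hP]
    exact Finset.sum_nonneg fun i _ => by simpa using hD i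

theorem mapDomain_nonneg (r : Place K F → Place κ Fb) {D : Divisor K F} (hD : 0 ≤ D) :
    0 ≤ Finsupp.mapDomain r D := by
  classical
  intro Q
  rw [UniqueZeroA.mapDomain_apply_eq_sum]
  exact Finset.sum_nonneg fun i _ => by simpa using hD i

theorem exists_of_mapDomain_apply_ne_zero (r : Place K F → Place κ Fb) (D : Divisor K F)
    {Q : Place κ Fb} (h : Finsupp.mapDomain r D Q ≠ 0) : ∃ P, r P = Q ∧ D P ≠ 0 := by
  classical
  rw [UniqueZeroA.mapDomain_apply_eq_sum] at h
  obtain ⟨P, hP, hne⟩ := Finset.exists_ne_zero_of_sum_ne_zero h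
  exact ⟨P, (Finset.mem_filter.1 hP).2, hne⟩

/-! ### the main lemma -/

section Main

variable (HL : LHyp K F) (HLb : LHyp κ Fb) (r : Place K F → Place κ Fb)
  {y : F} (hy : y ≠ 0) {yb : Fb} (hyb : yb ≠ 0)
  (hpush : ∀ Q, Finsupp.mapDomain r (divOf HL hy) Q = Q.ord yb)
  (hdeg : Divisor.degree (poleDiv HL hy) = Divisor.degree (poleDiv HLb hyb))

include hpush in
theorem mapDomain_divOf : Finsupp.mapDomain r (divOf HL hy) = divOf HLb hyb := by
  ext Q
  rw [hpush Q, divOf_apply]

include hpush hdeg in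
/-- **`r_* (y)_∞ = (ȳ)_∞`.** -/
theorem mapDomain_poleDiv : Finsupp.mapDomain r (poleDiv HL hy) = poleDiv HLb hyb := by
  have hrel : Finsupp.mapDomain r (zeroDiv HL hy) - Finsupp.mapDomain r (poleDiv HL hy) =
      zeroDiv HLb hyb - poleDiv HLb hyb := by
    rw [← Finsupp.mapDomain_sub, ← divOf_eq_zeroDiv_sub_poleDiv, ← divOf_eq_zeroDiv_sub_poleDiv]
    exact mapDomain_divOf HL HLb r hy hyb hpush
  have hz := mapDomain_nonneg r (zeroDiv_nonneg HL hy)
  have hp := mapDomain_nonneg r (poleDiv_nonneg HL hy)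
  -- pointwise `(ȳ)_∞ ≤ r_* (y)_∞`
  have hle : poleDiv HLb hyb ≤ Finsupp.mapDomain r (poleDiv HL hy) := by
    intro Q
    have h1 := congrArg (fun D : Divisor κ Fb => D Q) hrel
    simp only [Finsupp.sub_apply] at h1
    have h2 := hz Q
    have h3 := hp Q
    simp only [Finsupp.coe_zero, Pi.zero_apply] at h2 h3
    rw [zeroDiv_apply, poleDiv_apply] at h1
    rw [poleDiv_apply]
    rcases le_total 0 (Q.ord yb) with h | h
    · rw [max_eq_left (by omega)]; exact h3
    · rw [max_eq_left h, max_eq_right (by omega)] at h1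
      rw [max_eq_right (by omega)]
      omega
  -- degrees agree
  have hdeg' : Divisor.degree (Finsupp.mapDomain r (poleDiv HL hy) - poleDiv HLb hyb) = 0 := by
    rw [map_sub, SpecRR1.degree_mapDomain r
      (fun P => by rw [HLb.deg_eq_one, HL.deg_eq_one]), hdeg, sub_self]
  have h0 := eq_zero_of_degree_eq_zero HLb (D := Finsupp.mapDomain r (poleDiv HL hy) - poleDiv HLb hyb)
    (by
      intro Q
      have := hle Q
      simp only [Finsupp.coe_zero, Pi.zero_apply, Finsupp.sub_apply]
      omega) hdeg'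
  exact sub_eq_zero.1 h0

include hpush hdeg in
/-- **`r_* (y)_0 = (ȳ)_0`.** -/
theorem mapDomain_zeroDiv : Finsupp.mapDomain r (zeroDiv HL hy) = zeroDiv HLb hyb := by
  have hrel : Finsupp.mapDomain r (zeroDiv HL hy) - Finsupp.mapDomain r (poleDiv HL hy) =
      zeroDiv HLb hyb - poleDiv HLb hyb := by
    rw [← Finsupp.mapDomain_sub, ← divOf_eq_zeroDiv_sub_poleDiv, ← divOf_eq_zeroDiv_sub_poleDiv]
    exact mapDomain_divOf HL HLb r hy hyb hpush
  rw [mapDomain_poleDiv HL HLb r hy hyb hpush hdeg] at hrel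
  exact sub_left_injective hrel

include hpush hdeg in
/-- **poles reduce to poles.** -/
theorem pole_of_pole {P : Place K F} (hP : P.ord y < 0) : (r P).ord yb < 0 := by
  have h1 := le_mapDomain_apply r (poleDiv_nonneg HL hy) P
  rw [mapDomain_poleDiv HL HLb r hy hyb hpush hdeg, poleDiv_apply, poleDiv_apply,
    max_eq_right (by omega)] at h1
  by_contra hcon
  rw [max_eq_left (by omega)] at h1
  omega

include hpush hdeg in
/-- **zeros reduce to zeros.** -/
theorem zero_of_zero {P : Place K F} (hP : 0 < P.ord y) : 0 < (r P).ord yb := by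
  have h1 := le_mapDomain_apply r (zeroDiv_nonneg HL hy) P
  rw [mapDomain_zeroDiv HL HLb r hy hyb hpush hdeg, zeroDiv_apply, zeroDiv_apply,
    max_eq_right (by omega)] at h1
  by_contra hcon
  rw [max_eq_left (by omega)] at h1
  omega

include hpush hdeg in
/-- **regular downstairs ⟹ regular upstairs.** -/
theorem ord_nonneg_of_ord_nonneg {P : Place K F} (hP : 0 ≤ (r P).ord yb) : 0 ≤ P.ord y := by
  by_contra hcon
  have := pole_of_pole HL HLb r hy hyb hpush hdeg (P := P) (by omega)
  omega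

include hpush hdeg in
/-- no zero downstairs ⟹ no zero upstairs. -/
theorem ord_nonpos_of_ord_nonpos {P : Place K F} (hP : (r P).ord yb ≤ 0) : P.ord y ≤ 0 := by
  by_contra hcon
  have := zero_of_zero HL HLb r hy hyb hpush hdeg (P := P) (by omega)
  omega

include hpush hdeg in
/-- every zero of `ȳ` is the reduction of a zero of `y`. -/
theorem exists_over_zero {Q : Place κ Fb} (hQ : 0 < Q.ord yb) : ∃ P, r P = Q ∧ 0 < P.ord y := by
  have h1 : Finsupp.mapDomain r (zeroDiv HL hy) Q ≠ 0 := by
    rw [mapDomain_zeroDiv HL HLb r hy hyb hpush hdeg, zeroDiv_apply, max_eq_right (by omega)]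
    omega
  obtain ⟨P, hP, hne⟩ := exists_of_mapDomain_apply_ne_zero r _ h1
  refine ⟨P, hP, ?_⟩
  rw [zeroDiv_apply] at hne
  by_contra hcon
  rw [max_eq_left (by omega)] at hne
  exact hne rfl

include hpush hdeg in
/-- every pole of `ȳ` is the reduction of a pole of `y`. -/
theorem exists_over_pole {Q : Place κ Fb} (hQ : Q.ord yb < 0) : ∃ P, r P = Q ∧ P.ord y < 0 := by
  have h1 : Finsupp.mapDomain r (poleDiv HL hy) Q ≠ 0 := by
    rw [mapDomain_poleDiv HL HLb r hy hyb hpush hdeg, poleDiv_apply, max_eq_right (by omega)]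
    omega
  obtain ⟨P, hP, hne⟩ := exists_of_mapDomain_apply_ne_zero r _ h1
  refine ⟨P, hP, ?_⟩
  rw [poleDiv_apply] at hne
  by_contra hcon
  rw [max_eq_left (by omega)] at hne
  exact hne rfl

end Main

/-! ### enumeration of simple zeros -/

/-- if all zeros of `f` are simple, the zeros of `f` can be enumerated injectively by
`Fin d`, `d = deg (f)_∞ = deg (f)_0`. -/
theorem exists_enum_zeros (H : LHyp K F) {f : F} (hf : f ≠ 0)
    (hsimple : ∀ v : Place K F, 0 < v.ord f → v.ord f = 1) (d : ℕ)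
    (hd : Divisor.degree (poleDiv H hf) = d) :
    ∃ Pb : Fin d → Place K F, Function.Injective Pb ∧ (∀ j, (Pb j).ord f = 1) ∧
      ∀ v : Place K F, 0 < v.ord f → ∃ j, Pb j = v := by
  classical
  set Z := (zeroDiv H hf).support with hZ
  have hmem : ∀ v, v ∈ Z ↔ 0 < v.ord f := by
    intro v
    rw [hZ, Finsupp.mem_support_iff, zeroDiv_apply]
    constructor
    · intro h
      by_contra hcon
      exact h (max_eq_left (by omega))
    · intro h
      rw [max_eq_right (by omega)]
      omega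
  have hcard : Z.card = d := by
    have h1 : Divisor.degree (zeroDiv H hf) = ∑ v ∈ Z, zeroDiv H hf v := degree_eq_sum H _
    have h2 : ∑ v ∈ Z, zeroDiv H hf v = ∑ _v ∈ Z, (1 : ℤ) := by
      refine Finset.sum_congr rfl fun v hv => ?_
      have hv' := (hmem v).1 hv
      rw [zeroDiv_apply, hsimple v hv', max_eq_right (by omega)]
    rw [h2, Finset.sum_const, degree_zeroDiv, hd] at h1
    simp only [nsmul_eq_mul, mul_one] at h1
    exact_mod_cast h1.symm
  let e : Fin d ≃ Z := (Finset.equivFinOfCardEq hcard).symm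
  refine ⟨fun j => (e j : Place K F), ?_, ?_, ?_⟩
  · intro j j' h
    exact e.injective (Subtype.ext h)
  · intro j
    exact hsimple _ ((hmem _).1 (e j).2)
  · intro v hv
    exact ⟨e.symm ⟨v, (hmem v).2 hv⟩, by simp⟩

end Fermat.Agent.FF.PolePres1
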