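/-
Programme FF (S19), bridge (helper5): helper2's abstract reduction `RedLat2.AbsRed` (residue field
`κ = ResidueField A`) together with `LSpace.LHyp` on the generic fibre gives the lead's
`DiscOfRedA.RedCtxV` (with the SAME `O`, `ρ`, `r`), so that ONE instantiation serves the chapters
G1 (`DiscOfRedA`), G3 (`RedLat2`) and G4 (`ThetaBridge5`); conversely `ofRedCtxV` builds the `AbsRed`
from a `RedCtxV` over `ResidueField A` with the two extra facts on `ρ`.
-/
import Mathlib
import Fermat.Agent.FF.RedLat2A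
import Fermat.Agent.FF.DiscOfRedA

set_option autoImplicit false

open AlgebraicCurve IsLocalRing

namespace Fermat.Agent.FF.RedBridge5

open Fermat.Agent.X0.FF Fermat.Agent.RR.LSpace Fermat.Agent.FF.RedLat2
  Fermat.Agent.FF.UniqueZeroA Fermat.Agent.FF.DiscOfRedA

variable {K : Type*} [Field K] {A : ValuationSubring K}
variable {F : Type*} [Field F] [Algebra K F]
variable {Fb : Type*} [Field Fb] [Algebra (ResidueField A) Fb]

/-- the abstract place reduction `RedCtx` of an `AbsRed`. -/
noncomputable def toRedCtx (R : AbsRed A F Fb) (HL : LHyp K F) :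
    RedCtx A F (ResidueField A) Fb where
  O := R.O
  ρ := R.ρ
  r := R.r
  const_mem := R.algebraMap_mem
  ρ_const_max a ha := R.ρ_const_eq_zero ha
  ρ_const_unit a ha := by
    refine ⟨residue A a, ?_, R.ρ_algebraMap a⟩
    intro h0
    have hmem : a ∈ maximalIdeal A := (IsLocalRing.residue_eq_zero_iff a).1 h0
    rw [IsLocalRing.mem_maximalIdeal, mem_nonunits_iff] at hmem
    exact hmem ha
  exists_div f hf := by
    obtain ⟨D, hD, -⟩ := HL.principal f hf
    exact ⟨D, hD⟩
  push := R.r_div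
  exists_value Q f hf := by
    obtain ⟨c, hc⟩ := HL.residue Q f (mem_of_ord_nonneg Q hf)
    refine ⟨c, ?_⟩
    rcases hc with hc | hc
    · left
      rw [hc, sub_self]
    · exact Or.inr hc

/-- **the lead's `RedCtxV` from helper2's `AbsRed`.** -/
noncomputable def toRedCtxV (R : AbsRed A F Fb) (HL : LHyp K F) :
    RedCtxV A F (ResidueField A) Fb where
  toRedCtx := toRedCtx R HL
  inv_mem _ hy := R.inv_mem_of_ρ_ne_zero hy
  gauss := R.gauss
  val Q := valueAt HL Q
  val_algebraMap Q a := valueAt_algebraMap HL Q a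
  val_eq_zero Q f hf := (valueAt_eq_zero_iff HL Q f).1 hf

@[simp] theorem toRedCtxV_O (R : AbsRed A F Fb) (HL : LHyp K F) : (toRedCtxV R HL).O = R.O := rfl

@[simp] theorem toRedCtxV_ρ (R : AbsRed A F Fb) (HL : LHyp K F) : (toRedCtxV R HL).ρ = R.ρ := rfl

@[simp] theorem toRedCtxV_r (R : AbsRed A F Fb) (HL : LHyp K F) : (toRedCtxV R HL).r = R.r := rfl

/-- **helper2's `AbsRed` from the lead's `RedCtxV`** (residue field `κ = ResidueField A`), given
that `ρ` restricts to the residue map on constants and that its kernel is `𝔪_A O`.  `O`, `ρ`, `r`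
are definitionally the same. -/
def ofRedCtxV (C : RedCtxV A F (ResidueField A) Fb)
    (hρ_alg : ∀ a : A, C.ρ ⟨algebraMap K F (a : K), C.const_mem a⟩ =
      algebraMap (ResidueField A) Fb (residue A a))
    (hρ_ker : ∀ y : C.O, C.ρ y = 0 → ∃ c : A, c ∈ maximalIdeal A ∧ ∃ y' : C.O,
      (y : F) = algebraMap K F (c : K) * (y' : F)) : AbsRed A F Fb where
  O := C.O
  ρ := C.ρ
  algebraMap_mem := C.const_mem
  ρ_algebraMap := hρ_alg
  ρ_ker := hρ_ker
  gauss := C.gauss
  r := C.r
  r_div := C.push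

@[simp] theorem ofRedCtxV_O (C : RedCtxV A F (ResidueField A) Fb) (hρ_alg) (hρ_ker) :
    (ofRedCtxV C hρ_alg hρ_ker).O = C.O := rfl

@[simp] theorem ofRedCtxV_ρ (C : RedCtxV A F (ResidueField A) Fb) (hρ_alg) (hρ_ker) :
    (ofRedCtxV C hρ_alg hρ_ker).ρ = C.ρ := rfl

@[simp] theorem ofRedCtxV_r (C : RedCtxV A F (ResidueField A) Fb) (hρ_alg) (hρ_ker) :
    (ofRedCtxV C hρ_alg hρ_ker).r = C.r := rfl

end Fermat.Agent.FF.RedBridge5
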