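/-
Programme FF (S19), chapter G2 (helper3): **the choice of the data**, abstract form.

Setting: an abstract reduction `R : AbsRed A F Fb` (helper2), `LHyp` on both fibres, a coordinate
`t ∈ O` whose reduction `t̄ = ρ t` is a separable generator of `Fb / κ` and such that `t` has no
pole over a place where `t̄` is regular (`hreg`); a family `γ : Γ → SemilinearAut K F` preserving
`t` and the reduction of places; and `Γ`-invariant lifts of the constants (`hTL`: every `a ∈ κ` is
the residue of some `c ∈ A` fixed by all the `γ σ`; Teichmüller lifts for the inertia group).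

* `exists_invariant_place` : over a place `Q̄` with `ord_Q̄ (t̄ - c̄) = 1` there is exactly one zero
  `Q` of `t - c`, and `Q` is `Γ`-invariant;
* `exists_hlift` (chapter G2b) : outside a finite set `Sbad` every place of `Fb` has a
  `Γ`-invariant lift — the hypothesis `hlift` of `InvLift8.exists_invariant_lift`;
* `exists_disc_data_full` (chapter G2a, full form) : the same with ALL the zeros of `ρ φ` as centres
  (the first `g` non-special) and `hzero`: every zero of `φ` lies over some `Pb j`;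
* `exists_disc_data` (chapter G2a) : a `Γ`-invariant parameter `φ ∈ O` (a product of `t - c`'s) and
  `g` pairwise distinct simple zeros `Pb j` of `ρ φ`, without poles of `φ` above them, and with
  `l̄(∑ Pb j) ≤ 1` — the hypotheses `φ Pb hPb hnp hφ hinj hell hφγ` of `ThetaAbs5`.
-/
import Mathlib
import Fermat.Prelude.Def_AlgebraicCurve_BaseChangeGalois
import Fermat.Agent.FF.NicePlace3
import Fermat.Agent.FF.RedBridge5
import Fermat.Agent.FF.PolePres1

set_option autoImplicit false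
set_option linter.unusedSectionVars false

open AlgebraicCurve IntermediateField IsLocalRing

noncomputable section

namespace Fermat.Agent.FF.ChooseData3

open Fermat.Agent.X0 Fermat.Agent.X0.FF Fermat.Agent.RR.LSpace Fermat.Agent.FF.SpecRR1
  Fermat.Agent.FF.RedLat2 Fermat.Agent.FF.UniqueZeroA Fermat.Agent.FF.RedBridge5
  Fermat.Agent.FF.NicePlace3 Fermat.Agent.FF.GeomIface8 AlgebraicCurve.SemilinearAut

variable {K : Type*} [Field K] {A : ValuationSubring K}
variable {F : Type*} [Field F] [Algebra K F]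
variable {Fb : Type*} [Field Fb] [Algebra (ResidueField A) Fb]
variable (R : AbsRed A F Fb) (HL : LHyp K F) (HLb : LHyp (ResidueField A) Fb)
variable (t : R.O)
variable (hreg : ∀ P : Place K F, 0 ≤ (R.r P).ord (R.ρ t) → 0 ≤ P.ord (t : F))
variable {Γ : Type*} (γ : Γ → SemilinearAut K F)
variable (hγr : ∀ (σ : Γ) (P : Place K F), R.r (γ σ • P) = R.r P)
variable (hγt : ∀ σ : Γ, γ σ • (t : F) = (t : F))

/-- `ρ (t - c) = t̄ - c̄`. -/
theorem ρ_sub_const (c : A) :
    R.ρ (t - R.const c) = R.ρ t - algebraMap (ResidueField A) Fb (residue A c) := by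
  rw [map_sub, R.ρ_const]

theorem coe_sub_const (c : A) :
    ((t - R.const c : R.O) : F) = (t : F) - algebraMap K F (c : K) := rfl

include hγt in
/-- `t - c` is `Γ`-invariant for an invariant constant `c`. -/
theorem smul_sub_const (σ : Γ) (c : K) (hc : baseAut (γ σ) c = c) :
    γ σ • ((t : F) - algebraMap K F c) = (t : F) - algebraMap K F c := by
  rw [smul_sub, hγt, SemilinearAut.smul_algebraMap, hc]

include HL hreg hγr hγt in
/-- **the invariant lift of a nice place.** -/
theorem exists_invariant_place (Qb : Place (ResidueField A) Fb) (c : A)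
    (hc : ∀ σ : Γ, baseAut (γ σ) (c : K) = c)
    (h1 : Qb.ord (R.ρ t - algebraMap (ResidueField A) Fb (residue A c)) = 1) :
    ∃ Q : Place K F, R.r Q = Qb ∧ Q.ord ((t : F) - algebraMap K F (c : K)) = 1 ∧
      ∀ σ : Γ, γ σ • Q = Q := by
  set ψ : R.O := t - R.const c with hψ
  have hρψ : R.ρ ψ = R.ρ t - algebraMap (ResidueField A) Fb (residue A c) := ρ_sub_const R t c
  have hψ1 : Qb.ord (R.ρ ψ) = 1 := by rw [hρψ]; exact h1
  have hψ0 : R.ρ ψ ≠ 0 := by
    intro h
    rw [h, Place.ord_zero] at hψ1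
    exact zero_ne_one hψ1
  have hψF : (ψ : F) ≠ 0 := R.coe_ne_zero_of_ρ_ne_zero hψ0
  have hnn : ∀ P, R.r P = Qb → 0 ≤ P.ord (ψ : F) := by
    intro P hP
    have h2 : 0 ≤ Qb.ord (R.ρ t) := ord_nonneg_of_ord_sub_pos Qb (by rw [h1]; exact zero_lt_one)
    exact ord_sub_nonneg P (c : K) hψF (hreg P (by rw [hP]; exact h2))
  obtain ⟨Q, hQ, hQ1, hQoth⟩ := (toRedCtx R HL).exists_unique_zero_over ψ hψ0 Qb hψ1 hnn
  refine ⟨Q, hQ, hQ1, fun σ => ?_⟩
  by_contra hne
  have h3 : (toRedCtx R HL).r (γ σ • Q) = Qb := by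
    show R.r (γ σ • Q) = Qb
    rw [hγr, ← hQ]
    rfl
  have h4 := hQoth (γ σ • Q) h3 hne
  have h5 : (γ σ • Q).ord (γ σ • (ψ : F)) = Q.ord (ψ : F) := ord_smul (γ σ) Q (ψ : F)
  have h6 : γ σ • (ψ : F) = (ψ : F) := smul_sub_const R t γ hγt σ (c : K) (hc σ)
  rw [h6] at h5
  have h7 : Q.ord (ψ : F) = 1 := hQ1
  have h8 : (γ σ • Q).ord (ψ : F) = 0 := h4
  omega

variable [IsAlgClosed (ResidueField A)]
variable (htb : IsGen (ResidueField A) (R.ρ t)) [Algebra.IsSeparable (ResidueField A)⟮R.ρ t⟯ Fb]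
variable (hTL : ∀ a : ResidueField A, ∃ c : A, residue A c = a ∧
  ∀ σ : Γ, baseAut (γ σ) (c : K) = c)

include HL HLb hreg hγr hγt htb hTL in
/-- **chapter G2b**: outside a finite set, every place of the special fibre has a `Γ`-invariant
lift. -/
theorem exists_hlift :
    ∃ Sbad : Finset (Place (ResidueField A) Fb), ∀ Qb : Place (ResidueField A) Fb, Qb ∉ Sbad →
      ∃ Q : Place K F, R.r Q = Qb ∧ ∀ σ : Γ, γ σ • Q = Q := by
  obtain ⟨S, hS⟩ := exists_bad_finset HLb htb
  refine ⟨S, fun Qb hQb => ?_⟩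
  obtain ⟨a, ha⟩ := hS Qb hQb
  obtain ⟨c, hca, hc⟩ := hTL a
  obtain ⟨Q, hQ, -, hinv⟩ := exists_invariant_place R HL t hreg γ hγr hγt Qb c hc
    (by rw [hca]; exact ha)
  exact ⟨Q, hQ, hinv⟩

include HL HLb hreg hγr hγt htb hTL in
/-- **chapter G2a**: the parameter `φ` and the centres `Pb j` of the residue discs. -/
theorem exists_disc_data (g : ℕ)
    (hRb : ∀ D : Divisor (ResidueField A) Fb, Divisor.degree D + 1 - (g : ℤ) ≤ ell D)
    {D₀ : Divisor (ResidueField A) Fb} (h0 : delta (g : ℤ) D₀ = 0) :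
    ∃ (φ : R.O) (Pb : Fin g → Place (ResidueField A) Fb),
      Function.Injective Pb ∧
      (∀ j, (Pb j).ord (R.ρ φ) = 1) ∧
      (∀ j P, R.r P = Pb j → 0 ≤ P.ord (φ : F)) ∧
      R.ρ φ ≠ 0 ∧
      ell (∑ j : Fin g, Finsupp.single (Pb (Fin.castLE (le_refl g) j)) (1 : ℤ)) ≤ 1 ∧
      ∀ σ : Γ, γ σ • (φ : F) = (φ : F) := by
  classical
  obtain ⟨S, hS⟩ := exists_bad_finset HLb htb
  obtain ⟨T, hTcard, hTell, hTS⟩ := exists_nonspecial_good HLb htb g hRb h0 S
  -- the values of `t̄` at the places of `T`, and invariant lifts of the constants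
  have hval : ∀ v : Place (ResidueField A) Fb, ∃ a : ResidueField A, v ∈ T →
      v.ord (R.ρ t - algebraMap (ResidueField A) Fb a) = 1 := by
    intro v
    by_cases hv : v ∈ T
    · obtain ⟨a, ha⟩ := hS v (hTS v hv)
      exact ⟨a, fun _ => ha⟩
    · exact ⟨0, fun h => absurd h hv⟩
  choose val hval using hval
  choose lift hlift_res hlift_inv using hTL
  set V : Finset (ResidueField A) := T.image val with hV
  set φ : R.O := ∏ a ∈ V, (t - R.const (lift a)) with hφ
  have hρφ : R.ρ φ = ∏ a ∈ V, (R.ρ t - algebraMap (ResidueField A) Fb a) := by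
    rw [hφ, map_prod]
    refine Finset.prod_congr rfl fun a _ => ?_
    rw [ρ_sub_const, hlift_res]
  have hφF : (φ : F) = ∏ a ∈ V, ((t : F) - algebraMap K F (lift a : K)) := by
    rw [hφ]
    exact map_prod R.O.subtype _ _
  have hneb : ∀ a ∈ V, R.ρ t - algebraMap (ResidueField A) Fb a ≠ 0 :=
    fun a _ => sub_algebraMap_ne_zero' htb.transcendental a
  have hne : ∀ a ∈ V, (t : F) - algebraMap K F (lift a : K) ≠ 0 := by
    intro a ha
    have h1 : R.ρ (t - R.const (lift a)) ≠ 0 := by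
      rw [ρ_sub_const, hlift_res]
      exact hneb a ha
    exact R.coe_ne_zero_of_ρ_ne_zero h1
  -- enumeration of `T`
  let e : T ≃ Fin g := T.equivFinOfCardEq hTcard
  refine ⟨φ, fun j => ((e.symm j : T) : Place (ResidueField A) Fb), ?_, ?_, ?_, ?_, ?_, ?_⟩
  · intro j j' h
    exact e.symm.injective (Subtype.ext h)
  · intro j
    have hjT : ((e.symm j : T) : Place (ResidueField A) Fb) ∈ T := (e.symm j).2
    rw [hρφ]
    exact ord_prod_sub_eq_one _ V hneb (Finset.mem_image_of_mem val hjT) (hval _ hjT)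
  · intro j P hP
    have hjT : ((e.symm j : T) : Place (ResidueField A) Fb) ∈ T := (e.symm j).2
    have h2 : 0 ≤ (R.r P).ord (R.ρ t) := by
      rw [hP]
      exact ord_nonneg_of_ord_sub_pos _ (by rw [hval _ hjT]; exact zero_lt_one)
    rw [hφF, ord_finset_prod P V _ hne]
    exact Finset.sum_nonneg fun a ha => ord_sub_nonneg P _ (hne a ha) (hreg P h2)
  · rw [hρφ]
    exact Finset.prod_ne_zero_iff.2 hneb
  · have hsum : ∑ j : Fin g, Finsupp.single
        (((e.symm (Fin.castLE (le_refl g) j) : T) : Place (ResidueField A) Fb)) (1 : ℤ) =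
        pts T := by
      unfold pts
      rw [← Finset.sum_coe_sort T]
      exact Fintype.sum_equiv e.symm _ _ fun j => rfl
    rw [hsum, hTell]
  · intro σ
    rw [hφF, SemilinearAut.smul_def, map_prod]
    refine Finset.prod_congr rfl fun a _ => ?_
    rw [← SemilinearAut.smul_def]
    exact smul_sub_const R t γ hγt σ _ (hlift_inv a σ)

include HL HLb hreg hγr hγt htb hTL in
/-- **chapter G2a, full form**: the parameter `φ`, the centres `Pb j` of ALL the residue discs over
the zeros of `ρ φ` (the first `g` of them forming a non-special divisor), and the fact that every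
zero of `φ` lies in one of these discs. -/
theorem exists_disc_data_full
    (hzz : ∀ (c : A) (P : Place K F), 0 < P.ord ((t : F) - algebraMap K F (c : K)) →
      0 < (R.r P).ord (R.ρ t - algebraMap (ResidueField A) Fb (residue A c)))
    (g : ℕ)
    (hRb : ∀ D : Divisor (ResidueField A) Fb, Divisor.degree D + 1 - (g : ℤ) ≤ ell D)
    {D₀ : Divisor (ResidueField A) Fb} (h0 : delta (g : ℤ) D₀ = 0) :
    ∃ (m : ℕ) (φ : R.O) (Pb : Fin (g + m) → Place (ResidueField A) Fb),
      Function.Injective Pb ∧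
      (∀ j, (Pb j).ord (R.ρ φ) = 1) ∧
      (∀ j P, R.r P = Pb j → 0 ≤ P.ord (φ : F)) ∧
      R.ρ φ ≠ 0 ∧
      ell (∑ j : Fin g, Finsupp.single (Pb (Fin.castLE (Nat.le_add_right g m) j)) (1 : ℤ)) ≤ 1 ∧
      (∀ σ : Γ, γ σ • (φ : F) = (φ : F)) ∧
      (∀ P : Place K F, 0 < P.ord (φ : F) → ∃ j, R.r P = Pb j) ∧
      (∀ Q : Place (ResidueField A) Fb, 0 < Q.ord (R.ρ φ) → ∃ j, Q = Pb j) := by
  classical
  obtain ⟨S, hS⟩ := exists_bad_finset_strong HLb htb
  obtain ⟨T, hTcard, hTell, hTS⟩ := exists_nonspecial_good HLb htb g hRb h0 S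
  -- the values of `t̄` at the places of `T`, and invariant lifts of the constants
  have hval : ∀ v : Place (ResidueField A) Fb, ∃ a : ResidueField A, v ∈ T →
      (0 < v.ord (R.ρ t - algebraMap (ResidueField A) Fb a) ∧
        ∀ w : Place (ResidueField A) Fb, w.ord (R.ρ t - algebraMap (ResidueField A) Fb a) ≤ 1) := by
    intro v
    by_cases hv : v ∈ T
    · obtain ⟨a, ha⟩ := hS v (hTS v hv)
      exact ⟨a, fun _ => ha⟩
    · exact ⟨0, fun h => absurd h hv⟩
  choose val hval using hval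
  choose lift hlift_res hlift_inv using hTL
  set V : Finset (ResidueField A) := T.image val with hV
  have hVunr : ∀ a ∈ V, ∀ w : Place (ResidueField A) Fb,
      w.ord (R.ρ t - algebraMap (ResidueField A) Fb a) ≤ 1 := by
    intro a ha
    obtain ⟨v, hv, rfl⟩ := Finset.mem_image.1 ha
    exact (hval v hv).2
  set φ : R.O := ∏ a ∈ V, (t - R.const (lift a)) with hφ
  have hρφ : R.ρ φ = ∏ a ∈ V, (R.ρ t - algebraMap (ResidueField A) Fb a) := by
    rw [hφ, map_prod]
    refine Finset.prod_congr rfl fun a _ => ?_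
    rw [ρ_sub_const, hlift_res]
  have hφF : (φ : F) = ∏ a ∈ V, ((t : F) - algebraMap K F (lift a : K)) := by
    rw [hφ]
    exact map_prod R.O.subtype _ _
  have hneb : ∀ a ∈ V, R.ρ t - algebraMap (ResidueField A) Fb a ≠ 0 :=
    fun a _ => sub_algebraMap_ne_zero' htb.transcendental a
  have hρne : ∀ a ∈ V, R.ρ (t - R.const (lift a)) ≠ 0 := by
    intro a ha
    rw [ρ_sub_const, hlift_res]
    exact hneb a ha
  have hne : ∀ a ∈ V, (t : F) - algebraMap K F (lift a : K) ≠ 0 :=
    fun a ha => R.coe_ne_zero_of_ρ_ne_zero (hρne a ha)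
  -- the zeros of `ρ φ`
  have hfib : ∀ a : ResidueField A,
      {v : Place (ResidueField A) Fb | 0 < v.ord (R.ρ t - algebraMap (ResidueField A) Fb a)}.Finite :=
    Fermat.Agent.ES.RED.SumOrdSep15.finite_fibre_sep htb
  set Z : Finset (Place (ResidueField A) Fb) := V.biUnion fun a => (hfib a).toFinset with hZ
  have hmemZ : ∀ w : Place (ResidueField A) Fb, w ∈ Z ↔
      ∃ a ∈ V, 0 < w.ord (R.ρ t - algebraMap (ResidueField A) Fb a) := by
    intro w
    rw [hZ, Finset.mem_biUnion]
    exact exists_congr fun a => and_congr Iff.rfl (Set.Finite.mem_toFinset _)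
  have hTZ : T ⊆ Z := by
    intro v hv
    exact (hmemZ v).2 ⟨val v, Finset.mem_image_of_mem val hv, (hval v hv).1⟩
  have hZord : ∀ w ∈ Z, w.ord (R.ρ φ) = 1 := by
    intro w hw
    obtain ⟨a, ha, hpos⟩ := (hmemZ w).1 hw
    rw [hρφ]
    refine ord_prod_sub_eq_one w V hneb ha ?_
    have := hVunr a ha w
    omega
  have hZzero : ∀ w : Place (ResidueField A) Fb, 0 < w.ord (R.ρ φ) → w ∈ Z := by
    intro w hw
    rw [hρφ] at hw
    obtain ⟨a, ha, hpos⟩ := exists_ord_pos_of_ord_prod_pos w V _ hneb hw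
    exact (hmemZ w).2 ⟨a, ha, hpos⟩
  -- enumeration of `Z`, the places of `T` first
  set m : ℕ := (Z \ T).card with hm
  let eT : Fin g ≃ T := (T.equivFinOfCardEq hTcard).symm
  let eR : Fin m ≃ (Z \ T : Finset (Place (ResidueField A) Fb)) :=
    ((Z \ T).equivFinOfCardEq rfl).symm
  let PbT : Fin g → Place (ResidueField A) Fb := fun j => (eT j : Place (ResidueField A) Fb)
  let PbR : Fin m → Place (ResidueField A) Fb := fun j => (eR j : Place (ResidueField A) Fb)
  let Pb : Fin (g + m) → Place (ResidueField A) Fb := fun j => Sum.elim PbT PbR (finSumFinEquiv.symm j)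
  have hPbT : ∀ j, PbT j ∈ T := fun j => (eT j).2
  have hPbR : ∀ j, PbR j ∈ Z \ T := fun j => (eR j).2
  have hPbZ : ∀ j, Pb j ∈ Z := by
    intro j
    show Sum.elim PbT PbR (finSumFinEquiv.symm j) ∈ Z
    rcases finSumFinEquiv.symm j with i | i
    · exact hTZ (hPbT i)
    · exact (Finset.mem_sdiff.1 (hPbR i)).1
  have hPbsurj : ∀ w ∈ Z, ∃ j, w = Pb j := by
    intro w hw
    by_cases hwT : w ∈ T
    · refine ⟨finSumFinEquiv (Sum.inl (eT.symm ⟨w, hwT⟩)), ?_⟩
      show w = Sum.elim PbT PbR (finSumFinEquiv.symm (finSumFinEquiv _))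
      rw [Equiv.symm_apply_apply]
      show w = ((eT (eT.symm ⟨w, hwT⟩) : T) : Place (ResidueField A) Fb)
      rw [Equiv.apply_symm_apply]
    · have hwR : w ∈ Z \ T := Finset.mem_sdiff.2 ⟨hw, hwT⟩
      refine ⟨finSumFinEquiv (Sum.inr (eR.symm ⟨w, hwR⟩)), ?_⟩
      show w = Sum.elim PbT PbR (finSumFinEquiv.symm (finSumFinEquiv _))
      rw [Equiv.symm_apply_apply]
      show w = ((eR (eR.symm ⟨w, hwR⟩) : (Z \ T : Finset _)) : Place (ResidueField A) Fb)
      rw [Equiv.apply_symm_apply]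
  have hPbcast : ∀ j : Fin g, Pb (Fin.castLE (Nat.le_add_right g m) j) = PbT j := by
    intro j
    show Sum.elim PbT PbR (finSumFinEquiv.symm (Fin.castAdd m j)) = PbT j
    rw [finSumFinEquiv_symm_apply_castAdd]
    rfl
  refine ⟨m, φ, Pb, ?_, ?_, ?_, ?_, ?_, ?_, ?_, ?_⟩
  · have hinjE : Function.Injective (Sum.elim PbT PbR) := by
      refine Function.Injective.sumElim ?_ ?_ ?_
      · intro j j' h
        exact eT.injective (Subtype.ext h)
      · intro j j' h
        exact eR.injective (Subtype.ext h)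
      · intro j j' h
        have h1 := hPbT j
        have h2 := (Finset.mem_sdiff.1 (hPbR j')).2
        rw [h] at h1
        exact h2 h1
    exact hinjE.comp finSumFinEquiv.symm.injective
  · intro j
    exact hZord _ (hPbZ j)
  · intro j P hP
    obtain ⟨a, ha, hpos⟩ := (hmemZ _).1 (hPbZ j)
    have h2 : 0 ≤ (R.r P).ord (R.ρ t) := by
      rw [hP]
      exact ord_nonneg_of_ord_sub_pos _ hpos
    rw [hφF, ord_finset_prod P V _ hne]
    exact Finset.sum_nonneg fun a ha => ord_sub_nonneg P _ (hne a ha) (hreg P h2)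
  · rw [hρφ]
    exact Finset.prod_ne_zero_iff.2 hneb
  · have hsum : ∑ j : Fin g, Finsupp.single
        (Pb (Fin.castLE (Nat.le_add_right g m) j)) (1 : ℤ) = pts T := by
      unfold pts
      rw [← Finset.sum_coe_sort T]
      refine Fintype.sum_equiv eT _ _ fun j => ?_
      rw [hPbcast]
    rw [hsum, hTell]
  · intro σ
    rw [hφF, SemilinearAut.smul_def, map_prod]
    refine Finset.prod_congr rfl fun a _ => ?_
    rw [← SemilinearAut.smul_def]
    exact smul_sub_const R t γ hγt σ _ (hlift_inv a σ)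
  · intro P hP
    rw [hφF] at hP
    obtain ⟨a, ha, hpos⟩ := exists_ord_pos_of_ord_prod_pos P V _ hne hP
    have h1 := hzz (lift a) P hpos
    rw [hlift_res] at h1
    exact hPbsurj _ ((hmemZ _).2 ⟨a, ha, h1⟩)
  · intro Q hQ
    exact hPbsurj Q (hZzero Q hQ)

/-! ### the hypotheses `hreg`, `hzz` from the equality of the pole degrees of `t` and `t̄` -/

section FromDegree

open Fermat.Agent.RR.Riemann Fermat.Agent.FF.PolePres1

variable (ht0 : (t : F) ≠ 0) (htb0 : R.ρ t ≠ 0)
variable (hdeg : Divisor.degree (poleDiv HL ht0) = Divisor.degree (poleDiv HLb htb0))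

include hdeg in
/-- `hreg` from `deg (t)_∞ = deg (t̄)_∞`. -/
theorem hreg_of_hdeg (P : Place K F) (hP : 0 ≤ (R.r P).ord (R.ρ t)) : 0 ≤ P.ord (t : F) :=
  ord_nonneg_of_ord_nonneg HL HLb R.r ht0 htb0
    (fun Q => R.r_div t htb0 (divOf HL ht0) (divOf_apply HL ht0) Q) hdeg hP

include hdeg in
/-- `hzz` from `deg (t)_∞ = deg (t̄)_∞`. -/
theorem hzz_of_hdeg (htr : Transcendental (ResidueField A) (R.ρ t)) (c : A) (P : Place K F)
    (hP : 0 < P.ord ((t : F) - algebraMap K F (c : K))) :
    0 < (R.r P).ord (R.ρ t - algebraMap (ResidueField A) Fb (residue A c)) := by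
  have hyb : R.ρ t - algebraMap (ResidueField A) Fb (residue A c) ≠ 0 :=
    sub_algebraMap_ne_zero' htr _
  have hρ : R.ρ (t - R.const c) ≠ 0 := by rw [ρ_sub_const]; exact hyb
  have hy : (t : F) - algebraMap K F (c : K) ≠ 0 := R.coe_ne_zero_of_ρ_ne_zero hρ
  have hpush : ∀ Q, Finsupp.mapDomain R.r (divOf HL hy) Q =
      Q.ord (R.ρ t - algebraMap (ResidueField A) Fb (residue A c)) := by
    intro Q
    have := R.r_div (t - R.const c) hρ (divOf HL hy) (divOf_apply HL hy) Q
    rwa [ρ_sub_const] at this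
  have hdeg' : Divisor.degree (poleDiv HL hy) = Divisor.degree (poleDiv HLb hyb) := by
    rw [poleDiv_sub_const HL ht0 (c : K) hy, poleDiv_sub_const HLb htb0 _ hyb, hdeg]
  exact zero_of_zero HL HLb R.r hy hyb hpush hdeg' hP

include HL HLb hγr hγt htb hTL hdeg in
/-- **chapter G2a, full form, from the equality of the pole degrees of `t` and `t̄`.** -/
theorem exists_disc_data_of_hdeg (g : ℕ)
    (hRb : ∀ D : Divisor (ResidueField A) Fb, Divisor.degree D + 1 - (g : ℤ) ≤ ell D)
    {D₀ : Divisor (ResidueField A) Fb} (h0 : delta (g : ℤ) D₀ = 0) :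
    ∃ (m : ℕ) (φ : R.O) (Pb : Fin (g + m) → Place (ResidueField A) Fb),
      Function.Injective Pb ∧
      (∀ j, (Pb j).ord (R.ρ φ) = 1) ∧
      (∀ j P, R.r P = Pb j → 0 ≤ P.ord (φ : F)) ∧
      R.ρ φ ≠ 0 ∧
      ell (∑ j : Fin g, Finsupp.single (Pb (Fin.castLE (Nat.le_add_right g m) j)) (1 : ℤ)) ≤ 1 ∧
      (∀ σ : Γ, γ σ • (φ : F) = (φ : F)) ∧
      (∀ P : Place K F, 0 < P.ord (φ : F) → ∃ j, R.r P = Pb j) ∧
      (∀ Q : Place (ResidueField A) Fb, 0 < Q.ord (R.ρ φ) → ∃ j, Q = Pb j) :=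
  exists_disc_data_full R HL HLb t (hreg_of_hdeg R HL HLb t ht0 htb0 hdeg) γ hγr hγt htb hTL
    (hzz_of_hdeg R HL HLb t ht0 htb0 hdeg htb.transcendental) g hRb h0

include HL HLb hγr hγt htb hTL hdeg in
/-- **chapter G2b from the equality of the pole degrees of `t` and `t̄`.** -/
theorem exists_hlift_of_hdeg :
    ∃ Sbad : Finset (Place (ResidueField A) Fb), ∀ Qb : Place (ResidueField A) Fb, Qb ∉ Sbad →
      ∃ Q : Place K F, R.r Q = Qb ∧ ∀ σ : Γ, γ σ • Q = Q :=
  exists_hlift R HL HLb t (hreg_of_hdeg R HL HLb t ht0 htb0 hdeg) γ hγr hγt htb hTL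

end FromDegree

end Fermat.Agent.FF.ChooseData3
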