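/-
FF/GaussOv1A (helper1): the localisation of a subring `R` of a field `F` at the kernel of a ring
homomorphism `π : R →+* Fb` to a field, realised INSIDE `F`:

  `fracRing R π = {f ∈ F | ∃ a b ∈ R, π b ≠ 0, f * b = a}`,   `fracRed R π : fracRing R π →+* Fb`,
  `fracRed (a / b) = π a / π b`.

This is the abstract shape of the Gauss valuation ring `O_v` of the function field `F` of the
modular curve over a valuation ring `A` (`R = F ∩ A((q))`, `π` = coefficientwise reduction), used in
`GaussOv1B`.
-/
import Mathlib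

set_option autoImplicit false

namespace Fermat.Agent.FF.GaussOv1

section Abstract

variable {F : Type*} [Field F] (R : Subring F) {Fb : Type*} [Field Fb] (π : R →+* Fb)

/-- the localisation of `R` at the prime `ker π`, inside `F`. -/
def fracRing : Subring F where
  carrier := {f | ∃ a b : R, π b ≠ 0 ∧ f * (b : F) = (a : F)}
  mul_mem' := by
    rintro f g ⟨a, b, hb, h⟩ ⟨a', b', hb', h'⟩
    refine ⟨a * a', b * b', ?_, ?_⟩
    · rw [map_mul]; exact mul_ne_zero hb hb'
    · push_cast; rw [← h, ← h']; ring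
  one_mem' := ⟨1, 1, by rw [map_one]; exact one_ne_zero, by simp⟩
  add_mem' := by
    rintro f g ⟨a, b, hb, h⟩ ⟨a', b', hb', h'⟩
    refine ⟨a * b' + a' * b, b * b', ?_, ?_⟩
    · rw [map_mul]; exact mul_ne_zero hb hb'
    · push_cast; rw [← h, ← h']; ring
  zero_mem' := ⟨0, 1, by rw [map_one]; exact one_ne_zero, by simp⟩
  neg_mem' := by
    rintro f ⟨a, b, hb, h⟩
    exact ⟨-a, b, hb, by push_cast; rw [← h]; ring⟩

theorem mem_fracRing_iff {f : F} :
    f ∈ fracRing R π ↔ ∃ a b : R, π b ≠ 0 ∧ f * (b : F) = (a : F) := Iff.rfl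

theorem coe_ne_zero_of_map_ne_zero {b : R} (hb : π b ≠ 0) : (b : F) ≠ 0 := by
  intro h
  apply hb
  have : b = 0 := Subtype.ext h
  rw [this, map_zero]

/-- numerator of an element of `fracRing`. -/
noncomputable def num (f : fracRing R π) : R := f.2.choose

/-- denominator of an element of `fracRing`. -/
noncomputable def den (f : fracRing R π) : R := f.2.choose_spec.choose

theorem map_den_ne_zero (f : fracRing R π) : π (den R π f) ≠ 0 := f.2.choose_spec.choose_spec.1

theorem mul_den (f : fracRing R π) : (f : F) * (den R π f : F) = (num R π f : F) :=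
  f.2.choose_spec.choose_spec.2

/-- the reduction, as a function. -/
noncomputable def fracRedFun (f : fracRing R π) : Fb := π (num R π f) / π (den R π f)

theorem fracRedFun_eq (f : fracRing R π) (a b : R) (hb : π b ≠ 0) (h : (f : F) * (b : F) = (a : F)) :
    fracRedFun R π f = π a / π b := by
  unfold fracRedFun
  rw [div_eq_div_iff (map_den_ne_zero R π f) hb, ← map_mul, ← map_mul]
  congr 1
  apply Subtype.ext
  push_cast
  rw [← mul_den R π f, ← h]
  ring

/-- **the reduction** `fracRing R π →+* Fb`, `a / b ↦ π a / π b`. -/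
noncomputable def fracRed : fracRing R π →+* Fb where
  toFun := fracRedFun R π
  map_one' := by
    rw [fracRedFun_eq R π 1 1 1 (by rw [map_one]; exact one_ne_zero) (by simp), map_one, div_one]
  map_mul' f g := by
    rw [fracRedFun_eq R π (f * g) (num R π f * num R π g) (den R π f * den R π g)
      (by rw [map_mul]; exact mul_ne_zero (map_den_ne_zero R π f) (map_den_ne_zero R π g))
      (by push_cast; rw [← mul_den R π f, ← mul_den R π g]; ring)]
    rw [map_mul, map_mul, mul_div_mul_comm]
    rfl
  map_zero' := by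
    rw [fracRedFun_eq R π 0 0 1 (by rw [map_one]; exact one_ne_zero) (by simp), map_zero, zero_div]
  map_add' f g := by
    rw [fracRedFun_eq R π (f + g) (num R π f * den R π g + num R π g * den R π f)
      (den R π f * den R π g)
      (by rw [map_mul]; exact mul_ne_zero (map_den_ne_zero R π f) (map_den_ne_zero R π g))
      (by push_cast; rw [← mul_den R π f, ← mul_den R π g]; ring)]
    rw [map_add, map_mul, map_mul, map_mul]
    have h1 := map_den_ne_zero R π f
    have h2 := map_den_ne_zero R π g
    show _ = π (num R π f) / π (den R π f) + π (num R π g) / π (den R π g)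
    field_simp

theorem fracRed_eq (f : fracRing R π) (a b : R) (hb : π b ≠ 0) (h : (f : F) * (b : F) = (a : F)) :
    fracRed R π f = π a / π b := fracRedFun_eq R π f a b hb h

theorem fracRed_mul_eq (f : fracRing R π) (a b : R) (hb : π b ≠ 0)
    (h : (f : F) * (b : F) = (a : F)) : fracRed R π f * π b = π a := by
  rw [fracRed_eq R π f a b hb h, div_mul_cancel₀ _ hb]

/-- elements of `R` lie in `fracRing`. -/
theorem coe_mem_fracRing (a : R) : (a : F) ∈ fracRing R π :=
  ⟨a, 1, by rw [map_one]; exact one_ne_zero, by simp⟩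

/-- the inclusion `R → fracRing R π`. -/
def ofR : R →+* fracRing R π where
  toFun a := ⟨(a : F), coe_mem_fracRing R π a⟩
  map_one' := rfl
  map_mul' _ _ := rfl
  map_zero' := rfl
  map_add' _ _ := rfl

@[simp] theorem coe_ofR (a : R) : ((ofR R π a : fracRing R π) : F) = (a : F) := rfl

theorem fracRed_ofR (a : R) : fracRed R π (ofR R π a) = π a := by
  rw [fracRed_eq R π (ofR R π a) a 1 (by rw [map_one]; exact one_ne_zero) (by simp), map_one,
    div_one]

theorem fracRed_mk_coe (a : R) (h : (a : F) ∈ fracRing R π) : fracRed R π ⟨(a : F), h⟩ = π a :=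
  fracRed_ofR R π a

/-- quotients `a / b` with `π b ≠ 0` lie in `fracRing`. -/
theorem div_mem_fracRing (a b : R) (hb : π b ≠ 0) : (a : F) / (b : F) ∈ fracRing R π :=
  ⟨a, b, hb, div_mul_cancel₀ _ (coe_ne_zero_of_map_ne_zero R π hb)⟩

theorem fracRed_div (a b : R) (hb : π b ≠ 0) :
    fracRed R π ⟨(a : F) / (b : F), div_mem_fracRing R π a b hb⟩ = π a / π b :=
  fracRed_eq R π _ a b hb (div_mul_cancel₀ _ (coe_ne_zero_of_map_ne_zero R π hb))

/-- every element is a quotient, with the reduction computed by the quotient. -/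
theorem exists_num_den (f : fracRing R π) :
    ∃ a b : R, π b ≠ 0 ∧ (f : F) * (b : F) = (a : F) ∧ fracRed R π f = π a / π b :=
  ⟨num R π f, den R π f, map_den_ne_zero R π f, mul_den R π f, rfl⟩

/-- **`fracRing R π` is local with residue map `fracRed`**: elements of nonzero reduction are
invertible. -/
theorem inv_mem_fracRing (f : fracRing R π) (hf : fracRed R π f ≠ 0) :
    ((f : F))⁻¹ ∈ fracRing R π := by
  obtain ⟨a, b, hb, h, hρ⟩ := exists_num_den R π f
  have ha : π a ≠ 0 := by
    intro h0
    apply hf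
    rw [hρ, h0, zero_div]
  have ha0 := coe_ne_zero_of_map_ne_zero R π ha
  have hb0 := coe_ne_zero_of_map_ne_zero R π hb
  have hf0 : (f : F) ≠ 0 := by
    intro h0
    rw [h0, zero_mul] at h
    exact ha0 h.symm
  refine ⟨b, a, ha, ?_⟩
  rw [← h]
  field_simp

theorem fracRed_inv (f : fracRing R π) (hf : fracRed R π f ≠ 0) :
    fracRed R π ⟨((f : F))⁻¹, inv_mem_fracRing R π f hf⟩ = (fracRed R π f)⁻¹ := by
  have hf0 : (f : F) ≠ 0 := by
    intro h0
    apply hf
    have : f = 0 := Subtype.ext h0
    rw [this, map_zero]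
  have h1 : f * ⟨((f : F))⁻¹, inv_mem_fracRing R π f hf⟩ = 1 := by
    apply Subtype.ext
    show (f : F) * ((f : F))⁻¹ = 1
    exact mul_inv_cancel₀ hf0
  have h2 := congrArg (fracRed R π) h1
  rw [map_mul, map_one] at h2
  exact eq_inv_of_mul_eq_one_right h2

theorem isUnit_iff_fracRed_ne_zero (f : fracRing R π) : IsUnit f ↔ fracRed R π f ≠ 0 := by
  constructor
  · intro hu
    exact (hu.map (fracRed R π)).ne_zero
  · intro hf
    have hf0 : (f : F) ≠ 0 := by
      intro h0
      apply hf
      have : f = 0 := Subtype.ext h0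
      rw [this, map_zero]
    refine IsUnit.of_mul_eq_one (⟨((f : F))⁻¹, inv_mem_fracRing R π f hf⟩ : fracRing R π) ?_
    apply Subtype.ext
    show (f : F) * ((f : F))⁻¹ = 1
    exact mul_inv_cancel₀ hf0

/-- the kernel of the reduction: `f = a / b` with `π a = 0`. -/
theorem fracRed_eq_zero_iff (f : fracRing R π) :
    fracRed R π f = 0 ↔ ∃ a b : R, π b ≠ 0 ∧ π a = 0 ∧ (f : F) * (b : F) = (a : F) := by
  constructor
  · intro hf
    obtain ⟨a, b, hb, h, hρ⟩ := exists_num_den R π f
    refine ⟨a, b, hb, ?_, h⟩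
    rw [hρ, div_eq_zero_iff] at hf
    exact hf.resolve_right hb
  · rintro ⟨a, b, hb, ha, h⟩
    rw [fracRed_eq R π f a b hb h, ha, zero_div]

/-- surjectivity of the reduction from a fraction presentation of `Fb`. -/
theorem fracRed_surjective (hsurj : ∀ y : Fb, ∃ a b : R, π b ≠ 0 ∧ y * π b = π a) :
    Function.Surjective (fracRed R π) := by
  intro y
  obtain ⟨a, b, hb, h⟩ := hsurj y
  refine ⟨⟨(a : F) / (b : F), div_mem_fracRing R π a b hb⟩, ?_⟩
  rw [fracRed_div R π a b hb, ← h, mul_div_cancel_right₀ _ hb]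

end Abstract

end Fermat.Agent.FF.GaussOv1
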