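/-
FF/GaussOv1B (helper1): chapter G0(e) — the Gauss valuation ring `O_v` of
`F = Fbar M = modularFunctionFieldBar M` over a valuation ring `A` of `ℚ̄` above `ℓ ∤ M`.

  `Ov A M ℓ hA hℓM = {a / b | a, b ∈ F ∩ A((q)), red b ≠ 0} : Subring (Fbar M)`,
  `ρ A M ℓ hA hℓM : Ov →+* k·F̃_M`   (`k` = residue field of `A`),   `ρ (a / b) = red a / red b`.

Main facts (no level hypothesis unless stated):
* `const_mem`, `ρ_const` : constants of `A` lie in `Ov` and reduce to the residue class;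
* `exists_gauss_fraction`, `gauss` : every `f ≠ 0` of `F` is `c · u` with `c ∈ ℚ̄ˣ` and `u ∈ Ov`,
  `ρ u ≠ 0` (Gauss lemma);
* `inv_mem`, `mem_or_inv_mem`, `algebraMap_mem_iff` : `Ov` is a valuation ring of `F` above `A`, local
  with residue map `ρ`;
* `exists_eq_smul_of_ρ_eq_zero` : the kernel of `ρ` is `𝔪_A · Ov`;
* `push` : for any place reduction `r` (`IsPlaceReductionModL A M r`), `r_* div y = div (ρ y)` for ALL
  `y ∈ Ov` with `ρ y ≠ 0`;
* `ρ_surjective` : at a level with a Hauptmodul `(n, e)`, `ρ` is onto the special fibre field;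
* (`GaussOv1C.redCtxV` : the abstract place reduction context `DiscOfRedA.RedCtxV` of chapter G1.)
-/
import Mathlib
import Fermat.Agent.FF.GaussOv1A
import Fermat.Agent.ES.RED.FracRed16
import Fermat.Agent.ES.RED.RedMem16
import Fermat.Agent.ES.RED.PlaceValue13
import Fermat.Agent.RED.TOP.FbarFacts20

set_option autoImplicit false
set_option linter.unusedSectionVars false
set_option linter.style.haveILetI false
set_option synthInstance.maxHeartbeats 400000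

noncomputable section

namespace Fermat.Agent.FF.GaussOv1

open HahnSeries ModularCurve AlgebraicCurve IsLocalRing IntermediateField
open Fermat.Agent.RED.Interface4 Fermat.Agent.RED.DESC Fermat.Agent.RED.DESC.NumberFieldDVR27
open Fermat.Agent.RED.PUR.GaussGen8 Fermat.Agent.RED.PUR.KtGauss8
open Fermat.Agent.RED.PUR.GaussBridge10 Fermat.Agent.RED.PUR.GaussInst25
open Fermat.Agent.RED.PUR Fermat.Agent.IG.PR
open Fermat.Agent.ES.RED Fermat.Agent.ES.RED.GaussUnit25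

section Concrete

variable (A : ValuationSubring Qbar) (M : ℕ) [NeZero M] (ℓ : ℕ) [Fact ℓ.Prime]
  (hA : A.LiesOverPrime ℓ) (hℓM : ¬ ℓ ∣ M)

/-- reduction of integral functions, with values in the special fibre field. -/
def redFb : ↥(Setup8.gaussA A (Fbar M)) →+* ↥(modularFunctionFieldFullC (Setup8.kA A) M) :=
  (Setup8.redA A (Fbar M)).codRestrict (modularFunctionFieldFullC (Setup8.kA A) M)
    (fun f => RedMem16.redA_mem_fullC A ℓ hA hℓM f)

theorem coe_redFb (a : ↥(Setup8.gaussA A (Fbar M))) :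
    ((redFb A M ℓ hA hℓM a : ↥(modularFunctionFieldFullC (Setup8.kA A) M)) :
      LaurentSeries (Setup8.kA A)) = Setup8.redA A (Fbar M) a := rfl

theorem redFb_ne_zero_iff (a : ↥(Setup8.gaussA A (Fbar M))) :
    redFb A M ℓ hA hℓM a ≠ 0 ↔ Setup8.redA A (Fbar M) a ≠ 0 := by
  rw [Ne, Ne, ← coe_redFb A M ℓ hA hℓM a]
  exact not_congr ⟨fun h => by rw [h]; rfl, fun h => Subtype.ext h⟩

/-- **the Gauss valuation ring** of `Fbar M` over `A`. -/
def Ov : Subring ↥(Fbar M) := fracRing (Setup8.gaussA A (Fbar M)) (redFb A M ℓ hA hℓM)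

/-- **the reduction** `O_v → k·F̃_M`. -/
def ρ : ↥(Ov A M ℓ hA hℓM) →+* ↥(modularFunctionFieldFullC (Setup8.kA A) M) :=
  fracRed (Setup8.gaussA A (Fbar M)) (redFb A M ℓ hA hℓM)

/-! ### constants -/

theorem gaussA_mem_Ov (a : ↥(Setup8.gaussA A (Fbar M))) : (a : ↥(Fbar M)) ∈ Ov A M ℓ hA hℓM :=
  coe_mem_fracRing _ _ a

theorem ρ_gaussA (a : ↥(Setup8.gaussA A (Fbar M))) :
    ρ A M ℓ hA hℓM ⟨(a : ↥(Fbar M)), gaussA_mem_Ov A M ℓ hA hℓM a⟩ = redFb A M ℓ hA hℓM a :=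
  fracRed_mk_coe _ _ a _

theorem const_mem (a : ↥A) : algebraMap Qbar ↥(Fbar M) (a : Qbar) ∈ Ov A M ℓ hA hℓM :=
  gaussA_mem_Ov A M ℓ hA hℓM ⟨_, Setup8.algebraMap_mem_gaussA A (Fbar M) a⟩

theorem ρ_const (a : ↥A) :
    ρ A M ℓ hA hℓM ⟨algebraMap Qbar ↥(Fbar M) (a : Qbar), const_mem A M ℓ hA hℓM a⟩ =
      algebraMap (Setup8.kA A) ↥(modularFunctionFieldFullC (Setup8.kA A) M) (residue ↥A a) := by
  have h := ρ_gaussA A M ℓ hA hℓM ⟨_, Setup8.algebraMap_mem_gaussA A (Fbar M) a⟩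
  refine h.trans ?_
  apply Subtype.ext
  rw [coe_redFb, Setup8.redA_algebraMap]
  rfl

/-! ### the Gauss lemma -/

include hA in
/-- **Gauss lemma over `A`**: every nonzero `f ∈ Fbar M` is `c · a / b` with `c ∈ ℚ̄ˣ` and
`a, b ∈ F ∩ A((q))` of nonzero reduction. -/
theorem exists_gauss_fraction (f : ↥(Fbar M)) (hf0 : f ≠ 0) :
    ∃ (c : Qbar) (a b : ↥(Setup8.gaussA A (Fbar M))), c ≠ 0 ∧
      Setup8.redA A (Fbar M) a ≠ 0 ∧ Setup8.redA A (Fbar M) b ≠ 0 ∧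
      f * (b : ↥(Fbar M)) = algebraMap Qbar ↥(Fbar M) c * (a : ↥(Fbar M)) := by
  haveI := isAlgebraic_Qbar
  obtain ⟨K, -, hfin, x', hx', hx'f⟩ :=
    CoeffDescent1.exists_finite_descent (L := Qbar) (F₀ := modularFunctionFieldFull M) ⊥ f.2
  haveI := hfin
  haveI : IsDiscreteValuationRing ↥(AK A K) :=
    isDiscreteValuationRing_AK A K (Fact.out : ℓ.Prime).ne_zero hA
  obtain ⟨π, hπ⟩ := IsDiscreteValuationRing.exists_irreducible ↥(AK A K)
  have hu := isUnif_of_irreducible (AK A K) hπ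
  have hx'C : x' ∈ modularFunctionFieldFullC ↥K M := by
    rw [← DegBaseChange25.laurentBaseChange_full_eq]; exact hx'
  have hx'0 : x' ≠ 0 := by
    rintro rfl
    rw [map_zero] at hx'f
    exact hf0 (Subtype.ext hx'f.symm)
  obtain ⟨c, a, b, hc0, haE, hbE, hared, hbred, hrel⟩ := exists_integral_fraction hu M hx'C hx'0
  have hmemQ : ∀ z : LaurentSeries ↥(AK A K), embK (AK A K) z ∈ modularFunctionFieldFullC ↥K M →
      coeffMap A.subtype (coeffMap (incl A K) z) ∈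
        laurentBaseChange Qbar (modularFunctionFieldFull M) := by
    intro z hz
    rw [coeffMap_subtype_incl]
    refine CoeffDescent1.coeffMap_mem_laurentBaseChange_of_algHom (algebraMap K Qbar)
      (modularFunctionFieldFull M) ?_
    rw [DegBaseChange25.laurentBaseChange_full_eq]; exact hz
  have hred : ∀ (z : LaurentSeries ↥(AK A K)) (hz : embK (AK A K) z ∈ modularFunctionFieldFullC ↥K M),
      redL (AK A K) z ≠ 0 →
      Setup8.redA A (Fbar M) (Setup8.ofSeries A (Fbar M) (coeffMap (incl A K) z) (hmemQ z hz)) ≠ 0 := by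
    intro z hz hzred
    rw [Setup8.redA_ofSeries]
    show coeffMap (IsLocalRing.residue ↥A) (coeffMap (incl A K) z) ≠ 0
    rw [coeffMap_residue_incl]
    intro h
    apply hzred
    exact CoeffDescent1.coeffMap_injective_of_injective (resMap A K) (resMap_injective A K)
      (h.trans (map_zero _).symm)
  refine ⟨algebraMap K Qbar c, Setup8.ofSeries A (Fbar M) _ (hmemQ a haE),
    Setup8.ofSeries A (Fbar M) _ (hmemQ b hbE), ?_, hred a haE hared, hred b hbE hbred, ?_⟩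
  · rw [Ne, map_eq_zero]; exact hc0
  · apply Subtype.ext
    show (f : LaurentSeries Qbar) * coeffMap A.subtype (coeffMap (incl A K) b) =
      algebraMap Qbar (LaurentSeries Qbar) (algebraMap K Qbar c) *
        coeffMap A.subtype (coeffMap (incl A K) a)
    rw [coeffMap_subtype_incl, coeffMap_subtype_incl, ← hx'f, ← map_mul, hrel, map_mul,
      GaussGen8.coeffMap_C, algebraMap_eq_C (K := Qbar)]

/-- **Gauss property**: every nonzero `f` is a constant times an element of `Ov` of nonzero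
reduction. -/
theorem gauss (f : ↥(Fbar M)) (hf0 : f ≠ 0) :
    ∃ c : Qbar, c ≠ 0 ∧ ∃ h : algebraMap Qbar ↥(Fbar M) c * f ∈ Ov A M ℓ hA hℓM,
      ρ A M ℓ hA hℓM ⟨_, h⟩ ≠ 0 := by
  obtain ⟨c, a, b, hc0, ha, hb, hrel⟩ := exists_gauss_fraction A M ℓ hA f hf0
  have ha' := (redFb_ne_zero_iff A M ℓ hA hℓM a).2 ha
  have hb' := (redFb_ne_zero_iff A M ℓ hA hℓM b).2 hb
  have hcF : algebraMap Qbar ↥(Fbar M) c ≠ 0 := by rw [Ne, map_eq_zero]; exact hc0
  have hrel' : (algebraMap Qbar ↥(Fbar M) c⁻¹ * f) * (b : ↥(Fbar M)) = (a : ↥(Fbar M)) := by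
    rw [mul_assoc, hrel, ← mul_assoc, ← map_mul, inv_mul_cancel₀ hc0, map_one, one_mul]
  have hmem : algebraMap Qbar ↥(Fbar M) c⁻¹ * f ∈ Ov A M ℓ hA hℓM := ⟨a, b, hb', hrel'⟩
  refine ⟨c⁻¹, inv_ne_zero hc0, hmem, ?_⟩
  show fracRed _ _ ⟨_, hmem⟩ ≠ 0
  rw [fracRed_eq _ _ ⟨_, hmem⟩ a b hb' hrel']
  exact div_ne_zero ha' hb'

/-! ### `Ov` is a valuation ring above `A`, local with residue map `ρ` -/

theorem inv_mem (y : ↥(Ov A M ℓ hA hℓM)) (hy : ρ A M ℓ hA hℓM y ≠ 0) :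
    ((y : ↥(Fbar M)))⁻¹ ∈ Ov A M ℓ hA hℓM :=
  inv_mem_fracRing _ _ y hy

theorem ρ_inv (y : ↥(Ov A M ℓ hA hℓM)) (hy : ρ A M ℓ hA hℓM y ≠ 0) :
    ρ A M ℓ hA hℓM ⟨((y : ↥(Fbar M)))⁻¹, inv_mem A M ℓ hA hℓM y hy⟩ = (ρ A M ℓ hA hℓM y)⁻¹ :=
  fracRed_inv _ _ y hy

theorem isUnit_iff (y : ↥(Ov A M ℓ hA hℓM)) : IsUnit y ↔ ρ A M ℓ hA hℓM y ≠ 0 :=
  isUnit_iff_fracRed_ne_zero _ _ y

theorem coe_ne_zero_of_ρ_ne_zero {y : ↥(Ov A M ℓ hA hℓM)} (hy : ρ A M ℓ hA hℓM y ≠ 0) :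
    (y : ↥(Fbar M)) ≠ 0 := by
  intro h
  apply hy
  have : y = 0 := Subtype.ext h
  rw [this, map_zero]

/-- scaling by a constant of `A`. -/
theorem smul_mem (a : ↥A) {f : ↥(Fbar M)} (hf : f ∈ Ov A M ℓ hA hℓM) :
    algebraMap Qbar ↥(Fbar M) (a : Qbar) * f ∈ Ov A M ℓ hA hℓM :=
  (Ov A M ℓ hA hℓM).mul_mem (const_mem A M ℓ hA hℓM a) hf

theorem ρ_smul (a : ↥A) (y : ↥(Ov A M ℓ hA hℓM)) :
    ρ A M ℓ hA hℓM ⟨algebraMap Qbar ↥(Fbar M) (a : Qbar) * (y : ↥(Fbar M)),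
        smul_mem A M ℓ hA hℓM a y.2⟩ =
      algebraMap (Setup8.kA A) ↥(modularFunctionFieldFullC (Setup8.kA A) M) (residue ↥A a) *
        ρ A M ℓ hA hℓM y := by
  rw [← ρ_const A M ℓ hA hℓM a, ← map_mul]
  rfl

/-- **`Ov` is a valuation ring of `Fbar M`.** -/
theorem mem_or_inv_mem (f : ↥(Fbar M)) : f ∈ Ov A M ℓ hA hℓM ∨ f⁻¹ ∈ Ov A M ℓ hA hℓM := by
  by_cases hf0 : f = 0
  · left; rw [hf0]; exact (Ov A M ℓ hA hℓM).zero_mem
  obtain ⟨c, hc0, hmem, hρ⟩ := gauss A M ℓ hA hℓM f hf0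
  have hcF : algebraMap Qbar ↥(Fbar M) c ≠ 0 := by rw [Ne, map_eq_zero]; exact hc0
  rcases A.mem_or_inv_mem c with hc | hc
  · -- `f⁻¹ = c * (c f)⁻¹`
    right
    have h1 := inv_mem A M ℓ hA hℓM ⟨_, hmem⟩ hρ
    have h2 := smul_mem A M ℓ hA hℓM ⟨c, hc⟩ h1
    have h3 : algebraMap Qbar ↥(Fbar M) c * (algebraMap Qbar ↥(Fbar M) c * f)⁻¹ = f⁻¹ := by
      field_simp
    rw [← h3]
    exact h2
  · -- `f = c⁻¹ * (c f)`
    left
    have h2 := smul_mem A M ℓ hA hℓM ⟨c⁻¹, hc⟩ hmem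
    have h3 : algebraMap Qbar ↥(Fbar M) c⁻¹ * (algebraMap Qbar ↥(Fbar M) c * f) = f := by
      rw [← mul_assoc, ← map_mul, inv_mul_cancel₀ hc0, map_one, one_mul]
    rw [← h3]
    exact h2

/-- the constants of `Ov` are exactly `A`. -/
theorem algebraMap_mem_iff (c : Qbar) :
    algebraMap Qbar ↥(Fbar M) c ∈ Ov A M ℓ hA hℓM ↔ c ∈ A := by
  constructor
  · intro hc
    by_contra hcA
    have hinv : c⁻¹ ∈ A := (A.mem_or_inv_mem c).resolve_left hcA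
    have hc0 : c ≠ 0 := fun h => hcA (h ▸ A.zero_mem)
    have hnu : (⟨c⁻¹, hinv⟩ : ↥A) ∈ maximalIdeal ↥A := by
      rw [mem_maximalIdeal, mem_nonunits_iff]
      intro hu
      apply hcA
      obtain ⟨v, hv⟩ := hu.exists_right_inv
      have hv' : c⁻¹ * (v : Qbar) = 1 := by
        have := congrArg Subtype.val hv
        simpa using this
      have : (v : Qbar) = c := by
        field_simp at hv'
        exact hv'
      rw [← this]; exact v.2
    have h1 : (⟨algebraMap Qbar ↥(Fbar M) ((⟨c⁻¹, hinv⟩ : ↥A) : Qbar),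
        const_mem A M ℓ hA hℓM ⟨c⁻¹, hinv⟩⟩ : ↥(Ov A M ℓ hA hℓM)) * ⟨_, hc⟩ = 1 := by
      apply Subtype.ext
      show algebraMap Qbar ↥(Fbar M) c⁻¹ * algebraMap Qbar ↥(Fbar M) c = 1
      rw [← map_mul, inv_mul_cancel₀ hc0, map_one]
    have h2 := congrArg (ρ A M ℓ hA hℓM) h1
    rw [map_mul, map_one, ρ_const, (residue_eq_zero_iff _).2 hnu, map_zero, zero_mul] at h2
    exact zero_ne_one h2
  · intro hc
    exact const_mem A M ℓ hA hℓM ⟨c, hc⟩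

/-- **the kernel of `ρ` is `𝔪_A · Ov`**: a nonzero element of zero reduction is a constant of `𝔪_A`
times an element of nonzero reduction. -/
theorem exists_eq_smul_of_ρ_eq_zero (y : ↥(Ov A M ℓ hA hℓM)) (hy0 : (y : ↥(Fbar M)) ≠ 0)
    (hy : ρ A M ℓ hA hℓM y = 0) :
    ∃ (c : ↥A) (y₁ : ↥(Ov A M ℓ hA hℓM)), c ∈ maximalIdeal ↥A ∧ (c : Qbar) ≠ 0 ∧
      ρ A M ℓ hA hℓM y₁ ≠ 0 ∧
      (y : ↥(Fbar M)) = algebraMap Qbar ↥(Fbar M) (c : Qbar) * (y₁ : ↥(Fbar M)) := by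
  obtain ⟨d, hd0, hmem, hρ⟩ := gauss A M ℓ hA hℓM (y : ↥(Fbar M)) hy0
  -- `y = d⁻¹ * (d y)`; show `d⁻¹ ∈ 𝔪_A`
  have hrel : (y : ↥(Fbar M)) =
      algebraMap Qbar ↥(Fbar M) d⁻¹ * (algebraMap Qbar ↥(Fbar M) d * (y : ↥(Fbar M))) := by
    rw [← mul_assoc, ← map_mul, inv_mul_cancel₀ hd0, map_one, one_mul]
  have hdA : d⁻¹ ∈ A := by
    by_contra hdA
    have hd : d ∈ A := by
      have := (A.mem_or_inv_mem d⁻¹).resolve_left hdA
      rwa [inv_inv] at this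
    -- then `d ∈ 𝔪_A`?  no: `d⁻¹ ∉ A` means `d ∈ 𝔪_A`, so `ρ (d y) = 0`
    have hdm : (⟨d, hd⟩ : ↥A) ∈ maximalIdeal ↥A := by
      rw [mem_maximalIdeal, mem_nonunits_iff]
      intro hu
      apply hdA
      obtain ⟨v, hv⟩ := hu.exists_right_inv
      have hv' : d * (v : Qbar) = 1 := by
        have := congrArg Subtype.val hv
        simpa using this
      have : (v : Qbar) = d⁻¹ := eq_inv_of_mul_eq_one_right hv'
      rw [← this]; exact v.2
    apply hρ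
    have := ρ_smul A M ℓ hA hℓM ⟨d, hd⟩ y
    rw [(residue_eq_zero_iff _).2 hdm, map_zero, zero_mul] at this
    exact this
  refine ⟨⟨d⁻¹, hdA⟩, ⟨_, hmem⟩, ?_, inv_ne_zero hd0, hρ, hrel⟩
  rw [mem_maximalIdeal, mem_nonunits_iff]
  intro hu
  -- `d⁻¹` a unit of `A`: then `ρ y = res(d⁻¹) * ρ (d y) ≠ 0`
  have h1 := ρ_smul A M ℓ hA hℓM ⟨d⁻¹, hdA⟩ ⟨_, hmem⟩
  have h2 : (⟨algebraMap Qbar ↥(Fbar M) ((⟨d⁻¹, hdA⟩ : ↥A) : Qbar) *
      ((⟨_, hmem⟩ : ↥(Ov A M ℓ hA hℓM)) : ↥(Fbar M)), smul_mem A M ℓ hA hℓM ⟨d⁻¹, hdA⟩ hmem⟩ :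
        ↥(Ov A M ℓ hA hℓM)) = y := Subtype.ext hrel.symm
  rw [h2, hy] at h1
  have h3 : residue ↥A (⟨d⁻¹, hdA⟩ : ↥A) ≠ 0 := by
    rw [Ne, residue_eq_zero_iff, mem_maximalIdeal, mem_nonunits_iff, not_not]; exact hu
  rcases mul_eq_zero.1 h1.symm with h | h
  · rw [map_eq_zero] at h; exact h3 h
  · exact hρ h

/-! ### divisors and the push-forward formula -/

theorem exists_div (f : ↥(Fbar M)) (hf : f ≠ 0) :
    ∃ D : Divisor Qbar ↥(Fbar M), ∀ P, D P = P.ord f := by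
  obtain ⟨D, hD, -⟩ := Fermat.Agent.RED.TOP.FbarFacts20.exists_divisor_bar M hf
  exact ⟨D, hD⟩

/-- the push-forward formula for integral functions, in `gaussA / redFb` form. -/
theorem push_gaussA
    (r : Place Qbar ↥(Fbar M) → Place (Setup8.kA A) ↥(modularFunctionFieldFullC (Setup8.kA A) M))
    (hr : IsPlaceReductionModL A M r) (a : ↥(Setup8.gaussA A (Fbar M)))
    (ha : redFb A M ℓ hA hℓM a ≠ 0) (D : Divisor Qbar ↥(Fbar M))
    (hD : ∀ P, D P = P.ord (a : ↥(Fbar M))) (Q) :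
    Finsupp.mapDomain r D Q = Q.ord (redFb A M ℓ hA hℓM a) := by
  have hY := Setup8.coeffMap_liftA A (Fbar M) a
  have hmem : coeffMap A.subtype (Setup8.liftA A (Fbar M) a) ∈
      laurentBaseChange Qbar (modularFunctionFieldFull M) := by
    rw [hY]; exact (a : ↥(Fbar M)).2
  have hk : coeffMap (residue ↥A) (Setup8.liftA A (Fbar M) a) ∈
      modularFunctionFieldFullC (Setup8.kA A) M := (redFb A M ℓ hA hℓM a).2
  have hne : coeffMap (residue ↥A) (Setup8.liftA A (Fbar M) a) ≠ 0 :=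
    (redFb_ne_zero_iff A M ℓ hA hℓM a).1 ha
  have heq : (⟨coeffMap A.subtype (Setup8.liftA A (Fbar M) a), hmem⟩ :
      ↥(laurentBaseChange Qbar (modularFunctionFieldFull M))) = (a : ↥(Fbar M)) :=
    Subtype.ext hY
  have := hr.2 (Setup8.liftA A (Fbar M) a) hmem hk hne D (fun P => by rw [hD P, heq]) Q
  exact this

/-- **push-forward formula on all of `Ov`**: `r_* div y = div (ρ y)`. -/
theorem push
    (r : Place Qbar ↥(Fbar M) → Place (Setup8.kA A) ↥(modularFunctionFieldFullC (Setup8.kA A) M))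
    (hr : IsPlaceReductionModL A M r) (y : ↥(Ov A M ℓ hA hℓM)) (hy : ρ A M ℓ hA hℓM y ≠ 0)
    (D : Divisor Qbar ↥(Fbar M)) (hD : ∀ P, D P = P.ord (y : ↥(Fbar M))) (Q) :
    Finsupp.mapDomain r D Q = Q.ord (ρ A M ℓ hA hℓM y) := by
  obtain ⟨a, b, hb, h, hρ⟩ := exists_num_den _ _ y
  have ha : redFb A M ℓ hA hℓM a ≠ 0 := by
    intro h0
    apply hy
    show fracRed _ _ y = 0
    rw [hρ, h0, zero_div]
  have ha0 : (a : ↥(Fbar M)) ≠ 0 := coe_ne_zero_of_map_ne_zero _ _ ha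
  have hb0 : (b : ↥(Fbar M)) ≠ 0 := coe_ne_zero_of_map_ne_zero _ _ hb
  have hy0 : (y : ↥(Fbar M)) ≠ 0 := coe_ne_zero_of_ρ_ne_zero A M ℓ hA hℓM hy
  obtain ⟨Da, hDa⟩ := exists_div M (a : ↥(Fbar M)) ha0
  obtain ⟨Db, hDb⟩ := exists_div M (b : ↥(Fbar M)) hb0
  have hDeq : D = Da - Db := by
    ext P
    rw [Finsupp.sub_apply, hD P, hDa P, hDb P]
    have h1 := congrArg P.ord h
    rw [P.ord_mul hy0 hb0] at h1
    omega
  have h1 := push_gaussA A M ℓ hA hℓM r hr a ha Da hDa Q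
  have h2 := push_gaussA A M ℓ hA hℓM r hr b hb Db hDb Q
  have h3 : ρ A M ℓ hA hℓM y * redFb A M ℓ hA hℓM b = redFb A M ℓ hA hℓM a :=
    fracRed_mul_eq _ _ y a b hb h
  have h4 := congrArg Q.ord h3
  rw [Q.ord_mul hy hb] at h4
  rw [hDeq, Finsupp.mapDomain_sub, Finsupp.sub_apply, h1, h2]
  omega

/-! ### surjectivity of `ρ` (levels with a Hauptmodul) -/

theorem ρ_surjective (n e : ℕ) [NeZero n]
    (hmem : Fermat.Agent.RED.BASE.Interface12.TMem n e M)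
    (hgen : Fermat.Agent.RED.BASE.Interface12.TGenBase n e) :
    Function.Surjective (ρ A M ℓ hA hℓM) := by
  apply fracRed_surjective
  intro y
  obtain ⟨⟨a, b, -, -, hb, hab⟩, -⟩ := FracRed16.exists_frac_redA A n e ℓ hℓM hmem hgen hA y.2
  refine ⟨a, b, (redFb_ne_zero_iff A M ℓ hA hℓM b).2 hb, ?_⟩
  apply Subtype.ext
  exact hab

end Concrete

end Fermat.Agent.FF.GaussOv1
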