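/-
FF/GaussOv1C (helper1): chapter G0(e), packaging — the abstract place-reduction context
`DiscOfRedA.RedCtxV` (chapter G1) for `F = Fbar M` over `A`, from ANY place reduction `r`
satisfying the Prelude's `IsPlaceReductionModL A M r`:

  `redCtxV A M ℓ hA hℓM r hr : RedCtxV A ↥(Fbar M) (kA A) ↥(modularFunctionFieldFullC (kA A) M)`

with `O = GaussOv1.Ov`, `ρ = GaussOv1.ρ`, values `val Q = PlaceValue13.valueRingHom (isGen_j M) Q`.
(Consumers need `set_option synthInstance.maxHeartbeats 400000` for the instance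
`Algebra (kA A) ↥(modularFunctionFieldFullC (kA A) M)`, as in the Prelude.)
-/
import Mathlib
import Fermat.Agent.FF.GaussOv1B
import Fermat.Agent.FF.DiscOfRedA

set_option autoImplicit false
set_option linter.unusedSectionVars false
set_option synthInstance.maxHeartbeats 400000

noncomputable section

namespace Fermat.Agent.FF.GaussOv1

open HahnSeries ModularCurve AlgebraicCurve IsLocalRing IntermediateField
open Fermat.Agent.RED.Interface4 Fermat.Agent.ES.RED
open Fermat.Agent.FF.UniqueZeroA Fermat.Agent.FF.DiscOfRedA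

variable (A : ValuationSubring Qbar) (M : ℕ) [NeZero M] (ℓ : ℕ) [Fact ℓ.Prime]
  (hA : A.LiesOverPrime ℓ) (hℓM : ¬ ℓ ∣ M)

/-- values of functions at the places of `Fbar M`. -/
def valQ (Q : Place Qbar ↥(Fbar M)) : Q.toValuationSubring →+* Qbar :=
  PlaceValue13.valueRingHom (Fermat.Agent.RED.TOP.FbarFacts20.isGen_j M) Q

theorem valQ_algebraMap (Q : Place Qbar ↥(Fbar M)) (a : Qbar) :
    valQ M Q ⟨algebraMap Qbar ↥(Fbar M) a, Q.algebraMap_mem' a⟩ = a :=
  PlaceValue13.valueRingHom_algebraMap (Fermat.Agent.RED.TOP.FbarFacts20.isGen_j M) Q a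

theorem valQ_eq_zero (Q : Place Qbar ↥(Fbar M)) (f : Q.toValuationSubring)
    (h : valQ M Q f = 0) : (f : ↥(Fbar M)) = 0 ∨ 0 < Q.ord (f : ↥(Fbar M)) :=
  (PlaceValue13.valueHom_eq_zero_iff_ord (Fermat.Agent.RED.TOP.FbarFacts20.isGen_j M) Q f).1 h

theorem exists_value (Q : Place Qbar ↥(Fbar M)) (f : ↥(Fbar M)) (hf : 0 ≤ Q.ord f) :
    ∃ a : Qbar, f - algebraMap Qbar ↥(Fbar M) a = 0 ∨
      0 < Q.ord (f - algebraMap Qbar ↥(Fbar M) a) := by
  have hmem : f ∈ Q.toValuationSubring :=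
    (Fermat.Agent.X0.FF.mem_iff_ord_nonneg Q).2 (Or.inr hf)
  refine ⟨PlaceValue13.valueHom (Fermat.Agent.RED.TOP.FbarFacts20.isGen_j M) Q ⟨f, hmem⟩, ?_⟩
  have := (PlaceValue13.valueHom_eq_iff (Fermat.Agent.RED.TOP.FbarFacts20.isGen_j M) Q ⟨f, hmem⟩
    _).1 rfl
  rcases this with h | h
  · left; rw [sub_eq_zero]; exact h
  · right; exact h

/-- **the abstract place-reduction context of chapter G1**, for `Fbar M` over `A`. -/
def redCtx
    (r : Place Qbar ↥(Fbar M) → Place (Setup8.kA A) ↥(modularFunctionFieldFullC (Setup8.kA A) M))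
    (hr : IsPlaceReductionModL A M r) :
    RedCtx A ↥(Fbar M) (Setup8.kA A) ↥(modularFunctionFieldFullC (Setup8.kA A) M) where
  O := Ov A M ℓ hA hℓM
  ρ := ρ A M ℓ hA hℓM
  r := r
  const_mem := const_mem A M ℓ hA hℓM
  ρ_const_max a ha := by
    rw [ρ_const, (residue_eq_zero_iff _).2 ha, map_zero]
  ρ_const_unit a ha := by
    refine ⟨residue ↥A a, ?_, ρ_const A M ℓ hA hℓM a⟩
    rw [Ne, residue_eq_zero_iff, mem_maximalIdeal, mem_nonunits_iff, not_not]
    exact ha
  exists_div := exists_div M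
  push := push A M ℓ hA hℓM r hr
  exists_value := exists_value M

/-- **the abstract place-reduction context with values** (`DiscOfRedA.RedCtxV`). -/
def redCtxV
    (r : Place Qbar ↥(Fbar M) → Place (Setup8.kA A) ↥(modularFunctionFieldFullC (Setup8.kA A) M))
    (hr : IsPlaceReductionModL A M r) :
    RedCtxV A ↥(Fbar M) (Setup8.kA A) ↥(modularFunctionFieldFullC (Setup8.kA A) M) where
  toRedCtx := redCtx A M ℓ hA hℓM r hr
  inv_mem := inv_mem A M ℓ hA hℓM
  gauss := gauss A M ℓ hA hℓM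
  val := valQ M
  val_algebraMap := valQ_algebraMap M
  val_eq_zero := valQ_eq_zero M

@[simp] theorem redCtxV_O
    (r : Place Qbar ↥(Fbar M) → Place (Setup8.kA A) ↥(modularFunctionFieldFullC (Setup8.kA A) M))
    (hr : IsPlaceReductionModL A M r) :
    (redCtxV A M ℓ hA hℓM r hr).O = Ov A M ℓ hA hℓM := rfl

@[simp] theorem redCtxV_ρ
    (r : Place Qbar ↥(Fbar M) → Place (Setup8.kA A) ↥(modularFunctionFieldFullC (Setup8.kA A) M))
    (hr : IsPlaceReductionModL A M r) :
    (redCtxV A M ℓ hA hℓM r hr).ρ = ρ A M ℓ hA hℓM := rfl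

@[simp] theorem redCtxV_r
    (r : Place Qbar ↥(Fbar M) → Place (Setup8.kA A) ↥(modularFunctionFieldFullC (Setup8.kA A) M))
    (hr : IsPlaceReductionModL A M r) :
    (redCtxV A M ℓ hA hℓM r hr).r = r := rfl

end Fermat.Agent.FF.GaussOv1
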