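/-
Programme FF (S19), chapter G3a / G6b (helper2): ABSTRACT REDUCTION of a function field, part A.

Setting: `K` a field with a valuation subring `A`, residue field `κ = ResidueField A`;
`F / K` and `Fb / κ` function fields (Prelude `AlgebraicCurve.Place`), a "Gauss ring" `O ⊆ F` with a
reduction `ρ : O →+* Fb`, and a map `r` on places such that `r_* (div y) = div (ρ y)` for every
`y ∈ O` with `ρ y ≠ 0` (this is the Prelude's `IsPlaceReductionAlong`, abstractly).

This file: the structure `AbsRed`, elementary consequences (`O ∩ K = A`, units of `O`), the value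
map `valueAt` of a place under `LSpace.LHyp`, and the push-forward of divisors.
-/
import Mathlib
import Fermat.Agent.RR.LSpace
import Fermat.Agent.X0.FFDict

set_option autoImplicit false

open AlgebraicCurve IsLocalRing

namespace Fermat.Agent.FF.RedLat2

open Fermat.Agent.X0.FF Fermat.Agent.RR.LSpace

/-! ### the value of a function at a place -/

section Value

variable {K F : Type*} [Field K] [Field F] [Algebra K F]

theorem residue_algebraMap_surjective (H : LHyp K F) (v : Place K F) :
    Function.Surjective (algebraMap K v.ResidueField) := by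
  intro x
  obtain ⟨f, rfl⟩ := IsLocalRing.residue_surjective x
  obtain ⟨c, hc⟩ := H.residue v (f : F) f.2
  refine ⟨c, ?_⟩
  have hmem : f - algebraMap K v.toValuationSubring c ∈ maximalIdeal v.toValuationSubring := by
    rw [mem_maximalIdeal_iff]
    rcases hc with hc | hc
    · left
      apply Subtype.ext
      simp [hc]
    · right
      simpa using hc
  have h0 := (IsLocalRing.residue_eq_zero_iff _).2 hmem
  rw [map_sub, sub_eq_zero] at h0
  exact h0.symm

/-- `K ≃ κ(v)` under `LHyp`. -/
noncomputable def resEquiv (H : LHyp K F) (v : Place K F) : K ≃+* v.ResidueField :=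
  RingEquiv.ofBijective (algebraMap K v.ResidueField)
    ⟨(algebraMap K v.ResidueField).injective, residue_algebraMap_surjective H v⟩

/-- the value map `f ↦ f(v)` on the valuation ring of a place. -/
noncomputable def valueAt (H : LHyp K F) (v : Place K F) : v.toValuationSubring →+* K :=
  ((resEquiv H v).symm : v.ResidueField →+* K).comp (residue v.toValuationSubring)

theorem valueAt_algebraMap (H : LHyp K F) (v : Place K F) (c : K) :
    valueAt H v (algebraMap K v.toValuationSubring c) = c := by
  show (resEquiv H v).symm (resEquiv H v c) = c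
  exact RingEquiv.symm_apply_apply _ _

theorem algebraMap_valueAt (H : LHyp K F) (v : Place K F) (f : v.toValuationSubring) :
    algebraMap K v.ResidueField (valueAt H v f) = residue v.toValuationSubring f :=
  (resEquiv H v).apply_symm_apply _

theorem valueAt_eq_iff_sub_mem (H : LHyp K F) (v : Place K F) (f : v.toValuationSubring) (c : K) :
    valueAt H v f = c ↔
      f - algebraMap K v.toValuationSubring c ∈ maximalIdeal v.toValuationSubring := by
  rw [← IsLocalRing.residue_eq_zero_iff, map_sub, sub_eq_zero, ← algebraMap_valueAt H v f]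
  constructor
  · intro h
    rw [h]
    rfl
  · intro h
    exact (algebraMap K v.ResidueField).injective h

/-- **characterisation of the value**: `f(v) = c ↔ f = c ∨ 0 < ord_v (f - c)`. -/
theorem valueAt_eq_iff (H : LHyp K F) (v : Place K F) (f : v.toValuationSubring) (c : K) :
    valueAt H v f = c ↔
      ((f : F) = algebraMap K F c ∨ 0 < v.ord ((f : F) - algebraMap K F c)) := by
  rw [valueAt_eq_iff_sub_mem, mem_maximalIdeal_iff]
  constructor
  · rintro (h | h)
    · left
      have := congrArg (Subtype.val) h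
      simpa [sub_eq_zero] using this
    · right; simpa using h
  · rintro (h | h)
    · left
      apply Subtype.ext
      simp [h]
    · right; simpa using h

theorem valueAt_eq_zero_iff (H : LHyp K F) (v : Place K F) (f : v.toValuationSubring) :
    valueAt H v f = 0 ↔ ((f : F) = 0 ∨ 0 < v.ord (f : F)) := by
  rw [valueAt_eq_iff, map_zero, sub_zero]

/-- `f - f(v)` vanishes at `v`. -/
theorem sub_valueAt (H : LHyp K F) (v : Place K F) (f : v.toValuationSubring) :
    (f : F) = algebraMap K F (valueAt H v f) ∨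
      0 < v.ord ((f : F) - algebraMap K F (valueAt H v f)) :=
  (valueAt_eq_iff H v f _).1 rfl

end Value

/-! ### the abstract reduction -/

section Red

variable {K : Type*} [Field K] (A : ValuationSubring K)
variable (F : Type*) [Field F] [Algebra K F]
variable (Fb : Type*) [Field Fb] [Algebra (ResidueField A) Fb]

/-- an abstract reduction of the function field `F / K` along the valuation subring `A`. -/
structure AbsRed where
  /-- the Gauss ring. -/
  O : Subring F
  /-- the reduction. -/
  ρ : O →+* Fb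
  algebraMap_mem : ∀ a : A, algebraMap K F (a : K) ∈ O
  ρ_algebraMap : ∀ a : A, ρ ⟨algebraMap K F (a : K), algebraMap_mem a⟩ =
    algebraMap (ResidueField A) Fb (residue A a)
  /-- the kernel of the reduction is `𝔪_A O`. -/
  ρ_ker : ∀ y : O, ρ y = 0 → ∃ c : A, c ∈ maximalIdeal A ∧ ∃ y' : O,
    (y : F) = algebraMap K F (c : K) * (y' : F)
  /-- every nonzero function is a constant times an element of `O` with nonzero reduction. -/
  gauss : ∀ f : F, f ≠ 0 → ∃ c : K, c ≠ 0 ∧ ∃ h : algebraMap K F c * f ∈ O,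
    ρ ⟨algebraMap K F c * f, h⟩ ≠ 0
  /-- the reduction of places. -/
  r : Place K F → Place (ResidueField A) Fb
  /-- `r_* (div y) = div (ρ y)`. -/
  r_div : ∀ y : O, ρ y ≠ 0 → ∀ D : Divisor K F, (∀ P, D P = P.ord (y : F)) →
    ∀ Q, Finsupp.mapDomain r D Q = Q.ord (ρ y)

end Red

namespace AbsRed

variable {K : Type*} [Field K] {A : ValuationSubring K}
variable {F : Type*} [Field F] [Algebra K F]
variable {Fb : Type*} [Field Fb] [Algebra (ResidueField A) Fb]
variable (R : AbsRed A F Fb)

/-- the constant `a ∈ A` as an element of `O`. -/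
def const (a : A) : R.O := ⟨algebraMap K F (a : K), R.algebraMap_mem a⟩

@[simp] theorem coe_const (a : A) : ((R.const a : R.O) : F) = algebraMap K F (a : K) := rfl

theorem ρ_const (a : A) : R.ρ (R.const a) = algebraMap (ResidueField A) Fb (residue A a) :=
  R.ρ_algebraMap a

theorem ρ_const_eq_zero {a : A} (ha : a ∈ maximalIdeal A) : R.ρ (R.const a) = 0 := by
  rw [ρ_const, (IsLocalRing.residue_eq_zero_iff a).2 ha, map_zero]

theorem ρ_const_ne_zero {a : A} (ha : a ∉ maximalIdeal A) : R.ρ (R.const a) ≠ 0 := by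
  rw [ρ_const]
  intro h
  apply ha
  rw [← IsLocalRing.residue_eq_zero_iff]
  exact (algebraMap (ResidueField A) Fb).injective (by rw [h, map_zero])

/-- `O ∩ K = A`. -/
theorem mem_of_algebraMap_mem {c : K} (h : algebraMap K F c ∈ R.O) : c ∈ A := by
  by_contra hc
  have hc0 : c ≠ 0 := fun h0 => hc (h0 ▸ A.zero_mem)
  have hinv : c⁻¹ ∈ A := (A.mem_or_inv_mem c).resolve_left hc
  have hmax : (⟨c⁻¹, hinv⟩ : A) ∈ maximalIdeal A := by
    rw [IsLocalRing.mem_maximalIdeal, mem_nonunits_iff]
    intro hu
    apply hc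
    obtain ⟨u, hu⟩ := hu
    have h3 : ((u⁻¹ : Aˣ) : A) * (u : A) = 1 := Units.inv_mul u
    have h4 : (((u⁻¹ : Aˣ) : A) : K) * c⁻¹ = 1 := by
      have := congrArg (Subtype.val) h3
      rw [hu] at this
      simpa using this
    have h5 : (((u⁻¹ : Aˣ) : A) : K) = c := by
      field_simp at h4
      exact h4
    rw [← h5]
    exact SetLike.coe_mem _
  have h1 : (⟨algebraMap K F c, h⟩ : R.O) * R.const ⟨c⁻¹, hinv⟩ = 1 := by
    apply Subtype.ext
    show algebraMap K F c * algebraMap K F c⁻¹ = 1
    rw [← map_mul, mul_inv_cancel₀ hc0, map_one]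
  have h2 := congrArg R.ρ h1
  rw [map_mul, R.ρ_const_eq_zero hmax, mul_zero, map_one] at h2
  exact zero_ne_one h2

/-- an element of `O` with nonzero reduction is a unit of `O`. -/
theorem inv_mem_of_ρ_ne_zero {y : R.O} (hy : R.ρ y ≠ 0) : (y : F)⁻¹ ∈ R.O := by
  have hy0 : (y : F) ≠ 0 := by
    intro h0
    apply hy
    have : y = 0 := Subtype.ext h0
    rw [this, map_zero]
  obtain ⟨c, hc0, hmem, hne⟩ := R.gauss (y : F)⁻¹ (inv_ne_zero hy0)
  -- `c = y * (c y⁻¹) ∈ O ∩ K = A`, with nonzero reduction, hence a unit of `A`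
  have hc : algebraMap K F c ∈ R.O := by
    have : algebraMap K F c = (y : F) * (algebraMap K F c * (y : F)⁻¹) := by
      field_simp
    rw [this]
    exact R.O.mul_mem y.2 hmem
  have hcA : c ∈ A := R.mem_of_algebraMap_mem hc
  have hprod : R.const ⟨c, hcA⟩ = y * ⟨algebraMap K F c * (y : F)⁻¹, hmem⟩ := by
    apply Subtype.ext
    show algebraMap K F c = (y : F) * (algebraMap K F c * (y : F)⁻¹)
    field_simp
  have hρc : R.ρ (R.const ⟨c, hcA⟩) ≠ 0 := by
    rw [hprod, map_mul]
    exact mul_ne_zero hy hne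
  have hunit : (⟨c, hcA⟩ : A) ∉ maximalIdeal A := fun h => hρc (R.ρ_const_eq_zero h)
  have hcinv : c⁻¹ ∈ A := by
    rw [IsLocalRing.mem_maximalIdeal, mem_nonunits_iff, not_not] at hunit
    obtain ⟨u, hu⟩ := hunit
    have h3 : (u : A) * ((u⁻¹ : Aˣ) : A) = 1 := Units.mul_inv u
    have h4 : c * (((u⁻¹ : Aˣ) : A) : K) = 1 := by
      have := congrArg (Subtype.val) h3
      rw [hu] at this
      simpa using this
    have h5 : (((u⁻¹ : Aˣ) : A) : K) = c⁻¹ := by
      field_simp
      rw [mul_comm]
      exact h4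
    rw [← h5]
    exact SetLike.coe_mem _
  have : (y : F)⁻¹ = algebraMap K F c⁻¹ * (algebraMap K F c * (y : F)⁻¹) := by
    rw [← mul_assoc, ← map_mul, inv_mul_cancel₀ hc0, map_one, one_mul]
  rw [this]
  exact R.O.mul_mem (R.algebraMap_mem ⟨c⁻¹, hcinv⟩) hmem

theorem coe_ne_zero_of_ρ_ne_zero {y : R.O} (hy : R.ρ y ≠ 0) : (y : F) ≠ 0 := by
  intro h0
  apply hy
  have : y = 0 := Subtype.ext h0
  rw [this, map_zero]

/-- scaling into `O`: a nonzero function times a suitable constant lies in `O` with nonzero
reduction; if the function is not in `O`, the constant lies in `𝔪_A`. -/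
theorem exists_const_mul_of_not_mem {f : F} (hf : f ∉ R.O) :
    ∃ c : A, c ∈ maximalIdeal A ∧ ∃ h : algebraMap K F (c : K) * f ∈ R.O,
      R.ρ ⟨algebraMap K F (c : K) * f, h⟩ ≠ 0 := by
  have hf0 : f ≠ 0 := fun h0 => hf (h0 ▸ R.O.zero_mem)
  obtain ⟨c, hc0, hmem, hne⟩ := R.gauss f hf0
  have hcinv : c⁻¹ ∉ A := by
    intro hcinv
    apply hf
    have : f = algebraMap K F c⁻¹ * (algebraMap K F c * f) := by
      rw [← mul_assoc, ← map_mul, inv_mul_cancel₀ hc0, map_one, one_mul]
    rw [this]
    exact R.O.mul_mem (R.algebraMap_mem ⟨c⁻¹, hcinv⟩) hmem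
  have hcA : c ∈ A := by
    have := A.mem_or_inv_mem c
    tauto
  refine ⟨⟨c, hcA⟩, ?_, hmem, hne⟩
  rw [IsLocalRing.mem_maximalIdeal, mem_nonunits_iff]
  intro hu
  apply hcinv
  obtain ⟨u, hu⟩ := hu
  have h3 : (u : A) * ((u⁻¹ : Aˣ) : A) = 1 := Units.mul_inv u
  have h4 : c * (((u⁻¹ : Aˣ) : A) : K) = 1 := by
    have := congrArg (Subtype.val) h3
    rw [hu] at this
    simpa using this
  have h5 : (((u⁻¹ : Aˣ) : A) : K) = c⁻¹ := by
    field_simp
    rw [mul_comm]
    exact h4
  rw [← h5]
  exact SetLike.coe_mem _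

end AbsRed

/-! ### push-forward of divisors -/

section PushForward

variable {α β : Type*} (r : α → β)

open Classical in
theorem mapDomain_apply_eq_sum (D : α →₀ ℤ) (Q : β) :
    Finsupp.mapDomain r D Q = ∑ P ∈ D.support, if r P = Q then D P else 0 := by
  rw [Finsupp.mapDomain, Finsupp.sum_apply, Finsupp.sum]
  refine Finset.sum_congr rfl fun P _ => ?_
  rw [Finsupp.single_apply]

theorem mapDomain_nonneg_at (D : α →₀ ℤ) (Q : β) (h : ∀ P, r P = Q → 0 ≤ D P) :
    0 ≤ Finsupp.mapDomain r D Q := by
  classical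
  rw [mapDomain_apply_eq_sum]
  refine Finset.sum_nonneg fun P _ => ?_
  split_ifs with hP
  · exact h P hP
  · exact le_rfl

theorem mapDomain_pos_at (D : α →₀ ℤ) (Q : β) (h : ∀ P, r P = Q → 0 ≤ D P) {P : α}
    (hP : r P = Q) (hpos : 0 < D P) : 0 < Finsupp.mapDomain r D Q := by
  classical
  rw [mapDomain_apply_eq_sum]
  have hmem : P ∈ D.support := by
    rw [Finsupp.mem_support_iff]
    exact hpos.ne'
  have h1 : (if r P = Q then D P else 0) ≤ ∑ P' ∈ D.support, if r P' = Q then D P' else 0 := by
    refine Finset.single_le_sum (f := fun P' => if r P' = Q then D P' else 0) (fun P' _ => ?_) hmem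
    show 0 ≤ if r P' = Q then D P' else 0
    split_ifs with hP'
    · exact h P' hP'
    · exact le_rfl
  rw [if_pos hP] at h1
  exact lt_of_lt_of_le hpos h1

theorem mapDomain_eq_zero_at (D : α →₀ ℤ) (Q : β) (h : ∀ P, r P = Q → D P = 0) :
    Finsupp.mapDomain r D Q = 0 := by
  classical
  rw [mapDomain_apply_eq_sum]
  refine Finset.sum_eq_zero fun P _ => ?_
  split_ifs with hP
  · exact h P hP
  · rfl

theorem mapDomain_nonneg (D : α →₀ ℤ) (h : 0 ≤ D) : 0 ≤ Finsupp.mapDomain r D := by
  intro Q
  exact mapDomain_nonneg_at r D Q fun P _ => h P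

end PushForward

namespace AbsRed

variable {K : Type*} [Field K] {A : ValuationSubring K}
variable {F : Type*} [Field F] [Algebra K F]
variable {Fb : Type*} [Field Fb] [Algebra (ResidueField A) Fb]
variable (R : AbsRed A F Fb)

/-- degrees are preserved by the push-forward (all places have degree one). -/
theorem degree_mapDomain (HL : LHyp K F) (HLb : LHyp (ResidueField A) Fb) (D : Divisor K F) :
    Divisor.degree (Finsupp.mapDomain R.r D) = Divisor.degree D := by
  induction D using Finsupp.induction with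
  | zero => simp
  | single_add P n D _ _ ih =>
    rw [Finsupp.mapDomain_add, map_add, map_add, ih, Finsupp.mapDomain_single,
      degree_single HLb, degree_single HL]

/-- the reduction of an integral section of `L(D)` is a section of `L(r_* D)`. -/
theorem ρ_mem_L (HL : LHyp K F) {y : R.O} (hy : R.ρ y ≠ 0) {D : Divisor K F}
    (hD : (y : F) ∈ riemannRochSpace D) :
    R.ρ y ∈ riemannRochSpace (Finsupp.mapDomain R.r D) := by
  have hy0 := R.coe_ne_zero_of_ρ_ne_zero hy
  rw [mem_L_iff hy]
  intro Q
  have h1 := R.r_div y hy (divOf HL hy0) (fun P => divOf_apply HL hy0 P) Q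
  rw [← h1]
  have h2 : 0 ≤ Finsupp.mapDomain R.r (divOf HL hy0 + D) Q := by
    apply mapDomain_nonneg
    intro P
    rw [Finsupp.add_apply, divOf_apply]
    have := (mem_L_iff hy0).1 hD P
    simp only [Finsupp.coe_zero, Pi.zero_apply]
    omega
  rw [Finsupp.mapDomain_add, Finsupp.add_apply] at h2
  omega

/-- **integrality of values** (G1b): if `y ∈ O` has no pole at any place over `r P`, then its
value at `P` lies in `A`. -/
theorem value_mem (HL : LHyp K F) (y : R.O) (P : Place K F)
    (hy : ∀ P', R.r P' = R.r P → 0 ≤ P'.ord (y : F)) {a : K}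
    (ha : (y : F) = algebraMap K F a ∨ 0 < P.ord ((y : F) - algebraMap K F a)) : a ∈ A := by
  by_contra haA
  have ha0 : a ≠ 0 := fun h0 => haA (h0 ▸ A.zero_mem)
  have hinv : a⁻¹ ∈ A := (A.mem_or_inv_mem a).resolve_left haA
  have hmax : (⟨a⁻¹, hinv⟩ : A) ∈ maximalIdeal A := by
    rw [IsLocalRing.mem_maximalIdeal, mem_nonunits_iff]
    intro hu
    apply haA
    obtain ⟨u, hu⟩ := hu
    have h3 : ((u⁻¹ : Aˣ) : A) * (u : A) = 1 := Units.inv_mul u
    have h4 : (((u⁻¹ : Aˣ) : A) : K) * a⁻¹ = 1 := by
      have := congrArg (Subtype.val) h3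
      rw [hu] at this
      simpa using this
    have h5 : (((u⁻¹ : Aˣ) : A) : K) = a := by
      field_simp at h4
      exact h4
    rw [← h5]
    exact SetLike.coe_mem _
  -- `z = a⁻¹ y - 1` reduces to `-1`
  set z : R.O := R.const ⟨a⁻¹, hinv⟩ * y - 1 with hz
  have hρz : R.ρ z = -1 := by
    rw [hz, map_sub, map_mul, R.ρ_const_eq_zero hmax, zero_mul, map_one, zero_sub]
  have hρz0 : R.ρ z ≠ 0 := by
    rw [hρz]
    exact neg_ne_zero.2 one_ne_zero
  have hz0 := R.coe_ne_zero_of_ρ_ne_zero hρz0
  have hzF : (z : F) = algebraMap K F a⁻¹ * ((y : F) - algebraMap K F a) := by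
    rw [hz]
    show algebraMap K F a⁻¹ * (y : F) - 1 = _
    rw [mul_sub, ← map_mul, inv_mul_cancel₀ ha0, map_one]
  have h1 := R.r_div z hρz0 (divOf HL hz0) (fun P' => divOf_apply HL hz0 P') (R.r P)
  rw [hρz, ord_neg, Place.ord_one] at h1
  have h2 : 0 < Finsupp.mapDomain R.r (divOf HL hz0) (R.r P) := by
    apply mapDomain_pos_at R.r _ _ _ rfl
    · rw [divOf_apply, hzF]
      rcases ha with ha | ha
      · exfalso
        apply hz0
        rw [hzF, ha, sub_self, mul_zero]
      · have hne : (y : F) - algebraMap K F a ≠ 0 := by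
          intro h0
          rw [h0] at ha
          simp at ha
        rw [Place.ord_mul _ (by simpa using ha0) hne, ord_algebraMap, zero_add]
        exact ha
    · intro P' hP'
      rw [divOf_apply]
      apply ord_nonneg_of_mem
      rw [hz]
      show algebraMap K F a⁻¹ * (y : F) - 1 ∈ P'.toValuationSubring
      exact sub_mem (mul_mem (P'.algebraMap_mem' _) (mem_of_ord_nonneg P' (hy P' hP')))
        (one_mem _)
  omega

/-- **reduction of values** (G1b): if `y ∈ O` has no pole at any place over `r P` and value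
`a ∈ A` at `P`, then `ρ y` has value `residue a` at `r P`. -/
theorem ρ_value (HL : LHyp K F) (y : R.O) (P : Place K F)
    (hy : ∀ P', R.r P' = R.r P → 0 ≤ P'.ord (y : F)) (a : A)
    (ha : (y : F) = algebraMap K F (a : K) ∨ 0 < P.ord ((y : F) - algebraMap K F (a : K))) :
    R.ρ y = algebraMap (ResidueField A) Fb (residue A a) ∨
      0 < (R.r P).ord (R.ρ y - algebraMap (ResidueField A) Fb (residue A a)) := by
  set w : R.O := y - R.const a with hw
  have hρw : R.ρ w = R.ρ y - algebraMap (ResidueField A) Fb (residue A a) := by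
    rw [hw, map_sub, R.ρ_const]
  by_cases h0 : R.ρ w = 0
  · left
    rw [hρw, sub_eq_zero] at h0
    exact h0
  · right
    have hw0 := R.coe_ne_zero_of_ρ_ne_zero h0
    have hwF : (w : F) = (y : F) - algebraMap K F (a : K) := rfl
    have h1 := R.r_div w h0 (divOf HL hw0) (fun P' => divOf_apply HL hw0 P') (R.r P)
    rw [← hρw, ← h1]
    apply mapDomain_pos_at R.r _ _ _ rfl
    · rw [divOf_apply, hwF]
      rcases ha with ha | ha
      · exfalso
        apply hw0
        rw [hwF, ha, sub_self]
      · exact ha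
    · intro P' hP'
      rw [divOf_apply]
      apply ord_nonneg_of_mem
      rw [hwF]
      exact sub_mem (mem_of_ord_nonneg P' (hy P' hP')) (P'.algebraMap_mem' _)

end AbsRed

end Fermat.Agent.FF.RedLat2
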