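/-
Programme FF (S19), pure algebra (helper1): **linear algebra over a valuation ring.**

`A` a valuation ring (a domain, not necessarily noetherian) with fraction field `K`.
* `free_of_finite_of_isTorsionFree`: a finitely generated torsion-free `A`-module is free;
* `SatLattice`: for a `K`-vector space `V`, a finitely generated `A`-submodule `P ⊆ V` and a
  `K`-subspace `L ⊆ V`, the saturated lattice `Λ = L ∩ P` is finitely generated, free, a direct
  summand of `P`; if `L ⊆ K·P` then `K·Λ = L` and `Λ` has an `A`-basis which is a `K`-basis of `L`.
-/
import Mathlib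

set_option autoImplicit false

namespace Fermat.Agent.FF.ValFree1

open Module

section Free

variable (A : Type*) [CommRing A] [IsDomain A] [ValuationRing A]

/-- **a finitely generated torsion-free module over a valuation ring is free.** -/
theorem free_of_finite_of_isTorsionFree (M : Type*) [AddCommGroup M] [Module A M]
    [Module.Finite A M] [Module.IsTorsionFree A M] : Module.Free A M := by
  have : Module.Flat A M :=
    Module.Flat.flat_iff_torsion_eq_bot_of_isBezout.2
      (Submodule.isTorsionFree_iff_torsion_eq_bot.1 inferInstance)
  exact Module.free_of_flat_of_isLocalRing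

end Free

section TorsionFree

/-- a vector space over the fraction field is torsion-free. -/
theorem isTorsionFree_of_fractionRing (A K V : Type*) [CommRing A] [IsDomain A] [Field K]
    [Algebra A K] [IsFractionRing A K] [AddCommGroup V] [Module K V] [Module A V]
    [IsScalarTower A K V] : Module.IsTorsionFree A V := by
  refine Module.IsTorsionFree.of_smul_eq_zero fun a v h => ?_
  rw [← algebraMap_smul K a v] at h
  rcases smul_eq_zero.1 h with h | h
  · left
    exact (IsFractionRing.injective A K) (by rw [h, map_zero])
  · right
    exact h

end TorsionFree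

section SatLattice

variable {A K V : Type*} [CommRing A] [IsDomain A] [ValuationRing A] [Field K] [Algebra A K]
  [IsFractionRing A K] [AddCommGroup V] [Module K V] [Module A V] [IsScalarTower A K V]

omit [IsDomain A] [ValuationRing A] [IsFractionRing A K] in
/-- division by a nonzero scalar inside a `K`-subspace. -/
theorem mem_of_smul_mem (L : Submodule K V) {a : A} (ha : algebraMap A K a ≠ 0) {v : V}
    (h : a • v ∈ L) : v ∈ L := by
  have h' : (algebraMap A K a)⁻¹ • (a • v) ∈ L := L.smul_mem _ h
  rwa [← algebraMap_smul K a v, smul_smul, inv_mul_cancel₀ ha, one_smul] at h'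

/-- the saturated lattice `L ∩ P`. -/
def satLattice (P : Submodule A V) (L : Submodule K V) : Submodule A V :=
  L.restrictScalars A ⊓ P

omit [IsDomain A] [ValuationRing A] [IsFractionRing A K] in
theorem mem_satLattice {P : Submodule A V} {L : Submodule K V} {v : V} :
    v ∈ satLattice P L ↔ v ∈ L ∧ v ∈ P := Iff.rfl

omit [IsDomain A] [ValuationRing A] [IsFractionRing A K] in
theorem satLattice_le (P : Submodule A V) (L : Submodule K V) : satLattice P L ≤ P := inf_le_right

/-- the saturated lattice inside `P`, as a submodule of `P`. -/
def satIn (P : Submodule A V) (L : Submodule K V) : Submodule A P :=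
  (satLattice P L).comap P.subtype

omit [IsDomain A] [ValuationRing A] [IsFractionRing A K] in
theorem mem_satIn {P : Submodule A V} {L : Submodule K V} {p : P} :
    p ∈ satIn P L ↔ (p : V) ∈ L :=
  ⟨fun h => h.1, fun h => ⟨h, p.2⟩⟩

omit [ValuationRing A] in
/-- the quotient of `P` by the saturated lattice is torsion-free. -/
theorem isTorsionFree_quotient_satIn (P : Submodule A V) (L : Submodule K V) :
    Module.IsTorsionFree A (P ⧸ satIn P L) := by
  refine Module.IsTorsionFree.of_smul_eq_zero fun a x h => ?_
  by_cases ha : a = 0
  · exact Or.inl ha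
  right
  obtain ⟨p, rfl⟩ := Submodule.mkQ_surjective _ x
  rw [← map_smul, Submodule.mkQ_apply, Submodule.Quotient.mk_eq_zero, mem_satIn] at h
  rw [Submodule.mkQ_apply, Submodule.Quotient.mk_eq_zero, mem_satIn]
  have ha' : algebraMap A K a ≠ 0 := fun h0 =>
    ha ((IsFractionRing.injective A K) (by rw [h0, map_zero]))
  exact mem_of_smul_mem L ha' h

/-- **the saturated lattice is a direct summand**: an `A`-linear retraction of `P` onto it. -/
theorem exists_retraction (P : Submodule A V) (hP : P.FG) (L : Submodule K V) :
    ∃ π : P →ₗ[A] P, (∀ p, π p ∈ satIn P L) ∧ ∀ p ∈ satIn P L, π p = p := by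
  have : Module.Finite A P := Module.Finite.iff_fg.2 hP
  have : Module.IsTorsionFree A (P ⧸ satIn P L) := isTorsionFree_quotient_satIn P L
  have : Module.Free A (P ⧸ satIn P L) := free_of_finite_of_isTorsionFree A _
  obtain ⟨s, hs⟩ := Module.projective_lifting_property (satIn P L).mkQ
    (LinearMap.id : (P ⧸ satIn P L) →ₗ[A] (P ⧸ satIn P L)) (Submodule.mkQ_surjective _)
  have hs' : ∀ x, (satIn P L).mkQ (s x) = x := fun x => LinearMap.congr_fun hs x
  refine ⟨LinearMap.id - s ∘ₗ (satIn P L).mkQ, fun p => ?_, fun p hp => ?_⟩
  · rw [← Submodule.Quotient.mk_eq_zero, ← Submodule.mkQ_apply, LinearMap.sub_apply, map_sub,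
      LinearMap.comp_apply, hs', LinearMap.id_apply, sub_self]
  · have h0 : (satIn P L).mkQ p = 0 := by
      rw [Submodule.mkQ_apply, Submodule.Quotient.mk_eq_zero]
      exact hp
    rw [LinearMap.sub_apply, LinearMap.comp_apply, h0, map_zero, LinearMap.id_apply, sub_zero]

theorem fg_satIn (P : Submodule A V) (hP : P.FG) (L : Submodule K V) : (satIn P L).FG := by
  obtain ⟨π, hπ1, hπ2⟩ := exists_retraction P hP L
  have : Module.Finite A P := Module.Finite.iff_fg.2 hP
  have hrange : LinearMap.range π = satIn P L := by
    apply le_antisymm
    · rintro _ ⟨p, rfl⟩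
      exact hπ1 p
    · intro p hp
      exact ⟨p, hπ2 p hp⟩
  rw [← hrange, LinearMap.range_eq_map]
  exact (Module.Finite.fg_top).map π

/-- **the saturated lattice is finitely generated.** -/
theorem finite_satLattice (P : Submodule A V) (hP : P.FG) (L : Submodule K V) :
    Module.Finite A (satLattice P L) := by
  have : Module.Finite A (satIn P L) := Module.Finite.iff_fg.2 (fg_satIn P hP L)
  have e : satIn P L ≃ₗ[A] satLattice P L :=
    Submodule.comapSubtypeEquivOfLe (satLattice_le P L)
  exact Module.Finite.equiv e

/-- **the saturated lattice is free.** -/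
theorem free_satLattice (P : Submodule A V) (hP : P.FG) (L : Submodule K V) :
    Module.Free A (satLattice P L) := by
  have := finite_satLattice P hP L
  have : Module.IsTorsionFree A V := isTorsionFree_of_fractionRing A K V
  have : Module.IsTorsionFree A (satLattice P L) :=
    Function.Injective.moduleIsTorsionFree (satLattice P L).subtype Subtype.val_injective
      (fun _ _ => rfl)
  exact free_of_finite_of_isTorsionFree A _

omit [ValuationRing A] in
/-- clearing denominators: every element of the `K`-span of `P` has a nonzero multiple in `P`. -/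
theorem exists_smul_mem_of_mem_span (P : Submodule A V) {v : V}
    (hv : v ∈ Submodule.span K (P : Set V)) : ∃ a : A, a ≠ 0 ∧ a • v ∈ P := by
  induction hv using Submodule.span_induction with
  | mem x hx => exact ⟨1, one_ne_zero, by rwa [one_smul]⟩
  | zero => exact ⟨1, one_ne_zero, by rw [smul_zero]; exact P.zero_mem⟩
  | add x y _ _ hx hy =>
    obtain ⟨a, ha, hax⟩ := hx
    obtain ⟨b, hb, hby⟩ := hy
    refine ⟨a * b, mul_ne_zero ha hb, ?_⟩
    rw [smul_add]
    refine P.add_mem ?_ ?_
    · rw [mul_comm, mul_smul]
      exact P.smul_mem b hax
    · rw [mul_smul]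
      exact P.smul_mem a hby
  | smul k x _ hx =>
    obtain ⟨a, ha, hax⟩ := hx
    obtain ⟨c, d, hd, rfl⟩ := IsFractionRing.div_surjective (A := A) k
    have hd0 : d ≠ 0 := nonZeroDivisors.ne_zero hd
    have hd' : algebraMap A K d ≠ 0 := fun h0 =>
      hd0 ((IsFractionRing.injective A K) (by rw [h0, map_zero]))
    refine ⟨d * a, mul_ne_zero hd0 ha, ?_⟩
    have : (d * a) • ((algebraMap A K c / algebraMap A K d) • x) = c • (a • x) := by
      rw [← algebraMap_smul K (d * a), ← algebraMap_smul K c, ← algebraMap_smul K a, smul_smul,
        smul_smul, map_mul]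
      congr 1
      field_simp
    rw [this]
    exact P.smul_mem c hax

omit [ValuationRing A] in
/-- **the saturated lattice spans `L`** when `L` lies in the `K`-span of `P`. -/
theorem span_satLattice (P : Submodule A V) (L : Submodule K V)
    (hL : L ≤ Submodule.span K (P : Set V)) :
    Submodule.span K (satLattice P L : Set V) = L := by
  apply le_antisymm
  · exact Submodule.span_le.2 fun v hv => hv.1
  · intro v hv
    obtain ⟨a, ha, hav⟩ := exists_smul_mem_of_mem_span P (hL hv)
    have ha' : algebraMap A K a ≠ 0 := fun h0 =>
      ha ((IsFractionRing.injective A K) (by rw [h0, map_zero]))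
    have hmem : a • v ∈ satLattice P L := ⟨by
      show a • v ∈ L
      rw [← algebraMap_smul K a v]
      exact L.smul_mem _ hv, hav⟩
    exact mem_of_smul_mem _ ha' (Submodule.subset_span hmem)

/-- **a basis of the saturated lattice is a basis of the subspace**: there is a finite `A`-basis
of `L ∩ P` whose members are `K`-linearly independent and span `L`. -/
theorem exists_basis_satLattice (P : Submodule A V) (hP : P.FG) (L : Submodule K V)
    (hL : L ≤ Submodule.span K (P : Set V)) :
    ∃ (n : ℕ) (b : Module.Basis (Fin n) A (satLattice P L)),
      LinearIndependent K (fun i => ((b i : satLattice P L) : V)) ∧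
      Submodule.span K (Set.range fun i => ((b i : satLattice P L) : V)) = L := by
  have := finite_satLattice P hP L
  have := free_satLattice P hP L
  let b := Module.finBasis A (satLattice P L)
  refine ⟨_, b, ?_, ?_⟩
  · have h1 : LinearIndependent A (fun i => ((b i : satLattice P L) : V)) :=
      b.linearIndependent.map' (satLattice P L).subtype (Submodule.ker_subtype _)
    exact (LinearIndependent.iff_fractionRing A K).1 h1
  · have h2 : Submodule.span A (Set.range fun i => ((b i : satLattice P L) : V)) =
        satLattice P L := by
      have : (Set.range fun i => ((b i : satLattice P L) : V)) =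
          (satLattice P L).subtype '' Set.range b := by
        rw [← Set.range_comp]
        rfl
      rw [this, Submodule.span_image, b.span_eq, Submodule.map_subtype_top]
    rw [← Submodule.span_span_of_tower A K, h2, span_satLattice P L hL]

/-- the rank of the saturated lattice is the dimension of the subspace. -/
theorem finrank_satLattice (P : Submodule A V) (hP : P.FG) (L : Submodule K V)
    (hL : L ≤ Submodule.span K (P : Set V)) :
    Module.finrank A (satLattice P L) = Module.finrank K L := by
  obtain ⟨n, b, hli, hspan⟩ := exists_basis_satLattice P hP L hL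
  rw [Module.finrank_eq_card_basis b, Fintype.card_fin]
  have h := finrank_span_eq_card hli
  rw [hspan, Fintype.card_fin] at h
  exact h.symm

end SatLattice

section IntVectors

variable (A K : Type*) [CommRing A] [IsDomain A] [ValuationRing A] [Field K] [Algebra A K]
  [IsFractionRing A K] (ι : Type*)

/-- the standard lattice `A^ι ⊆ K^ι`. -/
def intVectors : Submodule A (ι → K) := LinearMap.range ((Algebra.linearMap A K).compLeft ι)

variable {A K ι}

omit [IsDomain A] [ValuationRing A] [IsFractionRing A K] in
theorem mem_intVectors {v : ι → K} :
    v ∈ intVectors A K ι ↔ ∀ i, v i ∈ Set.range (algebraMap A K) := by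
  constructor
  · rintro ⟨w, rfl⟩ i
    exact ⟨w i, rfl⟩
  · intro h
    choose w hw using h
    exact ⟨w, funext hw⟩

variable (A K ι)

omit [IsDomain A] [ValuationRing A] [IsFractionRing A K] in
theorem intVectors_fg [Finite ι] : (intVectors A K ι).FG := by
  rw [intVectors, LinearMap.range_eq_map]
  exact (Module.Finite.fg_top).map _

omit [IsDomain A] [ValuationRing A] [IsFractionRing A K] in
theorem span_intVectors [Finite ι] : Submodule.span K (intVectors A K ι : Set (ι → K)) = ⊤ := by
  classical
  have := Fintype.ofFinite ι
  rw [eq_top_iff]
  intro v _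
  have hv : v = ∑ i, v i • (Pi.single i (1 : K) : ι → K) := by
    funext j
    simp [Finset.sum_apply, Pi.single_apply]
  rw [hv]
  refine Submodule.sum_mem _ fun i _ => Submodule.smul_mem _ _ (Submodule.subset_span ?_)
  refine mem_intVectors.2 fun j => ?_
  by_cases h : j = i
  · subst h
    exact ⟨1, by simp⟩
  · exact ⟨0, by simp [Pi.single_eq_of_ne h]⟩

variable {A K ι}

/-- **saturated lattices in `K^ι`**: for a `K`-subspace `L ⊆ K^ι`, the lattice `L ∩ A^ι` has a
finite `A`-basis which is `K`-linearly independent and spans `L`; in particular it is free of rank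
`dim L`. -/
theorem exists_basis_inf_intVectors [Finite ι] (L : Submodule K (ι → K)) :
    ∃ (n : ℕ) (b : Module.Basis (Fin n) A (satLattice (intVectors A K ι) L)),
      n = Module.finrank K L ∧
      LinearIndependent K (fun i => ((b i : satLattice (intVectors A K ι) L) : ι → K)) ∧
      Submodule.span K
        (Set.range fun i => ((b i : satLattice (intVectors A K ι) L) : ι → K)) = L := by
  have hL : L ≤ Submodule.span K (intVectors A K ι : Set (ι → K)) := by
    rw [span_intVectors]
    exact le_top
  obtain ⟨n, b, hli, hspan⟩ := exists_basis_satLattice (intVectors A K ι) (intVectors_fg A K ι) L hL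
  refine ⟨n, b, ?_, hli, hspan⟩
  have h := finrank_span_eq_card hli
  rw [hspan, Fintype.card_fin] at h
  exact h.symm

end IntVectors

end Fermat.Agent.FF.ValFree1
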