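/-
Programme FF (S19), chapter G3a / G6b (helper2): ABSTRACT REDUCTION of a function field, part B:
**the integral Riemann–Roch lattice.**

For an abstract reduction `R : AbsRed A F Fb` (see `RedLat2A`), `LHyp` on both function fields and
infinitely many places in the image of `r`: for every divisor `D` of `F` the lattice
`L(D) ∩ O` has an `A`-basis `β` which is a `K`-basis of `L(D)` and whose reductions are
`κ`-linearly independent sections of `L(r_* D)`.

Proof: evaluation at `N > deg D` places with pairwise distinct reductions outside `r (supp D)`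
embeds `L(D)` in `K^N` with `τ (L(D) ∩ O) = τ (L(D)) ∩ A^N`; then `ValFree1` (saturated lattices
over a valuation ring are free).
-/
import Mathlib
import Fermat.Agent.FF.RedLat2A
import Fermat.Agent.FF.ValFree1

set_option autoImplicit false

open AlgebraicCurve IsLocalRing

namespace Fermat.Agent.FF.RedLat2

open Fermat.Agent.X0.FF Fermat.Agent.RR.LSpace Fermat.Agent.FF.ValFree1

/-! ### generic facts on `L(D)` -/

section Generic

variable {K F : Type*} [Field K] [Field F] [Algebra K F]

theorem mem_valuationSubring_of_mem_L {D : Divisor K F} {P : Place K F} (hP : D P = 0) {u : F}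
    (hu : u ∈ riemannRochSpace D) : u ∈ P.toValuationSubring := by
  rw [mem_iff_ord_nonneg]
  rcases (mem_riemannRochSpace_iff.1 hu) P with h | h
  · exact Or.inl h
  · right
    rw [hP] at h
    simpa using h

/-- evaluation at a place outside the support of `D`, as a linear functional on `L(D)`. -/
noncomputable def evalL (H : LHyp K F) (D : Divisor K F) (P : Place K F) (hP : D P = 0) :
    riemannRochSpace D →ₗ[K] K where
  toFun u := valueAt H P ⟨(u : F), mem_valuationSubring_of_mem_L hP u.2⟩
  map_add' u v := by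
    rw [← map_add]
    rfl
  map_smul' c u := by
    have : (⟨((c • u : riemannRochSpace D) : F), mem_valuationSubring_of_mem_L hP (c • u).2⟩ :
        P.toValuationSubring) =
        algebraMap K P.toValuationSubring c * ⟨(u : F), mem_valuationSubring_of_mem_L hP u.2⟩ := by
      apply Subtype.ext
      show ((c • u : riemannRochSpace D) : F) = algebraMap K F c * (u : F)
      rw [Submodule.coe_smul, Algebra.smul_def]
    rw [this, map_mul, valueAt_algebraMap]
    rfl

theorem evalL_spec (H : LHyp K F) (D : Divisor K F) (P : Place K F) (hP : D P = 0)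
    (u : riemannRochSpace D) :
    (u : F) = algebraMap K F (evalL H D P hP u) ∨
      0 < P.ord ((u : F) - algebraMap K F (evalL H D P hP u)) :=
  sub_valueAt H P ⟨(u : F), mem_valuationSubring_of_mem_L hP u.2⟩

/-- a nonzero section of `L(D)` cannot vanish at more than `deg D` places outside the support. -/
theorem card_le_degree_of_vanishing (H : LHyp K F) (D : Divisor K F) {f : F} (hf : f ≠ 0)
    (hfL : f ∈ riemannRochSpace D) (T : Finset (Place K F)) (hT : ∀ Q ∈ T, D Q = 0)
    (hvan : ∀ Q ∈ T, 0 < Q.ord f) : (T.card : ℤ) ≤ Divisor.degree D := by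
  classical
  by_contra hlt
  rw [not_le] at hlt
  set E : Divisor K F := ∑ Q ∈ T, Finsupp.single Q (1 : ℤ) with hE
  have hEapp : ∀ Q, E Q = if Q ∈ T then 1 else 0 := by
    intro Q
    rw [hE, Finsupp.finsetSum_apply]
    simp only [Finsupp.single_apply]
    rw [Finset.sum_ite_eq' T Q]
  have hdegE : Divisor.degree E = T.card := by
    rw [hE, map_sum]
    simp only [degree_single H]
    simp
  have hmem : f ∈ riemannRochSpace (D - E) := by
    rw [mem_L_iff hf]
    intro Q
    rw [Finsupp.sub_apply, hEapp]
    split_ifs with hQ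
    · rw [hT Q hQ]
      have := hvan Q hQ
      omega
    · have := (mem_L_iff hf).1 hfL Q
      omega
  have hneg : Divisor.degree (D - E) < 0 := by
    rw [map_sub, hdegE]
    omega
  rw [L_eq_bot_of_degree_neg H hneg, Submodule.mem_bot] at hmem
  exact hf hmem

end Generic

namespace AbsRed

variable {K : Type*} [Field K] {A : ValuationSubring K}
variable {F : Type*} [Field F] [Algebra K F]
variable {Fb : Type*} [Field Fb] [Algebra (ResidueField A) Fb]
variable (R : AbsRed A F Fb)

/-- the image of `r` is infinite. -/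
def HasManyPlaces : Prop :=
  ∀ S : Finset (Place (ResidueField A) Fb), ∃ P : Place K F, R.r P ∉ S

theorem exists_points (hmany : R.HasManyPlaces) (S₀ : Finset (Place (ResidueField A) Fb))
    (N : ℕ) :
    ∃ T : Finset (Place (ResidueField A) Fb), T.card = N ∧ Disjoint T S₀ ∧
      ∀ Q ∈ T, ∃ P : Place K F, R.r P = Q := by
  classical
  induction N with
  | zero =>
    exact ⟨∅, rfl, Finset.disjoint_empty_left _, fun Q hQ => absurd hQ (Finset.notMem_empty Q)⟩
  | succ N ih =>
    obtain ⟨T, hcard, hdisj, hlift⟩ := ih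
    obtain ⟨P, hP⟩ := hmany (T ∪ S₀)
    rw [Finset.mem_union, not_or] at hP
    refine ⟨insert (R.r P) T, ?_, ?_, ?_⟩
    · rw [Finset.card_insert_of_notMem hP.1, hcard]
    · rw [Finset.disjoint_insert_left]
      exact ⟨hP.2, hdisj⟩
    · intro Q hQ
      rw [Finset.mem_insert] at hQ
      rcases hQ with rfl | hQ
      · exact ⟨P, rfl⟩
      · exact hlift Q hQ

open Classical in
/-- places over a point outside `r (supp D)` are outside the support of `D`. -/
theorem apply_eq_zero_of_notMem_image {D : Divisor K F} {Q : Place (ResidueField A) Fb}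
    (hQ : Q ∉ Finset.image R.r D.support) {P : Place K F} (hP : R.r P = Q) : D P = 0 := by
  by_contra h
  apply hQ
  rw [Finset.mem_image]
  exact ⟨P, Finsupp.mem_support_iff.2 h, hP⟩

open Classical in
/-- **key lemma**: an integral section of `L(D)` with nonzero reduction cannot take values in `𝔪_A`
at more than `deg D` points with pairwise distinct reductions outside `r (supp D)`. -/
theorem card_le_degree_of_values (HL : LHyp K F) (HLb : LHyp (ResidueField A) Fb)
    {D : Divisor K F} {y : R.O} (hy : R.ρ y ≠ 0) (hyL : (y : F) ∈ riemannRochSpace D)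
    (T : Finset (Place (ResidueField A) Fb)) (hT : Disjoint T (Finset.image R.r D.support))
    (lift : Place (ResidueField A) Fb → Place K F) (hlift : ∀ Q ∈ T, R.r (lift Q) = Q)
    (hval : ∀ Q ∈ T, ∃ a : A, a ∈ maximalIdeal A ∧
      ((y : F) = algebraMap K F (a : K) ∨ 0 < (lift Q).ord ((y : F) - algebraMap K F (a : K)))) :
    (T.card : ℤ) ≤ Divisor.degree D := by
  have hy0 := R.coe_ne_zero_of_ρ_ne_zero hy
  have hnot : ∀ Q ∈ T, Q ∉ Finset.image R.r D.support := fun Q hQ =>
    Finset.disjoint_left.1 hT hQ
  rw [← R.degree_mapDomain HL HLb D]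
  refine card_le_degree_of_vanishing HLb _ hy (R.ρ_mem_L HL hy hyL) T (fun Q hQ => ?_)
    (fun Q hQ => ?_)
  · exact mapDomain_eq_zero_at R.r D Q fun P hP => R.apply_eq_zero_of_notMem_image (hnot Q hQ) hP
  · obtain ⟨a, hamax, ha⟩ := hval Q hQ
    have hpoles : ∀ P', R.r P' = R.r (lift Q) → 0 ≤ P'.ord (y : F) := by
      intro P' hP'
      rw [hlift Q hQ] at hP'
      have h0 := R.apply_eq_zero_of_notMem_image (hnot Q hQ) hP'
      have := (mem_L_iff hy0).1 hyL P'
      rw [h0] at this
      simpa using this
    have h1 := R.ρ_value HL y (lift Q) hpoles a ha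
    rw [(IsLocalRing.residue_eq_zero_iff a).2 hamax, map_zero, sub_zero, hlift Q hQ] at h1
    rcases h1 with h1 | h1
    · exact absurd h1 hy
    · exact h1


/-- **the integral Riemann–Roch lattice**: `L(D) ∩ O` has an `A`-basis which is a `K`-basis of
`L(D)` and whose reductions are `κ`-linearly independent. -/
theorem exists_integral_basis (HL : LHyp K F) (HLb : LHyp (ResidueField A) Fb)
    (hmany : R.HasManyPlaces) (D : Divisor K F) :
    ∃ (n : ℕ) (β : Fin n → F) (hO : ∀ i, β i ∈ R.O),
      n = Module.finrank K (riemannRochSpace D) ∧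
      (∀ i, β i ∈ riemannRochSpace D) ∧
      LinearIndependent K β ∧
      (∀ u ∈ riemannRochSpace D, u ∈ R.O →
        ∃ c : Fin n → A, u = ∑ i, algebraMap K F (c i : K) * β i) ∧
      LinearIndependent (ResidueField A) (fun i => R.ρ ⟨β i, hO i⟩) := by
  classical
  -- the evaluation points
  set N : ℕ := (Divisor.degree D).toNat + 1 with hN
  have hNdeg : Divisor.degree D < N := by
    rw [hN]
    push_cast
    have := Int.self_le_toNat (Divisor.degree D)
    omega
  obtain ⟨T, hcard, hdisj, hlift⟩ := R.exists_points hmany (Finset.image R.r D.support) N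
  have : Nonempty (Place K F) := HL.nonempty
  choose! lift hlift using hlift
  have hnot : ∀ Q ∈ T, Q ∉ Finset.image R.r D.support := fun Q hQ =>
    Finset.disjoint_left.1 hdisj hQ
  have hD0 : ∀ Q : T, D (lift Q) = 0 := fun Q =>
    R.apply_eq_zero_of_notMem_image (hnot Q Q.2) (hlift Q Q.2)
  -- the evaluation map
  set τ : riemannRochSpace D →ₗ[K] (T → K) :=
    LinearMap.pi fun Q : T => evalL HL D (lift Q) (hD0 Q) with hτ
  have hτapp : ∀ (u : riemannRochSpace D) (Q : T), τ u Q = evalL HL D (lift Q) (hD0 Q) u :=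
    fun u Q => rfl
  -- key: integral sections with nonzero reduction do not have all values in `𝔪_A`
  have key : ∀ (y : R.O), R.ρ y ≠ 0 → ∀ hyL : (y : F) ∈ riemannRochSpace D,
      ¬ ∀ Q : T, ∃ a : A, a ∈ maximalIdeal A ∧ τ ⟨(y : F), hyL⟩ Q = (a : K) := by
    intro y hy hyL hall
    have h1 := R.card_le_degree_of_values HL HLb hy hyL T hdisj lift hlift (fun Q hQ => by
      obtain ⟨a, hamax, ha⟩ := hall ⟨Q, hQ⟩
      refine ⟨a, hamax, ?_⟩
      have := evalL_spec HL D (lift Q) (hD0 ⟨Q, hQ⟩) ⟨(y : F), hyL⟩
      rw [hτapp] at ha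
      rw [ha] at this
      exact this)
    rw [hcard] at h1
    omega
  -- `τ` is injective
  have hinj : Function.Injective τ := by
    rw [← LinearMap.ker_eq_bot, LinearMap.ker_eq_bot']
    intro u hu
    by_contra hu0
    have huF : (u : F) ≠ 0 := fun h => hu0 (Subtype.ext h)
    obtain ⟨c, hc0, hmem, hne⟩ := R.gauss (u : F) huF
    have hyL : algebraMap K F c * (u : F) ∈ riemannRochSpace D := by
      rw [← Algebra.smul_def]
      exact (riemannRochSpace D).smul_mem c u.2
    refine key ⟨_, hmem⟩ hne hyL fun Q => ⟨0, Ideal.zero_mem _, ?_⟩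
    have h2 : (⟨algebraMap K F c * (u : F), hyL⟩ : riemannRochSpace D) = c • u := by
      apply Subtype.ext
      rw [Submodule.coe_smul, Algebra.smul_def]
    show τ ⟨algebraMap K F c * (u : F), hyL⟩ Q = ((0 : A) : K)
    rw [h2, map_smul, hu]
    simp
  -- integrality of the values of integral sections
  have hint1 : ∀ u : riemannRochSpace D, (u : F) ∈ R.O → ∀ Q : T, τ u Q ∈ A := by
    intro u huO Q
    refine R.value_mem HL ⟨(u : F), huO⟩ (lift Q) (fun P' hP' => ?_)
      (evalL_spec HL D (lift Q) (hD0 Q) u)
    rw [hlift Q Q.2] at hP'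
    have h0 := R.apply_eq_zero_of_notMem_image (hnot Q Q.2) hP'
    show 0 ≤ P'.ord (u : F)
    rcases (mem_riemannRochSpace_iff.1 u.2) P' with h | h
    · rw [h]; simp
    · rw [h0] at h
      simpa using h
  -- sections with integral values are integral
  have hint2 : ∀ u : riemannRochSpace D, (∀ Q : T, τ u Q ∈ A) → (u : F) ∈ R.O := by
    intro u hu
    by_contra huO
    obtain ⟨c, hcmax, hmem, hne⟩ := R.exists_const_mul_of_not_mem huO
    have hyL : algebraMap K F (c : K) * (u : F) ∈ riemannRochSpace D := by
      rw [← Algebra.smul_def]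
      exact (riemannRochSpace D).smul_mem (c : K) u.2
    refine key ⟨_, hmem⟩ hne hyL fun Q => ⟨c * ⟨τ u Q, hu Q⟩, Ideal.mul_mem_right _ _ hcmax, ?_⟩
    have h2 : (⟨algebraMap K F (c : K) * (u : F), hyL⟩ : riemannRochSpace D) = (c : K) • u := by
      apply Subtype.ext
      rw [Submodule.coe_smul, Algebra.smul_def]
    show τ ⟨algebraMap K F (c : K) * (u : F), hyL⟩ Q = ((c * ⟨τ u Q, hu Q⟩ : A) : K)
    rw [h2, map_smul]
    rfl
  -- the saturated lattice
  obtain ⟨n, b, hn, hli, hspan⟩ :=
    exists_basis_inf_intVectors (A := A) (K := K) (ι := T) (LinearMap.range τ)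
  have hbmem : ∀ i, ((b i : satLattice (intVectors A K T) (LinearMap.range τ)) : T → K) ∈
      LinearMap.range τ := fun i => (mem_satLattice.1 (b i).2).1
  have hbint : ∀ i, ((b i : satLattice (intVectors A K T) (LinearMap.range τ)) : T → K) ∈
      intVectors A K T := fun i => (mem_satLattice.1 (b i).2).2
  choose u hu using hbmem
  have huO : ∀ i, ((u i : riemannRochSpace D) : F) ∈ R.O := by
    intro i
    apply hint2
    intro Q
    rw [hu i]
    obtain ⟨a, ha⟩ := (mem_intVectors.1 (hbint i)) Q
    rw [← ha]
    exact a.2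
  have huli : LinearIndependent K u := by
    apply LinearIndependent.of_comp τ
    have : (τ ∘ u) = fun i => ((b i : satLattice (intVectors A K T) (LinearMap.range τ)) : T → K) :=
      funext hu
    rw [this]
    exact hli
  have hβli : LinearIndependent K (fun i => ((u i : riemannRochSpace D) : F)) :=
    huli.map' (riemannRochSpace D).subtype (Submodule.ker_subtype _)
  -- `A`-spanning
  have hAspan : ∀ w ∈ riemannRochSpace D, w ∈ R.O →
      ∃ c : Fin n → A, w = ∑ i, algebraMap K F (c i : K) * ((u i : riemannRochSpace D) : F) := by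
    intro w hwL hwO
    have hmem : τ ⟨w, hwL⟩ ∈ satLattice (intVectors A K T) (LinearMap.range τ) := by
      rw [mem_satLattice]
      refine ⟨⟨_, rfl⟩, mem_intVectors.2 fun Q => ?_⟩
      exact ⟨⟨_, hint1 ⟨w, hwL⟩ hwO Q⟩, rfl⟩
    set s : satLattice (intVectors A K T) (LinearMap.range τ) := ⟨_, hmem⟩ with hs
    refine ⟨fun i => b.repr s i, ?_⟩
    have h1 : s = ∑ i, b.repr s i • b i := (b.sum_repr s).symm
    have h2 : τ ⟨w, hwL⟩ = ∑ i, ((b.repr s i : A) : K) • τ (u i) := by
      have := congrArg (Subtype.val) h1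
      rw [hs] at this
      simp only at this
      rw [this, Submodule.coe_sum]
      refine Finset.sum_congr rfl fun i _ => ?_
      rw [Submodule.coe_smul, hu i]
      rfl
    have h3 : (⟨w, hwL⟩ : riemannRochSpace D) = ∑ i, ((b.repr s i : A) : K) • u i := by
      apply hinj
      rw [h2, map_sum]
      refine Finset.sum_congr rfl fun i _ => ?_
      rw [map_smul]
    have h4 := congrArg (Subtype.val) h3
    simp only at h4
    rw [h4, Submodule.coe_sum]
    refine Finset.sum_congr rfl fun i _ => ?_
    rw [Submodule.coe_smul, Algebra.smul_def]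
  refine ⟨n, fun i => ((u i : riemannRochSpace D) : F), huO, ?_, fun i => (u i).2, hβli, hAspan, ?_⟩
  · rw [hn, LinearMap.finrank_range_of_inj hinj]
  · -- `κ`-independence of the reductions
    rw [Fintype.linearIndependent_iff]
    intro g hg i₀
    have hlift_g : ∀ i, ∃ a : A, residue A a = g i := fun i => IsLocalRing.residue_surjective (g i)
    choose a ha using hlift_g
    -- the integral combination `y`
    set y : R.O := ∑ i, R.const (a i) * ⟨_, huO i⟩ with hy
    have hρy : R.ρ y = 0 := by
      rw [hy, map_sum, ← hg]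
      refine Finset.sum_congr rfl fun i _ => ?_
      rw [map_mul, R.ρ_const, ha i, Algebra.smul_def]
    have hyF : (y : F) = ∑ i, algebraMap K F (a i : K) * ((u i : riemannRochSpace D) : F) := by
      rw [hy, AddSubmonoidClass.coe_finsetSum]
      rfl
    have hyL : (y : F) ∈ riemannRochSpace D := by
      rw [hyF]
      refine Submodule.sum_mem _ fun i _ => ?_
      rw [← Algebra.smul_def]
      exact (riemannRochSpace D).smul_mem _ (u i).2
    obtain ⟨c, hcmax, y', hy'⟩ := R.ρ_ker y hρy
    rw [← ha i₀, IsLocalRing.residue_eq_zero_iff]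
    by_cases hc0 : (c : K) = 0
    · -- then `y = 0`
      rw [hc0, map_zero, zero_mul, hyF] at hy'
      have h5 : ∑ i, (a i : K) • ((u i : riemannRochSpace D) : F) = 0 := by
        rw [← hy']
        refine Finset.sum_congr rfl fun i _ => ?_
        rw [Algebra.smul_def]
      have h6 := (Fintype.linearIndependent_iff.1 hβli) (fun i => (a i : K)) h5 i₀
      have : a i₀ = 0 := Subtype.ext h6
      rw [this]
      exact Ideal.zero_mem _
    · -- `y' = c⁻¹ y ∈ L(D) ∩ O`
      have hy'F : (y' : F) = algebraMap K F (c : K)⁻¹ * (y : F) := by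
        rw [hy', ← mul_assoc, ← map_mul, inv_mul_cancel₀ hc0, map_one, one_mul]
      have hy'L : (y' : F) ∈ riemannRochSpace D := by
        rw [hy'F, ← Algebra.smul_def]
        exact (riemannRochSpace D).smul_mem _ hyL
      obtain ⟨c', hc'⟩ := hAspan (y' : F) hy'L y'.2
      have h5 : ∑ i, ((a i : K) - (c : K) * (c' i : K)) • ((u i : riemannRochSpace D) : F) = 0 := by
        have : ∀ i, ((a i : K) - (c : K) * (c' i : K)) • ((u i : riemannRochSpace D) : F) =
            algebraMap K F (a i : K) * ((u i : riemannRochSpace D) : F) -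
              algebraMap K F (c : K) *
                (algebraMap K F (c' i : K) * ((u i : riemannRochSpace D) : F)) := by
          intro i
          rw [Algebra.smul_def, map_sub, map_mul]
          ring
        simp only [this]
        rw [Finset.sum_sub_distrib, ← Finset.mul_sum, ← hc', ← hyF, hy', sub_self]
      have h6 := (Fintype.linearIndependent_iff.1 hβli) _ h5 i₀
      have h7 : a i₀ = c * c' i₀ := by
        apply Subtype.ext
        rw [sub_eq_zero] at h6
        exact h6
      rw [h7]
      exact Ideal.mul_mem_right _ _ hcmax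


/-- the reductions of the integral basis are sections of `L(r_* D)`, and the basis spans `L(D)`. -/
theorem exists_integral_basis' (HL : LHyp K F) (HLb : LHyp (ResidueField A) Fb)
    (hmany : R.HasManyPlaces) (D : Divisor K F) :
    ∃ (n : ℕ) (β : Fin n → F) (hO : ∀ i, β i ∈ R.O),
      n = Module.finrank K (riemannRochSpace D) ∧
      (∀ i, β i ∈ riemannRochSpace D) ∧
      LinearIndependent K β ∧
      Submodule.span K (Set.range β) = riemannRochSpace D ∧
      (∀ u ∈ riemannRochSpace D, u ∈ R.O →
        ∃ c : Fin n → A, u = ∑ i, algebraMap K F (c i : K) * β i) ∧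
      LinearIndependent (ResidueField A) (fun i => R.ρ ⟨β i, hO i⟩) ∧
      ∀ i, R.ρ ⟨β i, hO i⟩ ∈ riemannRochSpace (Finsupp.mapDomain R.r D) := by
  obtain ⟨n, β, hO, hn, hL, hli, hA, hκ⟩ := R.exists_integral_basis HL HLb hmany D
  have := finiteDimensional_L HL D
  refine ⟨n, β, hO, hn, hL, hli, ?_, hA, hκ, fun i => ?_⟩
  · have hle : Submodule.span K (Set.range β) ≤ riemannRochSpace D :=
      Submodule.span_le.2 (by rintro _ ⟨i, rfl⟩; exact hL i)
    apply Submodule.eq_of_le_of_finrank_eq hle
    rw [finrank_span_eq_card hli, Fintype.card_fin, hn]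
  · exact R.ρ_mem_L HL (hκ.ne_zero i) (hL i)

/-- **semicontinuity**: `l(D) ≤ l(r_* D)`. -/
theorem finrank_L_le (HL : LHyp K F) (HLb : LHyp (ResidueField A) Fb)
    (hmany : R.HasManyPlaces) (D : Divisor K F) :
    Module.finrank K (riemannRochSpace D) ≤
      Module.finrank (ResidueField A) (riemannRochSpace (Finsupp.mapDomain R.r D)) := by
  obtain ⟨n, β, hO, hn, -, -, -, -, hκ, hb⟩ := R.exists_integral_basis' HL HLb hmany D
  have := finiteDimensional_L HLb (Finsupp.mapDomain R.r D)
  have hκ' : LinearIndependent (ResidueField A)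
      (fun i => (⟨R.ρ ⟨β i, hO i⟩, hb i⟩ : riemannRochSpace (Finsupp.mapDomain R.r D))) := by
    apply LinearIndependent.of_comp (riemannRochSpace (Finsupp.mapDomain R.r D)).subtype
    exact hκ
  have h := hκ'.fintype_card_le_finrank
  rw [Fintype.card_fin] at h
  rw [← hn]
  exact h

end AbsRed

end Fermat.Agent.FF.RedLat2
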