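/-
Programme FF, chapter GB (helper6): **the hypotheses `RR.LSpace.LHyp` and Riemann's theorem on the
special fibre** `F̃ = modularFunctionFieldFullC k M / k` (`k = ResidueField A`, characteristic `ℓ`),
at a level `M` with Hauptmodul datum `(n, e)`, `ℓ ∤ M`.

* `lHyp_special` : `LHyp k F̃` — residue fields and degrees from `X0.FFConst` (no characteristic
  hypothesis), principal divisors by REDUCTION: `f̃ = ã / b̃` with `a, b` `A`-integral
  (`FracRed16.exists_frac_red`), `div f̃ := r_* div a - r_* div b` for any place reduction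
  `r` (`IsPlaceReductionModL A M r`), degree zero inherited from characteristic zero;
* `riemann_inequality_special` : Riemann's inequality on `F̃` (`RR.Riemann.riemann_inequality'` with the
  pole sum of `t̃` from `SumOrdSep15.sum_ord_poles_sep` and `SpecialGen25.isSeparable_tRes`).
-/
import Mathlib
import Fermat.Agent.RR.Riemann
import Fermat.Agent.RR.LHypGen
import Fermat.Agent.ES.RED.SpecialInv25
import Fermat.Agent.ES.RED.FracRed16
import Fermat.Agent.ES.RED.RedMem16

set_option autoImplicit false
set_option linter.unusedSectionVars false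
set_option linter.style.haveILetI false
set_option synthInstance.maxHeartbeats 400000

noncomputable section

open HahnSeries ModularCurve IntermediateField AlgebraicCurve

namespace Fermat.Agent.FF.SpecialRR6

open Fermat.Agent.X0 Fermat.Agent.RED.Interface4 Fermat.Agent.RED.BASE
  Fermat.Agent.ES.RED.SpecialGen25 Fermat.Agent.ES.RED.SpecialInv25
  Fermat.Agent.ES.RED.SumOrdSep15 Fermat.Agent.RR.LSpace

variable (n e M : ℕ) [NeZero n] [NeZero M] (ℓ : ℕ) [Fact ℓ.Prime] (hℓM : ¬ ℓ ∣ M)
  (hmem : Interface12.TMem n e M) (hgen : Interface12.TGenBase n e)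
  (A : ValuationSubring Qbar) (hA : A.LiesOverPrime ℓ)

/-- the residue field of `A`. -/
local notation "kk" => IsLocalRing.ResidueField A

/-- the special-fibre function field. -/
local notation "Ft" => (modularFunctionFieldFullC (IsLocalRing.ResidueField A) M)

include hmem in
/-- `LHyp` upstairs (characteristic zero). -/
theorem lHyp_bar : LHyp Qbar (X0.FF M) :=
  Fermat.Agent.RR.LHypGen.lHyp_of_isGen (isGen_tF n e M hmem)

include hℓM hmem hgen hA in
/-- **`LHyp` on the special fibre.** -/
theorem lHyp_special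
    (r : Place Qbar (X0.FF M) → Place kk Ft) (hr : IsPlaceReductionModL A M r) :
    LHyp kk Ft := by
  haveI : IsAlgClosed kk := isAlgClosed_kk A
  have hxt := isGen_tRes n e M ℓ hℓM hmem hgen A hA
  have HF := lHyp_bar n e M hmem
  refine
    { residue := fun v f hf => FF.exists_ord_sub_pos hxt v hf
      deg_eq_one := fun v => FF.deg_eq_one hxt v
      principal := ?_
      nonempty := ?_ }
  · intro f hf
    obtain ⟨Ya, Yb, ha, hb, -, -, hb0, hab⟩ :=
      Fermat.Agent.ES.RED.FracRed16.exists_frac_red A n e ℓ hℓM hmem hgen hA f.2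
    have hak : coeffMap (IsLocalRing.residue ↥A) Ya ∈ modularFunctionFieldFullC kk M :=
      Fermat.Agent.ES.RED.RedMem16.coeffMap_residue_mem_fullC A ℓ hA hℓM Ya ha
    have hbk : coeffMap (IsLocalRing.residue ↥A) Yb ∈ modularFunctionFieldFullC kk M :=
      Fermat.Agent.ES.RED.RedMem16.coeffMap_residue_mem_fullC A ℓ hA hℓM Yb hb
    have ha0 : coeffMap (IsLocalRing.residue ↥A) Ya ≠ 0 := by
      rw [← hab]
      exact mul_ne_zero (fun h => hf (Subtype.ext h)) hb0
    -- upstairs elements are nonzero
    have haF : (⟨coeffMap A.subtype Ya, ha⟩ : X0.FF M) ≠ 0 := by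
      intro h
      apply ha0
      have h1 : coeffMap A.subtype Ya = 0 := congrArg Subtype.val h
      have h2 : Ya = 0 :=
        Fermat.Agent.ES.RED.Setup8.coeffMap_subtype_injective A (h1.trans (map_zero _).symm)
      rw [h2, map_zero]
    have hbF : (⟨coeffMap A.subtype Yb, hb⟩ : X0.FF M) ≠ 0 := by
      intro h
      apply hb0
      have h1 : coeffMap A.subtype Yb = 0 := congrArg Subtype.val h
      have h2 : Yb = 0 :=
        Fermat.Agent.ES.RED.Setup8.coeffMap_subtype_injective A (h1.trans (map_zero _).symm)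
      rw [h2, map_zero]
    set Da := divOf HF haF with hDa
    set Db := divOf HF hbF with hDb
    have hQa := hr.2 Ya ha hak ha0 Da (fun P => divOf_apply HF haF P)
    have hQb := hr.2 Yb hb hbk hb0 Db (fun P => divOf_apply HF hbF P)
    refine ⟨Finsupp.mapDomain r Da - Finsupp.mapDomain r Db, fun Q => ?_, ?_⟩
    · rw [Finsupp.sub_apply, hQa Q, hQb Q]
      have hfb : f * (⟨coeffMap (IsLocalRing.residue ↥A) Yb, hbk⟩ : Ft) =
          ⟨coeffMap (IsLocalRing.residue ↥A) Ya, hak⟩ := Subtype.ext hab
      rw [← hfb, Q.ord_mul hf (fun h => hb0 (congrArg Subtype.val h))]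
      ring
    · rw [map_sub, degree_mapDomain_of_deg_eq hr.1, degree_mapDomain_of_deg_eq hr.1,
        hDa, hDb, degree_divOf, degree_divOf, sub_zero]
  · obtain ⟨P⟩ := HF.nonempty
    exact ⟨r P⟩

include hℓM hmem hgen hA in
/-- **Riemann's inequality on the special fibre.** -/
theorem riemann_inequality_special
    (r : Place Qbar (X0.FF M) → Place kk Ft) (hr : IsPlaceReductionModL A M r) :
    ∃ γ : ℤ, ∀ D : Divisor kk Ft,
      Divisor.degree D + 1 - γ ≤ (Module.finrank kk (riemannRochSpace D) : ℤ) := by
  haveI : IsAlgClosed kk := isAlgClosed_kk A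
  have hxt := isGen_tRes n e M ℓ hℓM hmem hgen A hA
  haveI := hxt.finite
  haveI := isSeparable_tRes n e M ℓ hℓM hmem hgen A hA
  exact Fermat.Agent.RR.Riemann.riemann_inequality' (lHyp_special n e M ℓ hℓM hmem hgen A hA r hr)
    hxt.transcendental (sum_ord_poles_sep hxt)

end Fermat.Agent.FF.SpecialRR6
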