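/-
FF/GaussOv1D (helper1): chapter G0, consequences of `GaussOv1B/C`.

* `infinite_place_of_lHyp` : a function field with `LHyp` over an infinite field has infinitely many
  places (zeros of `x - c`, `c ∈ K`).
* `r_surjective` : at a level with a Hauptmodul, ANY place reduction `r` (Prelude's
  `IsPlaceReductionModL A M r`) is SURJECTIVE on places (lift a function with a pole at `Q` through
  `ρ`, apply the push-forward formula).
* `absRed` : helper2's `RedLat2.AbsRed` for `Fbar M` over `A` (via `RedBridge5.ofRedCtxV`, so `O`, `ρ`,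
  `r` are definitionally those of `GaussOv1.redCtxV`), and `hasManyPlaces`.
-/
import Mathlib
import Fermat.Agent.FF.GaussOv1C
import Fermat.Agent.FF.RedBridge5
import Fermat.Agent.FF.RedLat2B
import Fermat.Agent.FF.SpecialRR6G

set_option autoImplicit false
set_option linter.unusedSectionVars false
set_option synthInstance.maxHeartbeats 400000

noncomputable section

namespace Fermat.Agent.FF.GaussOv1

open HahnSeries ModularCurve AlgebraicCurve IsLocalRing IntermediateField
open Fermat.Agent.RED.Interface4 Fermat.Agent.ES.RED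
open Fermat.Agent.FF.UniqueZeroA Fermat.Agent.FF.DiscOfRedA Fermat.Agent.RR.LSpace
open Fermat.Agent.X0.FF

section Abstract

variable {K F : Type*} [Field K] [Field F] [Algebra K F]

/-- a nonconstant function has a zero. -/
theorem exists_ord_pos_of_not_const (H : LHyp K F) {f : F}
    (hf : ∀ c : K, f ≠ algebraMap K F c) : ∃ v : Place K F, 0 < v.ord f := by
  by_contra hno
  push Not at hno
  have hf0 : f ≠ 0 := by
    intro h0
    exact hf 0 (by rw [h0, map_zero])
  have h1 : ∀ v : Place K F, 0 ≤ v.ord f⁻¹ := by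
    intro v
    rw [v.ord_inv]
    have := hno v
    omega
  obtain ⟨c, hc⟩ := eq_algebraMap_of_forall_ord_nonneg H h1
  apply hf c⁻¹
  rw [map_inv₀, ← hc, inv_inv]

/-- **infinitely many places** over an infinite constant field. -/
theorem infinite_place_of_lHyp (H : LHyp K F) [Infinite K] : Infinite (Place K F) := by
  obtain ⟨v₀⟩ := H.nonempty
  -- a nonconstant function: something outside the valuation ring of `v₀`
  obtain ⟨x, hx⟩ : ∃ x : F, x ∉ v₀.toValuationSubring := by
    by_contra hall
    push Not at hall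
    exact v₀.ne_top' (SetLike.ext fun x => ⟨fun _ => ValuationSubring.mem_top x, fun _ => hall x⟩)
  have hxc : ∀ c c' : K, x - algebraMap K F c ≠ algebraMap K F c' := by
    intro c c' h
    apply hx
    have : x = algebraMap K F (c' + c) := by rw [map_add, ← h]; ring
    rw [this]
    exact v₀.algebraMap_mem' _
  choose w hw using fun c : K => exists_ord_pos_of_not_const H (hxc c)
  have hinj : Function.Injective w := by
    intro c c' hcc
    by_contra hne
    have h1 := hw c
    have h2 := hw c'
    rw [← hcc] at h2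
    have hd : algebraMap K F (c' - c) ≠ 0 := by
      rw [Ne, map_eq_zero, sub_eq_zero]; exact fun h => hne h.symm
    have h3 : (x - algebraMap K F c) - (x - algebraMap K F c') = algebraMap K F (c' - c) := by
      rw [map_sub]; ring
    have h4 := ord_sub_ge (w c) (f := x - algebraMap K F c) (g := x - algebraMap K F c')
      (by rw [h3]; exact hd)
    rw [h3, ord_algebraMap] at h4
    have : 0 < min ((w c).ord (x - algebraMap K F c)) ((w c).ord (x - algebraMap K F c')) :=
      lt_min h1 h2
    omega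
  exact Infinite.of_injective w hinj

end Abstract

section Concrete

variable (A : ValuationSubring Qbar) (M : ℕ) [NeZero M] (ℓ : ℕ) [Fact ℓ.Prime]
  (hA : A.LiesOverPrime ℓ) (hℓM : ¬ ℓ ∣ M)

include hA hℓM in
/-- **every place reduction is surjective on places** (levels with a Hauptmodul). -/
theorem r_surjective (n e : ℕ) [NeZero n]
    (hmem : Fermat.Agent.RED.BASE.Interface12.TMem n e M)
    (hgen : Fermat.Agent.RED.BASE.Interface12.TGenBase n e)
    (r : Place Qbar ↥(Fbar M) → Place (Setup8.kA A) ↥(modularFunctionFieldFullC (Setup8.kA A) M))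
    (hr : IsPlaceReductionModL A M r) : Function.Surjective r := by
  intro Q
  -- a function with a pole at `Q`
  obtain ⟨fb, hfb⟩ : ∃ fb : ↥(modularFunctionFieldFullC (Setup8.kA A) M),
      fb ∉ Q.toValuationSubring := by
    by_contra hall
    push Not at hall
    exact Q.ne_top' (SetLike.ext fun x => ⟨fun _ => ValuationSubring.mem_top x, fun _ => hall x⟩)
  have hfb' : ¬ (fb = 0 ∨ 0 ≤ Q.ord fb) := fun h => hfb ((mem_iff_ord_nonneg Q).2 h)
  push Not at hfb'
  obtain ⟨y, hy⟩ := ρ_surjective A M ℓ hA hℓM n e hmem hgen fb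
  have hρ : ρ A M ℓ hA hℓM y ≠ 0 := by rw [hy]; exact hfb'.1
  have hy0 := coe_ne_zero_of_ρ_ne_zero A M ℓ hA hℓM hρ
  obtain ⟨D, hD⟩ := exists_div M (y : ↥(Fbar M)) hy0
  have hpush := push A M ℓ hA hℓM r hr y hρ D hD Q
  rw [hy] at hpush
  by_contra hno
  have hQ : Q ∉ Set.range r := fun ⟨P, hP⟩ => hno ⟨P, hP⟩
  rw [Finsupp.mapDomain_of_notMem_range _ _ hQ] at hpush
  have := hfb'.2
  omega

/-- **helper2's `AbsRed`** for `Fbar M` over `A`; `O`, `ρ`, `r` as in `redCtxV`. -/
def absRed
    (r : Place Qbar ↥(Fbar M) → Place (Setup8.kA A) ↥(modularFunctionFieldFullC (Setup8.kA A) M))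
    (hr : IsPlaceReductionModL A M r) :
    Fermat.Agent.FF.RedLat2.AbsRed A ↥(Fbar M) ↥(modularFunctionFieldFullC (Setup8.kA A) M) :=
  Fermat.Agent.FF.RedBridge5.ofRedCtxV (redCtxV A M ℓ hA hℓM r hr)
    (fun a => ρ_const A M ℓ hA hℓM a)
    (fun y hy => by
      by_cases hy0 : (y : ↥(Fbar M)) = 0
      · exact ⟨0, Ideal.zero_mem _, 0, by rw [hy0]; simp⟩
      · obtain ⟨c, y₁, hc, -, -, h⟩ := exists_eq_smul_of_ρ_eq_zero A M ℓ hA hℓM y hy0 hy
        exact ⟨c, hc, y₁, h⟩)

@[simp] theorem absRed_O
    (r : Place Qbar ↥(Fbar M) → Place (Setup8.kA A) ↥(modularFunctionFieldFullC (Setup8.kA A) M))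
    (hr : IsPlaceReductionModL A M r) : (absRed A M ℓ hA hℓM r hr).O = Ov A M ℓ hA hℓM := rfl

@[simp] theorem absRed_ρ
    (r : Place Qbar ↥(Fbar M) → Place (Setup8.kA A) ↥(modularFunctionFieldFullC (Setup8.kA A) M))
    (hr : IsPlaceReductionModL A M r) : (absRed A M ℓ hA hℓM r hr).ρ = ρ A M ℓ hA hℓM := rfl

@[simp] theorem absRed_r
    (r : Place Qbar ↥(Fbar M) → Place (Setup8.kA A) ↥(modularFunctionFieldFullC (Setup8.kA A) M))
    (hr : IsPlaceReductionModL A M r) : (absRed A M ℓ hA hℓM r hr).r = r := rfl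

/-- the image of `r` is infinite (`RedLat2.AbsRed.HasManyPlaces`). -/
theorem hasManyPlaces (n e : ℕ) [NeZero n]
    (hmem : Fermat.Agent.RED.BASE.Interface12.TMem n e M)
    (hgen : Fermat.Agent.RED.BASE.Interface12.TGenBase n e)
    (r : Place Qbar ↥(Fbar M) → Place (Setup8.kA A) ↥(modularFunctionFieldFullC (Setup8.kA A) M))
    (hr : IsPlaceReductionModL A M r) :
    (absRed A M ℓ hA hℓM r hr).HasManyPlaces := by
  intro S
  have HLb := Fermat.Agent.FF.SpecialRR6.lHyp_special n e M ℓ hℓM hmem hgen A hA r hr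
  have : IsAlgClosed (Setup8.kA A) := Fermat.Agent.ES.RED.SpecialInv25.isAlgClosed_kk A
  have : Infinite (Setup8.kA A) := IsAlgClosed.instInfinite
  have := infinite_place_of_lHyp HLb
  obtain ⟨Q, hQ⟩ := Infinite.exists_notMem_finset S
  obtain ⟨P, hP⟩ := r_surjective A M ℓ hA hℓM n e hmem hgen r hr Q
  exact ⟨P, by rw [absRed_r, hP]; exact hQ⟩

end Concrete

end Fermat.Agent.FF.GaussOv1
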