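/-
Programme FF (S19), chapter A2 (helper4): DESCENT, part B — the ring `W₀ = A^I` of inertia-fixed
elements of a valuation subring `A` of `ℚ̄` over `ℓ`, and the arithmetic facts used by the descent:

* `exists_pow_mul_mem` : every element of `ℚ̄` is carried into `A` by a power of `ℓ`;
* `exists_div_pow_not_mem` : `A` is `ℓ`-adically separated;
* `W0` : the subring of inertia-fixed elements of `A`; it contains `ℤ_(ℓ)`, is stable under inverses of
  units and under the decomposition group, and is UNRAMIFIED: `x ∈ W₀ ∩ 𝔪_A ⇒ x / ℓ ∈ W₀`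
  (from `ES/P36/UnrFixed1`);
* `exists_intCast_sub_div_mem` : a Frobenius-fixed element of `W₀` is `ℓ`-adically approximable by
  integers.
-/
import Mathlib
import Fermat.Prelude.Def_FLTPrelim_Ramification
import Fermat.Prelude.Def_EllipticCurve_FrobeniusTrace
import Fermat.Prelude.Def_GaloisRep_Flat
import Fermat.Agent.S05.Inertia
import Fermat.Agent.ES.J.CycloChar8
import Fermat.Agent.ES.FROB.FrobFacts12
import Fermat.Agent.ES.P36.UnrFixed1
import Fermat.Agent.FF.Desc4A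

set_option autoImplicit false

open Polynomial

namespace Fermat.Agent.FF.Desc4

noncomputable section

open Fermat.Agent.Lib.FrobeniusExists (mem_valuationSubring_of_isIntegral isAlgebraic_int_Qbar)

variable (A : ValuationSubring Qb) {ℓ : ℕ}

/-! ### `ℓ`-adic size of elements of `ℚ̄` -/

/-- a power of `ℓ` carries any given element of `ℚ̄` into `A`. -/
theorem exists_pow_mul_mem (hℓ : ℓ.Prime) (hA : A.LiesOverPrime ℓ) (c : Qb) :
    ∃ N : ℕ, (ℓ : Qb) ^ N * c ∈ A := by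
  obtain ⟨n, hn0, hn⟩ := (isAlgebraic_int_Qbar c).exists_integral_multiple
  have hnc : (n : Qb) * c ∈ A := by
    have h1 : n • c = (n : Qb) * c := by rw [zsmul_eq_mul]
    rw [← h1]
    exact mem_valuationSubring_of_isIntegral A hn
  -- write `n = ℓ ^ N * n'` with `ℓ ∤ n'`
  obtain ⟨N, n', hn', hnn'⟩ : ∃ (N : ℕ) (n' : ℤ), ¬ (ℓ : ℤ) ∣ n' ∧ n = (ℓ : ℤ) ^ N * n' := by
    have hfin : FiniteMultiplicity (ℓ : ℤ) n := by
      rw [Int.finiteMultiplicity_iff]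
      refine ⟨?_, hn0⟩
      rw [Int.natAbs_natCast]
      exact hℓ.ne_one
    obtain ⟨n', hn'⟩ := pow_multiplicity_dvd (ℓ : ℤ) n
    refine ⟨multiplicity (ℓ : ℤ) n, n', ?_, hn'⟩
    intro hdvd
    obtain ⟨m, hm⟩ := hdvd
    have : (ℓ : ℤ) ^ (multiplicity (ℓ : ℤ) n + 1) ∣ n :=
      ⟨m, by rw [pow_succ, mul_assoc, ← hm]; exact hn'⟩
    exact hfin.not_pow_dvd_of_multiplicity_lt (Nat.lt_succ_self _) this
  refine ⟨N, ?_⟩
  have hv : A.valuation ((n' : ℤ) : Qb) = 1 :=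
    Fermat.Agent.S05.Inertia.valuation_intCast_eq_one hℓ hA hn'
  have h2 : (ℓ : Qb) ^ N * c = ((n : Qb) * c) * ((n' : ℤ) : Qb)⁻¹ := by
    have hn'0 : ((n' : ℤ) : Qb) ≠ 0 := by
      intro h0
      rw [h0, map_zero] at hv
      exact zero_ne_one hv
    rw [hnn']
    push_cast
    field_simp
  rw [h2, ← ValuationSubring.valuation_le_one_iff, map_mul, map_inv₀, hv, inv_one, mul_one]
  exact (ValuationSubring.valuation_le_one_iff A _).2 hnc

theorem natCast_mem_nonunits (hA : A.LiesOverPrime ℓ) : (ℓ : Qb) ∈ A.nonunits := hA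

theorem natCast_mem_of_liesOver (hA : A.LiesOverPrime ℓ) : (ℓ : Qb) ∈ A := A.nonunits_subset hA

theorem natCast_ne_zero (hℓ : ℓ.Prime) : (ℓ : Qb) ≠ 0 := Nat.cast_ne_zero.2 hℓ.ne_zero

/-- `A` is `ℓ`-adically separated. -/
theorem exists_div_pow_not_mem (hℓ : ℓ.Prime) (hA : A.LiesOverPrime ℓ) {x : Qb} (hx : x ≠ 0) :
    ∃ N : ℕ, x / (ℓ : Qb) ^ N ∉ A := by
  obtain ⟨N, hN⟩ := exists_pow_mul_mem A hℓ hA x⁻¹
  refine ⟨N + 1, fun hmem => ?_⟩
  have hℓ0 := natCast_ne_zero (ℓ := ℓ) hℓ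
  have h1 : ((ℓ : Qb) ^ N * x⁻¹) * (x / (ℓ : Qb) ^ (N + 1)) = (ℓ : Qb)⁻¹ := by
    rw [pow_succ]
    field_simp
  have h2 : (ℓ : Qb)⁻¹ ∈ A := h1 ▸ A.mul_mem _ _ hN hmem
  have h3 : A.valuation (ℓ : Qb) < 1 := (ValuationSubring.mem_nonunits_iff (A := A)).1 hA
  have h4 : A.valuation ((ℓ : Qb)⁻¹) ≤ 1 := (ValuationSubring.valuation_le_one_iff A _).2 h2
  rw [map_inv₀] at h4
  have h5 : A.valuation (ℓ : Qb) ≠ 0 := (Valuation.ne_zero_iff _).2 hℓ0
  have h6 : (1 : ValuationSubring.ValueGroup A) ≤ A.valuation (ℓ : Qb) := by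
    have := mul_le_mul_left h4 (A.valuation (ℓ : Qb))
    rwa [inv_mul_cancel₀ h5, one_mul] at this
  exact absurd h3 (not_lt.2 h6)

/-! ### The ring `W₀` of inertia-fixed elements of `A` -/

/-- `W₀ = A^I`. -/
def W0 : Subring Qb where
  carrier := {x | x ∈ A ∧ ∀ τ ∈ A.inertiaSubgroupIn ℚ, τ x = x}
  mul_mem' := by
    rintro a b ⟨ha, ha'⟩ ⟨hb, hb'⟩
    exact ⟨A.mul_mem _ _ ha hb, fun τ hτ => by rw [map_mul, ha' τ hτ, hb' τ hτ]⟩
  one_mem' := ⟨A.one_mem, fun τ _ => map_one τ⟩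
  add_mem' := by
    rintro a b ⟨ha, ha'⟩ ⟨hb, hb'⟩
    exact ⟨A.add_mem _ _ ha hb, fun τ hτ => by rw [map_add, ha' τ hτ, hb' τ hτ]⟩
  zero_mem' := ⟨A.zero_mem, fun τ _ => map_zero τ⟩
  neg_mem' := by
    rintro a ⟨ha, ha'⟩
    exact ⟨A.neg_mem _ ha, fun τ hτ => by rw [map_neg, ha' τ hτ]⟩

variable {A}

theorem mem_W0 {x : Qb} : x ∈ W0 A ↔ x ∈ A ∧ ∀ τ ∈ A.inertiaSubgroupIn ℚ, τ x = x := Iff.rfl

theorem mem_of_mem_W0 {x : Qb} (hx : x ∈ W0 A) : x ∈ A := hx.1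

theorem intCast_mem_W0 (n : ℤ) : (n : Qb) ∈ W0 A := intCast_mem (W0 A) n

theorem natCast_mem_W0 (n : ℕ) : (n : Qb) ∈ W0 A := natCast_mem (W0 A) n

/-- inverses of units of `A` lying in `W₀` are in `W₀`. -/
theorem inv_mem_W0 {x : Qb} (hx : x ∈ W0 A) (hu : x ∉ A.nonunits) : x⁻¹ ∈ W0 A := by
  refine ⟨?_, fun τ hτ => by rw [map_inv₀, hx.2 τ hτ]⟩
  have h1 : A.valuation x = 1 := by
    have h2 : A.valuation x ≤ 1 := (ValuationSubring.valuation_le_one_iff A x).2 hx.1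
    have h3 : ¬ A.valuation x < 1 := fun h => hu ((ValuationSubring.mem_nonunits_iff (A := A)).2 h)
    exact le_antisymm h2 (not_lt.1 h3)
  rw [← ValuationSubring.valuation_le_one_iff, map_inv₀, h1, inv_one]

/-- rational numbers in `ℤ_(ℓ)` lie in `W₀`. -/
theorem ratCast_mem_W0 (hℓ : ℓ.Prime) (hA : A.LiesOverPrime ℓ) {r : ℚ}
    (hr : r ∈ GaloisRep.ratLocalizedAt ℓ) : (r : Qb) ∈ W0 A := by
  refine ⟨?_, fun τ _ => map_ratCast τ r⟩
  have hr' : ¬ ℓ ∣ r.den := by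
    intro hd
    have hc : r.den.Coprime ℓ := hr
    have : ℓ ∣ Nat.gcd r.den ℓ := Nat.dvd_gcd hd dvd_rfl
    rw [hc] at this
    exact hℓ.one_lt.ne' (Nat.dvd_one.1 this)
  exact (ValuationSubring.valuation_le_one_iff A _).1
    (Fermat.Agent.S05.Inertia.valuation_ratCast_le_one hℓ hA r hr')

/-- a rational number lying in `A` lies in `ℤ_(ℓ)`. -/
theorem mem_ratLocalizedAt_of_mem (hℓ : ℓ.Prime) (hA : A.LiesOverPrime ℓ) {r : ℚ}
    (hr : (r : Qb) ∈ A) : r ∈ GaloisRep.ratLocalizedAt ℓ := by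
  show r.den.Coprime ℓ
  by_contra hc
  have hd : ℓ ∣ r.den := by
    rcases Nat.coprime_or_dvd_of_prime hℓ r.den with h | h
    · exact absurd h.symm hc
    · exact h
  have hnum : ¬ ℓ ∣ r.num.natAbs := by
    intro hn
    have := Nat.dvd_gcd hn hd
    rw [r.reduced] at this
    exact hℓ.one_lt.ne' (Nat.dvd_one.1 this)
  have hnum' : ¬ (ℓ : ℤ) ∣ r.num := fun h => hnum (Int.natCast_dvd.1 h)
  have h1 : A.valuation ((r.num : ℤ) : Qb) = 1 :=
    Fermat.Agent.S05.Inertia.valuation_intCast_eq_one hℓ hA hnum'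
  have h2 : A.valuation ((r.den : ℕ) : Qb) < 1 :=
    (Fermat.Agent.S05.Inertia.valuation_natCast_lt_one_iff hℓ hA r.den).2 hd
  have h3 : A.valuation (r : Qb) ≤ 1 := (ValuationSubring.valuation_le_one_iff A _).2 hr
  have h4 : (r : Qb) * (r.den : Qb) = (r.num : Qb) := by
    have := Rat.mul_den_eq_num r
    exact_mod_cast congrArg (fun q : ℚ => (q : Qb)) this
  have h5 : A.valuation ((r.num : ℤ) : Qb) < 1 := by
    rw [← h4, map_mul]
    calc A.valuation (r : Qb) * A.valuation ((r.den : ℕ) : Qb)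
        ≤ 1 * A.valuation ((r.den : ℕ) : Qb) := mul_le_mul_left h3 _
      _ = A.valuation ((r.den : ℕ) : Qb) := one_mul _
      _ < 1 := h2
  rw [h1] at h5
  exact lt_irrefl _ h5

/-- `W₀` is stable under the decomposition group. -/
theorem apply_mem_W0 {σ : GQ} (hσ : σ ∈ A.decompositionSubgroup ℚ) {x : Qb} (hx : x ∈ W0 A) :
    σ x ∈ W0 A := by
  refine ⟨(Fermat.Agent.S05.Inertia.apply_mem_iff_of_mem_decomposition hσ x).2 hx.1,
    fun τ hτ => ?_⟩
  have hinv : σ⁻¹ ∈ A.decompositionSubgroup ℚ := (A.decompositionSubgroup ℚ).inv_mem hσ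
  have h1 := Fermat.Agent.ES.FROB.FrobFacts12.conj_mem_inertiaSubgroupIn A hinv hτ
  rw [inv_inv] at h1
  have h2 := hx.2 _ h1
  have h3 : σ ((σ⁻¹ * τ * σ) x) = σ x := by rw [h2]
  simpa [AlgEquiv.mul_apply] using h3

theorem pow_apply_mem_W0 {σ : GQ} (hσ : σ ∈ A.decompositionSubgroup ℚ) (n : ℕ) {x : Qb}
    (hx : x ∈ W0 A) : (σ ^ n) x ∈ W0 A :=
  apply_mem_W0 ((A.decompositionSubgroup ℚ).pow_mem hσ n) hx

/-- **`W₀` is unramified over `ℤ_(ℓ)`.** -/
theorem div_natCast_mem_W0 (hℓ : ℓ.Prime) (hA : A.LiesOverPrime ℓ) {x : Qb} (hx : x ∈ W0 A)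
    (hm : x ∈ A.nonunits) : x / (ℓ : Qb) ∈ W0 A := by
  refine ⟨Fermat.Agent.ES.P36.UnrFixed1.div_natCast_mem_of_fixed A hℓ hA x hx.2 hm,
    fun τ hτ => ?_⟩
  rw [map_div₀, hx.2 τ hτ, map_natCast]

/-! ### Frobenius-fixed elements are approximable by integers -/

/-- in a field of characteristic `ℓ`, the solutions of `y ^ ℓ = y` are the natural numbers. -/
theorem exists_natCast_eq_of_pow_eq {κ : Type*} [Field κ] (hℓ : ℓ.Prime) [CharP κ ℓ] {y : κ}
    (hy : y ^ ℓ = y) : ∃ r : ℕ, (r : κ) = y := by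
  classical
  by_contra hne
  push Not at hne
  have : Fact ℓ.Prime := ⟨hℓ⟩
  set g : κ[X] := X ^ ℓ - X with hg
  have hg0 : g ≠ 0 := FiniteField.X_pow_card_sub_X_ne_zero κ hℓ.one_lt
  have hdeg : g.natDegree = ℓ := FiniteField.X_pow_card_sub_X_natDegree_eq κ hℓ.one_lt
  set S : Finset κ := (Finset.range ℓ).image (fun r : ℕ => (r : κ)) with hS
  have hcard : S.card = ℓ := by
    rw [hS, Finset.card_image_of_injOn, Finset.card_range]
    intro a ha b hb hab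
    exact CharP.natCast_injOn_Iio κ ℓ (by simpa using ha) (by simpa using hb) hab
  have hroot : ∀ z ∈ insert y S, z ∈ g.roots.toFinset := by
    intro z hz
    rw [Multiset.mem_toFinset, mem_roots hg0, IsRoot.def, hg, eval_sub, eval_pow, eval_X, sub_eq_zero]
    rcases Finset.mem_insert.1 hz with rfl | hz
    · exact hy
    · obtain ⟨r, _, rfl⟩ := Finset.mem_image.1 hz
      have := map_natCast (frobenius κ ℓ) r
      rwa [frobenius_def] at this
  have hnot : y ∉ S := by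
    intro hyS
    obtain ⟨r, _, hr⟩ := Finset.mem_image.1 hyS
    exact hne r hr
  have h1 : (insert y S).card = ℓ + 1 := by rw [Finset.card_insert_of_notMem hnot, hcard]
  have h2 : (insert y S).card ≤ g.roots.toFinset.card := Finset.card_le_card hroot
  have h3 : g.roots.toFinset.card ≤ ℓ := by
    calc g.roots.toFinset.card ≤ Multiset.card g.roots := Multiset.toFinset_card_le _
      _ ≤ g.natDegree := Polynomial.card_roots' g
      _ = ℓ := hdeg
  omega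

theorem charP_residueField (hℓ : ℓ.Prime) (hA : A.LiesOverPrime ℓ) :
    CharP (IsLocalRing.ResidueField A) ℓ := by
  rw [CharP.charP_iff_prime_eq_zero hℓ]
  have h1 : ((ℓ : A) : Qb) = (ℓ : Qb) := by push_cast; rfl
  have h2 : (ℓ : A) ∈ IsLocalRing.maximalIdeal A := by
    have : ((ℓ : A) : Qb) ∈ A.nonunits := by rw [h1]; exact hA
    obtain ⟨hx, hx'⟩ := ValuationSubring.mem_nonunits_iff_exists_mem_maximalIdeal.1 this
    exact hx'
  have h3 : IsLocalRing.residue A (ℓ : A) = 0 := (IsLocalRing.residue_eq_zero_iff _).2 h2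
  rw [← h3, map_natCast]

/-- a Frobenius-fixed element of `A` is congruent to an integer modulo `𝔪_A`. -/
theorem exists_natCast_sub_mem_nonunits (hℓ : ℓ.Prime) (hA : A.LiesOverPrime ℓ) {φ : GQ}
    (hφ : A.IsFrobeniusAt φ ℓ) {x : Qb} (hx : x ∈ A) (hfix : φ x = x) :
    ∃ r : ℕ, x - (r : Qb) ∈ A.nonunits := by
  have := charP_residueField hℓ hA
  have h1 := Fermat.Agent.ES.J.CycloChar8.frob_apply_sub_pow_mem_nonunits hφ hx
  rw [hfix] at h1
  -- residue of `x`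
  set y : IsLocalRing.ResidueField A := IsLocalRing.residue A ⟨x, hx⟩ with hy
  have hy' : y ^ ℓ = y := by
    obtain ⟨hmem, hmax⟩ := ValuationSubring.mem_nonunits_iff_exists_mem_maximalIdeal.1 h1
    have h2 : (⟨x - x ^ ℓ, hmem⟩ : A) = ⟨x, hx⟩ - ⟨x, hx⟩ ^ ℓ := rfl
    rw [h2] at hmax
    have h3 := (IsLocalRing.residue_eq_zero_iff _).2 hmax
    rw [map_sub, map_pow, sub_eq_zero] at h3
    exact h3.symm
  obtain ⟨r, hr⟩ := exists_natCast_eq_of_pow_eq hℓ hy'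
  refine ⟨r, ?_⟩
  have h4 : IsLocalRing.residue A (⟨x, hx⟩ - (r : A)) = 0 := by
    rw [map_sub, map_natCast, ← hy, hr, sub_self]
  have h5 := (IsLocalRing.residue_eq_zero_iff _).1 h4
  have h6 : ((⟨x, hx⟩ - (r : A) : A) : Qb) = x - (r : Qb) := by push_cast; rfl
  rw [← h6]
  exact ValuationSubring.mem_nonunits_iff_exists_mem_maximalIdeal.2 ⟨_, h5⟩

/-- **density**: a Frobenius-fixed element of `W₀` is `ℓ`-adically approximable by integers. -/
theorem exists_intCast_sub_div_mem (hℓ : ℓ.Prime) (hA : A.LiesOverPrime ℓ) {φ : GQ}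
    (hφ : A.IsFrobeniusAt φ ℓ) {x : Qb} (hx : x ∈ W0 A) (hfix : φ x = x) (N : ℕ) :
    ∃ r : ℤ, (x - (r : Qb)) / (ℓ : Qb) ^ N ∈ W0 A := by
  induction N with
  | zero => exact ⟨0, by simpa using hx⟩
  | succ N ih =>
    obtain ⟨r, hr⟩ := ih
    set y : Qb := (x - (r : Qb)) / (ℓ : Qb) ^ N with hy
    have hyfix : φ y = y := by
      rw [hy, map_div₀, map_sub, hfix, map_intCast, map_pow, map_natCast]
    obtain ⟨s, hs⟩ := exists_natCast_sub_mem_nonunits hℓ hA hφ hr.1 hyfix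
    have hys : y - (s : Qb) ∈ W0 A := (W0 A).sub_mem hr (natCast_mem_W0 s)
    have h1 := div_natCast_mem_W0 hℓ hA hys hs
    refine ⟨r + s * (ℓ : ℤ) ^ N, ?_⟩
    have hℓ0 := natCast_ne_zero (ℓ := ℓ) hℓ
    have h2 : (x - ((r + s * (ℓ : ℤ) ^ N : ℤ) : Qb)) / (ℓ : Qb) ^ (N + 1) = (y - (s : Qb)) / (ℓ : Qb) := by
      rw [hy, pow_succ]
      push_cast
      field_simp
      ring
    rw [h2]
    exact h1

end

end Fermat.Agent.FF.Desc4
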