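/-
Programme FF (S19), chapter A2 (helper4): DESCENT, part C — the UNRAMIFIED (Speiser-type) descent step.

`A` a valuation subring of `ℚ̄` over `ℓ`, `φ` a Frobenius at `A`, `W₀ = A^I`.

* roots of unity of order prime to `ℓ` lie in `W₀`, `φ ζ = ζ ^ ℓ`, and distinct ones differ by a unit;
* the coefficients of Lagrange basis polynomials with nodes in a subring and unit differences lie in
  that subring;
* `unramified_descent` : if a class `P` of functions `M → ℚ̄` is stable under sums, `W₀`-scalars and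
  `star φ`, then every member of `P` is a `W₀`-combination of `star φ`-fixed members of `P`.
-/
import Mathlib
import Fermat.Agent.FF.Desc4B

set_option autoImplicit false

open Polynomial

namespace Fermat.Agent.FF.Desc4

noncomputable section

variable {A : ValuationSubring Qb} {ℓ : ℕ}

/-! ### roots of unity of order prime to `ℓ` -/

theorem valuation_eq_one_of_pow_eq_one' {m : ℕ} (hm : m ≠ 0) {η : Qb} (hη : η ^ m = 1) :
    A.valuation η = 1 :=
  Fermat.Agent.ES.J.CycloChar8.valuation_eq_one_of_pow_eq_one hm hη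

/-- two `m`-th roots of unity (`ℓ ∤ m`) congruent modulo `𝔪_A` are equal. -/
theorem eq_of_sub_mem_nonunits_of_pow_eq_one (hℓ : ℓ.Prime) (hA : A.LiesOverPrime ℓ) {m : ℕ}
    (hm : ¬ ℓ ∣ m) {x y : Qb} (hx : x ^ m = 1) (hy : y ^ m = 1) (h : x - y ∈ A.nonunits) :
    x = y := by
  have hm0 : m ≠ 0 := fun h0 => hm (h0 ▸ dvd_zero ℓ)
  have hy0 : y ≠ 0 := by
    intro h0
    rw [h0, zero_pow hm0] at hy
    exact zero_ne_one hy
  have hvy : A.valuation y = 1 := valuation_eq_one_of_pow_eq_one' hm0 hy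
  have hη : (x * y⁻¹) ^ m = 1 := by rw [mul_pow, inv_pow, hx, hy, inv_one, mul_one]
  have h1 : x * y⁻¹ - 1 ∈ A.nonunits := by
    have e : x * y⁻¹ - 1 = (x - y) * y⁻¹ := by field_simp
    rw [e, ValuationSubring.mem_nonunits_iff, map_mul, map_inv₀, hvy, inv_one, mul_one]
    exact (ValuationSubring.mem_nonunits_iff (A := A)).1 h
  have h2 := Fermat.Agent.ES.J.CycloChar8.eq_one_of_sub_one_mem_nonunits hℓ hA hm hη h1
  have h3 : x = (x * y⁻¹) * y := by field_simp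
  rw [h3, h2, one_mul]

/-- distinct `m`-th roots of unity (`ℓ ∤ m`) differ by a unit of `A`. -/
theorem sub_not_mem_nonunits (hℓ : ℓ.Prime) (hA : A.LiesOverPrime ℓ) {m : ℕ}
    (hm : ¬ ℓ ∣ m) {x y : Qb} (hx : x ^ m = 1) (hy : y ^ m = 1) (hxy : x ≠ y) :
    x - y ∉ A.nonunits :=
  fun h => hxy (eq_of_sub_mem_nonunits_of_pow_eq_one hℓ hA hm hx hy h)

/-- roots of unity of order prime to `ℓ` lie in `W₀`. -/
theorem rootOfUnity_mem_W0 (hℓ : ℓ.Prime) (hA : A.LiesOverPrime ℓ) {m : ℕ} (hm : ¬ ℓ ∣ m)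
    {ζ : Qb} (hζ : ζ ^ m = 1) : ζ ∈ W0 A := by
  have hm0 : m ≠ 0 := fun h0 => hm (h0 ▸ dvd_zero ℓ)
  have hmem : ζ ∈ A := Fermat.Agent.ES.J.CycloChar8.mem_of_pow_eq_one hm0 hζ
  refine ⟨hmem, fun τ hτ => ?_⟩
  have h1 : τ ζ - ζ ∈ A.nonunits := Fermat.Agent.S05.Inertia.apply_sub_mem_nonunits hτ hmem
  have h2 : (τ ζ) ^ m = 1 := by rw [← map_pow, hζ, map_one]
  exact eq_of_sub_mem_nonunits_of_pow_eq_one hℓ hA hm h2 hζ h1

/-- a Frobenius raises roots of unity of order prime to `ℓ` to the `ℓ`-th power. -/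
theorem frob_rootOfUnity (hℓ : ℓ.Prime) (hA : A.LiesOverPrime ℓ) {φ : GQ}
    (hφ : A.IsFrobeniusAt φ ℓ) {m : ℕ} (hm : ¬ ℓ ∣ m) {ζ : Qb} (hζ : ζ ^ m = 1) :
    φ ζ = ζ ^ ℓ := by
  have hm0 : m ≠ 0 := fun h0 => hm (h0 ▸ dvd_zero ℓ)
  have hmem : ζ ∈ A := Fermat.Agent.ES.J.CycloChar8.mem_of_pow_eq_one hm0 hζ
  have h1 := Fermat.Agent.ES.J.CycloChar8.frob_apply_sub_pow_mem_nonunits hφ hmem
  have h2 : (φ ζ) ^ m = 1 := by rw [← map_pow, hζ, map_one]
  have h3 : (ζ ^ ℓ) ^ m = 1 := by rw [← pow_mul, mul_comm, pow_mul, hζ, one_pow]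
  exact eq_of_sub_mem_nonunits_of_pow_eq_one hℓ hA hm h2 h3 h1

theorem pow_frob_rootOfUnity (hℓ : ℓ.Prime) (hA : A.LiesOverPrime ℓ) {φ : GQ}
    (hφ : A.IsFrobeniusAt φ ℓ) {m : ℕ} (hm : ¬ ℓ ∣ m) {ζ : Qb} (hζ : ζ ^ m = 1) (i : ℕ) :
    (φ ^ i) ζ = ζ ^ (ℓ ^ i) := by
  induction i with
  | zero => simp
  | succ i ih =>
    rw [pow_succ', AlgEquiv.mul_apply, ih, map_pow, frob_rootOfUnity hℓ hA hφ hm hζ, ← pow_mul,
      pow_succ']

/-! ### Lagrange basis polynomials over a subring -/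

/-- the coefficients of a Lagrange basis polynomial whose nodes lie in a subring `S` and whose node
differences are invertible in `S` lie in `S`. -/
theorem lagrange_basis_coeff_mem {ι : Type*} [DecidableEq ι] (S : Subring Qb) (s : Finset ι)
    (v : ι → Qb) (i : ι) (hv : ∀ j ∈ s, v j ∈ S) (hinv : ∀ j ∈ s, j ≠ i → (v i - v j)⁻¹ ∈ S)
    (k : ℕ) : (Lagrange.basis s v i).coeff k ∈ S := by
  have key : Lagrange.basis s v i ∈ Polynomial.lifts S.subtype := by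
    rw [Lagrange.basis]
    apply Subsemiring.prod_mem
    intro j hj
    obtain ⟨hji, hjs⟩ := Finset.mem_erase.1 hj
    rw [Lagrange.basisDivisor]
    apply Subsemiring.mul_mem
    · exact Polynomial.C_mem_lifts S.subtype ⟨_, hinv j hjs hji⟩
    · have e : (X : Qb[X]) - C (v j) = X + C (S.subtype ⟨-(v j), S.neg_mem (hv j hjs)⟩) := by
        simp [sub_eq_add_neg]
      rw [e]
      exact Subsemiring.add_mem _ (Polynomial.X_mem_lifts _) (Polynomial.C_mem_lifts _ _)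
  obtain ⟨y, hy⟩ := (Polynomial.lifts_iff_coeff_lifts _).1 key k
  rw [← hy]
  exact y.2

/-! ### sums over a `φ`-orbit -/

section Orbit

variable {M : Type*} [AddCommGroup M] [DistribMulAction GQ M]

/-- the trace over a `φ`-orbit of length `n` is `star φ`-fixed. -/
theorem star_sum_range_pow {φ : GQ} {n : ℕ} {u : M → Qb} (hu : star (φ ^ n) u = u) :
    star φ (∑ i ∈ Finset.range n, star (φ ^ i) u) = ∑ i ∈ Finset.range n, star (φ ^ i) u := by
  rw [star_sum]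
  have h1 : ∀ i, star φ (star (φ ^ i) u) = star (φ ^ (i + 1)) u := fun i =>
    (star_pow_succ φ i u).symm
  simp_rw [h1]
  have h2 := Finset.sum_range_succ' (fun i => star (φ ^ i) u) n
  have h3 := Finset.sum_range_succ (fun i => star (φ ^ i) u) n
  rw [h3] at h2
  simp only [pow_zero, star_one, hu] at h2
  exact (add_right_cancel h2).symm

theorem star_pow_mem_of {φ : GQ} (P : (M → Qb) → Prop) (hstar : ∀ f, P f → P (star φ f))
    {f : M → Qb} (hf : P f) (i : ℕ) : P (star (φ ^ i) f) := by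
  induction i with
  | zero => simpa using hf
  | succ i ih => rw [star_pow_succ]; exact hstar _ ih

omit [AddCommGroup M] [DistribMulAction GQ M] in
theorem sum_mem_of {ι : Type*} (P : (M → Qb) → Prop) (hadd : ∀ f g, P f → P g → P (f + g))
    (hzero : P 0) (s : Finset ι) (f : ι → M → Qb) (hf : ∀ i ∈ s, P (f i)) :
    P (∑ i ∈ s, f i) :=
  Finset.sum_induction f P hadd hzero hf

end Orbit

/-! ### the unramified descent step -/

theorem two_le_pow_of_prime (hℓ : ℓ.Prime) {n : ℕ} (hn : 0 < n) : 2 ≤ ℓ ^ n :=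
  le_trans hℓ.two_le (Nat.le_self_pow hn.ne' ℓ)

/-- for `n ≥ 2` and `i < n`: `ℓ ^ i < ℓ ^ n - 1`. -/
theorem pow_lt_pow_sub_one (hℓ : ℓ.Prime) {n i : ℕ} (hn : 2 ≤ n) (hi : i < n) :
    ℓ ^ i < ℓ ^ n - 1 := by
  have h1 : ℓ ^ i ≤ ℓ ^ (n - 1) := Nat.pow_le_pow_right hℓ.pos (by omega)
  have h2 : ℓ ^ n = ℓ * ℓ ^ (n - 1) := by
    rw [← pow_succ']
    congr 1
    omega
  have h3 : 2 ≤ ℓ ^ (n - 1) := two_le_pow_of_prime hℓ (by omega)
  have h4 : 2 * ℓ ^ (n - 1) ≤ ℓ ^ n := by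
    rw [h2]
    exact Nat.mul_le_mul_right _ hℓ.two_le
  omega

theorem not_dvd_pow_sub_one (hℓ : ℓ.Prime) {n : ℕ} (hn : 0 < n) : ¬ ℓ ∣ ℓ ^ n - 1 := by
  intro h
  have h1 : ℓ ∣ ℓ ^ n := dvd_pow_self ℓ hn.ne'
  have h2 : 1 ≤ ℓ ^ n := Nat.one_le_pow _ _ hℓ.pos
  have h3 : ℓ ∣ ℓ ^ n - (ℓ ^ n - 1) := Nat.dvd_sub h1 h
  have h4 : ℓ ^ n - (ℓ ^ n - 1) = 1 := by omega
  rw [h4] at h3
  exact hℓ.one_lt.ne' (Nat.dvd_one.1 h3)

/-- **Unramified descent.** A class `P` of functions stable under sums, `W₀`-scalars and `star φ`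
is spanned over `W₀` by its `star φ`-fixed members. -/
theorem unramified_descent (hℓ : ℓ.Prime) (hA : A.LiesOverPrime ℓ) {φ : GQ}
    (hφ : A.IsFrobeniusAt φ ℓ) {M : Type*} [AddCommGroup M] [DistribMulAction GQ M] [Finite M]
    (P : (M → Qb) → Prop) (hadd : ∀ f g, P f → P g → P (f + g)) (hzero : P 0)
    (hsmul : ∀ c ∈ W0 A, ∀ f, P f → P (c • f)) (hstar : ∀ f, P f → P (star φ f))
    (f : M → Qb) (hf : P f) :
    ∃ (k : ℕ) (β : Fin k → Qb) (g : Fin k → M → Qb),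
      (∀ j, β j ∈ W0 A) ∧ (∀ j, P (g j)) ∧ (∀ j, star φ (g j) = g j) ∧ f = ∑ j, β j • g j := by
  classical
  obtain ⟨n₀, hn₀, hfix₀⟩ := exists_pow_star_eq φ f
  set n : ℕ := n₀ * 2 with hn
  have hn2 : 2 ≤ n := by omega
  have hnpos : 0 < n := by omega
  have hfix : star (φ ^ n) f = f := by
    rw [hn, pow_mul]
    exact star_pow_eq_self hfix₀ 2
  set m : ℕ := ℓ ^ n - 1 with hm
  have hℓm : ¬ ℓ ∣ m := not_dvd_pow_sub_one hℓ hnpos
  have hm0 : m ≠ 0 := fun h0 => hℓm (h0 ▸ dvd_zero ℓ)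
  have hm1 : m + 1 = ℓ ^ n := by
    have : 1 ≤ ℓ ^ n := Nat.one_le_pow _ _ hℓ.pos
    omega
  have : NeZero m := ⟨hm0⟩
  have : NeZero (m : Qb) := NeZero.charZero
  obtain ⟨ζ, hζ⟩ := HasEnoughRootsOfUnity.exists_primitiveRoot Qb m
  have hζ1 : ζ ^ m = 1 := hζ.pow_eq_one
  have hζW : ζ ∈ W0 A := rootOfUnity_mem_W0 hℓ hA hℓm hζ1
  have hpowζ : ∀ i : ℕ, (φ ^ i) ζ = ζ ^ (ℓ ^ i) := pow_frob_rootOfUnity hℓ hA hφ hℓm hζ1
  have hφnζ : (φ ^ n) ζ = ζ := by
    rw [hpowζ, ← hm1, pow_succ, hζ1, one_mul]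
  -- the nodes
  set σ : Fin n → GQ := fun i => φ ^ (i : ℕ) with hσ
  have hinj : Function.Injective fun i : Fin n => σ i ζ := by
    intro i j hij
    simp only [hσ, hpowζ] at hij
    have h1 := hζ.pow_inj (pow_lt_pow_sub_one hℓ hn2 i.2) (pow_lt_pow_sub_one hℓ hn2 j.2) hij
    exact Fin.ext (Nat.pow_right_injective hℓ.two_le h1)
  have hnode1 : ∀ i : Fin n, (σ i ζ) ^ m = 1 := by
    intro i
    rw [← map_pow, hζ1, map_one]
  have hnodeW : ∀ i : Fin n, σ i ζ ∈ W0 A := fun i =>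
    rootOfUnity_mem_W0 hℓ hA hℓm (hnode1 i)
  set i₀ : Fin n := ⟨0, hnpos⟩ with hi₀
  set L : Qb[X] := Lagrange.basis Finset.univ (fun i => σ i ζ) i₀ with hL
  have hLW : ∀ k, L.coeff k ∈ W0 A := by
    intro k
    apply lagrange_basis_coeff_mem (W0 A) Finset.univ (fun i => σ i ζ) i₀ (fun j _ => hnodeW j)
    intro j _ hj
    apply inv_mem_W0 ((W0 A).sub_mem (hnodeW i₀) (hnodeW j))
    exact sub_not_mem_nonunits hℓ hA hℓm (hnode1 i₀) (hnode1 j) (fun h => hj (hinj h).symm)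
  have hident := sum_lagrange_star σ ζ hinj i₀ f
  rw [Fintype.card_fin] at hident
  have hσ0 : σ i₀ = 1 := by simp [hσ, hi₀]
  rw [hσ0, star_one, ← hL] at hident
  -- the traces
  set g : ℕ → M → Qb := fun j => ∑ i ∈ Finset.range n, star (φ ^ i) (ζ ^ j • f) with hg
  have hgsum : ∀ j : ℕ, ∑ i : Fin n, star (σ i) (ζ ^ j • f) = g j := by
    intro j
    exact Fin.sum_univ_eq_sum_range (fun i => star (φ ^ i) (ζ ^ j • f)) n
  simp_rw [hgsum] at hident
  refine ⟨n, fun j => L.coeff j, fun j => g j, fun j => hLW j, fun j => ?_, fun j => ?_, ?_⟩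
  · apply sum_mem_of P hadd hzero
    intro i _
    exact star_pow_mem_of P hstar (hsmul _ ((W0 A).pow_mem hζW j) f hf) i
  · apply star_sum_range_pow
    rw [star_smul, map_pow, hφnζ, hfix]
  · rw [← hident]
    exact (Fin.sum_univ_eq_sum_range (fun j => L.coeff j • g j) n).symm

end

end Fermat.Agent.FF.Desc4
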