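/-
Programme FF (S19), helper4: **inertia-fixed (Teichmüller) lifts.**

`A` a valuation subring of `ℚ̄` over `ℓ`, `κ` its residue field.

* `exists_fixed_lift` : every `ȳ ∈ κ` has a lift `a ∈ A` fixed by the inertia group of `A`
  (`a = 0` or `a` a root of unity of order `ℓ ^ n - 1`);
* `exists_rootOfUnity_lift` : every `ȳ ≠ 0` has a lift which is a root of unity of order prime to `ℓ`;
* `isAlgClosed_residueField`, `infinite_residueField`, `charP_residueField'`.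

Proof: a Frobenius `φ` at `A` has finite orbits on `ℚ̄`, so `ȳ ^ (ℓ ^ n) = ȳ` for some `n > 0`; the
`(ℓ ^ n - 1)`-th roots of unity of `ℚ̄` lie in `A`, are inertia-fixed (`Desc4C`) and reduce to a full
set of `(ℓ ^ n - 1)`-th roots of unity of `κ`.
-/
import Mathlib
import Fermat.Agent.ES.KRON.KronInst10
import Fermat.Agent.FF.Desc4C

set_option autoImplicit false

namespace Fermat.Agent.FF.TeichLift4

open Fermat.Agent.FF.Desc4

noncomputable section

variable {A : ValuationSubring Qb} {ℓ : ℕ}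

theorem isAlgClosed_residueField (A : ValuationSubring Qb) :
    IsAlgClosed (IsLocalRing.ResidueField A) :=
  Fermat.Agent.ES.KRON.KronInst10.isAlgClosed_residueField A

theorem infinite_residueField (A : ValuationSubring Qb) :
    Infinite (IsLocalRing.ResidueField A) := by
  have := isAlgClosed_residueField A
  exact IsAlgClosed.instInfinite

theorem charP_residueField' (hℓ : ℓ.Prime) (hA : A.LiesOverPrime ℓ) :
    CharP (IsLocalRing.ResidueField A) ℓ :=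
  charP_residueField hℓ hA

/-- two elements of `A` have the same residue iff their difference is a non-unit. -/
theorem residue_eq_iff {x y : Qb} (hx : x ∈ A) (hy : y ∈ A) :
    IsLocalRing.residue A ⟨x, hx⟩ = IsLocalRing.residue A ⟨y, hy⟩ ↔ x - y ∈ A.nonunits := by
  rw [← sub_eq_zero, ← map_sub, IsLocalRing.residue_eq_zero_iff]
  constructor
  · intro h
    exact ValuationSubring.mem_nonunits_iff_exists_mem_maximalIdeal.2 ⟨A.sub_mem hx hy, h⟩
  · intro h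
    obtain ⟨_, h'⟩ := ValuationSubring.mem_nonunits_iff_exists_mem_maximalIdeal.1 h
    exact h'

/-- the residue of a `φ ^ n`-fixed element is fixed by the `ℓ ^ n`-power map. -/
theorem residue_pow_eq_of_fixed {φ : GQ} (hφ : A.IsFrobeniusAt φ ℓ) {x : Qb} (hx : x ∈ A) {n : ℕ}
    (hfix : (φ ^ n) x = x) :
    IsLocalRing.residue A ⟨x, hx⟩ ^ (ℓ ^ n) = IsLocalRing.residue A ⟨x, hx⟩ := by
  set g : A.decompositionSubgroup ℚ := ⟨φ, hφ.mem_decompositionSubgroup⟩ with hg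
  have hpow : ∀ (k : ℕ) (y : IsLocalRing.ResidueField A), g ^ k • y = y ^ (ℓ ^ k) := by
    intro k
    induction k with
    | zero => intro y; simp
    | succ k ih =>
      intro y
      rw [pow_succ', mul_smul, ih, hφ.smul_residue_eq, ← pow_mul, pow_succ]
  have h1 : g ^ n • IsLocalRing.residue A ⟨x, hx⟩ = IsLocalRing.residue A ⟨x, hx⟩ := by
    rw [← IsLocalRing.ResidueField.residue_smul]
    congr 1
    apply Subtype.ext
    show ((g ^ n : A.decompositionSubgroup ℚ) : GQ) x = x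
    rw [Subgroup.coe_pow]
    exact hfix
  rw [← hpow n, h1]

/-- a primitive `m`-th root of unity of `ℚ̄` (`ℓ ∤ m`) reduces to a primitive `m`-th root of unity. -/
theorem isPrimitiveRoot_residue (hℓ : ℓ.Prime) (hA : A.LiesOverPrime ℓ) {m : ℕ} (hm : ¬ ℓ ∣ m)
    {ζ : Qb} (hζ : IsPrimitiveRoot ζ m) (hζA : ζ ∈ A) :
    IsPrimitiveRoot (IsLocalRing.residue A ⟨ζ, hζA⟩) m := by
  have hm0 : m ≠ 0 := fun h0 => hm (h0 ▸ dvd_zero ℓ)
  refine IsPrimitiveRoot.mk_of_lt _ (Nat.pos_of_ne_zero hm0) ?_ ?_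
  · rw [← map_pow]
    have : (⟨ζ, hζA⟩ : A) ^ m = 1 := Subtype.ext (by simpa using hζ.pow_eq_one)
    rw [this, map_one]
  · intro l hl0 hlm h1
    have h2 : IsLocalRing.residue A ⟨ζ ^ l, A.pow_mem hζA l⟩ =
        IsLocalRing.residue A ⟨1, A.one_mem⟩ := by
      have e1 : (⟨ζ ^ l, A.pow_mem hζA l⟩ : A) = ⟨ζ, hζA⟩ ^ l := rfl
      have e2 : (⟨1, A.one_mem⟩ : A) = 1 := rfl
      rw [e1, e2, map_pow, h1, map_one]
    have h3 := (residue_eq_iff _ _).1 h2
    have h4 : (ζ ^ l) ^ m = 1 := by rw [← pow_mul, mul_comm, pow_mul, hζ.pow_eq_one, one_pow]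
    have h5 := eq_of_sub_mem_nonunits_of_pow_eq_one hℓ hA hm h4 (one_pow m) h3
    exact hζ.pow_ne_one_of_pos_of_lt hl0.ne' hlm h5

/-- **nonzero residues lift to roots of unity of order prime to `ℓ`.** -/
theorem exists_rootOfUnity_lift (hℓ : ℓ.Prime) (hA : A.LiesOverPrime ℓ)
    {y : IsLocalRing.ResidueField A} (hy : y ≠ 0) :
    ∃ (a : Qb) (ha : a ∈ A) (m : ℕ), ¬ ℓ ∣ m ∧ a ^ m = 1 ∧ IsLocalRing.residue A ⟨a, ha⟩ = y := by
  obtain ⟨φ, hφ⟩ := Fermat.Agent.ES.FROB.FrobFacts12.exists_isFrobeniusAt_of ℓ hℓ A hA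
  obtain ⟨x, rfl⟩ := IsLocalRing.residue_surjective y
  obtain ⟨n, hn, hfix⟩ := exists_pow_apply_eq φ (x : Qb)
  have h1 := residue_pow_eq_of_fixed hφ x.2 hfix
  set m : ℕ := ℓ ^ n - 1 with hm
  have hℓm : ¬ ℓ ∣ m := not_dvd_pow_sub_one hℓ hn
  have hm0 : m ≠ 0 := fun h0 => hℓm (h0 ▸ dvd_zero ℓ)
  have hm1 : m + 1 = ℓ ^ n := by
    have : 1 ≤ ℓ ^ n := Nat.one_le_pow _ _ hℓ.pos
    omega
  have h2 : IsLocalRing.residue A x ^ m = 1 := by
    have h3 : IsLocalRing.residue A x ^ m * IsLocalRing.residue A x =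
        1 * IsLocalRing.residue A x := by
      rw [← pow_succ, hm1, one_mul]
      exact h1
    exact mul_right_cancel₀ hy h3
  have : NeZero m := ⟨hm0⟩
  have : NeZero (m : Qb) := NeZero.charZero
  obtain ⟨ζ, hζ⟩ := HasEnoughRootsOfUnity.exists_primitiveRoot Qb m
  have hζA : ζ ∈ A := (rootOfUnity_mem_W0 hℓ hA hℓm hζ.pow_eq_one).1
  have hprim := isPrimitiveRoot_residue hℓ hA hℓm hζ hζA
  obtain ⟨i, -, hi⟩ := hprim.eq_pow_of_pow_eq_one h2
  refine ⟨ζ ^ i, A.pow_mem hζA i, m, hℓm, ?_, ?_⟩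
  · rw [← pow_mul, mul_comm, pow_mul, hζ.pow_eq_one, one_pow]
  · have e1 : (⟨ζ ^ i, A.pow_mem hζA i⟩ : A) = ⟨ζ, hζA⟩ ^ i := rfl
    rw [e1, map_pow, hi]

/-- **inertia-fixed (Teichmüller) lifts.** -/
theorem exists_fixed_lift (hℓ : ℓ.Prime) (hA : A.LiesOverPrime ℓ)
    (y : IsLocalRing.ResidueField A) :
    ∃ a : A, IsLocalRing.residue A a = y ∧ ∀ τ ∈ A.inertiaSubgroupIn ℚ, τ (a : Qb) = a := by
  by_cases hy : y = 0
  · exact ⟨0, by rw [map_zero, hy], fun τ _ => by simp⟩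
  · obtain ⟨a, ha, m, hm, ham, hres⟩ := exists_rootOfUnity_lift hℓ hA hy
    exact ⟨⟨a, ha⟩, hres, (rootOfUnity_mem_W0 hℓ hA hm ham).2⟩

/-- the same with the lift as an element of `W₀ = A^I` (`Desc4.W0`). -/
theorem exists_lift_mem_W0 (hℓ : ℓ.Prime) (hA : A.LiesOverPrime ℓ)
    (y : IsLocalRing.ResidueField A) :
    ∃ (a : Qb) (ha : a ∈ W0 A), IsLocalRing.residue A ⟨a, ha.1⟩ = y := by
  obtain ⟨a, ha, hfix⟩ := exists_fixed_lift hℓ hA y
  exact ⟨a, ⟨a.2, hfix⟩, ha⟩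

end

end Fermat.Agent.FF.TeichLift4
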