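/-
FF/ChooseInst1 (helper1): chapter G2, CONCRETE instantiation of `ChooseData3` at a level `M` with a
Hauptmodul `(n, e)`, `ℓ ∤ M`, for the Gauss valuation ring `Ov` of `GaussOv1` and an arbitrary place
reduction `r` (`IsPlaceReductionModL A M r`) commuting with inertia (`hrI`).

* `tOv` : the Hauptmodul `t = tF M hmem` as an element of `Ov`, `ρ_tOv : ρ t = tRes`;
* `exists_choose_data` : the parameter `φ ∈ Ov` (inertia-invariant), the centres `Pb j` of ALL residue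
  discs over the (simple) zeros of `ρ φ`, the first `g` forming a non-special divisor, `hnp`, `hzero`,
  and the finite bad set `Sbad`, a good place `P₁` and inertia-invariant lifts of all places outside
  `Sbad` — from `hrI`, the Riemann inequality `hRb` on the special fibre and one divisor with
  `delta g D₀ = 0`.
-/
import Mathlib
import Fermat.Agent.FF.GaussOv1D
import Fermat.Agent.FF.ChooseData3
import Fermat.Agent.FF.TeichLift4
import Fermat.Agent.FF.SpecialRR6J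
import Fermat.Agent.ES.P36.CuspValUnr26

set_option autoImplicit false
set_option linter.unusedSectionVars false
set_option synthInstance.maxHeartbeats 400000

noncomputable section

namespace Fermat.Agent.FF.ChooseInst1

open HahnSeries ModularCurve AlgebraicCurve IsLocalRing IntermediateField
open Fermat.Agent.RED.Interface4 Fermat.Agent.ES.RED Fermat.Agent.RED.BASE
open Fermat.Agent.RED.BASE.EtaQuot12
open Fermat.Agent.ES.RED.SpecialGen25 Fermat.Agent.ES.RED.SpecialInv25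
open Fermat.Agent.RR.LSpace Fermat.Agent.RR.Riemann Fermat.Agent.FF.SpecRR1
open Fermat.Agent.FF.GaussOv1 Fermat.Agent.X0

variable (n e M : ℕ) [NeZero n] [NeZero M] (ℓ : ℕ) [Fact ℓ.Prime] (hℓM : ¬ ℓ ∣ M)
  (hmem : Interface12.TMem n e M) (hgen : Interface12.TGenBase n e)
  (A : ValuationSubring Qbar) (hA : A.LiesOverPrime ℓ)

/-- `t` has an `A`-integral `q`-expansion. -/
theorem tF_mem_gaussA : (Interface12.tF M hmem : ↥(Fbar M)) ∈ Setup8.gaussA A (Fbar M) :=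
  ⟨tq ↥A n e, (coe_tF n e M hmem A).symm⟩

/-- the Hauptmodul as an element of the Gauss valuation ring. -/
def tOv : ↥(Ov A M ℓ hA hℓM) :=
  ⟨Interface12.tF M hmem, gaussA_mem_Ov A M ℓ hA hℓM ⟨_, tF_mem_gaussA n e M hmem A⟩⟩

@[simp] theorem coe_tOv :
    ((tOv n e M ℓ hℓM hmem A hA : ↥(Ov A M ℓ hA hℓM)) : ↥(Fbar M)) = Interface12.tF M hmem := rfl

include hgen in
/-- **`ρ t = t̃`.** -/
theorem ρ_tOv : ρ A M ℓ hA hℓM (tOv n e M ℓ hℓM hmem A hA) = tRes n e M ℓ hℓM hmem hgen A hA := by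
  have h := ρ_gaussA A M ℓ hA hℓM ⟨_, tF_mem_gaussA n e M hmem A⟩
  refine h.trans ?_
  apply Subtype.ext
  rw [coe_redFb, coe_tRes_eq]
  exact Setup8.redA_eq A (Fbar M) _ (coe_tF n e M hmem A).symm

section Main

-- try the instance that is eventually found first (instance synthesis is slow at `kA A`)
attribute [local instance 2000] SubalgebraClass.toAlgebra

variable (r : Place Qbar ↥(Fbar M) →
    Place (Setup8.kA A) ↥(modularFunctionFieldFullC (Setup8.kA A) M))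
  (hr : IsPlaceReductionModL A M r)

/-- the inertia group of `A` acting on `Fbar M` (coefficientwise). -/
def gamI (σ : ↥(A.inertiaSubgroupIn ℚ)) : SemilinearAut Qbar ↥(Fbar M) :=
  arithmeticGalois (modularFunctionFieldFull M) (σ : Qbar ≃ₐ[ℚ] Qbar)

set_option maxHeartbeats 1600000 in
include hmem hgen hr in
/-- **chapter G2, concrete form** (contract (N2)). -/
theorem exists_choose_data
    (hrI : ∀ τ ∈ A.inertiaSubgroupIn ℚ, ∀ P : Place Qbar ↥(Fbar M),
      r ((arithmeticGalois (modularFunctionFieldFull M) τ :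
        SemilinearAut Qbar ↥(Fbar M)) • P) = r P)
    (g : ℕ)
    (hRb : ∀ D : Divisor (Setup8.kA A) ↥(modularFunctionFieldFullC (Setup8.kA A) M),
      Divisor.degree D + 1 - (g : ℤ) ≤ ell D)
    {D₀ : Divisor (Setup8.kA A) ↥(modularFunctionFieldFullC (Setup8.kA A) M)}
    (h0 : delta (g : ℤ) D₀ = 0) :
    ∃ (m : ℕ) (φ : ↥(Ov A M ℓ hA hℓM))
      (Pb : Fin (g + m) → Place (Setup8.kA A) ↥(modularFunctionFieldFullC (Setup8.kA A) M)),
      Function.Injective Pb ∧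
      (∀ j, (Pb j).ord (ρ A M ℓ hA hℓM φ) = 1) ∧
      (∀ (j : Fin (g + m)) (P : Place Qbar ↥(Fbar M)), r P = Pb j → 0 ≤ P.ord (φ : ↥(Fbar M))) ∧
      ρ A M ℓ hA hℓM φ ≠ 0 ∧
      ell (∑ j : Fin g, Finsupp.single (Pb (Fin.castLE (Nat.le_add_right g m) j)) (1 : ℤ)) ≤ 1 ∧
      (∀ τ ∈ A.inertiaSubgroupIn ℚ,
        (arithmeticGalois (modularFunctionFieldFull M) τ : SemilinearAut Qbar ↥(Fbar M)) •
          (φ : ↥(Fbar M)) = (φ : ↥(Fbar M))) ∧
      (∀ P : Place Qbar ↥(Fbar M), 0 < P.ord (φ : ↥(Fbar M)) → ∃ j, r P = Pb j) ∧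
      (∀ Q : Place (Setup8.kA A) ↥(modularFunctionFieldFullC (Setup8.kA A) M),
        0 < Q.ord (ρ A M ℓ hA hℓM φ) → ∃ j, Q = Pb j) ∧
      ∃ (Sbad : Finset (Place (Setup8.kA A) ↥(modularFunctionFieldFullC (Setup8.kA A) M)))
        (P₁ : Place (Setup8.kA A) ↥(modularFunctionFieldFullC (Setup8.kA A) M)),
        P₁ ∉ Sbad ∧ ∀ Qb, Qb ∉ Sbad → ∃ Q : Place Qbar ↥(Fbar M), r Q = Qb ∧
          ∀ τ ∈ A.inertiaSubgroupIn ℚ,
            (arithmeticGalois (modularFunctionFieldFull M) τ :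
              SemilinearAut Qbar ↥(Fbar M)) • Q = Q := by
  have hℓ : ℓ.Prime := Fact.out
  have HL : LHyp Qbar ↥(Fbar M) := Fermat.Agent.FF.SpecialRR6.lHyp_bar n e M hmem
  have HLb : LHyp (Setup8.kA A) ↥(modularFunctionFieldFullC (Setup8.kA A) M) :=
    Fermat.Agent.FF.SpecialRR6.lHyp_special n e M ℓ hℓM hmem hgen A hA r hr
  have : IsAlgClosed (IsLocalRing.ResidueField ↥A) := isAlgClosed_kk A
  set R := absRed A M ℓ hA hℓM r hr with hR
  set t : R.O := tOv n e M ℓ hℓM hmem A hA with ht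
  have hρt : R.ρ t = tRes n e M ℓ hℓM hmem hgen A hA := ρ_tOv n e M ℓ hℓM hmem hgen A hA
  have htb : FF.IsGen (IsLocalRing.ResidueField ↥A) (R.ρ t) := by
    rw [hρt]; exact isGen_tRes n e M ℓ hℓM hmem hgen A hA
  have : Algebra.IsSeparable
      ↥((IsLocalRing.ResidueField ↥A)⟮R.ρ t⟯ : IntermediateField (IsLocalRing.ResidueField ↥A)
        ↥(modularFunctionFieldFullC (IsLocalRing.ResidueField ↥A) M))
      ↥(modularFunctionFieldFullC (IsLocalRing.ResidueField ↥A) M) := by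
    rw [hρt]; exact isSeparable_tRes n e M ℓ hℓM hmem hgen A hA
  have hγr : ∀ (σ : ↥(A.inertiaSubgroupIn ℚ)) (P : Place Qbar ↥(Fbar M)),
      R.r (gamI M A σ • P) = R.r P := fun σ P => hrI σ σ.2 P
  have hγt : ∀ σ : ↥(A.inertiaSubgroupIn ℚ), gamI M A σ • ((t : R.O) : ↥(Fbar M)) = (t : ↥(Fbar M)) :=
    fun σ => Fermat.Agent.ES.P36.CuspValUnr26.galB_smul_tF hmem (σ : Qbar ≃ₐ[ℚ] Qbar)
  have hTL : ∀ a : IsLocalRing.ResidueField ↥A, ∃ c : ↥A, residue ↥A c = a ∧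
      ∀ σ : ↥(A.inertiaSubgroupIn ℚ), SemilinearAut.baseAut (gamI M A σ) (c : Qbar) = c := by
    intro a
    obtain ⟨c, hc, hfix⟩ := Fermat.Agent.FF.TeichLift4.exists_fixed_lift hℓ hA a
    exact ⟨c, hc, fun σ => hfix σ σ.2⟩
  have ht0 : ((t : R.O) : ↥(Fbar M)) ≠ 0 :=
    (Fermat.Agent.ES.RED.SpecialInv25.isGen_tF n e M hmem).ne_zero
  have htb0 : R.ρ t ≠ 0 := htb.ne_zero
  have hdeg : Divisor.degree (poleDiv HL ht0) = Divisor.degree (poleDiv HLb htb0) := by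
    have h1 := Fermat.Agent.FF.SpecialRR6.degree_poleDiv_tF n e M hmem HL
      (x := ((t : R.O) : ↥(Fbar M))) rfl ht0
    have h2 := Fermat.Agent.FF.SpecialRR6.degree_poleDiv_tRes n e M ℓ hℓM hmem hgen A hA HLb
      (x := R.ρ t) hρt htb0
    exact h1.trans h2.symm
  obtain ⟨m, φ, Pb, hinj, hPb, hnp, hφ, hell, hφI, hzero, hzb⟩ :=
    Fermat.Agent.FF.ChooseData3.exists_disc_data_of_hdeg R HL HLb t (gamI M A) hγr hγt htb hTL
      ht0 htb0 hdeg g hRb h0
  obtain ⟨Sbad, hlift⟩ :=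
    Fermat.Agent.FF.ChooseData3.exists_hlift_of_hdeg R HL HLb t (gamI M A) hγr hγt htb hTL
      ht0 htb0 hdeg
  obtain ⟨P₁, hP₁⟩ := Fermat.Agent.FF.NicePlace3.exists_not_mem_finset htb Sbad
  refine ⟨m, φ, Pb, hinj, hPb, hnp, hφ, hell, fun τ hτ => hφI ⟨τ, hτ⟩, hzero, hzb,
    Sbad, P₁, hP₁, fun Qb hQb => ?_⟩
  obtain ⟨Q, hQ, hinv⟩ := hlift Qb hQb
  exact ⟨Q, hQ, fun τ hτ => hinv ⟨τ, hτ⟩⟩

end Main

end Fermat.Agent.FF.ChooseInst1
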