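/-
Programme FF (S19), chapter A2 (helper4): DESCENT, part F — the global order.

`Hsub` := the `ℤ_(ℓ)`-subalgebra of `G_ℚ`-equivariant members of `PA = A[φ-orbit of T]`.  It is finite
over `ℤ_(ℓ)`, separates the points of `M`, and is stable under the coproduct as soon as the generators
`T` have coproducts in `A[T]`.

Main result: `exists_globalOrder`.
-/
import Mathlib
import Fermat.Prelude.Def_GaloisRep_Flat
import Fermat.Agent.IG.VAL.Zl13
import Fermat.Agent.FF.HopfOrderC
import Fermat.Agent.FF.Desc4E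

set_option autoImplicit false

namespace Fermat.Agent.FF.Desc4

noncomputable section

open Fermat.Agent.FF.HopfOrderC Fermat.Agent.FF.HopfOrderB Fermat.Agent.FF.HopfOrderA

variable {A : ValuationSubring Qb} {ℓ : ℕ}
variable {M : Type*} [AddCommGroup M] [DistribMulAction GQ M]

/-- elements of `ℚ̄` fixed by `G_ℚ` are rational. -/
theorem exists_ratCast_eq_of_fixed (x : Qb) (hx : ∀ σ : GQ, σ x = x) : ∃ q : ℚ, (q : Qb) = x := by
  have h2 : IsGalois ℚ Qb := Fermat.Agent.Lib.FrobeniusExists.isGalois_Qbar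
  obtain ⟨q, hq⟩ :=
    (InfiniteGalois.mem_range_algebraMap_iff_fixed (k := ℚ) (K := Qb) x).2 (fun σ => hx σ)
  exact ⟨q, by rw [← hq]; rfl⟩

omit [AddCommGroup M] [DistribMulAction GQ M] in
theorem ratLoc_smul_eq (r : ↥(GaloisRep.ratLocalizedAt ℓ)) (f : M → Qb) : r • f = ((r : ℚ) : Qb) • f := by
  funext z
  show r • f z = ((r : ℚ) : Qb) * f z
  rw [Algebra.smul_def]
  rfl

/-- the global order. -/
def Hsub (hℓ : ℓ.Prime) (hA : A.LiesOverPrime ℓ) (φ : GQ) (T : Set (M → Qb)) :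
    Subalgebra ↥(GaloisRep.ratLocalizedAt ℓ) (M → Qb) where
  carrier := Hset A φ T
  mul_mem' := Setup.mul_mem_Hset
  one_mem' := Setup.one_mem_Hset
  add_mem' := by
    intro f g hf hg
    exact ⟨Subalgebra.add_mem _ hf.1 hg.1, fun σ => by rw [star_add, hf.2 σ, hg.2 σ]⟩
  zero_mem' := ⟨Subalgebra.zero_mem _, fun σ => star_zero σ⟩
  algebraMap_mem' := by
    intro r
    have h1 : algebraMap ↥(GaloisRep.ratLocalizedAt ℓ) (M → Qb) r = fun _ => ((r : ℚ) : Qb) := by funext z; rfl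
    rw [h1]
    refine ⟨const_mem_adjoin (ratCast_mem_W0 hℓ hA r.2).1, fun σ => ?_⟩
    rw [star_const, map_ratCast]

theorem mem_Hsub {hℓ : ℓ.Prime} {hA : A.LiesOverPrime ℓ} {φ : GQ} {T : Set (M → Qb)}
    {f : M → Qb} : f ∈ Hsub hℓ hA φ T ↔ f ∈ Hset A φ T := Iff.rfl

namespace Setup

variable {φ : GQ} {T : Set (M → Qb)} (S : Setup A ℓ φ T)
include S

/-! ### finiteness -/

/-- a common denominator: `Hset` lies in the `ℤ_(ℓ)`-span of finitely many functions. -/
theorem exists_bound [Finite M] :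
    ∃ (n : ℕ) (v : Fin n → M → Qb), ∀ h ∈ Hset A φ T,
      ∃ q : Fin n → ↥(GaloisRep.ratLocalizedAt ℓ), h = ∑ i, q i • v i := by
  classical
  have := Fintype.ofFinite M
  obtain ⟨n, e, hli, he, hspan⟩ := exists_equivariant_basis S.openStab
  choose D hD using fun z : M => hspan (Pi.single z (1 : Qb))
  obtain ⟨N, hN⟩ := exists_pow_mul_mem_finite S.prime S.liesOver
    (fun p : M × Fin n => D p.1 p.2)
  have hℓ0 : (ℓ : Qb) ≠ 0 := natCast_ne_zero S.prime
  refine ⟨n, fun i => ((ℓ : Qb) ^ N)⁻¹ • e i, fun h hh => ?_⟩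
  obtain ⟨c, hc⟩ := hspan h
  -- the coefficients are rational
  have hcfix : ∀ (σ : GQ) i, σ (c i) = c i := fun σ i =>
    coeff_fixed_of_star_eq hli (fun i => he i σ) (by rw [← hc]; exact hh.2 σ) i
  choose q hq using fun i => exists_ratCast_eq_of_fixed (c i) (fun σ => hcfix σ i)
  -- the coefficients in terms of the values of `h`
  have hcoef : ∀ i, c i = ∑ z, h z * D z i := by
    have h1 : h = ∑ z, h z • Pi.single z (1 : Qb) := by
      funext w
      simp only [Finset.sum_apply, Pi.smul_apply, smul_eq_mul, Pi.single_apply, mul_ite, mul_one,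
        mul_zero, Finset.sum_ite_eq, Finset.mem_univ, if_true]
    have h2 : h = ∑ i, (∑ z, h z * D z i) • e i := by
      conv_lhs => rw [h1]
      have h3 : ∀ z, h z • Pi.single z (1 : Qb) = ∑ i, (h z * D z i) • e i := by
        intro z
        conv_lhs => rw [hD z]
        rw [Finset.smul_sum]
        apply Finset.sum_congr rfl
        intro i _
        rw [smul_smul]
      simp_rw [h3]
      rw [Finset.sum_comm]
      apply Finset.sum_congr rfl
      intro i _
      rw [Finset.sum_smul]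
    have h4 : ∑ i, (c i - ∑ z, h z * D z i) • e i = 0 := by
      simp only [sub_smul, Finset.sum_sub_distrib]
      rw [← hc, ← h2, sub_self]
    intro i
    exact sub_eq_zero.1 (Fintype.linearIndependent_iff.1 hli _ h4 i)
  -- `ℓ ^ N * c i ∈ A`
  have hmem : ∀ i, (ℓ : Qb) ^ N * c i ∈ A := by
    intro i
    rw [hcoef i, Finset.mul_sum]
    apply A.toSubring.sum_mem
    intro z _
    have : (ℓ : Qb) ^ N * (h z * D z i) = h z * ((ℓ : Qb) ^ N * D z i) := by ring
    rw [this]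
    exact A.mul_mem _ _ (S.PA_valued hh.1 z) (hN (z, i))
  have hmemR : ∀ i, ((ℓ : ℚ) ^ N * q i) ∈ GaloisRep.ratLocalizedAt ℓ := by
    intro i
    apply mem_ratLocalizedAt_of_mem S.prime S.liesOver
    have : (((ℓ : ℚ) ^ N * q i : ℚ) : Qb) = (ℓ : Qb) ^ N * c i := by
      push_cast
      rw [hq i]
    rw [this]
    exact hmem i
  refine ⟨fun i => ⟨(ℓ : ℚ) ^ N * q i, hmemR i⟩, ?_⟩
  conv_lhs => rw [hc]
  apply Finset.sum_congr rfl
  intro i _
  rw [ratLoc_smul_eq, smul_smul]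
  congr 1
  push_cast
  rw [hq i]
  field_simp

theorem finite_Hsub [Fact ℓ.Prime] [Finite M] :
    Module.Finite ↥(GaloisRep.ratLocalizedAt ℓ) ↥(Hsub S.prime S.liesOver φ T) := by
  classical
  obtain ⟨n, v, hv⟩ := S.exists_bound
  set F : Submodule ↥(GaloisRep.ratLocalizedAt ℓ) (M → Qb) := Submodule.span ↥(GaloisRep.ratLocalizedAt ℓ) (Set.range v) with hF
  have hle : Subalgebra.toSubmodule (Hsub S.prime S.liesOver φ T) ≤ F := by
    intro h hh
    obtain ⟨q, hq⟩ := hv h hh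
    rw [hq]
    exact Submodule.sum_mem _ fun i _ =>
      Submodule.smul_mem _ _ (Submodule.subset_span ⟨i, rfl⟩)
  have hFnoeth : IsNoetherian ↥(GaloisRep.ratLocalizedAt ℓ) ↥F := isNoetherian_span_of_finite ↥(GaloisRep.ratLocalizedAt ℓ) (Set.finite_range v)
  have hfg : (Subalgebra.toSubmodule (Hsub S.prime S.liesOver φ T)).FG := by
    have h1 : (Submodule.comap F.subtype
        (Subalgebra.toSubmodule (Hsub S.prime S.liesOver φ T))).FG :=
      IsNoetherian.noetherian _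
    have h2 := h1.map F.subtype
    rw [Submodule.map_comap_subtype, inf_eq_right.2 hle] at h2
    exact h2
  exact Module.Finite.of_fg hfg

/-! ### coproduct -/

/-- every member of `PA` has a coproduct in `PA`. -/
theorem hasCoprod_PA (hΔ : ∀ t ∈ T, HasCoprod (Algebra.adjoin ↥A T) t) :
    ∀ f ∈ PA A φ T, HasCoprod (PA A φ T) f := by
  apply hasCoprod_of_adjoin (S := orbitSet φ T) rfl
  rintro s ⟨i, t, ht, rfl⟩
  obtain ⟨ι, hι, a, b, ha, hb, hab⟩ := hΔ t ht
  refine ⟨ι, hι, fun k => star (φ ^ i) (a k), fun k => star (φ ^ i) (b k),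
    fun k => S.star_pow_mem_PA (adjoin_le_PA (ha k)) i,
    fun k => S.star_pow_mem_PA (adjoin_le_PA (hb k)) i, ?_⟩
  intro z z'
  simp only [star_apply, smul_add, hab, map_sum, map_mul]

omit S in
/-- the bilinear map `(f, g) ↦ ((z, z') ↦ f z * g z')`. -/
def mulFun (A : ValuationSubring Qb) (M : Type*) :
    (M → Qb) →ₗ[↥A] (M → Qb) →ₗ[↥A] (M × M → Qb) :=
  LinearMap.mk₂ ↥A (fun f g q => f q.1 * g q.2)
    (by intro f₁ f₂ g; funext q; simp only [Pi.add_apply, add_mul])
    (by intro c f g; funext q; simp only [Pi.smul_apply, smul_mul_assoc])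
    (by intro f g₁ g₂; funext q; simp only [Pi.add_apply, mul_add])
    (by intro c f g; funext q; simp only [Pi.smul_apply, mul_smul_comm])

omit S [AddCommGroup M] [DistribMulAction GQ M] in
theorem mulFun_apply (f g : M → Qb) (q : M × M) : mulFun A M f g q = f q.1 * g q.2 := rfl

/-- **the global order is stable under the coproduct.** -/
theorem hasCoprod_Hsub [Fact ℓ.Prime] [Finite M]
    (hΔ : ∀ t ∈ T, HasCoprod (Algebra.adjoin ↥A T) t) :
    ∀ h ∈ Hsub S.prime S.liesOver φ T, HasCoprod (Hsub S.prime S.liesOver φ T) h := by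
  classical
  intro h hh
  have hfin := S.finite_Hsub
  have hequiv : ∀ f ∈ Hsub S.prime S.liesOver φ T, IsEquivariantFun GQ f := fun f hf σ z =>
    (star_eq_self_iff σ f).1 (hf.2 σ) z
  have hfix : ∀ x : Qb, (∀ σ : GQ, σ • x = x) → x ∈ (algebraMap ℚ Qb).range := fun x hx => by
    obtain ⟨q, hq⟩ := exists_ratCast_eq_of_fixed x hx
    exact ⟨q, by rw [← hq]; rfl⟩
  obtain ⟨n, b, -, hli⟩ :=
    exists_basis_card_le (R := ↥(GaloisRep.ratLocalizedAt ℓ)) (K := ℚ) hfix hequiv
  set bf : Fin n → M → Qb := fun i => ((b i : ↥(Hsub S.prime S.liesOver φ T)) : M → Qb) with hbf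
  have hbH : ∀ i, bf i ∈ Hset A φ T := fun i => (b i).2
  -- `Hset ⊆ A`-span of the basis
  have hH_le : ∀ f ∈ Hset A φ T, f ∈ Submodule.span ↥A (Set.range bf) := by
    intro f hf
    have h1 := b.sum_repr (⟨f, hf⟩ : ↥(Hsub S.prime S.liesOver φ T))
    have h2 : f = ∑ i, (b.repr ⟨f, hf⟩ i) • bf i := by
      have := congrArg (fun x : ↥(Hsub S.prime S.liesOver φ T) => (x : M → Qb)) h1
      simp only [AddSubmonoidClass.coe_finsetSum, SetLike.val_smul] at this
      exact this.symm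
    rw [h2]
    refine Submodule.sum_mem _ fun i _ => ?_
    rw [ratLoc_smul_eq,
      smul_eq_subtype_smul (ratCast_mem_W0 S.prime S.liesOver (b.repr ⟨f, hf⟩ i).2).1]
    exact Submodule.smul_mem _ _ (Submodule.subset_span ⟨i, rfl⟩)
  have hPA_le : ∀ f ∈ PA A φ T, f ∈ Submodule.span ↥A (Set.range bf) := fun f hf =>
    (Submodule.span_le.2 hH_le) (S.mem_span_Hset hf)
  -- the coproduct in `PA`
  obtain ⟨ι, hι, a, c, ha, hc, hac⟩ := S.hasCoprod_PA hΔ h hh.1
  set v : Fin n × Fin n → M × M → Qb := fun p q => bf p.1 q.1 * bf p.2 q.2 with hv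
  have hprod : ∀ f g : M → Qb, f ∈ Submodule.span ↥A (Set.range bf) →
      g ∈ Submodule.span ↥A (Set.range bf) →
      (fun q : M × M => f q.1 * g q.2) ∈ Submodule.span ↥A (Set.range v) := by
    intro f g hf hg
    have h1 := Submodule.apply_mem_map₂ (mulFun A M) hf hg
    rw [Submodule.map₂_span_span] at h1
    refine Submodule.span_mono ?_ h1
    rintro _ ⟨_, ⟨i, rfl⟩, _, ⟨j, rfl⟩, rfl⟩
    exact ⟨(i, j), rfl⟩
  have hF : (fun q : M × M => h (q.1 + q.2)) ∈ Submodule.span ↥A (Set.range v) := by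
    have h1 : (fun q : M × M => h (q.1 + q.2)) = ∑ k, fun q : M × M => a k q.1 * c k q.2 := by
      funext q
      rw [hac, Finset.sum_apply]
    rw [h1]
    exact Submodule.sum_mem _ fun k _ => hprod _ _ (hPA_le _ (ha k)) (hPA_le _ (hc k))
  obtain ⟨γ, hγ⟩ := (Submodule.mem_span_range_iff_exists_fun ↥A).1 hF
  have hE : ∀ z z', h (z + z') = ∑ p, (γ p : Qb) * (bf p.1 z * bf p.2 z') := by
    intro z z'
    have h1 := congrFun hγ (z, z')
    rw [Finset.sum_apply] at h1
    exact h1.symm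
  -- the coefficients are rational
  have hvli : LinearIndependent Qb v := linearIndependent_mul_fun bf bf hli hli
  have hb : ∀ (σ : GQ) i u, σ (bf i (σ⁻¹ • u)) = bf i u := fun σ i u =>
    congrFun ((hbH i).2 σ) u
  have hγfix : ∀ (σ : GQ) p, σ (γ p : Qb) = (γ p : Qb) := by
    intro σ p
    have hzero : ∑ p, (σ (γ p : Qb) - (γ p : Qb)) • v p = 0 := by
      funext ⟨w, w'⟩
      simp only [Finset.sum_apply, Pi.smul_apply, smul_eq_mul, Pi.zero_apply, sub_mul,
        Finset.sum_sub_distrib]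
      rw [sub_eq_zero]
      have h1 : h (w + w') = σ (h (σ⁻¹ • w + σ⁻¹ • w')) := by
        rw [← smul_add]
        exact (congrFun (hh.2 σ) (w + w')).symm
      rw [hv]
      simp only
      rw [← hE w w', h1, hE, map_sum]
      apply Finset.sum_congr rfl
      intro p _
      rw [map_mul, map_mul, hb, hb]
    exact sub_eq_zero.1 (Fintype.linearIndependent_iff.1 hvli _ hzero p)
  choose q hq using fun p => exists_ratCast_eq_of_fixed (γ p : Qb) (fun σ => hγfix σ p)
  have hqR : ∀ p, q p ∈ GaloisRep.ratLocalizedAt ℓ := fun p =>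
    mem_ratLocalizedAt_of_mem S.prime S.liesOver (by rw [hq p]; exact (γ p).2)
  refine ⟨Fin n × Fin n, inferInstance,
    fun p => (⟨q p, hqR p⟩ : ↥(GaloisRep.ratLocalizedAt ℓ)) • bf p.1, fun p => bf p.2,
    fun p => Subalgebra.smul_mem _ (hbH p.1) _, fun p => hbH p.2, ?_⟩
  intro z z'
  rw [hE]
  apply Finset.sum_congr rfl
  intro p _
  show (γ p : Qb) * (bf p.1 z * bf p.2 z') =
    ((⟨q p, hqR p⟩ : ↥(GaloisRep.ratLocalizedAt ℓ)) • bf p.1) z * bf p.2 z'
  rw [ratLoc_smul_eq]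
  simp only [Pi.smul_apply, smul_eq_mul]
  rw [hq p]
  ring

end Setup

/-- **Chapter A2: the global order.**  Let `A` be a valuation subring of `ℚ̄` over `ℓ`, `M` a finite
`G_ℚ`-module with open stabilisers and `T` a set of `A`-valued, inertia-equivariant functions
`M → ℚ̄` which separates the points of `M` and whose members have coproducts in `A[T]`.  Then there
is a finite `ℤ_(ℓ)`-algebra `H` of `G_ℚ`-equivariant functions `M → ℚ̄` which separates the points of
`M` and is stable under the coproduct. -/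
theorem exists_globalOrder [Fact ℓ.Prime] (A : ValuationSubring Qb) (hA : A.LiesOverPrime ℓ)
    {M : Type*} [AddCommGroup M] [Finite M] [DistribMulAction GQ M]
    (hM : ∃ L : IntermediateField ℚ Qb, FiniteDimensional ℚ L ∧
      ∀ σ : GQ, (∀ x ∈ L, σ x = x) → ∀ z : M, σ • z = z)
    (T : Set (M → Qb)) (hTA : ∀ t ∈ T, ∀ z, t z ∈ A)
    (hTI : ∀ t ∈ T, ∀ τ ∈ A.inertiaSubgroupIn ℚ, ∀ z, t (τ • z) = τ (t z))
    (hsep : ∀ z z' : M, (∀ t ∈ T, t z = t z') → z = z')
    (hΔ : ∀ t ∈ T, HasCoprod (Algebra.adjoin ↥A T) t) :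
    ∃ H : Subalgebra (GaloisRep.ratLocalizedAt ℓ) (M → Qb),
      Module.Finite (GaloisRep.ratLocalizedAt ℓ) H ∧
      (∀ h ∈ H, ∀ (σ : GQ) (z : M), h (σ • z) = σ (h z)) ∧
      (∀ z z' : M, (∀ h ∈ H, h z = h z') → z = z') ∧
      ∀ h ∈ H, HasCoprod H h := by
  have hℓ : ℓ.Prime := Fact.out
  obtain ⟨φ, hφ⟩ := Fermat.Agent.ES.FROB.FrobFacts12.exists_isFrobeniusAt_of ℓ hℓ A hA
  have S : Setup A ℓ φ T :=
    ⟨hℓ, hA, hφ, hM, hTA, fun t ht τ hτ => (star_eq_self_iff τ t).2 (hTI t ht τ hτ), hsep⟩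
  exact ⟨Hsub hℓ hA φ T, S.finite_Hsub, fun h hh σ z => (star_eq_self_iff σ h).1 (hh.2 σ) z,
    fun z z' hzz' => S.Hset_sep z z' hzz', S.hasCoprod_Hsub hΔ⟩

end

end Fermat.Agent.FF.Desc4
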