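/-
Programme FF (S19/S32), chapter C0.2 (helper1), part B: **the Hopf algebra structure of an order
inside functions on a finite abelian group.**

Input (`OrderData`): an `R`-algebra `A` free of rank `#M` with an `R`-algebra map
`ev : A → (M → K)` sending a basis to a `K`-linearly independent family, stable under translation
(`comul_mem`), with `ev a 0 ∈ R` (`counit_mem`) and stable under inversion (`antipode_mem`).
Output: comultiplication, counit, antipode on `A`, characterised through `ev`.
-/
import Mathlib
import Fermat.Agent.FF.HopfOrd1A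

set_option autoImplicit false

namespace Fermat.Agent.FF.HopfOrd1

open scoped TensorProduct
open Algebra.TensorProduct

/-- a bialgebra order realised inside the functions on a finite abelian group `M`
(all the data of `OrderData` except the stability under inversion, which follows, see
`PreOrderData.toOrderData`). -/
structure PreOrderData (R K A M ι : Type*) [CommRing R] [Field K] [Algebra R K] [CommRing A]
    [Algebra R A] [AddCommGroup M] [Fintype M] [Fintype ι] where
  /-- evaluation of the elements of the order at the points. -/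
  ev : A →ₐ[R] (M → K)
  /-- an `R`-basis of the order. -/
  b : Module.Basis ι R A
  algebraMap_injective : Function.Injective (algebraMap R K)
  li : LinearIndependent K (fun i => ev (b i))
  card_eq : Fintype.card ι = Fintype.card M
  comul_mem : ∀ a : A, ∃ t : A ⊗[R] A, ∀ z z' : M, mu2 ev t (z, z') = ev a (z + z')
  counit_mem : ∀ a : A, ∃ r : R, algebraMap R K r = ev a 0

/-- a Hopf order realised inside the functions on a finite abelian group `M`. -/
structure OrderData (R K A M ι : Type*) [CommRing R] [Field K] [Algebra R K] [CommRing A]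
    [Algebra R A] [AddCommGroup M] [Fintype M] [Fintype ι] extends PreOrderData R K A M ι where
  antipode_mem : ∀ a : A, ∃ a' : A, ∀ z : M, ev a' z = ev a (-z)

namespace PreOrderData

variable {R K A M ι : Type*} [CommRing R] [Field K] [Algebra R K] [CommRing A] [Algebra R A]
  [AddCommGroup M] [Fintype M] [Fintype ι] (D : PreOrderData R K A M ι)

theorem ev_inj : Function.Injective D.ev := ev_injective D.ev D.b D.algebraMap_injective D.li

theorem mu2_inj : Function.Injective (mu2 D.ev) :=
  mu2_injective D.ev D.b D.algebraMap_injective D.li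

theorem mu3_inj : Function.Injective (mu3 D.ev) :=
  mu3_injective D.ev D.b D.algebraMap_injective D.li

/-! ### comultiplication -/

/-- translation: `a ↦ ((z, z') ↦ a (z + z'))`. -/
noncomputable def addPull : A →ₐ[R] (M × M → K) :=
  (pull R K (fun zz : M × M => zz.1 + zz.2)).comp D.ev

@[simp]
theorem addPull_apply (a : A) (zz : M × M) : D.addPull a zz = D.ev a (zz.1 + zz.2) := rfl

theorem addPull_mem_range (a : A) : D.addPull a ∈ (mu2 D.ev).range := by
  obtain ⟨t, ht⟩ := D.comul_mem a
  exact ⟨t, funext fun zz => ht zz.1 zz.2⟩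

/-- the comultiplication, as an algebra homomorphism. -/
noncomputable def comulAlgHom : A →ₐ[R] A ⊗[R] A :=
  ((AlgEquiv.ofInjective (mu2 D.ev) D.mu2_inj).symm : (mu2 D.ev).range →ₐ[R] A ⊗[R] A).comp
    (D.addPull.codRestrict (mu2 D.ev).range D.addPull_mem_range)

theorem mu2_comulAlgHom (a : A) (z z' : M) :
    mu2 D.ev (D.comulAlgHom a) (z, z') = D.ev a (z + z') := by
  have h : mu2 D.ev (D.comulAlgHom a) = D.addPull a := by
    have := (AlgEquiv.ofInjective (mu2 D.ev) D.mu2_inj).apply_symm_apply
      (D.addPull.codRestrict (mu2 D.ev).range D.addPull_mem_range a)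
    exact congrArg Subtype.val this
  rw [h]
  rfl

/-! ### counit -/

/-- evaluation at `0`. -/
noncomputable def evalZero : A →ₐ[R] K := (Pi.evalAlgHom R (fun _ : M => K) 0).comp D.ev

@[simp]
theorem evalZero_apply (a : A) : D.evalZero a = D.ev a 0 := rfl

theorem evalZero_mem_range (a : A) : D.evalZero a ∈ (Algebra.ofId R K).range := by
  obtain ⟨r, hr⟩ := D.counit_mem a
  exact ⟨r, hr⟩

/-- the counit, as an algebra homomorphism. -/
noncomputable def counitAlgHom : A →ₐ[R] R :=
  ((AlgEquiv.ofInjective (Algebra.ofId R K) D.algebraMap_injective).symm :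
      (Algebra.ofId R K).range →ₐ[R] R).comp
    (D.evalZero.codRestrict (Algebra.ofId R K).range D.evalZero_mem_range)

theorem algebraMap_counitAlgHom (a : A) : algebraMap R K (D.counitAlgHom a) = D.ev a 0 := by
  have := (AlgEquiv.ofInjective (Algebra.ofId R K) D.algebraMap_injective).apply_symm_apply
    (D.evalZero.codRestrict (Algebra.ofId R K).range D.evalZero_mem_range a)
  exact congrArg Subtype.val this

/-! ### evaluation of the structure maps on the function models -/

theorem mu3_assoc_tmul (s : A ⊗[R] A) (a : A) (z₁ z₂ z₃ : M) :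
    mu3 D.ev (Algebra.TensorProduct.assoc R R R A A A (s ⊗ₜ[R] a)) (z₁, (z₂, z₃)) =
      mu2 D.ev s (z₁, z₂) * D.ev a z₃ := by
  induction s using TensorProduct.induction_on with
  | zero => simp
  | tmul x y => simp [mul_assoc]
  | add s₁ s₂ h₁ h₂ =>
    rw [TensorProduct.add_tmul, map_add, map_add, Pi.add_apply, h₁, h₂, map_add, Pi.add_apply,
      add_mul]

theorem mu3_assoc_map_comul (t : A ⊗[R] A) (z₁ z₂ z₃ : M) :
    mu3 D.ev (Algebra.TensorProduct.assoc R R R A A A
      (Algebra.TensorProduct.map D.comulAlgHom (AlgHom.id R A) t)) (z₁, (z₂, z₃)) =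
      mu2 D.ev t (z₁ + z₂, z₃) := by
  induction t using TensorProduct.induction_on with
  | zero => simp
  | tmul x y =>
    rw [Algebra.TensorProduct.map_tmul, AlgHom.id_apply, mu3_assoc_tmul, mu2_comulAlgHom, mu2_tmul]
  | add s₁ s₂ h₁ h₂ =>
    rw [map_add, map_add, map_add, Pi.add_apply, h₁, h₂, map_add, Pi.add_apply]

theorem mu3_map_id_comul (t : A ⊗[R] A) (z₁ z₂ z₃ : M) :
    mu3 D.ev (Algebra.TensorProduct.map (AlgHom.id R A) D.comulAlgHom t) (z₁, (z₂, z₃)) =
      mu2 D.ev t (z₁, z₂ + z₃) := by
  induction t using TensorProduct.induction_on with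
  | zero => simp
  | tmul x y =>
    rw [Algebra.TensorProduct.map_tmul, AlgHom.id_apply, mu3_tmul, mu2_comulAlgHom, mu2_tmul]
  | add s₁ s₂ h₁ h₂ =>
    rw [map_add, map_add, Pi.add_apply, h₁, h₂, map_add, Pi.add_apply]

theorem ev_lid_map_counit (t : A ⊗[R] A) (z : M) :
    D.ev (Algebra.TensorProduct.lid R A
      (Algebra.TensorProduct.map D.counitAlgHom (AlgHom.id R A) t)) z = mu2 D.ev t (0, z) := by
  induction t using TensorProduct.induction_on with
  | zero => simp
  | tmul x y =>
    rw [Algebra.TensorProduct.map_tmul, AlgHom.id_apply, Algebra.TensorProduct.lid_tmul, map_smul,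
      Pi.smul_apply, Algebra.smul_def, algebraMap_counitAlgHom, mu2_tmul]
  | add s₁ s₂ h₁ h₂ =>
    rw [map_add, map_add, map_add, Pi.add_apply, h₁, h₂, map_add, Pi.add_apply]

theorem ev_rid_map_counit (t : A ⊗[R] A) (z : M) :
    D.ev (Algebra.TensorProduct.rid R R A
      (Algebra.TensorProduct.map (AlgHom.id R A) D.counitAlgHom t)) z = mu2 D.ev t (z, 0) := by
  induction t using TensorProduct.induction_on with
  | zero => simp
  | tmul x y =>
    rw [Algebra.TensorProduct.map_tmul, AlgHom.id_apply, Algebra.TensorProduct.rid_tmul, map_smul,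
      Pi.smul_apply, Algebra.smul_def, algebraMap_counitAlgHom, mu2_tmul, mul_comm]
  | add s₁ s₂ h₁ h₂ =>
    rw [map_add, map_add, map_add, Pi.add_apply, h₁, h₂, map_add, Pi.add_apply]

end PreOrderData

end Fermat.Agent.FF.HopfOrd1
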