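/-
Programme FF (S19/S32), chapter C0.2 (helper1), part C: **the Hopf algebra of an order inside
functions on a finite abelian group** (`OrderData.hopfAlgebra`), its finiteness, flatness and
cocommutativity.
-/
import Mathlib
import Fermat.Agent.FF.HopfOrd1B

set_option autoImplicit false

namespace Fermat.Agent.FF.HopfOrd1

open scoped TensorProduct
open Algebra.TensorProduct

namespace PreOrderData

variable {R K A M ι : Type*} [CommRing R] [Field K] [Algebra R K] [CommRing A] [Algebra R A]
  [AddCommGroup M] [Fintype M] [Fintype ι] (D : PreOrderData R K A M ι)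

theorem coassoc :
    (Algebra.TensorProduct.assoc R R R A A A).toAlgHom.comp
        ((Algebra.TensorProduct.map D.comulAlgHom (AlgHom.id R A)).comp D.comulAlgHom) =
      (Algebra.TensorProduct.map (AlgHom.id R A) D.comulAlgHom).comp D.comulAlgHom := by
  refine AlgHom.ext fun a => D.mu3_inj ?_
  funext ⟨z₁, z₂, z₃⟩
  show mu3 D.ev ((Algebra.TensorProduct.assoc R R R A A A)
      ((Algebra.TensorProduct.map D.comulAlgHom (AlgHom.id R A)) (D.comulAlgHom a)))
        (z₁, (z₂, z₃)) =
    mu3 D.ev ((Algebra.TensorProduct.map (AlgHom.id R A) D.comulAlgHom) (D.comulAlgHom a))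
      (z₁, (z₂, z₃))
  rw [D.mu3_assoc_map_comul, D.mu3_map_id_comul, D.mu2_comulAlgHom, D.mu2_comulAlgHom, add_assoc]

theorem rTensor_counit :
    (Algebra.TensorProduct.map D.counitAlgHom (AlgHom.id R A)).comp D.comulAlgHom =
      (Algebra.TensorProduct.lid R A).symm := by
  refine AlgHom.ext fun a => ?_
  apply (Algebra.TensorProduct.lid R A).injective
  apply D.ev_inj
  funext z
  show D.ev ((Algebra.TensorProduct.lid R A)
      ((Algebra.TensorProduct.map D.counitAlgHom (AlgHom.id R A)) (D.comulAlgHom a))) z =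
    D.ev ((Algebra.TensorProduct.lid R A) ((Algebra.TensorProduct.lid R A).symm a)) z
  rw [D.ev_lid_map_counit, D.mu2_comulAlgHom, zero_add, AlgEquiv.apply_symm_apply]

theorem lTensor_counit :
    (Algebra.TensorProduct.map (AlgHom.id R A) D.counitAlgHom).comp D.comulAlgHom =
      (Algebra.TensorProduct.rid R R A).symm := by
  refine AlgHom.ext fun a => ?_
  apply (Algebra.TensorProduct.rid R R A).injective
  apply D.ev_inj
  funext z
  show D.ev ((Algebra.TensorProduct.rid R R A)
      ((Algebra.TensorProduct.map (AlgHom.id R A) D.counitAlgHom) (D.comulAlgHom a))) z =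
    D.ev ((Algebra.TensorProduct.rid R R A) ((Algebra.TensorProduct.rid R R A).symm a)) z
  rw [D.ev_rid_map_counit, D.mu2_comulAlgHom, add_zero, AlgEquiv.apply_symm_apply]

/-- the bialgebra structure of the order. -/
noncomputable abbrev bialgebra : Bialgebra R A :=
  Bialgebra.ofAlgHom D.comulAlgHom D.counitAlgHom D.coassoc D.rTensor_counit D.lTensor_counit

/-! ### multiplication by `k` and the stability under inversion -/

theorem ev_mul_lTensor_of (S : A →ₗ[R] A) (s : M → M) (hS : ∀ a z, D.ev (S a) z = D.ev a (s z))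
    (t : A ⊗[R] A) (z : M) :
    D.ev (LinearMap.mul' R A (S.lTensor A t)) z = mu2 D.ev t (z, s z) := by
  induction t using TensorProduct.induction_on with
  | zero => simp
  | tmul x y =>
    rw [LinearMap.lTensor_tmul, LinearMap.mul'_apply, map_mul, Pi.mul_apply, hS, mu2_tmul]
  | add s₁ s₂ h₁ h₂ =>
    rw [map_add, map_add, map_add, Pi.add_apply, h₁, h₂, map_add, Pi.add_apply]

theorem ev_mul_rTensor_of (S : A →ₗ[R] A) (s : M → M) (hS : ∀ a z, D.ev (S a) z = D.ev a (s z))
    (t : A ⊗[R] A) (z : M) :
    D.ev (LinearMap.mul' R A (S.rTensor A t)) z = mu2 D.ev t (s z, z) := by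
  induction t using TensorProduct.induction_on with
  | zero => simp
  | tmul x y =>
    rw [LinearMap.rTensor_tmul, LinearMap.mul'_apply, map_mul, Pi.mul_apply, hS, mu2_tmul]
  | add s₁ s₂ h₁ h₂ =>
    rw [map_add, map_add, map_add, Pi.add_apply, h₁, h₂, map_add, Pi.add_apply]

theorem ev_algebraMap_counit (a : A) (z : M) :
    D.ev (algebraMap R A (D.counitAlgHom a)) z = D.ev a 0 := by
  rw [AlgHom.commutes, Pi.algebraMap_apply, algebraMap_counitAlgHom]

/-- multiplication by `k` on the order: `a ↦ (z ↦ a (k • z))`. -/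
noncomputable def mulBy : ℕ → (A →ₗ[R] A)
  | 0 => (Algebra.linearMap R A).comp D.counitAlgHom.toLinearMap
  | k + 1 => (LinearMap.mul' R A).comp (((mulBy k).lTensor A).comp D.comulAlgHom.toLinearMap)

theorem ev_mulBy (k : ℕ) (a : A) (z : M) : D.ev (D.mulBy k a) z = D.ev a (k • z) := by
  induction k generalizing a z with
  | zero =>
    show D.ev (algebraMap R A (D.counitAlgHom a)) z = D.ev a ((0 : ℕ) • z)
    rw [D.ev_algebraMap_counit, zero_smul]
  | succ k ih =>
    show D.ev (LinearMap.mul' R A ((D.mulBy k).lTensor A (D.comulAlgHom a))) z =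
      D.ev a ((k + 1) • z)
    rw [D.ev_mul_lTensor_of (D.mulBy k) (fun z => k • z) ih, D.mu2_comulAlgHom, succ_nsmul,
      add_comm]

/-- the order is stable under inversion. -/
theorem antipode_mem (a : A) : ∃ a' : A, ∀ z : M, D.ev a' z = D.ev a (-z) := by
  refine ⟨D.mulBy (Fintype.card M - 1) a, fun z => ?_⟩
  have hpos : 0 < Fintype.card M := Fintype.card_pos_iff.mpr ⟨0⟩
  have h1 : (Fintype.card M - 1) • z + z = 0 := by
    rw [← succ_nsmul, Nat.sub_add_cancel hpos, card_nsmul_eq_zero]
  rw [D.ev_mulBy, eq_neg_of_add_eq_zero_left h1]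

/-- **a bialgebra order in the functions on a finite abelian group is a Hopf order.** -/
def toOrderData : OrderData R K A M ι := { D with antipode_mem := D.antipode_mem }

end PreOrderData

namespace OrderData

variable {R K A M ι : Type*} [CommRing R] [Field K] [Algebra R K] [CommRing A] [Algebra R A]
  [AddCommGroup M] [Fintype M] [Fintype ι] (D : OrderData R K A M ι)

/-! ### antipode -/

/-- inversion: `a ↦ (z ↦ a (-z))`, as a linear map into functions. -/
noncomputable def negPull : A →ₗ[R] (M → K) :=
  ((pull R K (fun z : M => -z)).comp D.ev).toLinearMap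

theorem negPull_mem_range (a : A) : D.negPull a ∈ LinearMap.range D.ev.toLinearMap := by
  obtain ⟨a', ha'⟩ := D.antipode_mem a
  exact ⟨a', funext ha'⟩

/-- the antipode. -/
noncomputable def antipodeLin : A →ₗ[R] A :=
  ((LinearEquiv.ofInjective D.ev.toLinearMap D.ev_inj).symm :
      LinearMap.range D.ev.toLinearMap →ₗ[R] A).comp
    (D.negPull.codRestrict (LinearMap.range D.ev.toLinearMap) D.negPull_mem_range)

theorem ev_antipodeLin (a : A) (z : M) : D.ev (D.antipodeLin a) z = D.ev a (-z) := by
  have h := (LinearEquiv.ofInjective D.ev.toLinearMap D.ev_inj).apply_symm_apply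
    (D.negPull.codRestrict (LinearMap.range D.ev.toLinearMap) D.negPull_mem_range a)
  have h' : D.ev (D.antipodeLin a) = D.negPull a := congrArg Subtype.val h
  rw [h']
  rfl

theorem ev_mul_rTensor_antipode (t : A ⊗[R] A) (z : M) :
    D.ev (LinearMap.mul' R A (D.antipodeLin.rTensor A t)) z = mu2 D.ev t (-z, z) := by
  induction t using TensorProduct.induction_on with
  | zero => simp
  | tmul x y =>
    rw [LinearMap.rTensor_tmul, LinearMap.mul'_apply, map_mul, Pi.mul_apply, ev_antipodeLin,
      mu2_tmul]
  | add s₁ s₂ h₁ h₂ =>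
    rw [map_add, map_add, map_add, Pi.add_apply, h₁, h₂, map_add, Pi.add_apply]

theorem ev_mul_lTensor_antipode (t : A ⊗[R] A) (z : M) :
    D.ev (LinearMap.mul' R A (D.antipodeLin.lTensor A t)) z = mu2 D.ev t (z, -z) := by
  induction t using TensorProduct.induction_on with
  | zero => simp
  | tmul x y =>
    rw [LinearMap.lTensor_tmul, LinearMap.mul'_apply, map_mul, Pi.mul_apply, ev_antipodeLin,
      mu2_tmul]
  | add s₁ s₂ h₁ h₂ =>
    rw [map_add, map_add, map_add, Pi.add_apply, h₁, h₂, map_add, Pi.add_apply]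

/-- **the Hopf algebra structure of the order.** -/
noncomputable abbrev hopfAlgebra : HopfAlgebra R A :=
  { D.bialgebra with
    antipode := D.antipodeLin
    mul_antipode_rTensor_comul := by
      refine LinearMap.ext fun a => D.ev_inj ?_
      funext z
      show D.ev (LinearMap.mul' R A (D.antipodeLin.rTensor A (D.comulAlgHom a))) z =
        D.ev (algebraMap R A (D.counitAlgHom a)) z
      rw [D.ev_mul_rTensor_antipode, D.mu2_comulAlgHom, D.ev_algebraMap_counit, neg_add_cancel]
    mul_antipode_lTensor_comul := by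
      refine LinearMap.ext fun a => D.ev_inj ?_
      funext z
      show D.ev (LinearMap.mul' R A (D.antipodeLin.lTensor A (D.comulAlgHom a))) z =
        D.ev (algebraMap R A (D.counitAlgHom a)) z
      rw [D.ev_mul_lTensor_antipode, D.mu2_comulAlgHom, D.ev_algebraMap_counit, add_neg_cancel] }

/-! ### finiteness, flatness, cocommutativity -/

include D in
theorem finite : Module.Finite R A := Module.Finite.of_basis D.b

include D in
theorem flat : Module.Flat R A :=
  haveI : Module.Free R A := Module.Free.of_basis D.b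
  inferInstance

theorem mu2_comm (t : A ⊗[R] A) (z z' : M) :
    mu2 D.ev (TensorProduct.comm R A A t) (z, z') = mu2 D.ev t (z', z) := by
  induction t using TensorProduct.induction_on with
  | zero => simp
  | tmul x y => rw [TensorProduct.comm_tmul, mu2_tmul, mu2_tmul, mul_comm]
  | add s₁ s₂ h₁ h₂ => rw [map_add, map_add, Pi.add_apply, h₁, h₂, map_add, Pi.add_apply]

theorem isCocomm : @Coalgebra.IsCocomm R A _ _ _ D.hopfAlgebra.toCoalgebra := by
  refine ⟨LinearMap.ext fun a => D.mu2_inj ?_⟩
  funext ⟨z, z'⟩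
  show mu2 D.ev (TensorProduct.comm R A A (D.comulAlgHom a)) (z, z') =
    mu2 D.ev (D.comulAlgHom a) (z, z')
  rw [D.mu2_comm, D.mu2_comulAlgHom, D.mu2_comulAlgHom, add_comm]

end OrderData

end Fermat.Agent.FF.HopfOrd1
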