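/-
Programme FF (S19/S32), chapter C0.2 (helper1), part D: **the points of the Hopf order**:
every `R`-algebra map `A → K` is the evaluation at a unique point of `M`, and convolution of
points is addition in `M`.
-/
import Mathlib
import Fermat.Agent.FF.HopfOrd1C

set_option autoImplicit false

namespace Fermat.Agent.FF.HopfOrd1

open scoped TensorProduct
open Algebra.TensorProduct

namespace OrderData

variable {R K A M ι : Type*} [CommRing R] [Field K] [Algebra R K] [CommRing A] [Algebra R A]
  [AddCommGroup M] [Fintype M] [Fintype ι] (D : OrderData R K A M ι)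

/-- evaluation at a point, as an algebra homomorphism. -/
noncomputable def evalAt (z : M) : A →ₐ[R] K := (Pi.evalAlgHom R (fun _ : M => K) z).comp D.ev

@[simp]
theorem evalAt_apply (z : M) (a : A) : D.evalAt z a = D.ev a z := rfl

include D in
theorem nonempty_index : Nonempty ι := by
  have h : 0 < Fintype.card ι := by
    rw [D.card_eq]
    exact Fintype.card_pos_iff.mpr ⟨0⟩
  exact Fintype.card_pos_iff.mp h

/-- the images of the basis elements form a `K`-basis of the space of all functions. -/
noncomputable def funBasis : Module.Basis ι K (M → K) :=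
  haveI := D.nonempty_index
  basisOfLinearIndependentOfCardEqFinrank D.li
    (by rw [Module.finrank_fintype_fun_eq_card, D.card_eq])

@[simp]
theorem funBasis_apply (i : ι) : D.funBasis i = D.ev (D.b i) := by
  unfold funBasis
  simp

/-- the `K`-linear extension of an `R`-linear functional on the order. -/
noncomputable def extend (φ : A →ₐ[R] K) : (M → K) →ₗ[K] K :=
  D.funBasis.constr K (fun i => φ (D.b i))

theorem extend_ev (φ : A →ₐ[R] K) (a : A) : D.extend φ (D.ev a) = φ a := by
  have ha : a = ∑ i, D.b.repr a i • D.b i := (D.b.sum_repr a).symm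
  conv_lhs => rw [ha]
  conv_rhs => rw [ha]
  rw [map_sum, map_sum, map_sum]
  refine Finset.sum_congr rfl fun i _ => ?_
  have h1 : D.ev (D.b.repr a i • D.b i) = algebraMap R K (D.b.repr a i) • D.ev (D.b i) := by
    rw [map_smul, algebraMap_smul]
  rw [h1, map_smul, map_smul, ← funBasis_apply, extend, Module.Basis.constr_basis,
    smul_eq_mul, Algebra.smul_def]

theorem extend_mul (φ : A →ₐ[R] K) (f g : M → K) :
    D.extend φ (f * g) = D.extend φ f * D.extend φ g := by
  have h1 : ∀ i j, D.extend φ (D.funBasis i * D.funBasis j) =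
      D.extend φ (D.funBasis i) * D.extend φ (D.funBasis j) := by
    intro i j
    rw [funBasis_apply, funBasis_apply, ← map_mul, extend_ev, extend_ev, extend_ev, map_mul]
  have h2 : ∀ i g, D.extend φ (D.funBasis i * g) = D.extend φ (D.funBasis i) * D.extend φ g := by
    intro i g
    have := D.funBasis.ext (f₁ := (D.extend φ).comp (LinearMap.mulLeft K (D.funBasis i)))
      (f₂ := (LinearMap.mulLeft K (D.extend φ (D.funBasis i))).comp (D.extend φ))
      (fun j => by simpa using h1 i j)
    simpa using LinearMap.congr_fun this g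
  have := D.funBasis.ext (f₁ := (D.extend φ).comp (LinearMap.mulRight K g))
    (f₂ := (LinearMap.mulRight K (D.extend φ g)).comp (D.extend φ))
    (fun i => by simpa using h2 i g)
  simpa using LinearMap.congr_fun this f

theorem extend_one (φ : A →ₐ[R] K) : D.extend φ 1 = 1 := by
  have : (1 : M → K) = D.ev 1 := (map_one D.ev).symm
  rw [this, extend_ev, map_one]

/-- **every point of the order is the evaluation at a point of `M`.** -/
theorem exists_eq_evalAt (φ : A →ₐ[R] K) : ∃ z : M, φ = D.evalAt z := by
  classical
  have hsum : ∑ z : M, D.extend φ (Pi.single z (1 : K)) = 1 := by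
    rw [← map_sum, Finset.univ_sum_single (fun _ : M => (1 : K))]
    exact D.extend_one φ
  obtain ⟨z₀, -, hz₀⟩ := Finset.exists_ne_zero_of_sum_ne_zero (by rw [hsum]; exact one_ne_zero)
  refine ⟨z₀, AlgHom.ext fun a => ?_⟩
  rw [evalAt_apply, ← D.extend_ev φ a]
  have hmul : D.ev a * Pi.single z₀ (1 : K) = D.ev a z₀ • Pi.single z₀ (1 : K) := by
    funext z
    by_cases hz : z = z₀
    · subst hz; simp
    · simp [Pi.single_eq_of_ne hz]
  have := D.extend_mul φ (D.ev a) (Pi.single z₀ (1 : K))
  rw [hmul, map_smul, smul_eq_mul] at this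
  exact (mul_right_cancel₀ hz₀ this).symm

/-- **the order separates the points of `M`.** -/
theorem evalAt_injective : Function.Injective D.evalAt := by
  classical
  intro z z' h
  by_contra hne
  have hrepr := D.funBasis.sum_repr (Pi.single z (1 : K))
  have h1 := congrFun hrepr z
  have h2 := congrFun hrepr z'
  simp only [Finset.sum_apply, Pi.smul_apply, funBasis_apply, smul_eq_mul, Pi.single_eq_same] at h1
  simp only [Finset.sum_apply, Pi.smul_apply, funBasis_apply, smul_eq_mul] at h2
  rw [Pi.single_eq_of_ne (Ne.symm hne)] at h2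
  have hev : ∀ a, D.ev a z = D.ev a z' := fun a => AlgHom.congr_fun h a
  have : (1 : K) = 0 := by
    rw [← h1, ← h2]
    exact Finset.sum_congr rfl fun i _ => by rw [hev]
  exact one_ne_zero this

/-- **the points of the order are the points of `M`.** -/
noncomputable def pointsEquiv : WithConv (A →ₐ[R] K) ≃ M :=
  (WithConv.equiv _).trans (Equiv.ofBijective D.evalAt
    ⟨D.evalAt_injective, fun φ => (D.exists_eq_evalAt φ).imp fun _ h => h.symm⟩).symm

theorem pointsEquiv_symm_apply (z : M) (a : A) :
    (D.pointsEquiv.symm z).ofConv a = D.ev a z := rfl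

theorem ofConv_apply_eq (f : WithConv (A →ₐ[R] K)) (a : A) :
    f.ofConv a = D.ev a (D.pointsEquiv f) := by
  have : f = D.pointsEquiv.symm (D.pointsEquiv f) := (D.pointsEquiv.symm_apply_apply f).symm
  conv_lhs => rw [this]
  rfl

end OrderData

end Fermat.Agent.FF.HopfOrd1
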