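/-
Programme FF (S19/S32), chapter C0.2 (helper1), part E: **convolution of points is addition**, the
equivariance of the identification of points, and the packaged statement in the exact shape of the
conclusion of `ModularCurve.exists_finiteFlat_model_jZero_torsion` (S19) and of
`GaloisRepAdic.IsFlatAt` (S32).
-/
import Mathlib
import Fermat.Agent.FF.HopfOrd1D

set_option autoImplicit false
set_option linter.style.haveILetI false

namespace Fermat.Agent.FF.HopfOrd1

open scoped TensorProduct
open Algebra.TensorProduct

namespace OrderData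

universe u
variable {R K M ι : Type*} {A : Type u} [CommRing R] [Field K] [Algebra R K] [CommRing A]
  [Algebra R A] [AddCommGroup M] [Fintype M] [Fintype ι] (D : OrderData R K A M ι)

theorem lift_evalAt (z z' : M) (t : A ⊗[R] A) :
    Algebra.TensorProduct.lift (D.evalAt z) (D.evalAt z') (fun _ _ => Commute.all _ _) t =
      mu2 D.ev t (z, z') := by
  induction t using TensorProduct.induction_on with
  | zero => simp
  | tmul x y => rw [Algebra.TensorProduct.lift_tmul, mu2_tmul, evalAt_apply, evalAt_apply]
  | add s₁ s₂ h₁ h₂ => rw [map_add, h₁, h₂, map_add, Pi.add_apply]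

/-- **convolution of points is addition in `M`.** -/
theorem toConv_evalAt_mul (z z' : M) :
    letI := D.hopfAlgebra
    (WithConv.toConv (D.evalAt z) * WithConv.toConv (D.evalAt z') : WithConv (A →ₐ[R] K)) =
      WithConv.toConv (D.evalAt (z + z')) := by
  letI := D.hopfAlgebra
  apply WithConv.ext
  refine AlgHom.ext fun a => ?_
  have h := AlgHom.convMul_apply (R := R) (A := K) (C := A) (WithConv.toConv (D.evalAt z))
    (WithConv.toConv (D.evalAt z')) a
  refine h.trans ?_
  show Algebra.TensorProduct.lift (D.evalAt z) (D.evalAt z') (fun _ _ => Commute.all _ _)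
    (D.comulAlgHom a) = D.ev a (z + z')
  rw [D.lift_evalAt, D.mu2_comulAlgHom]

theorem pointsEquiv_mul (f g : WithConv (A →ₐ[R] K)) :
    letI := D.hopfAlgebra
    D.pointsEquiv (f * g) = D.pointsEquiv f + D.pointsEquiv g := by
  letI := D.hopfAlgebra
  have hf : f = WithConv.toConv (D.evalAt (D.pointsEquiv f)) :=
    (D.pointsEquiv.symm_apply_apply f).symm
  have hg : g = WithConv.toConv (D.evalAt (D.pointsEquiv g)) :=
    (D.pointsEquiv.symm_apply_apply g).symm
  conv_lhs => rw [hf, hg, D.toConv_evalAt_mul]
  exact D.pointsEquiv.apply_symm_apply _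

/-- equivariance of the identification of points: `act` and `actK` are arbitrary families of maps
on `M` and on `K` for which the elements of the order are equivariant functions. -/
theorem pointsEquiv_act {G : Type*} (act : G → M → M) (actK : G → K → K)
    (hact : ∀ (σ : G) (a : A) (z : M), D.ev a (act σ z) = actK σ (D.ev a z))
    (σ : G) (f g : WithConv (A →ₐ[R] K)) (h : ∀ a : A, g.ofConv a = actK σ (f.ofConv a)) :
    D.pointsEquiv g = act σ (D.pointsEquiv f) := by
  apply D.evalAt_injective
  refine AlgHom.ext fun a => ?_
  rw [evalAt_apply, evalAt_apply, hact, ← D.ofConv_apply_eq, ← D.ofConv_apply_eq, h]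

/-- **the packaged statement**, in the exact shape of the conclusion of S19 (and of
`GaloisRepAdic.IsFlatAt`): a Hopf order in the functions on `M` is a finite flat commutative and
cocommutative Hopf algebra whose group of `K`-points is `M`, equivariantly. -/
theorem exists_hopfAlgebra {G : Type*} (act : G → M → M) (actK : G → K → K)
    (hact : ∀ (σ : G) (a : A) (z : M), D.ev a (act σ z) = actK σ (D.ev a z)) :
    ∃ (H : Type u) (_ : CommRing H) (_ : HopfAlgebra R H),
      Module.Finite R H ∧ Module.Flat R H ∧ Coalgebra.IsCocomm R H ∧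
      ∃ e : WithConv (H →ₐ[R] K) ≃ M,
        (∀ f g, e (f * g) = e f + e g) ∧
        ∀ (σ : G) (f g : WithConv (H →ₐ[R] K)), (∀ h : H, g h = actK σ (f h)) →
          e g = act σ (e f) :=
  ⟨A, inferInstance, D.hopfAlgebra, D.finite, D.flat, D.isCocomm, D.pointsEquiv,
    D.pointsEquiv_mul, D.pointsEquiv_act act actK hact⟩

end OrderData

end Fermat.Agent.FF.HopfOrd1
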