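/-
Programme FF (S19/S32), chapter C0.2 (helper1), part F: **convenient constructors.**

* `card_le_of_separates`: an order that separates the points of `M` has rank at least `#M`
  (Dedekind's independence of characters), so that together with the `K`-linear independence of the
  image of a basis the rank is exactly `#M`;
* `comul_mem_of_adjoin`, `counit_mem_of_adjoin`: translation stability and integrality of the value
  at `0` need only be checked on algebra generators;
* `PreOrderData.ofSeparates`, `exists_hopfAlgebra_of_separates`: the packaged statement from these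
  weaker inputs (no stability under inversion, no rank equality).
-/
import Mathlib
import Fermat.Agent.FF.HopfOrd1E

set_option autoImplicit false

namespace Fermat.Agent.FF.HopfOrd1

open scoped TensorProduct
open Algebra.TensorProduct

section Constructors

universe u
variable {R K M ι : Type*} {A : Type u} [CommRing R] [Field K] [Algebra R K] [CommRing A]
  [Algebra R A] [Fintype M] [Fintype ι]

/-- the rows `z ↦ (ev (b i) z)_i` of the evaluation matrix of an order that separates points are
linearly independent. -/
theorem linearIndependent_rows_of_separates (ev : A →ₐ[R] (M → K)) (b : Module.Basis ι R A)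
    (hsep : ∀ z z' : M, (∀ a : A, ev a z = ev a z') → z = z') :
    LinearIndependent K (fun z : M => fun i : ι => ev (b i) z) := by
  classical
  -- the characters `A →* K` attached to the points
  let χ : M → (A →* K) := fun z =>
    (((Pi.evalAlgHom R (fun _ : M => K) z).comp ev : A →ₐ[R] K) : A →* K)
  have hχ_apply : ∀ z a, χ z a = ev a z := fun _ _ => rfl
  have hχ : Function.Injective χ := by
    intro z z' h
    exact hsep z z' fun a => by rw [← hχ_apply, h, hχ_apply]
  have hli := (linearIndependent_monoidHom A K).comp χ hχ
  rw [Fintype.linearIndependent_iff] at hli ⊢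
  intro c hc
  apply hli c
  funext a
  have hval : ∀ i : ι, ∑ z, c z * ev (b i) z = 0 := by
    intro i
    have := congrFun hc i
    simpa using this
  have ha : a = ∑ i, b.repr a i • b i := (b.sum_repr a).symm
  simp only [Function.comp_apply, Finset.sum_apply, Pi.smul_apply, smul_eq_mul, Pi.zero_apply]
  show ∑ z, c z * χ z a = 0
  have hz : ∀ z, χ z a = ∑ i, algebraMap R K (b.repr a i) * ev (b i) z := by
    intro z
    rw [hχ_apply]
    conv_lhs => rw [ha]
    rw [map_sum, Finset.sum_apply]
    refine Finset.sum_congr rfl fun i _ => ?_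
    rw [map_smul, Pi.smul_apply, Algebra.smul_def]
  calc ∑ z, c z * χ z a = ∑ z, ∑ i, algebraMap R K (b.repr a i) * (c z * ev (b i) z) := by
        refine Finset.sum_congr rfl fun z _ => ?_
        rw [hz, Finset.mul_sum]
        refine Finset.sum_congr rfl fun i _ => ?_
        ring
    _ = ∑ i, algebraMap R K (b.repr a i) * ∑ z, c z * ev (b i) z := by
        rw [Finset.sum_comm]
        refine Finset.sum_congr rfl fun i _ => ?_
        rw [Finset.mul_sum]
    _ = 0 := by
        refine Finset.sum_eq_zero fun i _ => ?_
        rw [hval, mul_zero]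

/-- an order that separates the points of `M` has rank at least `#M`. -/
theorem card_le_of_separates (ev : A →ₐ[R] (M → K)) (b : Module.Basis ι R A)
    (hsep : ∀ z z' : M, (∀ a : A, ev a z = ev a z') → z = z') :
    Fintype.card M ≤ Fintype.card ι := by
  have h := (linearIndependent_rows_of_separates ev b hsep).fintype_card_le_finrank
  rwa [Module.finrank_fintype_fun_eq_card] at h

/-- an order whose basis has `K`-linearly independent image has rank at most `#M`. -/
theorem card_le_of_linearIndependent (ev : A →ₐ[R] (M → K)) (b : Module.Basis ι R A)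
    (hli : LinearIndependent K (fun i => ev (b i))) : Fintype.card ι ≤ Fintype.card M := by
  have h := hli.fintype_card_le_finrank
  rwa [Module.finrank_fintype_fun_eq_card] at h

variable [AddCommGroup M]

omit [Fintype M] in
/-- translation stability need only be checked on algebra generators. -/
theorem comul_mem_of_adjoin (ev : A →ₐ[R] (M → K)) (S : Set A) (hS : Algebra.adjoin R S = ⊤)
    (h : ∀ a ∈ S, ∃ t : A ⊗[R] A, ∀ z z' : M, mu2 ev t (z, z') = ev a (z + z')) (a : A) :
    ∃ t : A ⊗[R] A, ∀ z z' : M, mu2 ev t (z, z') = ev a (z + z') := by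
  let addP : A →ₐ[R] (M × M → K) := (pull R K (fun zz : M × M => zz.1 + zz.2)).comp ev
  have hle : Algebra.adjoin R S ≤ (mu2 ev).range.comap addP := by
    refine Algebra.adjoin_le fun s hs => ?_
    obtain ⟨t, ht⟩ := h s hs
    exact ⟨t, funext fun zz => ht zz.1 zz.2⟩
  have ha : a ∈ (mu2 ev).range.comap addP := hle (hS ▸ Algebra.mem_top)
  obtain ⟨t, ht⟩ := ha
  exact ⟨t, fun z z' => congrFun ht (z, z')⟩

omit [Fintype M] in
/-- integrality of the value at `0` need only be checked on algebra generators. -/
theorem counit_mem_of_adjoin (ev : A →ₐ[R] (M → K)) (S : Set A) (hS : Algebra.adjoin R S = ⊤)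
    (h : ∀ a ∈ S, ∃ r : R, algebraMap R K r = ev a 0) (a : A) :
    ∃ r : R, algebraMap R K r = ev a 0 := by
  let ev0 : A →ₐ[R] K := (Pi.evalAlgHom R (fun _ : M => K) 0).comp ev
  have hle : Algebra.adjoin R S ≤ (Algebra.ofId R K).range.comap ev0 := by
    refine Algebra.adjoin_le fun s hs => ?_
    obtain ⟨r, hr⟩ := h s hs
    exact ⟨r, hr⟩
  have ha : a ∈ (Algebra.ofId R K).range.comap ev0 := hle (hS ▸ Algebra.mem_top)
  obtain ⟨r, hr⟩ := ha
  exact ⟨r, hr⟩

/-- **constructor from the weak inputs**: a basis with `K`-linearly independent image, separation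
of points, and translation stability / integrality at `0` on algebra generators. -/
def PreOrderData.ofSeparates (ev : A →ₐ[R] (M → K)) (b : Module.Basis ι R A)
    (hinj : Function.Injective (algebraMap R K))
    (hli : LinearIndependent K (fun i => ev (b i)))
    (hsep : ∀ z z' : M, (∀ a : A, ev a z = ev a z') → z = z')
    (S : Set A) (hS : Algebra.adjoin R S = ⊤)
    (hΔ : ∀ a ∈ S, ∃ t : A ⊗[R] A, ∀ z z' : M, mu2 ev t (z, z') = ev a (z + z'))
    (hε : ∀ a ∈ S, ∃ r : R, algebraMap R K r = ev a 0) : PreOrderData R K A M ι where
  ev := ev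
  b := b
  algebraMap_injective := hinj
  li := hli
  card_eq := le_antisymm (card_le_of_linearIndependent ev b hli) (card_le_of_separates ev b hsep)
  comul_mem := comul_mem_of_adjoin ev S hS hΔ
  counit_mem := counit_mem_of_adjoin ev S hS hε

/-- **the packaged statement from the weak inputs**, in the exact shape of the conclusion of S19
and of `GaloisRepAdic.IsFlatAt`. -/
theorem exists_hopfAlgebra_of_separates (ev : A →ₐ[R] (M → K)) (b : Module.Basis ι R A)
    (hinj : Function.Injective (algebraMap R K))
    (hli : LinearIndependent K (fun i => ev (b i)))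
    (hsep : ∀ z z' : M, (∀ a : A, ev a z = ev a z') → z = z')
    (S : Set A) (hS : Algebra.adjoin R S = ⊤)
    (hΔ : ∀ a ∈ S, ∃ t : A ⊗[R] A, ∀ z z' : M, mu2 ev t (z, z') = ev a (z + z'))
    (hε : ∀ a ∈ S, ∃ r : R, algebraMap R K r = ev a 0)
    {G : Type*} (act : G → M → M) (actK : G → K → K)
    (hact : ∀ (σ : G) (a : A) (z : M), ev a (act σ z) = actK σ (ev a z)) :
    ∃ (H : Type u) (_ : CommRing H) (_ : HopfAlgebra R H),
      Module.Finite R H ∧ Module.Flat R H ∧ Coalgebra.IsCocomm R H ∧
      ∃ e : WithConv (H →ₐ[R] K) ≃ M,
        (∀ f g, e (f * g) = e f + e g) ∧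
        ∀ (σ : G) (f g : WithConv (H →ₐ[R] K)), (∀ h : H, g h = actK σ (f h)) →
          e g = act σ (e f) :=
  (PreOrderData.ofSeparates ev b hinj hli hsep S hS hΔ hε).toOrderData.exists_hopfAlgebra
    act actK hact

end Constructors

end Fermat.Agent.FF.HopfOrd1
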