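/-
Programme FF (S19/S32), chapter A1 (lead C0.1 + helper1 C0.2), final wiring: **the Hopf order
criterion.**  `R` a PID with fraction field `K`, `K̄` a field over `K`, `Γ` a group acting on `K̄`
with fixed field `K` and on a finite abelian group `M`; `H` a finite `R`-subalgebra of `M → K̄`
consisting of `Γ`-equivariant functions, separating the points of `M`, generated by functions
`s` for which `(z, z') ↦ s (z + z')` is a sum of products of elements of `H`.  Then `H` is a finite
flat commutative cocommutative Hopf algebra over `R` whose group of `K̄`-points is `M`,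
`Γ`-equivariantly: exactly the shape of the conclusion of S19 and of `GaloisRepAdic.IsFlatAt`.
-/
import Mathlib
import Fermat.Agent.FF.HopfOrd1F
import Fermat.Agent.FF.HopfOrderC

set_option autoImplicit false

namespace Fermat.Agent.FF.HopfOrd1

open scoped TensorProduct
open Algebra.TensorProduct
open Fermat.Agent.FF.HopfOrderB Fermat.Agent.FF.HopfOrderC

universe u

section Bridge

variable {R : Type*} [CommRing R] {Kbar : Type u} [Field Kbar] [Algebra R Kbar]
  {M : Type u} [AddCommGroup M]

/-- `HasCoprod` in the sense of chapter C0.1 gives the translation stability of chapter C0.2. -/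
theorem comul_mem_of_hasCoprod (H : Subalgebra R (M → Kbar)) (h : H)
    (hh : HasCoprod H (h : M → Kbar)) :
    ∃ t : H ⊗[R] H, ∀ z z' : M, mu2 H.val t (z, z') = H.val h (z + z') := by
  obtain ⟨ι, _, a, b, ha, hb, hab⟩ := hh
  refine ⟨∑ i, (⟨a i, ha i⟩ : H) ⊗ₜ[R] (⟨b i, hb i⟩ : H), fun z z' => ?_⟩
  rw [map_sum, Finset.sum_apply]
  show _ = (h : M → Kbar) (z + z')
  rw [hab]
  refine Finset.sum_congr rfl fun i _ => ?_
  rw [mu2_tmul]
  rfl

end Bridge

section Criterion

variable {R : Type*} [CommRing R] [IsDomain R] [IsPrincipalIdealRing R]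
variable {K : Type*} [Field K] [Algebra R K] [IsFractionRing R K]
variable {Kbar : Type u} [Field Kbar] [Algebra R Kbar] [Algebra K Kbar] [IsScalarTower R K Kbar]
variable {Γ : Type*} [Group Γ] [MulSemiringAction Γ Kbar]
variable {M : Type u} [AddCommGroup M] [Finite M] [DistribMulAction Γ M]

/-- **the Hopf order criterion.** -/
theorem hopfOrder_criterion
    (hfix : ∀ x : Kbar, (∀ σ : Γ, σ • x = x) → x ∈ (algebraMap K Kbar).range)
    (H : Subalgebra R (M → Kbar)) [Module.Finite R H]
    (hequiv : ∀ h ∈ H, IsEquivariantFun Γ h)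
    (hsep : ∀ z z' : M, (∀ h ∈ H, h z = h z') → z = z')
    {S : Set (M → Kbar)} (hS : H = Algebra.adjoin R S) (hΔ : ∀ s ∈ S, HasCoprod H s) :
    ∃ (H' : Type u) (_ : CommRing H') (_ : HopfAlgebra R H'),
      Module.Finite R H' ∧ Module.Flat R H' ∧ Coalgebra.IsCocomm R H' ∧
      ∃ e : WithConv (H' →ₐ[R] Kbar) ≃ M,
        (∀ f g, e (f * g) = e f + e g) ∧
        ∀ (σ : Γ) (f g : WithConv (H' →ₐ[R] Kbar)), (∀ h : H', g h = σ • f h) →
          e g = σ • e f := by
  classical
  have : Fintype M := Fintype.ofFinite M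
  obtain ⟨n, b, -, hli⟩ := exists_basis_card_le (R := R) (K := K) hfix hequiv
  have hinj : Function.Injective (algebraMap R Kbar) := by
    rw [IsScalarTower.algebraMap_eq R K Kbar]
    exact (algebraMap K Kbar).injective.comp (IsFractionRing.injective R K)
  have hΔ' : ∀ h ∈ H, HasCoprod H h := hasCoprod_of_adjoin hS hΔ
  have hε : ∀ h ∈ H, h 0 ∈ (algebraMap R Kbar).range :=
    eval_zero_mem_range (R := R) (K := K) hfix hequiv
  exact exists_hopfAlgebra_of_separates (R := R) (K := Kbar) (A := H) H.val b hinj hli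
    (fun z z' hzz' => hsep z z' fun h hh => hzz' ⟨h, hh⟩)
    Set.univ (Algebra.adjoin_univ R H)
    (fun a _ => comul_mem_of_hasCoprod H a (hΔ' a a.2))
    (fun a _ => hε a a.2)
    (fun (σ : Γ) (z : M) => σ • z) (fun (σ : Γ) (x : Kbar) => σ • x)
    (fun σ a z => hequiv a a.2 σ z)

end Criterion

end Fermat.Agent.FF.HopfOrd1
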