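/-
Programme FF (S19), wiring (helper1): **S19 from a Hopf order.**  The statement of S19
(`ModularCurve.exists_finiteFlat_model_jZero_torsion`) follows from the existence of a finite
`ℤ_(ℓ)`-subalgebra `H` of the functions `J₀(p)[ℓ^k] → ℚ̄` consisting of Galois-equivariant functions,
separating points, with `HasCoprod` on algebra generators (chapter A1, `hopfOrder_criterion`).
-/
import Mathlib
import Fermat.Prelude.Def_ModularCurve_ArithmeticGalois
import Fermat.Prelude.Def_GaloisRep_Flat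
import Fermat.Agent.FF.HopfOrd1G
import Fermat.Agent.IG.VAL.Zl13
import Fermat.Agent.ES.KUM.FiniteTorsion15

set_option autoImplicit false
set_option linter.style.haveILetI false

namespace Fermat.Agent.FF.S19Wire1

open ModularCurve
open Fermat.Agent.FF.HopfOrd1 Fermat.Agent.FF.HopfOrderB Fermat.Agent.FF.HopfOrderC

/-- the absolute Galois group of `ℚ`. -/
abbrev GQ : Type := AlgebraicClosure ℚ ≃ₐ[ℚ] AlgebraicClosure ℚ

variable (p : ℕ) [NeZero p] (ℓ : ℕ) (k : ℕ)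

/-- `J₀(p)[ℓ^k]`, in the form used by S19. -/
abbrev Tors : Type := ↥(Submodule.torsionBy ℤ (JZero p) ((ℓ : ℤ) ^ k))

omit [NeZero p] in
theorem smul_mem_torsionBy (σ : GQ) (z : JZero p)
    (hz : z ∈ Submodule.torsionBy ℤ (JZero p) ((ℓ : ℤ) ^ k)) :
    σ • z ∈ Submodule.torsionBy ℤ (JZero p) ((ℓ : ℤ) ^ k) := by
  rw [Submodule.mem_torsionBy_iff] at hz ⊢
  have h' : σ • (((ℓ : ℤ) ^ k) • z) = ((ℓ : ℤ) ^ k) • (σ • z) :=
    map_zsmul (DistribSMul.toAddMonoidHom (JZero p) σ) ((ℓ : ℤ) ^ k) z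
  rw [← h', hz, smul_zero]

/-- the Galois action on `J₀(p)[ℓ^k]`. -/
noncomputable instance torsDistribMulAction : DistribMulAction GQ (Tors p ℓ k) where
  smul σ z := ⟨σ • (z : JZero p), smul_mem_torsionBy p ℓ k σ z z.2⟩
  one_smul z := Subtype.ext (one_smul GQ (z : JZero p))
  mul_smul σ τ z := Subtype.ext (mul_smul σ τ (z : JZero p))
  smul_zero σ := Subtype.ext (smul_zero σ)
  smul_add σ z z' := Subtype.ext (smul_add σ (z : JZero p) (z' : JZero p))

omit [NeZero p] in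
theorem coe_smul (σ : GQ) (z : Tors p ℓ k) : ((σ • z : Tors p ℓ k) : JZero p) = σ • (z : JZero p) :=
  rfl

theorem finite_tors [Fact ℓ.Prime] : Finite (Tors p ℓ k) := by
  haveI : NeZero (ℓ ^ k) := ⟨pow_ne_zero k (Fact.out : ℓ.Prime).ne_zero⟩
  have hfin := Fermat.Agent.ES.KUM.FiniteTorsion15.finite_setOf_nsmul_eq_zero p (ℓ ^ k)
  have hsub : ((Submodule.torsionBy ℤ (JZero p) ((ℓ : ℤ) ^ k) : Submodule ℤ (JZero p)) :
      Set (JZero p)) ⊆ {y : JZero p | (ℓ ^ k) • y = 0} := by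
    intro y hy
    have hy' : ((ℓ : ℤ) ^ k) • y = 0 := hy
    show (ℓ ^ k) • y = 0
    rw [← hy', ← natCast_zsmul]
    push_cast
    rfl
  exact (hfin.subset hsub).to_subtype

theorem fixed_mem_range (x : AlgebraicClosure ℚ) (hx : ∀ σ : GQ, σ • x = x) :
    x ∈ (algebraMap ℚ (AlgebraicClosure ℚ)).range := by
  have h1 : IsAlgClosure ℚ (AlgebraicClosure ℚ) := by
    have h : (DivisionRing.toRatAlgebra : Algebra ℚ (AlgebraicClosure ℚ)) =
        AlgebraicClosure.instAlgebra ℚ := Subsingleton.elim _ _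
    rw [h]
    infer_instance
  have h2 : IsGalois ℚ (AlgebraicClosure ℚ) := IsAlgClosure.isGalois ℚ (AlgebraicClosure ℚ)
  exact (InfiniteGalois.mem_range_algebraMap_iff_fixed (k := ℚ) (K := AlgebraicClosure ℚ) x).2 hx

/-- **S19 from a Hopf order.** -/
theorem s19_of_order [Fact ℓ.Prime]
    (H : Subalgebra (GaloisRep.ratLocalizedAt ℓ) (Tors p ℓ k → AlgebraicClosure ℚ))
    [Module.Finite (GaloisRep.ratLocalizedAt ℓ) H]
    (hequiv : ∀ h ∈ H, ∀ (σ : GQ) (z : Tors p ℓ k), h (σ • z) = σ (h z))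
    (hsep : ∀ z z' : Tors p ℓ k, (∀ h ∈ H, h z = h z') → z = z')
    {S : Set (Tors p ℓ k → AlgebraicClosure ℚ)}
    (hS : H = Algebra.adjoin (GaloisRep.ratLocalizedAt ℓ) S) (hΔ : ∀ s ∈ S, HasCoprod H s) :
    ∃ (H : Type) (_ : CommRing H) (_ : HopfAlgebra (GaloisRep.ratLocalizedAt ℓ) H),
      Module.Finite (GaloisRep.ratLocalizedAt ℓ) H ∧ Module.Flat (GaloisRep.ratLocalizedAt ℓ) H ∧
      Coalgebra.IsCocomm (GaloisRep.ratLocalizedAt ℓ) H ∧
      ∃ e : WithConv (H →ₐ[GaloisRep.ratLocalizedAt ℓ] AlgebraicClosure ℚ) ≃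
          ↥(Submodule.torsionBy ℤ (JZero p) ((ℓ : ℤ) ^ k)),
        (∀ f g, e (f * g) = e f + e g) ∧
        ∀ (σ : AlgebraicClosure ℚ ≃ₐ[ℚ] AlgebraicClosure ℚ)
          (f g : WithConv (H →ₐ[GaloisRep.ratLocalizedAt ℓ] AlgebraicClosure ℚ)),
          (∀ h : H, g h = σ (f h)) → ((e g : JZero p)) = σ • (e f : JZero p) := by
  haveI := finite_tors p ℓ k
  obtain ⟨H', i1, i2, h1, h2, h3, e, he, hσ⟩ :=
    hopfOrder_criterion (R := GaloisRep.ratLocalizedAt ℓ) (K := ℚ) (Kbar := AlgebraicClosure ℚ)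
      (Γ := GQ) (M := Tors p ℓ k) fixed_mem_range H (fun h hh σ z => hequiv h hh σ z) hsep hS hΔ
  refine ⟨H', i1, i2, h1, h2, h3, e, he, fun σ f g hfg => ?_⟩
  rw [hσ σ f g hfg]
  rfl

end Fermat.Agent.FF.S19Wire1
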