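/-
Programme FF (S19/S32), chapter A1 continued (helper1): **the predicate `IsHopfOrder` and its
restriction to a stable subgroup.**

`IsHopfOrder Γ H` bundles the five hypotheses of `hopfOrder_criterion` for a subalgebra
`H ⊆ (M → K̄)`: finite, `Γ`-equivariant, separating points, generated by functions with a coproduct
in `H`.  `IsHopfOrder.comap`: for an injective `Γ`-equivariant additive map `ι : M' → M` the
restriction `{h ∘ ι | h ∈ H}` is again a Hopf order (closed subgroup schemes; used for
`J₀(N)[ℓ^k] ↪ J₀(auxLevel ℓ N)[ℓ^k]`).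
-/
import Mathlib
import Fermat.Agent.FF.HopfOrd1G

set_option autoImplicit false
set_option linter.style.haveILetI false
set_option linter.unusedSectionVars false

namespace Fermat.Agent.FF.SubOrd1

open Fermat.Agent.FF.HopfOrd1 Fermat.Agent.FF.HopfOrderB Fermat.Agent.FF.HopfOrderC

universe u

section Def

variable {R : Type*} [CommRing R] {Kbar : Type*} [Field Kbar] [Algebra R Kbar]
variable (Γ : Type*) [Group Γ] [MulSemiringAction Γ Kbar]
variable {M : Type*} [AddCommGroup M] [DistribMulAction Γ M]

/-- the five hypotheses of the Hopf order criterion. -/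
structure IsHopfOrder (H : Subalgebra R (M → Kbar)) : Prop where
  finite : Module.Finite R H
  equivariant : ∀ h ∈ H, IsEquivariantFun Γ h
  separates : ∀ z z' : M, (∀ h ∈ H, h z = h z') → z = z'
  coprod : ∃ S : Set (M → Kbar), H = Algebra.adjoin R S ∧ ∀ s ∈ S, HasCoprod H s

end Def

section Comap

variable {R : Type*} [CommRing R] {Kbar : Type*} [Field Kbar] [Algebra R Kbar]
variable {Γ : Type*} [Group Γ] [MulSemiringAction Γ Kbar]
variable {M M' : Type*} [AddCommGroup M] [DistribMulAction Γ M] [AddCommGroup M']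
  [DistribMulAction Γ M']

/-- restriction of an order along a map `ι : M' → M`. -/
noncomputable def comapOrder (H : Subalgebra R (M → Kbar)) (ι : M' → M) :
    Subalgebra R (M' → Kbar) :=
  H.map (pull R Kbar ι)

theorem mem_comapOrder {H : Subalgebra R (M → Kbar)} {ι : M' → M} {h' : M' → Kbar} :
    h' ∈ comapOrder H ι ↔ ∃ h ∈ H, (fun z => h (ι z)) = h' := Iff.rfl

theorem comp_mem_comapOrder {H : Subalgebra R (M → Kbar)} (ι : M' → M) {h : M → Kbar}
    (hh : h ∈ H) : (fun z => h (ι z)) ∈ comapOrder H ι := ⟨h, hh, rfl⟩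

theorem finite_comapOrder (H : Subalgebra R (M → Kbar)) [Module.Finite R H] (ι : M' → M) :
    Module.Finite R (comapOrder H ι) := by
  have hsurj : Function.Surjective (((pull R Kbar ι).comp H.val).rangeRestrict) :=
    AlgHom.rangeRestrict_surjective _
  have h1 : Module.Finite R (((pull R Kbar ι).comp H.val).range) :=
    Module.Finite.of_surjective ((pull R Kbar ι).comp H.val).rangeRestrict.toLinearMap hsurj
  have h2 : ((pull R Kbar ι).comp H.val).range = comapOrder H ι :=
    Subalgebra.range_comp_val H (pull R Kbar ι)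
  rw [← h2]
  exact h1

theorem hasCoprod_comapOrder {H : Subalgebra R (M → Kbar)} (ι : M' →+ M) {s : M → Kbar}
    (hs : HasCoprod H s) : HasCoprod (comapOrder H ι) (fun z => s (ι z)) := by
  obtain ⟨κ, _, a, b, ha, hb, hab⟩ := hs
  refine ⟨κ, inferInstance, fun i z => a i (ι z), fun i z => b i (ι z),
    fun i => comp_mem_comapOrder ι (ha i), fun i => comp_mem_comapOrder ι (hb i), fun z z' => ?_⟩
  show s (ι (z + z')) = ∑ i, a i (ι z) * b i (ι z')
  rw [map_add, hab]

/-- **the restriction of a Hopf order to a stable subgroup is a Hopf order.** -/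
theorem IsHopfOrder.comap {H : Subalgebra R (M → Kbar)} (hH : IsHopfOrder Γ H) (ι : M' →+ M)
    (hinj : Function.Injective ι) (hι : ∀ (σ : Γ) (z : M'), ι (σ • z) = σ • ι z) :
    IsHopfOrder Γ (comapOrder H (ι : M' → M)) := by
  haveI := hH.finite
  refine ⟨finite_comapOrder H ι, ?_, ?_, ?_⟩
  · rintro _ ⟨h, hh, rfl⟩ σ z
    show h (ι (σ • z)) = σ • h (ι z)
    rw [hι, hH.equivariant h hh]
  · intro z z' hzz'
    apply hinj
    apply hH.separates
    intro h hh
    exact hzz' _ (comp_mem_comapOrder ι hh)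
  · obtain ⟨S, hS, hΔ⟩ := hH.coprod
    refine ⟨(pull R Kbar (ι : M' → M)) '' S, ?_, ?_⟩
    · rw [comapOrder, hS, AlgHom.map_adjoin]
    · rintro _ ⟨s, hs, rfl⟩
      exact hasCoprod_comapOrder ι (hΔ s hs)

end Comap

section Criterion

variable {R : Type*} [CommRing R] [IsDomain R] [IsPrincipalIdealRing R]
variable {K : Type*} [Field K] [Algebra R K] [IsFractionRing R K]
variable {Kbar : Type u} [Field Kbar] [Algebra R Kbar] [Algebra K Kbar] [IsScalarTower R K Kbar]
variable {Γ : Type*} [Group Γ] [MulSemiringAction Γ Kbar]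
variable {M : Type u} [AddCommGroup M] [Finite M] [DistribMulAction Γ M]

/-- the Hopf order criterion, for the bundled predicate. -/
theorem IsHopfOrder.exists_hopfAlgebra
    (hfix : ∀ x : Kbar, (∀ σ : Γ, σ • x = x) → x ∈ (algebraMap K Kbar).range)
    {H : Subalgebra R (M → Kbar)} (hH : IsHopfOrder Γ H) :
    ∃ (H' : Type u) (_ : CommRing H') (_ : HopfAlgebra R H'),
      Module.Finite R H' ∧ Module.Flat R H' ∧ Coalgebra.IsCocomm R H' ∧
      ∃ e : WithConv (H' →ₐ[R] Kbar) ≃ M,
        (∀ f g, e (f * g) = e f + e g) ∧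
        ∀ (σ : Γ) (f g : WithConv (H' →ₐ[R] Kbar)), (∀ h : H', g h = σ • f h) →
          e g = σ • e f := by
  haveI := hH.finite
  obtain ⟨S, hS, hΔ⟩ := hH.coprod
  exact hopfOrder_criterion (K := K) hfix H hH.equivariant hH.separates hS hΔ

end Criterion

end Fermat.Agent.FF.SubOrd1
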