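/-
Programme FF (S19), wiring (helper1): **S19 at level `p` from a Hopf order at the auxiliary level
`auxLevel ℓ p`** (where the reduction theory lives).  `π^* : J₀(p)[ℓ^k] → J₀(auxLevel ℓ p)[ℓ^k]` is
additive, injective and Galois-equivariant (`ES/RED/PullbackInj12`), so the restriction of a Hopf
order along it is a Hopf order (`SubOrd1.IsHopfOrder.comap`).
-/
import Mathlib
import Fermat.Agent.FF.S19Wire1
import Fermat.Agent.FF.SubOrd1
import Fermat.Agent.ES.RED.PullbackInj12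

set_option autoImplicit false
set_option linter.style.haveILetI false
set_option linter.unusedSectionVars false

namespace Fermat.Agent.FF.S19Aux1

open ModularCurve
open Fermat.Agent.FF.HopfOrd1 Fermat.Agent.FF.HopfOrderB Fermat.Agent.FF.HopfOrderC
  Fermat.Agent.FF.S19Wire1 Fermat.Agent.FF.SubOrd1
open Fermat.Agent.ES.HECKE.LevelPullback12 Fermat.Agent.ES.RED.PullbackInj12

/-- **S19 from a Hopf order** (bundled form of `S19Wire1.s19_of_order`). -/
theorem s19_of_isHopfOrder (p : ℕ) [NeZero p] (ℓ : ℕ) (k : ℕ) [Fact ℓ.Prime]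
    (H : Subalgebra (GaloisRep.ratLocalizedAt ℓ) (Tors p ℓ k → AlgebraicClosure ℚ))
    (hH : IsHopfOrder GQ H) :
    ∃ (H : Type) (_ : CommRing H) (_ : HopfAlgebra (GaloisRep.ratLocalizedAt ℓ) H),
      Module.Finite (GaloisRep.ratLocalizedAt ℓ) H ∧ Module.Flat (GaloisRep.ratLocalizedAt ℓ) H ∧
      Coalgebra.IsCocomm (GaloisRep.ratLocalizedAt ℓ) H ∧
      ∃ e : WithConv (H →ₐ[GaloisRep.ratLocalizedAt ℓ] AlgebraicClosure ℚ) ≃
          ↥(Submodule.torsionBy ℤ (JZero p) ((ℓ : ℤ) ^ k)),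
        (∀ f g, e (f * g) = e f + e g) ∧
        ∀ (σ : AlgebraicClosure ℚ ≃ₐ[ℚ] AlgebraicClosure ℚ)
          (f g : WithConv (H →ₐ[GaloisRep.ratLocalizedAt ℓ] AlgebraicClosure ℚ)),
          (∀ h : H, g h = σ (f h)) → ((e g : JZero p)) = σ • (e f : JZero p) := by
  haveI := hH.finite
  obtain ⟨S, hS, hΔ⟩ := hH.coprod
  exact s19_of_order p ℓ k H (fun h hh σ z => hH.equivariant h hh σ z) hH.separates hS hΔ

section Pullback

variable {N M : ℕ} [NeZero N] [NeZero M] (ℓ : ℕ) (k : ℕ)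

/-- `π^*` on `ℓ^k`-torsion. -/
noncomputable def torsPullback (h : N ∣ M) : Tors N ℓ k →+ Tors M ℓ k where
  toFun z := ⟨levelPullback h (z : JZero N), by
    have hz : ((ℓ : ℤ) ^ k) • (z : JZero N) = 0 := z.2
    show ((ℓ : ℤ) ^ k) • levelPullback h (z : JZero N) = 0
    rw [← map_zsmul, hz, map_zero]⟩
  map_zero' := Subtype.ext (map_zero (levelPullback h))
  map_add' z z' := Subtype.ext (map_add (levelPullback h) (z : JZero N) (z' : JZero N))

theorem coe_torsPullback (h : N ∣ M) (z : Tors N ℓ k) :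
    ((torsPullback ℓ k h z : Tors M ℓ k) : JZero M) = levelPullback h (z : JZero N) := rfl

theorem torsPullback_smul (h : N ∣ M) (σ : GQ) (z : Tors N ℓ k) :
    torsPullback ℓ k h (σ • z) = σ • torsPullback ℓ k h z :=
  Subtype.ext (levelPullback_smul h σ (z : JZero N))

end Pullback

/-- `π^*` is injective on `ℓ^k`-torsion at the auxiliary level. -/
theorem torsPullback_auxLevel_injective (p : ℕ) [NeZero p] (ℓ : ℕ) [Fact ℓ.Prime] (k : ℕ) :
    haveI := Fermat.Agent.RED.LVL.LevelDegree17.neZero_auxLevel ℓ p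
    Function.Injective
      (torsPullback ℓ k (Fermat.Agent.RED.Interface4.dvd_auxLevel ℓ p)) := by
  haveI := Fermat.Agent.RED.LVL.LevelDegree17.neZero_auxLevel ℓ p
  rw [injective_iff_map_eq_zero]
  intro z hz
  have hpos : 0 < ℓ ^ k := pow_pos (Fact.out : ℓ.Prime).pos k
  have hz0 : ((ℓ : ℤ) ^ k) • (z : JZero p) = 0 := z.2
  have hmz : (ℓ ^ k) • (z : JZero p) = 0 := by
    rw [← hz0, ← natCast_zsmul]
    push_cast
    rfl
  have hx : levelPullback (Fermat.Agent.RED.Interface4.dvd_auxLevel ℓ p) (z : JZero p) = 0 :=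
    congrArg Subtype.val hz
  exact Subtype.ext (levelPullback_auxLevel_eq_zero ℓ p (ℓ ^ k) hpos (z : JZero p) hmz hx)

/-- **S19 at level `p` from a Hopf order at level `auxLevel ℓ p`.** -/
theorem s19_of_isHopfOrder_auxLevel (p : ℕ) [NeZero p] (ℓ : ℕ) (k : ℕ) [Fact ℓ.Prime]
    (H : haveI := Fermat.Agent.RED.LVL.LevelDegree17.neZero_auxLevel ℓ p
      Subalgebra (GaloisRep.ratLocalizedAt ℓ)
        (Tors (Fermat.Agent.RED.Interface4.auxLevel ℓ p) ℓ k → AlgebraicClosure ℚ))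
    (hH : haveI := Fermat.Agent.RED.LVL.LevelDegree17.neZero_auxLevel ℓ p
      IsHopfOrder GQ H) :
    ∃ (H : Type) (_ : CommRing H) (_ : HopfAlgebra (GaloisRep.ratLocalizedAt ℓ) H),
      Module.Finite (GaloisRep.ratLocalizedAt ℓ) H ∧ Module.Flat (GaloisRep.ratLocalizedAt ℓ) H ∧
      Coalgebra.IsCocomm (GaloisRep.ratLocalizedAt ℓ) H ∧
      ∃ e : WithConv (H →ₐ[GaloisRep.ratLocalizedAt ℓ] AlgebraicClosure ℚ) ≃
          ↥(Submodule.torsionBy ℤ (JZero p) ((ℓ : ℤ) ^ k)),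
        (∀ f g, e (f * g) = e f + e g) ∧
        ∀ (σ : AlgebraicClosure ℚ ≃ₐ[ℚ] AlgebraicClosure ℚ)
          (f g : WithConv (H →ₐ[GaloisRep.ratLocalizedAt ℓ] AlgebraicClosure ℚ)),
          (∀ h : H, g h = σ (f h)) → ((e g : JZero p)) = σ • (e f : JZero p) := by
  haveI := Fermat.Agent.RED.LVL.LevelDegree17.neZero_auxLevel ℓ p
  exact s19_of_isHopfOrder p ℓ k _
    (hH.comap (torsPullback ℓ k (Fermat.Agent.RED.Interface4.dvd_auxLevel ℓ p))
      (torsPullback_auxLevel_injective p ℓ k)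
      (torsPullback_smul ℓ k (Fermat.Agent.RED.Interface4.dvd_auxLevel ℓ p)))

end Fermat.Agent.FF.S19Aux1
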