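/-
Programme FF (S19), final wiring (helper8).

* `descent_input` : from a `ThetaInput` over `ℚ̄` (with `Γ` the inertia group of `A`, acting through the
  action of `G_ℚ`) the four hypotheses `hTA hTI hsep hΔ` of the descent theorem A2
  (`Desc4.exists_globalOrder`) for the generating set `T = genSet M₀ x`.
* `s19_of_globalOrder` : from the conclusion of the descent theorem for
  `M = J₀(auxLevel ℓ p)[ℓ^k]` the conclusion of S19 (via `S19Aux1.s19_of_isHopfOrder_auxLevel`).
-/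
import Mathlib
import Fermat.Agent.FF.AssemblyQb8
import Fermat.Agent.FF.S19Aux1

set_option autoImplicit false

open AlgebraicCurve ModularCurve IsLocalRing

namespace Fermat.Agent.FF.FinalWire8

open Fermat.Agent.FF.CoreIface8 Fermat.Agent.FF.GeomIface8 Fermat.Agent.FF.Assembly8
  Fermat.Agent.FF.InertiaWire8 Fermat.Agent.FF.OrderCoordD Fermat.Agent.FF.HopfOrderB
  Fermat.Agent.FF.HopfOrderC Fermat.Agent.FF.AssemblyQb8

section Adjoin

variable {A : ValuationSubring Qb} {M : Type*}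

/-- the `W₀`-algebra generated by `T` is contained in the `A`-algebra generated by `T`. -/
theorem mem_adjoin_A_of_mem_adjoin_W0 {T : Set (M → Qb)} {f : M → Qb}
    (hf : f ∈ Algebra.adjoin (W0 A) T) : f ∈ Algebra.adjoin (↥A) T := by
  induction hf using Algebra.adjoin_induction with
  | mem x hx => exact Algebra.subset_adjoin hx
  | algebraMap r =>
    have h : algebraMap (W0 A) (M → Qb) r = algebraMap (↥A) (M → Qb) ⟨(r : Qb), r.2.1⟩ := rfl
    rw [h]
    exact Subalgebra.algebraMap_mem _ _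
  | add x y _ _ hx hy => exact Subalgebra.add_mem _ hx hy
  | mul x y _ _ hx hy => exact Subalgebra.mul_mem _ hx hy

theorem hasCoprod_adjoin_A_of_W0 {M : Type} [AddCommGroup M] {T : Set (M → Qb)} {s : M → Qb}
    (hs : HasCoprod (Algebra.adjoin (W0 A) T) s) : HasCoprod (Algebra.adjoin (↥A) T) s := by
  obtain ⟨ι, hι, a, b, ha, hb, hab⟩ := hs
  exact ⟨ι, hι, a, b, fun i => mem_adjoin_A_of_mem_adjoin_W0 (ha i),
    fun i => mem_adjoin_A_of_mem_adjoin_W0 (hb i), hab⟩

/-- two points which are not separated by the generators are not separated by the algebra. -/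
theorem eq_of_forall_mem_adjoin {R : Type*} [CommSemiring R] [Algebra R Qb] {T : Set (M → Qb)}
    {z z' : M} (h : ∀ t ∈ T, t z = t z') {f : M → Qb} (hf : f ∈ Algebra.adjoin R T) :
    f z = f z' := by
  induction hf using Algebra.adjoin_induction with
  | mem x hx => exact h x hx
  | algebraMap r => rfl
  | add x y _ _ hx hy => rw [Pi.add_apply, Pi.add_apply, hx, hy]
  | mul x y _ _ hx hy => rw [Pi.mul_apply, Pi.mul_apply, hx, hy]

end Adjoin

section Input

universe v

variable {A : ValuationSubring Qb} {F : Type*} [Field F] [Algebra Qb F] {g d : ℕ}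
variable [DistribMulAction GQ (Pic0 Qb F)]
variable {Mod : DiscModel A F g d} {hdeg : ∀ (j : Fin d) (t : A), (Mod.P j t).deg = 1}
variable {M : Type} [AddCommGroup M] [Finite M] [DistribMulAction GQ M]
variable {Jb : Type*} [AddCommGroup Jb]
variable {V : Type v} [AddCommGroup V] [Module A V] {D : CoreData A V g d}

/-- **the input of the descent theorem A2 from the assembly.** -/
theorem descent_input (I : ThetaInput Mod hdeg (Iner A) M Jb) {ℓ : ℕ} (hℓ : ℓ.Prime)
    (hA : A.LiesOverPrime ℓ)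
    (hcf : ClosedFibre D (IsLocalRing.ResidueField A)) (L : LatticeModel Mod D)
    (hdisj : ∀ (j j' : Fin d) (t t' : A), t ∈ maximalIdeal A → t' ∈ maximalIdeal A →
      Mod.P j t = Mod.P j' t' → j = j') :
    (∀ t ∈ genSet (Kbar := Qb) I.M0 I.x, ∀ z, t z ∈ A) ∧
    (∀ t ∈ genSet (Kbar := Qb) I.M0 I.x, ∀ τ ∈ A.inertiaSubgroupIn ℚ, ∀ z,
      t (τ • z) = τ (t z)) ∧
    (∀ z z' : M, (∀ t ∈ genSet (Kbar := Qb) I.M0 I.x, t z = t z') → z = z') ∧
    ∀ t ∈ genSet (Kbar := Qb) I.M0 I.x,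
      HasCoprod (Algebra.adjoin (↥A) (genSet (Kbar := Qb) I.M0 I.x)) t := by
  obtain ⟨h1, h2, -, h4, h5⟩ := order_main_Qb I hℓ hA hcf L hdisj
  refine ⟨fun t ht z => h2 t (Algebra.subset_adjoin ht) z, ?_, ?_, ?_⟩
  · intro t ht τ hτ z
    exact h1 t (Algebra.subset_adjoin ht) (⟨τ, hτ⟩ : Iner A) z
  · intro z z' h
    exact h4 z z' fun f hf => eq_of_forall_mem_adjoin h hf
  · intro t ht
    exact hasCoprod_adjoin_A_of_W0 (h5 t ht)

end Input

section Output

open Fermat.Agent.FF.S19Wire1 Fermat.Agent.FF.SubOrd1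

/-- **S19 from the conclusion of the descent theorem at the auxiliary level.** -/
theorem s19_of_globalOrder (p : ℕ) [NeZero p] (ℓ : ℕ) (k : ℕ) [Fact ℓ.Prime]
    (h : haveI := Fermat.Agent.RED.LVL.LevelDegree17.neZero_auxLevel ℓ p
      ∃ H : Subalgebra (GaloisRep.ratLocalizedAt ℓ)
          (Tors (Fermat.Agent.RED.Interface4.auxLevel ℓ p) ℓ k → AlgebraicClosure ℚ),
        Module.Finite (GaloisRep.ratLocalizedAt ℓ) H ∧
        (∀ h ∈ H, ∀ (σ : S19Wire1.GQ) z, h (σ • z) = σ (h z)) ∧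
        (∀ z z', (∀ h ∈ H, h z = h z') → z = z') ∧ ∀ h ∈ H, HasCoprod H h) :
    ∃ (H : Type) (_ : CommRing H) (_ : HopfAlgebra (GaloisRep.ratLocalizedAt ℓ) H),
      Module.Finite (GaloisRep.ratLocalizedAt ℓ) H ∧ Module.Flat (GaloisRep.ratLocalizedAt ℓ) H ∧
      Coalgebra.IsCocomm (GaloisRep.ratLocalizedAt ℓ) H ∧
      ∃ e : WithConv (H →ₐ[GaloisRep.ratLocalizedAt ℓ] AlgebraicClosure ℚ) ≃
          ↥(Submodule.torsionBy ℤ (JZero p) ((ℓ : ℤ) ^ k)),
        (∀ f g, e (f * g) = e f + e g) ∧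
        ∀ (σ : AlgebraicClosure ℚ ≃ₐ[ℚ] AlgebraicClosure ℚ)
          (f g : WithConv (H →ₐ[GaloisRep.ratLocalizedAt ℓ] AlgebraicClosure ℚ)),
          (∀ h : H, g h = σ (f h)) → ((e g : JZero p)) = σ • (e f : JZero p) := by
  have := Fermat.Agent.RED.LVL.LevelDegree17.neZero_auxLevel ℓ p
  obtain ⟨H, hfin, heq, hsep, hΔ⟩ := h
  refine S19Aux1.s19_of_isHopfOrder_auxLevel p ℓ k H ⟨hfin, ?_, hsep, ?_⟩
  · intro h hh σ z
    exact heq h hh σ z
  · refine ⟨{s | s ∈ H}, ?_, fun s hs => hΔ s hs⟩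
    exact (Algebra.adjoin_eq H).symm

end Output

end Fermat.Agent.FF.FinalWire8
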