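/-
Programme FF (S19), wiring (helper1): **open stabilisers on `J₀(N)[ℓ^k]`** in the shape of the
hypothesis `hM` of `Desc4.exists_globalOrder` (helper4): the Galois action on the finite group
`Tors N ℓ k` is trivial on `Gal(ℚ̄ / L)` for some number field `L` (from `ES/GAL/OpenStab12`).
-/
import Mathlib
import Fermat.Agent.FF.S19Wire1
import Fermat.Agent.ES.GAL.OpenStab12

set_option autoImplicit false

namespace Fermat.Agent.FF.OpenStab1

open ModularCurve Fermat.Agent.FF.S19Wire1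

/-- **the Galois action on `J₀(N)[ℓ^k]` factors through a finite level.** -/
theorem exists_level_tors (N : ℕ) [NeZero N] (ℓ : ℕ) [Fact ℓ.Prime] (k : ℕ) :
    ∃ L : IntermediateField ℚ (AlgebraicClosure ℚ), FiniteDimensional ℚ L ∧
      ∀ σ : GQ, (∀ x ∈ L, σ x = x) → ∀ z : Tors N ℓ k, σ • z = z := by
  have : NeZero (ℓ ^ k) := ⟨pow_ne_zero k (Fact.out : ℓ.Prime).ne_zero⟩
  obtain ⟨L, hL, H⟩ := Fermat.Agent.ES.GAL.OpenStab12.hasLevel_torsion N (ℓ ^ k)
    (Fermat.Agent.ES.KUM.FiniteTorsion15.finite_setOf_nsmul_eq_zero N (ℓ ^ k))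
  refine ⟨L, hL, fun σ hσ z => Subtype.ext ?_⟩
  have hz : ((ℓ : ℤ) ^ k) • (z : JZero N) = 0 := z.2
  have hz' : (ℓ ^ k) • (z : JZero N) = 0 := by
    rw [← hz, ← natCast_zsmul]
    push_cast
    rfl
  exact H σ hσ (z : JZero N) hz'

end Fermat.Agent.FF.OpenStab1
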