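/-
Programme FF (S19), the one-theorem composition (helper8):

`ThetaInput` at the auxiliary level `M' = auxLevel ℓ p` (+ the lattice model and the closed fibre
hypothesis)  ⟹  the conclusion of S19 at level `p`.

Chain: `FinalWire8.descent_input` (assembly C, chapters A3–A5, G5) → `Desc4.exists_globalOrder`
(descent A2) → `FinalWire8.s19_of_globalOrder` (restriction to level `p` + Hopf order criterion A1),
with `OpenStab1.exists_level_tors` for the open stabilisers.
-/
import Mathlib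
import Fermat.Agent.FF.FinalWire8
import Fermat.Agent.FF.Desc4F
import Fermat.Agent.FF.OpenStab1

set_option autoImplicit false

open AlgebraicCurve ModularCurve IsLocalRing

namespace Fermat.Agent.FF.FinalS19_8

open Fermat.Agent.FF.CoreIface8 Fermat.Agent.FF.GeomIface8 Fermat.Agent.FF.Assembly8
  Fermat.Agent.FF.InertiaWire8 Fermat.Agent.FF.OrderCoordD Fermat.Agent.FF.HopfOrderB
  Fermat.Agent.FF.HopfOrderC Fermat.Agent.FF.FinalWire8 Fermat.Agent.FF.S19Wire1

universe v

/-- **S19 from the geometric input at the auxiliary level.** -/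
theorem s19_of_thetaInput (p : ℕ) [NeZero p] (ℓ : ℕ) (k : ℕ) [Fact ℓ.Prime]
    (A : ValuationSubring Qb) (hA : A.LiesOverPrime ℓ) {g d : ℕ}
    (Mod : DiscModel A (modularFunctionFieldBar (Fermat.Agent.RED.Interface4.auxLevel ℓ p)) g d)
    (hdeg : ∀ (j : Fin d) (t : A), (Mod.P j t).deg = 1)
    {Jb : Type*} [AddCommGroup Jb]
    (I : haveI := Fermat.Agent.RED.LVL.LevelDegree17.neZero_auxLevel ℓ p
      ThetaInput Mod hdeg (Iner A) (Tors (Fermat.Agent.RED.Interface4.auxLevel ℓ p) ℓ k) Jb)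
    {V : Type v} [AddCommGroup V] [Module A V] {D : CoreData A V g d}
    (hcf : ClosedFibre D (IsLocalRing.ResidueField A)) (L : LatticeModel Mod D)
    (hdisj : ∀ (j j' : Fin d) (t t' : A), t ∈ maximalIdeal A → t' ∈ maximalIdeal A →
      Mod.P j t = Mod.P j' t' → j = j') :
    ∃ (H : Type) (_ : CommRing H) (_ : HopfAlgebra (GaloisRep.ratLocalizedAt ℓ) H),
      Module.Finite (GaloisRep.ratLocalizedAt ℓ) H ∧ Module.Flat (GaloisRep.ratLocalizedAt ℓ) H ∧
      Coalgebra.IsCocomm (GaloisRep.ratLocalizedAt ℓ) H ∧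
      ∃ e : WithConv (H →ₐ[GaloisRep.ratLocalizedAt ℓ] AlgebraicClosure ℚ) ≃
          ↥(Submodule.torsionBy ℤ (JZero p) ((ℓ : ℤ) ^ k)),
        (∀ f g, e (f * g) = e f + e g) ∧
        ∀ (σ : AlgebraicClosure ℚ ≃ₐ[ℚ] AlgebraicClosure ℚ)
          (f g : WithConv (H →ₐ[GaloisRep.ratLocalizedAt ℓ] AlgebraicClosure ℚ)),
          (∀ h : H, g h = σ (f h)) → ((e g : JZero p)) = σ • (e f : JZero p) := by
  have := Fermat.Agent.RED.LVL.LevelDegree17.neZero_auxLevel ℓ p
  have hℓ : ℓ.Prime := Fact.out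
  have := finite_tors (Fermat.Agent.RED.Interface4.auxLevel ℓ p) ℓ k
  obtain ⟨hTA, hTI, hsep, hΔ⟩ := descent_input I hℓ hA hcf L hdisj
  exact s19_of_globalOrder p ℓ k
    (Desc4.exists_globalOrder A hA
      (OpenStab1.exists_level_tors (Fermat.Agent.RED.Interface4.auxLevel ℓ p) ℓ k)
      (genSet (Kbar := Qb) I.M0 I.x) hTA hTI hsep hΔ)

end Fermat.Agent.FF.FinalS19_8
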