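/-
Programme FF (S19), chapter G4 packaged over helper2's `RedLat2.AbsRed` (helper5).

For an abstract reduction `R : AbsRed A F Fb` with `LHyp` on both fibres and `R.HasManyPlaces`,
a parameter `φ ∈ O` and `d` pairwise distinct simple zeros `Pb j` of `ρ φ` without poles of `φ`
above them, let `Mod := (toRedCtxV R HL).discModel φ Pb hPb hnp g hgd hφ`.  If
`l̄(∑_{j<g} Pb j) ≤ 1` and Riemann's inequality `deg D + 1 - g ≤ l(D)` holds on `F`, then
* `theta_injective_abs` : `theta Mod` is injective on `𝔪_A^g`;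
* `red_eq_zero_iff_abs` : its image is the kernel of any reduction homomorphism `red` with
  `red [D] = 0 ↔ r_* D` principal;
* `smul_theta_abs`, `coord_fixed_abs` : equivariance.
Semicontinuity is no longer a hypothesis: it is `RedLat2.AbsRed.finrank_L_le`.
-/
import Mathlib
import Fermat.Agent.FF.RedLat2B
import Fermat.Agent.FF.RedBridge5
import Fermat.Agent.FF.ThetaBridge5

set_option autoImplicit false

open AlgebraicCurve IsLocalRing

namespace Fermat.Agent.FF.ThetaAbs5

open Fermat.Agent.X0.FF Fermat.Agent.FF.GeomIface8 Fermat.Agent.FF.Meaning8 Fermat.Agent.FF.Theta8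
  Fermat.Agent.FF.ThetaKer5 Fermat.Agent.RR.LSpace Fermat.Agent.FF.SpecRR1
  Fermat.Agent.FF.UniqueZeroA Fermat.Agent.FF.DiscOfRedA Fermat.Agent.FF.RedLat2
  Fermat.Agent.FF.RedBridge5 Fermat.Agent.FF.ThetaBridge5

variable {K : Type*} [Field K] {A : ValuationSubring K}
variable {F : Type*} [Field F] [Algebra K F]
variable {Fb : Type*} [Field Fb] [Algebra (ResidueField A) Fb]
variable (R : AbsRed A F Fb) (HL : LHyp K F) (HLb : LHyp (ResidueField A) Fb)
variable (hmany : R.HasManyPlaces)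

include HL HLb hmany in
/-- semicontinuity in the `SpecRR1.ell` form. -/
theorem ell_le_ell_mapDomain (D : Divisor K F) : ell D ≤ ell (Finsupp.mapDomain R.r D) := by
  unfold ell
  exact_mod_cast R.finrank_L_le HL HLb hmany D

variable {d : ℕ} (φ : R.O) (Pb : Fin d → Place (ResidueField A) Fb)
variable (hPb : ∀ j, (Pb j).ord (R.ρ φ) = 1)
variable (hnp : ∀ j P, R.r P = Pb j → 0 ≤ P.ord (φ : F))
variable (g : ℕ) (hgd : g ≤ d) (hφ : R.ρ φ ≠ 0)

/-- the disc model of an `AbsRed`. -/
noncomputable abbrev discModelAbs : DiscModel A F g d :=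
  (toRedCtxV R HL).discModel φ Pb hPb hnp g hgd hφ

variable (hinj : Function.Injective Pb)
variable (hell : ell (∑ j : Fin g, Finsupp.single (Pb (Fin.castLE hgd j)) (1 : ℤ)) ≤ 1)

include hinj in
theorem hdisj_abs (j j' : Fin d) (t t' : A) (ht : t ∈ maximalIdeal A)
    (ht' : t' ∈ maximalIdeal A)
    (h : (discModelAbs R HL φ Pb hPb hnp g hgd hφ).P j t =
      (discModelAbs R HL φ Pb hPb hnp g hgd hφ).P j' t') : j = j' :=
  hdisj_of_red (toRedCtxV R HL) φ Pb hPb hnp g hgd hφ hinj j j' t t' ht ht' h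

include HLb hmany hinj hell in
/-- **G4 (T1) over an `AbsRed`.** -/
theorem theta_injective_abs (x x' : Fin g → A) (hx : ∀ i, x i ∈ maximalIdeal A)
    (hx' : ∀ i, x' i ∈ maximalIdeal A)
    (h : theta (discModelAbs R HL φ Pb hPb hnp g hgd hφ) (fun _ _ => HL.deg_eq_one _) x =
      theta (discModelAbs R HL φ Pb hPb hnp g hgd hφ) (fun _ _ => HL.deg_eq_one _) x') :
    x = x' :=
  theta_injective_of_red (toRedCtxV R HL) φ Pb hPb hnp g hgd hφ hinj HL HLb hell
    (fun _ _ => ell_le_ell_mapDomain R HL HLb hmany _) x x' hx hx' h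

variable (hR : ∀ D : Divisor K F, Divisor.degree D + 1 - (g : ℤ) ≤ ell D)

include HLb hinj hell hR in
/-- **G4 (T2) over an `AbsRed`.** -/
theorem red_eq_zero_iff_abs {J : Type*} [AddCommGroup J] (red : Pic0 K F →+ J)
    (hred : ∀ D : Divisor.degZero (K := K) (F := F), red (Pic0.mk D) = 0 ↔
      Finsupp.mapDomain R.r (D : Divisor K F) ∈
        Divisor.principal (K := ResidueField A) (F := Fb))
    (z : Pic0 K F) :
    red z = 0 ↔ ∃ x : Fin g → A, (∀ i, x i ∈ maximalIdeal A) ∧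
      z = theta (discModelAbs R HL φ Pb hPb hnp g hgd hφ) (fun _ _ => HL.deg_eq_one _) x :=
  red_eq_zero_iff_of_red (toRedCtxV R HL) φ Pb hPb hnp g hgd hφ hinj HL HLb hell hR red hred z

section Equivariance

open AlgebraicCurve.SemilinearAut

variable (γ : SemilinearAut K F) (σA : A ≃+* A)
variable (hσ : ∀ a : A, ((σA a : A) : K) = baseAut γ (a : K))
variable (hφγ : γ • (φ : F) = (φ : F))
variable (hγr : ∀ (j : Fin g) (P : Place K F), R.r P = Pb (Fin.castLE hgd j) →
  R.r (γ • P) = Pb (Fin.castLE hgd j))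

include hσ hφγ hγr in
/-- **G4 (T3) over an `AbsRed`.** -/
theorem smul_theta_abs (x : Fin g → A) (hx : ∀ i, x i ∈ maximalIdeal A) :
    γ • theta (discModelAbs R HL φ Pb hPb hnp g hgd hφ) (fun _ _ => HL.deg_eq_one _) x =
      theta (discModelAbs R HL φ Pb hPb hnp g hgd hφ) (fun _ _ => HL.deg_eq_one _)
        (fun i => σA (x i)) :=
  smul_theta_of_red (toRedCtxV R HL) φ Pb hPb hnp g hgd hφ HL γ σA hσ hφγ hγr x hx

include HLb hmany hinj hell hσ hφγ hγr in
theorem coord_fixed_abs (x : Fin g → A) (hx : ∀ i, x i ∈ maximalIdeal A)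
    (hfix : γ • theta (discModelAbs R HL φ Pb hPb hnp g hgd hφ) (fun _ _ => HL.deg_eq_one _) x =
      theta (discModelAbs R HL φ Pb hPb hnp g hgd hφ) (fun _ _ => HL.deg_eq_one _) x)
    (i : Fin g) : σA (x i) = x i :=
  coord_fixed_of_red (toRedCtxV R HL) φ Pb hPb hnp g hgd hφ hinj HL HLb hell
    (fun _ _ => ell_le_ell_mapDomain R HL HLb hmany _) γ σA hσ hφγ hγr x hx hfix i

end Equivariance

end Fermat.Agent.FF.ThetaAbs5
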