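/-
Programme FF (S19), integration (helper8): the conclusion of S19 from the outputs of the CONCRETE
chapters at a level `M'` (later `auxLevel ℓ p`) carrying a Hauptmodul base `(n, e)`.

The abstract place reduction is `C := GaussOv1.redCtxV A M' ℓ hA hℓM r hr` (helper1) for a place
reduction `r` with `IsPlaceReductionModL A M' r`.  Inputs which are still hypotheses here:
* (G0(c)) `hrI`: `r` is invariant under the inertia group; `red`, `hred`, `hredI`;
* (G6) `hR`, `hRb`, `h0`: Riemann's inequality with the constant `g` on both fibres and one divisor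
  with `δ = 0` on the special fibre;
* (G2a) `φ`, `Pb`, `hPb`, `hnp`, `hφ`, `hinj`, `hell`, `hφI`;
* (G2b) `Sbad`, `P₁`, `hlift`;
* (G3b) the core data, the lattice model and the closed fibre hypothesis.
-/
import Mathlib
import Fermat.Agent.FF.AbsTheta8
import Fermat.Agent.FF.FinalS19_8
import Fermat.Agent.FF.GaussOv1D
import Fermat.Agent.FF.ThetaAbs5

set_option autoImplicit false
set_option synthInstance.maxHeartbeats 400000

open AlgebraicCurve ModularCurve IsLocalRing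

namespace Fermat.Agent.FF.ConcreteA8

open Fermat.Agent.FF.CoreIface8 Fermat.Agent.FF.GeomIface8 Fermat.Agent.FF.Assembly8
  Fermat.Agent.FF.InertiaWire8 Fermat.Agent.FF.S19Wire1 Fermat.Agent.FF.SpecRR1
  Fermat.Agent.FF.DiscOfRedA Fermat.Agent.FF.UniqueZeroA Fermat.Agent.RR.LSpace
  Fermat.Agent.RED.Interface4 Fermat.Agent.FF.GaussOv1 Fermat.Agent.ES.RED

set_option maxHeartbeats 3200000 in
/-- **the input of `FinalS19_8.s19_of_thetaInput` from the outputs of the concrete chapters.** -/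
theorem thetaInput_of_chapters (M' : ℕ) [NeZero M'] (ℓ : ℕ) (k : ℕ) [Fact ℓ.Prime]
    (A : ValuationSubring Qb) (hA : A.LiesOverPrime ℓ)
    (hℓM : ¬ ℓ ∣ M') (n e : ℕ) [NeZero n]
    (hmem : Fermat.Agent.RED.BASE.Interface12.TMem n e M')
    (hgen : Fermat.Agent.RED.BASE.Interface12.TGenBase n e)
    (r : Place Qbar ↥(Fbar M') →
      Place (Setup8.kA A) ↥(modularFunctionFieldFullC (Setup8.kA A) M'))
    (hr : IsPlaceReductionModL A M' r)
    -- G0(c)
    (hrI : ∀ τ ∈ A.inertiaSubgroupIn ℚ, ∀ P : Place Qbar ↥(Fbar M'),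
      r ((arithmeticGalois (modularFunctionFieldFull M') τ :
        SemilinearAut Qbar ↥(Fbar M')) • P) = r P)
    {Jb : Type*} [AddCommGroup Jb] (red : JZero M' →+ Jb)
    (hred : ∀ D : Divisor.degZero (K := Qbar) (F := ↥(Fbar M')),
      red (Pic0.mk D) = 0 ↔ Finsupp.mapDomain r (D : Divisor Qbar ↥(Fbar M')) ∈
        Divisor.principal (K := Setup8.kA A)
          (F := ↥(modularFunctionFieldFullC (Setup8.kA A) M')))
    (hredI : ∀ τ ∈ A.inertiaSubgroupIn ℚ, ∀ z : JZero M', red (τ • z) = red z)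
    -- G6
    (g : ℕ)
    (hR : ∀ D : Divisor Qbar ↥(Fbar M'), Divisor.degree D + 1 - (g : ℤ) ≤ ell D)
    (hRb : ∀ D : Divisor (Setup8.kA A) ↥(modularFunctionFieldFullC (Setup8.kA A) M'),
      Divisor.degree D + 1 - (g : ℤ) ≤ ell D)
    {D₀ : Divisor (Setup8.kA A) ↥(modularFunctionFieldFullC (Setup8.kA A) M')}
    (h0 : delta (g : ℤ) D₀ = 0)
    -- G2a
    {d : ℕ}
    (φ : Ov A M' ℓ hA hℓM)
    (Pb : Fin d → Place (Setup8.kA A) ↥(modularFunctionFieldFullC (Setup8.kA A) M'))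
    (hPb : ∀ j, (Pb j).ord (ρ A M' ℓ hA hℓM φ) = 1)
    (hnp : ∀ (j : Fin d) (P : Place Qbar ↥(Fbar M')), r P = Pb j →
      0 ≤ P.ord (φ : ↥(Fbar M')))
    (hgd : g ≤ d)
    (hφ : ρ A M' ℓ hA hℓM φ ≠ 0)
    (hinj : Function.Injective Pb)
    (hell : ell (∑ j : Fin g, Finsupp.single (Pb (Fin.castLE hgd j)) (1 : ℤ)) ≤ 1)
    (hφI : ∀ τ ∈ A.inertiaSubgroupIn ℚ,
      (arithmeticGalois (modularFunctionFieldFull M') τ :
        SemilinearAut Qbar ↥(Fbar M')) • (φ : ↥(Fbar M')) =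
        (φ : ↥(Fbar M')))
    -- G2b
    (Sbad : Finset (Place (Setup8.kA A) ↥(modularFunctionFieldFullC (Setup8.kA A) M')))
    (P₁ : Place (Setup8.kA A) ↥(modularFunctionFieldFullC (Setup8.kA A) M'))
    (hP₁ : P₁ ∉ Sbad)
    (hlift : ∀ Qb, Qb ∉ Sbad → ∃ Q : Place Qbar ↥(Fbar M'), r Q = Qb ∧
      ∀ τ ∈ A.inertiaSubgroupIn ℚ,
        (arithmeticGalois (modularFunctionFieldFull M') τ :
          SemilinearAut Qbar ↥(Fbar M')) • Q = Q)
    -- G3b
    (hG3 : ∃ (nV : ℕ) (D : CoreData A (Fin nV → A) g d),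
        ClosedFibre D (IsLocalRing.ResidueField A) ∧
        Nonempty (LatticeModel
          ((redCtxV A M' ℓ hA hℓM r hr).discModel φ Pb hPb hnp g hgd hφ) D)) :
    ∃ (nV : ℕ) (D : CoreData A (Fin nV → A) g d)
      (HL : LHyp Qbar ↥(Fbar M')),
      Nonempty (ThetaInput ((redCtxV A M' ℓ hA hℓM r hr).discModel φ Pb hPb hnp g hgd hφ)
        (fun _ _ => HL.deg_eq_one _) (Iner A) (Tors M' ℓ k) Jb) ∧
      ClosedFibre D (IsLocalRing.ResidueField A) ∧
      Nonempty (LatticeModel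
        ((redCtxV A M' ℓ hA hℓM r hr).discModel φ Pb hPb hnp g hgd hφ) D) ∧
      ∀ (j j' : Fin d) (t t' : A), t ∈ maximalIdeal A → t' ∈ maximalIdeal A →
        ((redCtxV A M' ℓ hA hℓM r hr).discModel φ Pb hPb hnp g hgd hφ).P j t =
          ((redCtxV A M' ℓ hA hℓM r hr).discModel φ Pb hPb hnp g hgd hφ).P j' t' → j = j' := by
  have : IsAlgClosed (Setup8.kA A) := Fermat.Agent.ES.RED.SpecialInv25.isAlgClosed_kk A
  have : Infinite (Setup8.kA A) := IsAlgClosed.instInfinite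
  have HL : LHyp Qbar ↥(Fbar M') :=
    Fermat.Agent.FF.SpecialRR6.lHyp_bar n e M' hmem
  have HLb : LHyp (Setup8.kA A) ↥(modularFunctionFieldFullC (Setup8.kA A) M') :=
    Fermat.Agent.FF.SpecialRR6.lHyp_special n e M' ℓ hℓM hmem hgen A hA r hr
  have hmany := hasManyPlaces A M' ℓ hA hℓM n e hmem hgen r hr
  obtain ⟨nV, D, hcf, ⟨L⟩⟩ := hG3
  obtain ⟨I⟩ := AbsTheta8.nonempty_thetaInput (Γ := Iner A) (M := Tors M' ℓ k)
    (redCtxV A M' ℓ hA hℓM r hr) φ Pb hPb hnp g hgd hφ hinj HL HLb hell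
    (fun D => ThetaAbs5.ell_le_ell_mapDomain (absRed A M' ℓ hA hℓM r hr) HL HLb hmany D)
    hR hRb h0 (hΓA A)
    (fun σ => arithmeticGalois (modularFunctionFieldFull M') (σ : InertiaWire8.GQ))
    (fun σ z => rfl) (fun σ a => rfl) (fun σ => hφI σ.1 σ.2) (fun σ P => hrI σ.1 σ.2 P)
    red hred (fun σ z => hredI σ.1 σ.2 z)
    (Submodule.subtype _).toAddMonoidHom Subtype.val_injective (fun σ z => rfl)
    Sbad P₁ hP₁ (fun Qb hQb => by
      obtain ⟨Q, hQ, hQI⟩ := hlift Qb hQb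
      exact ⟨Q, hQ, fun σ => hQI σ.1 σ.2⟩)
  exact ⟨nV, D, HL, ⟨I⟩, hcf, ⟨L⟩,
    ThetaBridge5.hdisj_of_red (redCtxV A M' ℓ hA hℓM r hr) φ Pb hPb hnp g hgd hφ hinj⟩

/-- **S19 from the package at the auxiliary level.** -/
theorem s19_of_package (p : ℕ) [NeZero p] (ℓ : ℕ) (k : ℕ) [Fact ℓ.Prime]
    [NeZero (auxLevel ℓ p)]
    (A : ValuationSubring Qb) (hA : A.LiesOverPrime ℓ) {g d : ℕ}
    (Mod : DiscModel A (modularFunctionFieldBar (auxLevel ℓ p)) g d)
    {Jb : Type*} [AddCommGroup Jb]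
    (h : ∃ (nV : ℕ) (D : CoreData A (Fin nV → A) g d)
      (HL : LHyp Qbar ↥(Fbar (auxLevel ℓ p))),
      Nonempty (ThetaInput Mod (fun _ _ => HL.deg_eq_one _) (Iner A)
        (Tors (auxLevel ℓ p) ℓ k) Jb) ∧
      ClosedFibre D (IsLocalRing.ResidueField A) ∧
      Nonempty (LatticeModel Mod D) ∧
      ∀ (j j' : Fin d) (t t' : A), t ∈ maximalIdeal A → t' ∈ maximalIdeal A →
        Mod.P j t = Mod.P j' t' → j = j') :
    ∃ (H : Type) (_ : CommRing H) (_ : HopfAlgebra (GaloisRep.ratLocalizedAt ℓ) H),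
      Module.Finite (GaloisRep.ratLocalizedAt ℓ) H ∧ Module.Flat (GaloisRep.ratLocalizedAt ℓ) H ∧
      Coalgebra.IsCocomm (GaloisRep.ratLocalizedAt ℓ) H ∧
      ∃ e : WithConv (H →ₐ[GaloisRep.ratLocalizedAt ℓ] AlgebraicClosure ℚ) ≃
          ↥(Submodule.torsionBy ℤ (JZero p) ((ℓ : ℤ) ^ k)),
        (∀ f g, e (f * g) = e f + e g) ∧
        ∀ (σ : AlgebraicClosure ℚ ≃ₐ[ℚ] AlgebraicClosure ℚ)
          (f g : WithConv (H →ₐ[GaloisRep.ratLocalizedAt ℓ] AlgebraicClosure ℚ)),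
          (∀ h : H, g h = σ (f h)) → ((e g : JZero p)) = σ • (e f : JZero p) := by
  obtain ⟨nV, D, HL, ⟨I⟩, hcf, ⟨L⟩, hdisj⟩ := h
  exact FinalS19_8.s19_of_thetaInput p ℓ k A hA Mod _ I hcf L hdisj

end Fermat.Agent.FF.ConcreteA8
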