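/-
Programme FF (S19), chapter G6a/G6d (helper1): **Riemann's inequality on the special fibre with the
generic genus `(R')`**, from surjectivity of the reduction of places, semicontinuity
`l(D) ≤ l̄(r_* D)` (chapter G6b) and Riemann's inequality on the generic fibre.
-/
import Mathlib
import Fermat.Agent.FF.SpecRR1A
import Fermat.Agent.FF.SpecRR1B

set_option autoImplicit false

namespace Fermat.Agent.FF.SpecRR1

open AlgebraicCurve Fermat.Agent.RR.LSpace Fermat.Agent.X0.FF

variable {K F κ Fb : Type*} [Field K] [Field F] [Algebra K F] [Field κ] [Field Fb] [Algebra κ Fb]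

/-- every divisor of the special fibre is the push-forward of a divisor of the same degree. -/
theorem exists_mapDomain_eq (r : Place K F → Place κ Fb) (hsurj : Function.Surjective r)
    (Db : Divisor κ Fb) : ∃ D : Divisor K F, Finsupp.mapDomain r D = Db := by
  obtain ⟨s, hs⟩ := hsurj.hasRightInverse
  refine ⟨Finsupp.mapDomain s Db, ?_⟩
  rw [← Finsupp.mapDomain_comp]
  have : r ∘ s = id := funext hs
  rw [this, Finsupp.mapDomain_id]

/-- **`(R')`: Riemann's inequality on the special fibre with the generic genus.** -/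
theorem riemann_inequality_special (r : Place K F → Place κ Fb) (hsurj : Function.Surjective r)
    (hdeg : ∀ P, (r P).deg = P.deg) (g : ℤ)
    (hRgen : ∀ D : Divisor K F, Divisor.degree D + 1 - g ≤ ell D)
    (hsemi : ∀ D : Divisor K F, ell D ≤ ell (Finsupp.mapDomain r D)) (Db : Divisor κ Fb) :
    Divisor.degree Db + 1 - g ≤ ell Db := by
  obtain ⟨D, rfl⟩ := exists_mapDomain_eq r hsurj Db
  rw [degree_mapDomain r hdeg]
  exact (hRgen D).trans (hsemi D)

/-- the package consumed by the geometry chapters: `LHyp` and `(R')` on the special fibre. -/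
theorem special_fibre_package [IsAlgClosed κ] (HL : LHyp K F) {xb : Fb} (hxb : IsGen κ xb)
    (r : Place K F → Place κ Fb) (hsurj : Function.Surjective r)
    (hprin : ∀ fb : Fb, fb ≠ 0 → ∃ (f : F) (hf : f ≠ 0),
      ∀ Q : Place κ Fb, Finsupp.mapDomain r (divOf HL hf) Q = Q.ord fb)
    (g : ℤ) (hRgen : ∀ D : Divisor K F, Divisor.degree D + 1 - g ≤ ell D)
    (hsemi : ∀ D : Divisor K F, ell D ≤ ell (Finsupp.mapDomain r D)) :
    ∃ _ : LHyp κ Fb, ∀ Db : Divisor κ Fb, Divisor.degree Db + 1 - g ≤ ell Db :=
  ⟨lHyp_special HL hxb r hprin,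
    riemann_inequality_special r hsurj (fun P => by rw [deg_eq_one hxb, HL.deg_eq_one]) g hRgen
      hsemi⟩

end Fermat.Agent.FF.SpecRR1
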