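/-
Programme FF (S19), integration (helper8): Riemann's inequality with the constant
`g = genus ℚ̄ (X₀(M))` on BOTH fibres at a level `M` with a Hauptmodul base, for any place reduction
`r` (`IsPlaceReductionModL A M r`): `hR_level` (characteristic zero, from Riemann–Roch) and `hRb_level`
(special fibre: surjectivity of `r` + semicontinuity).
-/
import Mathlib
import Fermat.Agent.FF.Bridge5
import Fermat.Agent.FF.GaussOv1D
import Fermat.Agent.FF.ThetaAbs5
import Fermat.Agent.FF.SpecRR1C
import Fermat.Agent.X0.HasCanDivInst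
import Fermat.Agent.ES.RED.SpecialInv25

set_option autoImplicit false
set_option synthInstance.maxHeartbeats 400000

open AlgebraicCurve ModularCurve IsLocalRing

namespace Fermat.Agent.FF.ConcreteR8

open Fermat.Agent.FF.SpecRR1 Fermat.Agent.RR.LSpace Fermat.Agent.RED.Interface4
  Fermat.Agent.FF.GaussOv1 Fermat.Agent.ES.RED Fermat.Agent.X0

variable (n e M : ℕ) [NeZero n] [NeZero M] (ℓ : ℕ) [Fact ℓ.Prime] (hℓM : ¬ ℓ ∣ M)
  (hmem : Fermat.Agent.RED.BASE.Interface12.TMem n e M)
  (hgen : Fermat.Agent.RED.BASE.Interface12.TGenBase n e)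
  (A : ValuationSubring Qbar) (hA : A.LiesOverPrime ℓ)

/-- the canonical divisor instance of `X₀(M)` over `ℚ̄`. -/
instance hasCanDiv : HasCanonicalDivisor (K := Qbar) (F := ↥(Fbar M)) :=
  Fermat.Agent.X0.HasCanDivInst.hasCanonicalDivisor M

include hmem in
/-- Riemann's inequality on the generic fibre. -/
theorem hR_level (D : Divisor Qbar ↥(Fbar M)) :
    Divisor.degree D + 1 - (genus Qbar ↥(Fbar M) : ℤ) ≤ ell D :=
  Fermat.Agent.FF.Bridge5.riemann_inequality_genus
    (Fermat.Agent.ES.RED.SpecialInv25.isGen_tF n e M hmem) D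

include hℓM hmem hgen hA in
/-- Riemann's inequality on the special fibre, with the generic genus. -/
theorem hRb_level
    (r : Place Qbar ↥(Fbar M) → Place (Setup8.kA A) ↥(modularFunctionFieldFullC (Setup8.kA A) M))
    (hr : IsPlaceReductionModL A M r)
    (Db : Divisor (Setup8.kA A) ↥(modularFunctionFieldFullC (Setup8.kA A) M)) :
    Divisor.degree Db + 1 - (genus Qbar ↥(Fbar M) : ℤ) ≤ ell Db := by
  have HL : LHyp Qbar ↥(Fbar M) := Fermat.Agent.FF.SpecialRR6.lHyp_bar n e M hmem
  have HLb : LHyp (Setup8.kA A) ↥(modularFunctionFieldFullC (Setup8.kA A) M) :=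
    Fermat.Agent.FF.SpecialRR6.lHyp_special n e M ℓ hℓM hmem hgen A hA r hr
  have hmany := hasManyPlaces A M ℓ hA hℓM n e hmem hgen r hr
  exact riemann_inequality_special r (r_surjective A M ℓ hA hℓM n e hmem hgen r hr)
    (fun P => by rw [HL.deg_eq_one, HLb.deg_eq_one]) _ (hR_level n e M hmem)
    (fun D => ThetaAbs5.ell_le_ell_mapDomain (absRed A M ℓ hA hℓM r hr) HL HLb hmany D) Db

end Fermat.Agent.FF.ConcreteR8
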