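/-
Programme FF (S19), chapter G3b (helper2), part A: bridges between the abstract reductions
`RedLat2.AbsRed` (helper2) and `DiscOfRedA.RedCtxV` (lead), and the degree of the divisor
`g (φ)_0 + g (φ)_∞`.
-/
import Mathlib
import Fermat.Agent.FF.RedLat2B
import Fermat.Agent.FF.DiscOfRedA
import Fermat.Agent.FF.SpecRR1B

set_option autoImplicit false

open AlgebraicCurve IsLocalRing

namespace Fermat.Agent.FF.CoreLat2

open Fermat.Agent.X0.FF Fermat.Agent.RR.LSpace Fermat.Agent.FF.RedLat2
  Fermat.Agent.FF.UniqueZeroA Fermat.Agent.FF.DiscOfRedA Fermat.Agent.FF.SpecRR1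

section Degree

variable {K F : Type*} [Field K] [Field F] [Algebra K F]

/-- the degree of `g (φ)_0 + g (φ)_∞` when the zeros of `φ` are simple: `2 g · #zeros`. -/
theorem degree_absDiv (H : LHyp K F) {φ : F} (hφ : φ ≠ 0) (g : ℕ) (Z : Finset (Place K F))
    (hZ : ∀ P, 0 < P.ord φ ↔ P ∈ Z) (hZ1 : ∀ P ∈ Z, P.ord φ = 1)
    (DD : Divisor K F) (hDD : ∀ Q, DD Q = g * |Q.ord φ|) :
    Divisor.degree DD = 2 * g * Z.card := by
  have hDDeq : DD = (g : ℤ) • ((2 : ℤ) • pts Z - divOf H hφ) := by
    ext Q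
    rw [hDD, Finsupp.smul_apply, Finsupp.sub_apply, Finsupp.smul_apply, pts_apply, divOf_apply,
      smul_eq_mul, smul_eq_mul]
    split_ifs with hQ
    · rw [hZ1 Q hQ]
      norm_num
    · have : ¬ 0 < Q.ord φ := fun h => hQ ((hZ Q).1 h)
      rw [abs_of_nonpos (not_lt.1 this)]
      ring
  rw [hDDeq, map_zsmul, map_sub, map_zsmul, degree_pts H, degree_divOf]
  simp only [smul_eq_mul, sub_zero]
  ring

end Degree

section Bridge

variable {K : Type*} [Field K] {A : ValuationSubring K} {F : Type*} [Field F] [Algebra K F]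
variable {Fb : Type*} [Field Fb] [Algebra (ResidueField A) Fb]

/-- lead's `RedCtxV` (with `κ = ResidueField A`, constants reducing by `residue`, kernel of the
reduction `= 𝔪_A O`) as an `AbsRed`. -/
def toAbsRed (C : RedCtxV A F (ResidueField A) Fb)
    (hρc : ∀ a : A, C.ρ (C.toRedCtx.const a) = algebraMap (ResidueField A) Fb (residue A a))
    (hker : ∀ y : C.O, C.ρ y = 0 → ∃ c : A, c ∈ maximalIdeal A ∧ ∃ y' : C.O,
      (y : F) = algebraMap K F (c : K) * (y' : F)) : AbsRed A F Fb where
  O := C.O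
  ρ := C.ρ
  algebraMap_mem := C.const_mem
  ρ_algebraMap := hρc
  ρ_ker := hker
  gauss := C.gauss
  r := C.r
  r_div := C.push

/-- an `AbsRed` with `LHyp` on the generic fibre as a `RedCtxV` (values from `LHyp.residue`,
divisors from `LHyp.principal`, `inv_mem` from the Gauss property). -/
noncomputable def ofAbsRed (R : AbsRed A F Fb) (HL : LHyp K F) :
    RedCtxV A F (ResidueField A) Fb where
  O := R.O
  ρ := R.ρ
  r := R.r
  const_mem := R.algebraMap_mem
  ρ_const_max := fun _ ha => R.ρ_const_eq_zero ha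
  ρ_const_unit := fun a ha => by
    refine ⟨residue A a, ?_, R.ρ_algebraMap a⟩
    intro h0
    rw [IsLocalRing.residue_eq_zero_iff, IsLocalRing.mem_maximalIdeal, mem_nonunits_iff] at h0
    exact h0 ha
  exists_div := fun f hf => ⟨divOf HL hf, fun P => divOf_apply HL hf P⟩
  push := R.r_div
  exists_value := fun Q f hf => by
    obtain ⟨c, hc⟩ := HL.residue Q f (mem_of_ord_nonneg Q hf)
    exact ⟨c, hc.imp (fun h => sub_eq_zero.2 h) id⟩
  inv_mem := fun _ hy => R.inv_mem_of_ρ_ne_zero hy
  gauss := R.gauss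
  val := fun Q => valueAt HL Q
  val_algebraMap := fun Q a => valueAt_algebraMap HL Q a
  val_eq_zero := fun Q f h => (valueAt_eq_zero_iff HL Q f).1 h

end Bridge

end Fermat.Agent.FF.CoreLat2
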