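/-
Programme FF (S19), chapter G3b (helper2), part B: auxiliary lemmas for the construction of the
`CoreData` / `LatticeModel` / `ClosedFibre` from an abstract reduction.

* divisibility by powers of `X` after reduction of the coefficients;
* the polynomials `qPoly`, `qjPoly` at the origin;
* elements of `κ ⊗[A] V` are pure tensors `1 ⊗ v`;
* functions of `L(g (φ)_0 + g (φ)_∞)` multiplied by `φ ^ g` lie in the disc rings.
-/
import Mathlib
import Fermat.Agent.FF.CoreLat2A
import Fermat.Agent.FF.ThetaKer5

set_option autoImplicit false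

open AlgebraicCurve IsLocalRing PowerSeries
open scoped TensorProduct

namespace Fermat.Agent.FF.CoreLat2

open Fermat.Agent.X0.FF Fermat.Agent.RR.LSpace Fermat.Agent.FF.RedLat2
  Fermat.Agent.FF.UniqueZeroA Fermat.Agent.FF.DiscOfRedA Fermat.Agent.FF.SpecRR1
  Fermat.Agent.FF.CoreIface8 Fermat.Agent.FF.GeomIface8

/-! ### power series -/

section PS

variable {A : Type*} [CommRing A] [IsLocalRing A]

theorem X_pow_dvd_map_residue_iff (f : PowerSeries A) (k : ℕ) :
    (X : PowerSeries (ResidueField A)) ^ k ∣ PowerSeries.map (residue A) f ↔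
      ∀ n < k, PowerSeries.coeff n f ∈ maximalIdeal A := by
  rw [PowerSeries.X_pow_dvd_iff]
  refine forall_congr' fun n => forall_congr' fun _ => ?_
  rw [PowerSeries.coeff_map, IsLocalRing.residue_eq_zero_iff]

end PS

section QPoly

variable {B : Type*} [CommRing B] {g : ℕ}

theorem qPoly_zero : qPoly (g := g) (fun _ => (0 : B)) (fun _ => 0) = (X : PowerSeries B) ^ (2 * g) := by
  unfold qPoly
  simp only [map_zero, sub_zero, Finset.prod_const, Finset.card_univ, Fintype.card_fin]
  rw [← pow_two, ← pow_mul]

theorem qjPoly_zero (j : Fin g) :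
    qjPoly (g := g) (fun _ => (0 : B)) (fun _ => 0) j = (X : PowerSeries B) ^ (2 * g - 1) := by
  unfold qjPoly
  simp only [map_zero, sub_zero, Finset.prod_const, Finset.card_erase_of_mem (Finset.mem_univ j),
    Finset.card_univ, Fintype.card_fin]
  rw [← pow_two, ← pow_mul, ← pow_succ']
  congr 1
  have : 1 ≤ g := Nat.one_le_of_lt j.2
  omega

end QPoly

/-! ### tensors with the residue field -/

section Tensor

variable {A : Type*} [CommRing A] [IsLocalRing A] {V : Type*} [AddCommGroup V] [Module A V]

theorem exists_one_tmul (u : ResidueField A ⊗[A] V) :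
    ∃ v : V, u = (1 : ResidueField A) ⊗ₜ[A] v := by
  induction u using TensorProduct.induction_on with
  | zero => exact ⟨0, (TensorProduct.tmul_zero _ _).symm⟩
  | tmul a v =>
    obtain ⟨a', rfl⟩ := IsLocalRing.residue_surjective a
    refine ⟨a' • v, ?_⟩
    rw [TensorProduct.tmul_smul, TensorProduct.smul_tmul', Algebra.smul_def, mul_one]
    rfl
  | add x y hx hy =>
    obtain ⟨v, rfl⟩ := hx
    obtain ⟨w, rfl⟩ := hy
    exact ⟨v + w, (TensorProduct.tmul_add _ _ _).symm⟩

theorem one_tmul_smul_of_mem (c : A) (hc : c ∈ maximalIdeal A) (v : V) :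
    (1 : ResidueField A) ⊗ₜ[A] (c • v) = 0 := by
  rw [TensorProduct.tmul_smul, TensorProduct.smul_tmul', Algebra.smul_def, mul_one]
  have : algebraMap A (ResidueField A) c = 0 := (IsLocalRing.residue_eq_zero_iff c).2 hc
  rw [this, TensorProduct.zero_tmul]

end Tensor

end Fermat.Agent.FF.CoreLat2
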