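/-
Programme FF (S19), chapter G3b (helper2), part C: **the integral Riemann–Roch lattice as
`CoreData`, its `LatticeModel` and the closed-fibre hypothesis.**

Input: lead's abstract reduction `C : RedCtxV A F κ Fb` (`κ = ResidueField A`) with constants
reducing by `residue` and kernel of the reduction `𝔪_A O`; `LHyp` on both fibres; infinitely many
places in the image of `r`; the disc-model data `φ, Pb` (`d` simple zeros of `ρ φ`, no poles of `φ`
above them); every zero of `φ` lies over some `Pb j`; `Pb` injective; Riemann–Roch on `F` in degree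
`> 2g - 2`; non-speciality of `Ē = ∑_{j<g} Pb j`.

Output: `n`, `D : CoreData A (Fin n → A) g d`, `LatticeModel (C.discModel ..) D` and
`ClosedFibre D (ResidueField A)`.
-/
import Mathlib
import Fermat.Agent.FF.CoreLat2B

set_option autoImplicit false

open AlgebraicCurve IsLocalRing PowerSeries
open scoped TensorProduct

namespace Fermat.Agent.FF.CoreLat2

open Fermat.Agent.X0.FF Fermat.Agent.RR.LSpace Fermat.Agent.FF.RedLat2
  Fermat.Agent.FF.UniqueZeroA Fermat.Agent.FF.DiscOfRedA Fermat.Agent.FF.SpecRR1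
  Fermat.Agent.FF.CoreIface8 Fermat.Agent.FF.GeomIface8

variable {K : Type*} [Field K] {A : ValuationSubring K} {F : Type*} [Field F] [Algebra K F]
variable {Fb : Type*} [Field Fb] [Algebra (ResidueField A) Fb]
variable (C : RedCtxV A F (ResidueField A) Fb)
variable {d : ℕ} (φ : C.O) (Pb : Fin d → Place (ResidueField A) Fb)
variable (hPb : ∀ j, (Pb j).ord (C.ρ φ) = 1)
variable (hnp : ∀ j P, C.r P = Pb j → 0 ≤ P.ord (φ : F))

/-! ### the zeros of `φ` -/

section Zeros

variable (hinj : Function.Injective Pb)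
variable (hzero : ∀ P : Place K F, 0 < P.ord (φ : F) → ∃ j, C.r P = Pb j)

open Classical in
/-- the centres of the discs. -/
noncomputable def centres : Finset (Place K F) :=
  Finset.image (fun j => C.Pt φ Pb hPb hnp j 0) Finset.univ

include hinj in
theorem card_centres : (centres C φ Pb hPb hnp).card = d := by
  classical
  unfold centres
  rw [Finset.card_image_of_injective, Finset.card_univ, Fintype.card_fin]
  intro j j' h
  apply hinj
  have h1 := C.r_Pt φ Pb hPb hnp j 0 (Ideal.zero_mem _)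
  have h2 := C.r_Pt φ Pb hPb hnp j' 0 (Ideal.zero_mem _)
  simp only at h
  rw [← h1, ← h2, h]

theorem ord_φ_centre (j : Fin d) : (C.Pt φ Pb hPb hnp j 0).ord (φ : F) = 1 := by
  rw [C.ord_Pt_φ φ Pb hPb hnp j 0 (Ideal.zero_mem _), if_pos rfl]

include hzero in
theorem pos_iff_mem_centres (P : Place K F) :
    0 < P.ord (φ : F) ↔ P ∈ centres C φ Pb hPb hnp := by
  classical
  unfold centres
  rw [Finset.mem_image]
  constructor
  · intro hP
    obtain ⟨j, hj⟩ := hzero P hP
    refine ⟨j, Finset.mem_univ _, ?_⟩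
    symm
    apply C.toRedCtx.eq_discPoint φ (Pb j) (hPb j) (hnp j) 0 (Ideal.zero_mem _) P hj
    simpa using hP
  · rintro ⟨j, -, rfl⟩
    rw [ord_φ_centre]
    exact zero_lt_one

theorem ord_eq_one_of_mem_centres (P : Place K F) (hP : P ∈ centres C φ Pb hPb hnp) :
    P.ord (φ : F) = 1 := by
  classical
  unfold centres at hP
  rw [Finset.mem_image] at hP
  obtain ⟨j, -, rfl⟩ := hP
  exact ord_φ_centre C φ Pb hPb hnp j

include hPb hnp hinj hzero in
/-- `deg (g (φ)_0 + g (φ)_∞) = 2 g d`. -/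
theorem degree_DD (HL : LHyp K F) (hφ0 : (φ : F) ≠ 0) (g : ℕ) (DD : Divisor K F)
    (hDD : ∀ Q, DD Q = g * |Q.ord (φ : F)|) : Divisor.degree DD = 2 * g * d := by
  rw [degree_absDiv HL hφ0 g (centres C φ Pb hPb hnp)
    (pos_iff_mem_centres C φ Pb hPb hnp hzero) (ord_eq_one_of_mem_centres C φ Pb hPb hnp) DD hDD,
    card_centres C φ Pb hPb hnp hinj]

end Zeros

/-! ### the disc rings -/

section DiscRing

variable (g : ℕ)

/-- a function with poles bounded by `g (φ)_0 + g (φ)_∞`, multiplied by `φ ^ g`, has no pole on the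
discs. -/
theorem pow_mul_mem_Rj (j : Fin d) {w : F} (hwO : w ∈ C.O)
    (hw : ∀ Q : Place K F, w = 0 ∨ -((g : ℤ) * |Q.ord (φ : F)|) ≤ Q.ord w) :
    (φ : F) ^ g * w ∈ C.Rj φ Pb hPb hnp j := by
  rw [mem_discRing_iff]
  refine ⟨C.O.mul_mem (C.O.pow_mem φ.2 g) hwO, fun t ht => ?_⟩
  by_cases hw0 : w = 0
  · rw [hw0, mul_zero, Place.ord_zero]
  have hφ0 : (φ : F) ≠ 0 := by
    intro h0
    have := ord_φ_centre C φ Pb hPb hnp j
    rw [h0, Place.ord_zero] at this
    exact zero_ne_one this
  rw [Place.ord_mul _ (pow_ne_zero g hφ0) hw0, ord_pow]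
  have h1 := (hw (C.Pt φ Pb hPb hnp j t)).resolve_left hw0
  have h2 : 0 ≤ (C.Pt φ Pb hPb hnp j t).ord (φ : F) := by
    rw [C.ord_Pt_φ φ Pb hPb hnp j t ht]
    split_ifs <;> norm_num
  rw [abs_of_nonneg h2] at h1
  linarith

end DiscRing

end Fermat.Agent.FF.CoreLat2
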