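/-
Programme FF (S19), chapter G3b (helper2), part D: **`CoreData`, `LatticeModel` and `ClosedFibre`
from an abstract reduction** (main theorem `exists_coreData`).
-/
import Mathlib
import Fermat.Agent.FF.CoreLat2C

set_option autoImplicit false

open AlgebraicCurve IsLocalRing PowerSeries
open scoped TensorProduct

namespace Fermat.Agent.FF.CoreLat2

open Fermat.Agent.X0.FF Fermat.Agent.RR.LSpace Fermat.Agent.FF.RedLat2
  Fermat.Agent.FF.UniqueZeroA Fermat.Agent.FF.DiscOfRedA Fermat.Agent.FF.SpecRR1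
  Fermat.Agent.FF.CoreIface8 Fermat.Agent.FF.GeomIface8

variable {K : Type*} [Field K] {A : ValuationSubring K} {F : Type*} [Field F] [Algebra K F]
variable {Fb : Type*} [Field Fb] [Algebra (ResidueField A) Fb]
variable (C : RedCtxV A F (ResidueField A) Fb)
variable {d : ℕ} (φ : C.O) (Pb : Fin d → Place (ResidueField A) Fb)
variable (hPb : ∀ j, (Pb j).ord (C.ρ φ) = 1)
variable (hnp : ∀ j P, C.r P = Pb j → 0 ≤ P.ord (φ : F))

/-- **G3**: the integral Riemann–Roch lattice `L(g (φ)_0 + g (φ)_∞) ∩ O` as `CoreData`, with its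
`LatticeModel` and the closed-fibre hypothesis. -/
theorem exists_coreData
    (hρc : ∀ a : A, C.ρ (C.toRedCtx.const a) = algebraMap (ResidueField A) Fb (residue A a))
    (hker : ∀ y : C.O, C.ρ y = 0 → ∃ c : A, c ∈ maximalIdeal A ∧ ∃ y' : C.O,
      (y : F) = algebraMap K F (c : K) * (y' : F))
    (HL : LHyp K F) (HLb : LHyp (ResidueField A) Fb)
    (hmany : ∀ S : Finset (Place (ResidueField A) Fb), ∃ P : Place K F, C.r P ∉ S)
    (g : ℕ) (hgd : g ≤ d) (hφ : C.ρ φ ≠ 0)
    (hinj : Function.Injective Pb)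
    (hzero : ∀ P : Place K F, 0 < P.ord (φ : F) → ∃ j, C.r P = Pb j)
    (hRR : ∀ D : Divisor K F, 2 * (g : ℤ) - 2 < Divisor.degree D →
      (Module.finrank K (riemannRochSpace D) : ℤ) = Divisor.degree D + 1 - g)
    (hNS : ThetaKer5.NonSpecial (C.discModel φ Pb hPb hnp g hgd hφ) C.r) :
    ∃ (n : ℕ) (D : CoreData A (Fin n → A) g d)
      (_ : LatticeModel (C.discModel φ Pb hPb hnp g hgd hφ) D),
      ClosedFibre D (ResidueField A) := by
  classical
  set M := C.discModel φ Pb hPb hnp g hgd hφ with hM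
  set R := toAbsRed C hρc hker with hR
  have hφ0 : (φ : F) ≠ 0 := C.toRedCtx.coe_ne_zero hφ
  -- the divisor `DD = g (φ)_0 + g (φ)_∞`
  set DD : Divisor K F := (divOf HL hφ0).mapRange (fun n => (g : ℤ) * |n|) (by simp) with hDDdef
  have hDD : ∀ Q, DD Q = g * |Q.ord (φ : F)| := fun Q => by
    rw [hDDdef, Finsupp.mapRange_apply, divOf_apply]
  have hdegDD : Divisor.degree DD = 2 * g * d :=
    degree_DD C φ Pb hPb hnp hinj hzero HL hφ0 g DD hDD
  obtain ⟨n, β, hβO, hn, hβL, hβli, -, hβA, -, -⟩ := R.exists_integral_basis' HL HLb hmany DD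
  -- the rank
  have hgd' : (g : ℤ) ≤ g * d := by
    rcases Nat.eq_zero_or_pos g with h0 | h0
    · simp [h0]
    · have hd : (1 : ℤ) ≤ d := by exact_mod_cast le_trans h0 hgd
      have hg : (0 : ℤ) ≤ g := by positivity
      nlinarith
  have hrank : (n : ℤ) + g = 2 * g * d + 1 := by
    have h1 := hRR DD (by rw [hdegDD]; linarith)
    rw [← hn, hdegDD] at h1
    linarith
  -- membership in `L(DD)`, in `ord` form
  have hLform : ∀ {w : F}, w ∈ riemannRochSpace DD →
      ∀ Q : Place K F, w = 0 ∨ -((g : ℤ) * |Q.ord (φ : F)|) ≤ Q.ord w := by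
    intro w hw Q
    have := mem_riemannRochSpace_iff.1 hw Q
    rwa [hDD] at this
  have hmemR : ∀ (j : Fin d) (i : Fin n), (φ : F) ^ g * β i ∈ discRing A M.O (M.P j) :=
    fun j i => pow_mul_mem_Rj C φ Pb hPb hnp g j (hβO i) (hLform (hβL i))
  -- the inclusion of the lattice
  let ιV : (Fin n → A) →+ F :=
    { toFun := fun v => ∑ i, algebraMap K F (v i : K) * β i
      map_zero' := by simp
      map_add' := fun v w => by simp [add_mul, Finset.sum_add_distrib] }
  have hιapp : ∀ v, ιV v = ∑ i, algebraMap K F (v i : K) * β i := fun v => rfl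
  have hιL : ∀ v, ιV v ∈ riemannRochSpace DD := by
    intro v
    rw [hιapp]
    refine Submodule.sum_mem _ fun i _ => ?_
    rw [← Algebra.smul_def]
    exact Submodule.smul_mem _ _ (hβL i)
  have hιO : ∀ v, ιV v ∈ C.O := by
    intro v
    rw [hιapp]
    exact Subring.sum_mem _ fun i _ => C.O.mul_mem (C.const_mem (v i)) (hβO i)
  have hιmem : ∀ j v, (φ : F) ^ g * ιV v ∈ discRing A M.O (M.P j) := fun j v =>
    pow_mul_mem_Rj C φ Pb hPb hnp g j (hιO v) (hLform (hιL v))
  have hιsmul : ∀ (c : A) (v : Fin n → A), ιV (c • v) = algebraMap K F (c : K) * ιV v := by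
    intro c v
    rw [hιapp, hιapp, Finset.mul_sum]
    refine Finset.sum_congr rfl fun i _ => ?_
    rw [Pi.smul_apply, smul_eq_mul, ← mul_assoc, ← map_mul]
    rfl
  have hιinj0 : ∀ v, ιV v = 0 → v = 0 := by
    intro v hv
    have h5 : ∑ i, (v i : K) • β i = 0 := by
      rw [← hv, hιapp]
      refine Finset.sum_congr rfl fun i _ => ?_
      rw [Algebra.smul_def]
    have h6 := (Fintype.linearIndependent_iff.1 hβli) (fun i => (v i : K)) h5
    funext i
    exact Subtype.ext (h6 i)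
  -- the expansions
  let ε : Fin d → (Fin n → A) →ₗ[A] PowerSeries A := fun j =>
    Fintype.linearCombination A (fun i => M.exp j ⟨(φ : F) ^ g * β i, hmemR j i⟩)
  have hεeq : ∀ j v, ε j v = M.exp j ⟨(φ : F) ^ g * ιV v, hιmem j v⟩ := by
    intro j v
    have h1 : (⟨(φ : F) ^ g * ιV v, hιmem j v⟩ : discRing A M.O (M.P j)) =
        ∑ i, (⟨algebraMap K F (v i : K), M.const_mem_discRing j (v i)⟩ :
          discRing A M.O (M.P j)) * ⟨(φ : F) ^ g * β i, hmemR j i⟩ := by
      apply Subtype.ext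
      rw [AddSubmonoidClass.coe_finsetSum]
      show (φ : F) ^ g * ∑ i, algebraMap K F (v i : K) * β i =
        ∑ i, algebraMap K F (v i : K) * ((φ : F) ^ g * β i)
      rw [Finset.mul_sum]
      refine Finset.sum_congr rfl fun i _ => by ring
    rw [h1, map_sum]
    show Fintype.linearCombination A _ v = _
    rw [Fintype.linearCombination_apply]
    refine Finset.sum_congr rfl fun i _ => ?_
    rw [map_mul, M.exp_const j ⟨algebraMap K F (v i : K), M.const_mem_discRing j (v i)⟩ (v i) rfl,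
      PowerSeries.smul_eq_C_mul]
  -- the distinguished vector
  have hφgL : (φ : F) ^ g ∈ riemannRochSpace DD := by
    rw [mem_riemannRochSpace_iff]
    intro Q
    right
    rw [hDD, ord_pow]
    have := neg_abs_le (Q.ord (φ : F))
    have hg : (0 : ℤ) ≤ g := by positivity
    nlinarith
  obtain ⟨c₀, hc₀⟩ := hβA _ hφgL (C.O.pow_mem φ.2 g)
  have hιc₀ : ιV c₀ = (φ : F) ^ g := hc₀.symm
  have hu₀ : ∀ j, ∃ c : (PowerSeries A)ˣ, ε j c₀ = (X : PowerSeries A) ^ (2 * g) * c := by
    intro j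
    refine ⟨1, ?_⟩
    rw [Units.val_one, mul_one, hεeq]
    have h1 : (⟨(φ : F) ^ g * ιV c₀, hιmem j c₀⟩ : discRing A M.O (M.P j)) =
        ⟨M.φ, M.φ_mem_discRing j⟩ ^ (2 * g) := by
      apply Subtype.ext
      rw [SubmonoidClass.coe_pow]
      show (φ : F) ^ g * ιV c₀ = (φ : F) ^ (2 * g)
      rw [hιc₀, ← pow_add, two_mul]
    rw [h1, map_pow, M.exp_φ j _ rfl]
  -- the core data
  let D : CoreData A (Fin n → A) g d :=
    { ε := ε
      hgd := hgd
      free := inferInstance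
      finite := inferInstance
      rank_add := by
        rw [Module.finrank_fin_fun]
        exact_mod_cast hrank
      u₀ := c₀
      hu₀ := hu₀ }
  let L : LatticeModel M D :=
    { ι := ιV
      mem_range := by
        intro u huO hu
        have huL : u ∈ riemannRochSpace DD := by
          rw [mem_riemannRochSpace_iff]
          intro Q
          right
          rw [hDD]
          have := hu Q
          show -((g : ℤ) * |Q.ord (φ : F)|) ≤ Q.ord u
          have h2 : M.φ = (φ : F) := rfl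
          rw [h2] at this
          linarith
        obtain ⟨c, hc⟩ := hβA u huL huO
        exact ⟨c, hc.symm⟩
      pow_mul_mem := hιmem
      eps_eq := hεeq }
  refine ⟨n, D, L, ?_⟩
  -- the closed fibre
  -- (*) a vector of the lattice with zero reduction dies in `κ ⊗ V`
  have hstar : ∀ v' : Fin n → A, C.ρ ⟨ιV v', hιO v'⟩ = 0 →
      (1 : ResidueField A) ⊗ₜ[A] v' = 0 := by
    intro v' hv'
    obtain ⟨c, hcmax, y', hy'⟩ := hker _ hv'
    have hy'eq : ιV v' = algebraMap K F (c : K) * (y' : F) := hy'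
    by_cases hc0 : (c : K) = 0
    · rw [hc0, map_zero, zero_mul] at hy'eq
      rw [hιinj0 v' hy'eq, TensorProduct.tmul_zero]
    · have hy'F : (y' : F) = algebraMap K F (c : K)⁻¹ * ιV v' := by
        rw [hy'eq, ← mul_assoc, ← map_mul, inv_mul_cancel₀ hc0, map_one, one_mul]
      have hy'L : (y' : F) ∈ riemannRochSpace DD := by
        rw [hy'F, ← Algebra.smul_def]
        exact Submodule.smul_mem _ _ (hιL v')
      obtain ⟨c', hc'⟩ := hβA (y' : F) hy'L y'.2
      have h1 : ιV (v' - c • c') = 0 := by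
        rw [map_sub, hιsmul, hy'eq, hιapp c', ← hc', sub_self]
      have h2 : v' = c • c' := sub_eq_zero.1 (hιinj0 _ h1)
      rw [h2]
      exact one_tmul_smul_of_mem c hcmax c'
  intro u hu
  obtain ⟨v, rfl⟩ := exists_one_tmul u
  obtain ⟨hhigh, hlow⟩ := hu
  have heps : ∀ j, epsB D (ResidueField A) j ((1 : ResidueField A) ⊗ₜ[A] v) =
      PowerSeries.map (residue A) (M.exp j ⟨(φ : F) ^ g * ιV v, hιmem j v⟩) := by
    intro j
    rw [epsB_tmul, one_smul]
    show PowerSeries.map (algebraMap A (ResidueField A)) (ε j v) = _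
    rw [hεeq]
    rfl
  by_cases hρw : C.ρ ⟨ιV v, hιO v⟩ = 0
  · exact ⟨0, by rw [hstar v hρw, zero_smul]⟩
  -- the reduction of `φ ^ g * w`
  have hρy : ∀ j, C.ρ ⟨(φ : F) ^ g * ιV v, C.mem_O_of_mem_Rj φ Pb hPb hnp (hιmem j v)⟩ =
      C.ρ φ ^ g * C.ρ ⟨ιV v, hιO v⟩ := by
    intro j
    have : (⟨(φ : F) ^ g * ιV v, C.mem_O_of_mem_Rj φ Pb hPb hnp (hιmem j v)⟩ : C.O) =
        φ ^ g * ⟨ιV v, hιO v⟩ := Subtype.ext (by simp)
    rw [this, map_mul, map_pow]
  have hordy : ∀ j, (Pb j).ord (C.ρ φ ^ g * C.ρ ⟨ιV v, hιO v⟩) =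
      g + (Pb j).ord (C.ρ ⟨ιV v, hιO v⟩) := by
    intro j
    rw [(Pb j).ord_mul (pow_ne_zero g hφ) hρw, ord_pow, hPb j, mul_one]
  have hkey : ∀ (j : Fin d) (k : ℕ),
      (X : PowerSeries (ResidueField A)) ^ k ∣
        epsB D (ResidueField A) j ((1 : ResidueField A) ⊗ₜ[A] v) →
      (k : ℤ) ≤ g + (Pb j).ord (C.ρ ⟨ιV v, hιO v⟩) := by
    intro j k hk
    rw [heps, X_pow_dvd_map_residue_iff] at hk
    have h1 := C.le_ord_ρ_of_coeff_mem φ Pb hPb hnp g hgd hφ j _ (hιmem j v) k hk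
    rw [hρy j] at h1
    rcases h1 with h1 | h1
    · exact absurd h1 (mul_ne_zero (pow_ne_zero g hφ) hρw)
    · rwa [hordy j] at h1
  have hordhigh : ∀ j : Fin d, g ≤ j.val → (g : ℤ) ≤ (Pb j).ord (C.ρ ⟨ιV v, hιO v⟩) := by
    intro j hj
    have h1 := hhigh j hj
    rw [qPoly_zero] at h1
    have h2 := hkey j (2 * g) h1
    push_cast at h2
    linarith
  have hordlow : ∀ j : Fin g,
      (g : ℤ) - 1 ≤ (Pb (Fin.castLE hgd j)).ord (C.ρ ⟨ιV v, hιO v⟩) := by
    intro j
    have h1 := hlow j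
    rw [qjPoly_zero] at h1
    have h2 := hkey (Fin.castLE hgd j) (2 * g - 1) h1
    have hg1 : 1 ≤ g := Nat.one_le_of_lt j.2
    have h3 : ((2 * g - 1 : ℕ) : ℤ) = 2 * (g : ℤ) - 1 := by
      rw [Nat.cast_sub (by omega)]
      push_cast
      ring
    rw [h3] at h2
    linarith
  -- the function `fb = ρ w / (ρ φ) ^ g`
  set ρw : Fb := C.ρ ⟨ιV v, hιO v⟩ with hρwdef
  set fb : Fb := ρw / C.ρ φ ^ g with hfb
  have hfb0 : fb ≠ 0 := div_ne_zero hρw (pow_ne_zero g hφ)
  have hordfb : ∀ Q : Place (ResidueField A) Fb, Q.ord fb = Q.ord ρw - g * Q.ord (C.ρ φ) := by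
    intro Q
    rw [hfb, ord_div Q hρw (pow_ne_zero g hφ), ord_pow]
  have hPb' : ∀ j : Fin g, ThetaKer5.Pb M C.r j = Pb (Fin.castLE hgd j) := by
    intro j
    exact C.r_Pt φ Pb hPb hnp (Fin.castLE hgd j) 0 (Ideal.zero_mem _)
  have hEapp : ∀ Q, ThetaKer5.Ebar M C.r Q =
      ∑ j : Fin g, if Pb (Fin.castLE hgd j) = Q then (1 : ℤ) else 0 := by
    intro Q
    unfold ThetaKer5.Ebar
    rw [Finsupp.finsetSum_apply]
    refine Finset.sum_congr rfl fun j _ => ?_
    rw [Finsupp.single_apply, hPb' j]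
  have hEnonneg : ∀ Q, 0 ≤ ThetaKer5.Ebar M C.r Q := by
    intro Q
    rw [hEapp]
    refine Finset.sum_nonneg fun j _ => ?_
    split_ifs <;> norm_num
  have hEone : ∀ j : Fin g, 1 ≤ ThetaKer5.Ebar M C.r (Pb (Fin.castLE hgd j)) := by
    intro j
    rw [hEapp]
    have h1 : (if Pb (Fin.castLE hgd j) = Pb (Fin.castLE hgd j) then (1 : ℤ) else 0) ≤
        ∑ j' : Fin g, if Pb (Fin.castLE hgd j') = Pb (Fin.castLE hgd j) then (1 : ℤ) else 0 :=
      Finset.single_le_sum (f := fun j' : Fin g =>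
        if Pb (Fin.castLE hgd j') = Pb (Fin.castLE hgd j) then (1 : ℤ) else 0)
        (fun j' _ => by
          show (0 : ℤ) ≤ if Pb (Fin.castLE hgd j') = Pb (Fin.castLE hgd j) then (1 : ℤ) else 0
          split_ifs <;> norm_num) (Finset.mem_univ j)
    rw [if_pos rfl] at h1
    exact h1
  have hfbL : ∀ Q : Place (ResidueField A) Fb, 0 ≤ Q.ord fb + ThetaKer5.Ebar M C.r Q := by
    intro Q
    rw [hordfb]
    by_cases hQ : ∃ j, Q = Pb j
    · obtain ⟨j, rfl⟩ := hQ
      rw [hPb j, mul_one]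
      by_cases hj : g ≤ j.val
      · have := hordhigh j hj
        have := hEnonneg (Pb j)
        linarith
      · rw [not_le] at hj
        have hj' : j = Fin.castLE hgd ⟨j.val, hj⟩ := Fin.ext rfl
        have h1 := hordlow ⟨j.val, hj⟩
        have h2 := hEone ⟨j.val, hj⟩
        rw [← hj'] at h1 h2
        linarith
    · rw [not_exists] at hQ
      -- no zero of `φ` over `Q`
      have hnz : ∀ P : Place K F, C.r P = Q → P.ord (φ : F) ≤ 0 := by
        intro P hP
        by_contra hpos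
        rw [not_le] at hpos
        obtain ⟨j, hj⟩ := hzero P hpos
        exact hQ j (hP.symm.trans hj)
      have h1 : Finsupp.mapDomain C.r (DD + (g : ℤ) • divOf HL hφ0) Q = 0 := by
        apply mapDomain_eq_zero_at
        intro P hP
        rw [Finsupp.add_apply, Finsupp.smul_apply, hDD, divOf_apply, abs_of_nonpos (hnz P hP),
          smul_eq_mul]
        ring
      rw [Finsupp.mapDomain_add, Finsupp.mapDomain_smul, Finsupp.add_apply, Finsupp.smul_apply,
        C.push φ hφ (divOf HL hφ0) (fun P => divOf_apply HL hφ0 P) Q, smul_eq_mul] at h1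
      have h2 : ρw ∈ riemannRochSpace (Finsupp.mapDomain C.r DD) :=
        R.ρ_mem_L HL (y := ⟨ιV v, hιO v⟩) hρw (hιL v)
      have h3 := (mem_L_iff hρw).1 h2 Q
      have := hEnonneg Q
      linarith
  obtain ⟨c₁, hc₁⟩ := hNS fb hfb0 hfbL
  obtain ⟨c, rfl⟩ := IsLocalRing.residue_surjective c₁
  refine ⟨residue A c, ?_⟩
  -- `w - c φ^g` has zero reduction
  have hρv' : C.ρ ⟨ιV (v - c • c₀), hιO (v - c • c₀)⟩ = 0 := by
    have : (⟨ιV (v - c • c₀), hιO (v - c • c₀)⟩ : C.O) =
        ⟨ιV v, hιO v⟩ - C.toRedCtx.const c * φ ^ g := by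
      apply Subtype.ext
      show ιV (v - c • c₀) = ιV v - algebraMap K F (c : K) * (φ : F) ^ g
      rw [map_sub, hιsmul, hιc₀]
    rw [this, map_sub, map_mul, map_pow, hρc, ← hρwdef]
    have h4 : ρw = fb * C.ρ φ ^ g := by
      rw [hfb, div_mul_cancel₀ _ (pow_ne_zero g hφ)]
    rw [h4, ← hc₁]
    simp
  have h5 := hstar _ hρv'
  rw [TensorProduct.tmul_sub, sub_eq_zero] at h5
  rw [h5, TensorProduct.tmul_smul, TensorProduct.smul_tmul', TensorProduct.smul_tmul',
    Algebra.smul_def, mul_one, smul_eq_mul, mul_one]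
  rfl

end Fermat.Agent.FF.CoreLat2
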