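/-
Programme FF (S19), chapter G3 (helper2): **concrete instantiation of `CoreLat2.exists_coreData`**
for `F = Fbar M` over `A` (a valuation subring of `ℚ̄` over `ℓ ∤ M`) at a level `M` with Hauptmodul
datum `(n, e)`, for ANY place reduction `r` with `IsPlaceReductionModL A M r`, with
`g = genusFF ℚ̄ (Fbar M)`.

Inputs left to the caller (chapter G2): the parameter `φ`, the simple zeros `Pb` of its reduction,
`hPb hnp hφ hinj hzero` and the non-speciality `hNS`.
-/
import Mathlib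
import Fermat.Agent.FF.CoreLat2D
import Fermat.Agent.FF.GaussOv1D
import Fermat.Agent.FF.SpecialRR6G
import Fermat.Agent.X0.HasCanDivInst
import Fermat.Agent.RR.RRMain

set_option autoImplicit false
set_option linter.unusedSectionVars false
set_option synthInstance.maxHeartbeats 400000

noncomputable section

namespace Fermat.Agent.FF.CoreInst2

open HahnSeries ModularCurve AlgebraicCurve IsLocalRing IntermediateField
open Fermat.Agent.RED.Interface4 Fermat.Agent.RED.BASE Fermat.Agent.ES.RED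
open Fermat.Agent.FF.UniqueZeroA Fermat.Agent.FF.DiscOfRedA Fermat.Agent.RR.LSpace
open Fermat.Agent.FF.CoreIface8 Fermat.Agent.FF.GeomIface8

/-- Riemann–Roch in large degree on `Fbar M`, with the genus `genusFF`. -/
theorem finrank_L_of_degree_gt (M : ℕ) [NeZero M] (D : Divisor Qbar ↥(Fbar M))
    (hD : 2 * (genusFF Qbar ↥(Fbar M) : ℤ) - 2 < Divisor.degree D) :
    (Module.finrank Qbar (riemannRochSpace D) : ℤ) =
      Divisor.degree D + 1 - genusFF Qbar ↥(Fbar M) := by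
  haveI : HasCanonicalDivisor (K := Qbar) (F := ↥(Fbar M)) :=
    Fermat.Agent.X0.HasCanDivInst.hasCanonicalDivisor M
  have hx := Fermat.Agent.X0.HasCanDivInst.isGen M
  have hg := Fermat.Agent.RR.RRMain.genus_eq_genusFF hx
  rw [← hg] at hD ⊢
  exact Fermat.Agent.RR.RRMain.finrank_L_of_degree_gt hx D hD

variable (n e M : ℕ) [NeZero n] [NeZero M] (ℓ : ℕ) [Fact ℓ.Prime] (hℓM : ¬ ℓ ∣ M)
  (hmem : Interface12.TMem n e M) (hgen : Interface12.TGenBase n e)
  (A : ValuationSubring Qbar) (hA : A.LiesOverPrime ℓ)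
  (r : Place Qbar ↥(Fbar M) → Place (Setup8.kA A) ↥(modularFunctionFieldFullC (Setup8.kA A) M))
  (hr : IsPlaceReductionModL A M r)

include n e hmem hgen in
/-- **G3, concrete**: `CoreData`, `LatticeModel` and `ClosedFibre` for the disc model of
`GaussOv1.redCtxV` at a Hauptmodul level. -/
theorem exists_coreData_concrete {d : ℕ}
    (φ : (GaussOv1.redCtxV A M ℓ hA hℓM r hr).O)
    (Pb : Fin d → Place (Setup8.kA A) ↥(modularFunctionFieldFullC (Setup8.kA A) M))
    (hPb : ∀ j, (Pb j).ord ((GaussOv1.redCtxV A M ℓ hA hℓM r hr).ρ φ) = 1)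
    (hnp : ∀ j P, (GaussOv1.redCtxV A M ℓ hA hℓM r hr).r P = Pb j →
      0 ≤ P.ord (φ : ↥(Fbar M)))
    (hgd : genusFF Qbar ↥(Fbar M) ≤ d)
    (hφ : (GaussOv1.redCtxV A M ℓ hA hℓM r hr).ρ φ ≠ 0)
    (hinj : Function.Injective Pb)
    (hzero : ∀ P : Place Qbar ↥(Fbar M), 0 < P.ord (φ : ↥(Fbar M)) →
      ∃ j, (GaussOv1.redCtxV A M ℓ hA hℓM r hr).r P = Pb j)
    (hNS : ThetaKer5.NonSpecial
      ((GaussOv1.redCtxV A M ℓ hA hℓM r hr).discModel φ Pb hPb hnp
        (genusFF Qbar ↥(Fbar M)) hgd hφ) (GaussOv1.redCtxV A M ℓ hA hℓM r hr).r) :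
    ∃ (n' : ℕ) (D : CoreData A (Fin n' → A) (genusFF Qbar ↥(Fbar M)) d)
      (_ : LatticeModel ((GaussOv1.redCtxV A M ℓ hA hℓM r hr).discModel φ Pb hPb hnp
        (genusFF Qbar ↥(Fbar M)) hgd hφ) D),
      ClosedFibre D (IsLocalRing.ResidueField A) := by
  exact CoreLat2.exists_coreData (GaussOv1.redCtxV A M ℓ hA hℓM r hr) φ Pb hPb hnp
    (fun a => GaussOv1.ρ_const A M ℓ hA hℓM a)
    (GaussOv1.absRed A M ℓ hA hℓM r hr).ρ_ker
    (Fermat.Agent.FF.SpecialRR6.lHyp_bar n e M hmem)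
    (Fermat.Agent.FF.SpecialRR6.lHyp_special n e M ℓ hℓM hmem hgen A hA r hr)
    (GaussOv1.hasManyPlaces A M ℓ hA hℓM n e hmem hgen r hr)
    (genusFF Qbar ↥(Fbar M)) hgd hφ hinj hzero (finrank_L_of_degree_gt M) hNS

end Fermat.Agent.FF.CoreInst2
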