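/-
Programme FF (S19), concrete reduction homomorphism (helper5): for the concrete two-chart model
`T : TwoCharts A hx F̃_M` at a level `M` with a Hauptmodul base (`ModelAtFinal8.modelAt`), with
`r := T.r`, `hr := SPFinal21.hr_main`, `hg := SPFinal21.hgen_main` and
`red := reductionPic0Along T.r hr hg : JZero M →+ JZeroC κ_A M`:

* `red_mk_eq_zero_iff` (any `r`) : `red [D] = 0 ↔ r_* D` is principal           (`hred`);
* `red_smul_iner` : `red (σ • z) = red z` for `σ` in the inertia group of `A`    (`hredΓ`);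
* `r_gam_smul` : `T.r (arithmeticGalois σ • P) = T.r P` for `σ` in inertia       (`hγr`);
* `exists_red_package` : everything at once from `ModelAtFinal8.modelAt`, in the shapes of
  `ThetaGlue8.thetaInput` / `EmbTors5.thetaInputTors`: `∃ r hr red, hγr ∧ hred ∧ hredΓ`;
* `exists_base_auxLevel`, `exists_red_package_aux` : the same at the level `auxLevel ℓ p`.
-/
import Mathlib
import Fermat.Agent.ES.TOP.SPFinal21
import Fermat.Agent.ES.TOP.ModelAtFinal8
import Fermat.Agent.ES.TOP.SPAux8
import Fermat.Agent.FF.EmbTors5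

set_option autoImplicit false
set_option synthInstance.maxHeartbeats 400000

noncomputable section

open AlgebraicCurve ModularCurve IntermediateField

namespace Fermat.Agent.FF.RedConcrete5

open Fermat.Agent.ES.RED.Contract8 Fermat.Agent.ES.RED.TwoCharts8 Fermat.Agent.ES.RED.GaloisInst21
open Fermat.Agent.X0 Fermat.Agent.X0.FF Fermat.Agent.RED.Interface4 Fermat.Agent.RED.BASE
open Fermat.Agent.ES.RED Fermat.Agent.ES.KRON Fermat.Agent.ES.TOP
open Fermat.Agent.FF.InertiaWire8 Fermat.Agent.FF.EmbTors5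

local notation "Qb'" => AlgebraicClosure ℚ

section Abstract

variable {L : Type*} [Field L] [Algebra ℚ L] {A : ValuationSubring L}
variable {k : Type*} [Field k] {π : A →+* k} {N : ℕ}
variable (r : Place L (laurentBaseChange L (modularFunctionFieldFull N)) →
  Place k (modularFunctionFieldFullC k N))

/-- **(hred)** the kernel of `reductionPic0Along` on classes of divisors. -/
theorem red_mk_eq_zero_iff (hr : IsPlaceReductionAlong A π N r)
    (hg : PrincipalGeneratedByIntegral A π N)
    (D : Divisor.degZero (K := L) (F := laurentBaseChange L (modularFunctionFieldFull N))) :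
    reductionPic0Along r hr hg (Pic0.mk D) = 0 ↔
      Finsupp.mapDomain r (D : Divisor L (laurentBaseChange L (modularFunctionFieldFull N))) ∈
        Divisor.principal (K := k) (F := modularFunctionFieldFullC k N) := by
  rw [reductionPic0Along_mk]
  unfold Pic0.mk
  rw [QuotientAddGroup.eq_zero_iff, AddSubgroup.mem_addSubgroupOf, coe_reductionDegZeroAlong]

end Abstract

section Concrete

variable {M : ℕ} [NeZero M] (n e : ℕ) [NeZero n]
  {ℓ : ℕ} (hℓ : ℓ.Prime) (hℓM : ¬ ℓ ∣ M)
  (hmem : Interface12.TMem n e M) (hgen : Interface12.TGenBase n e)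
  (A : ValuationSubring Qb') (hA : A.LiesOverPrime ℓ)
  {x : X0.FF M} {hx : IsGen Qb' x}
  (T : TwoCharts A hx ↥(modularFunctionFieldFullC (kA A) M))
  (hS0 : CoeffChart (F₀ := modularFunctionFieldFull M) T.S0)
  (hS1 : CoeffChart (F₀ := modularFunctionFieldFull M) T.S1)
  (hs0 : T.S0.s = Interface12.tF M hmem)
  (peel0 : ∀ (P : Place Qb' (X0.FF M)) (hP : T.S0.InChart P), T.S0.PeelA P hP)
  (peel1 : ∀ (P : Place Qb' (X0.FF M)) (hP : T.S1.InChart P), T.S1.PeelA P hP)

include hℓ hℓM hgen hA hS0 hS1 hs0 peel0 peel1 in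
/-- **(hγr)** inertia acts trivially on the reduction of places. -/
theorem r_gam_smul (σ : Iner A) (P : Place Qb' ↥(modularFunctionFieldBar M)) :
    T.r (gam M A σ • P) = T.r P := by
  have : Fact ℓ.Prime := ⟨hℓ⟩
  have : IsAlgClosed (kA A) := KronInst10.isAlgClosed_residueField A
  have hin := RedInst15.chartInputs_both n e M ℓ hℓM hmem hgen A hA T hS0 hS1 hs0 peel0 peel1
  exact r_smul_of_mem_inertia' T hin.1.gent hS0 hS1 σ.2 P

include hℓ hℓM hgen hA hS0 hS1 hs0 peel0 peel1 in
/-- **(hredΓ)** the reduction of classes is invariant under inertia. -/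
theorem red_smul_iner (hr : IsPlaceReductionModL A M T.r)
    (hg : PrincipalGeneratedByIntegral A (IsLocalRing.residue A) M)
    (σ : Iner A) (z : Pic0 Qb' ↥(modularFunctionFieldBar M)) :
    reductionPic0Along T.r hr hg (σ • z) = reductionPic0Along T.r hr hg z := by
  have : Fact ℓ.Prime := ⟨hℓ⟩
  have : IsAlgClosed (kA A) := KronInst10.isAlgClosed_residueField A
  have hin := RedInst15.chartInputs_both n e M ℓ hℓM hmem hgen A hA T hS0 hS1 hs0 peel0 peel1
  exact red_smul_of_mem_inertia' T hin.1.gent hS0 hS1 hr hg σ.2 z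

end Concrete

section Package

open Fermat.Agent.RED.BASE.Hauptmodul12 Fermat.Agent.RED.BASE.MainCusp12

/-- **the concrete reduction package at a level `M` with a Hauptmodul base**: a reduction of places
`r` with `IsPlaceReductionModL A M r`, invariant under inertia, and the reduction homomorphism
`red` with `hred`, `hredΓ`, in the shapes of `EmbTors5.thetaInputTors`. -/
theorem exists_red_package {ℓ : ℕ} (hℓ : ℓ.Prime) (A : ValuationSubring Qb')
    (hA : A.LiesOverPrime ℓ) (n e : ℕ) [NeZero n] (hb : BaseHyp n e) (M : ℕ) [NeZero M]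
    (hnM : n ∣ M) (hℓM : ¬ ℓ ∣ M) :
    ∃ (r : Place Qb' ↥(modularFunctionFieldBar M) →
        Place (IsLocalRing.ResidueField A)
          (modularFunctionFieldFullC (IsLocalRing.ResidueField A) M))
      (_ : IsPlaceReductionModL A M r)
      (red : Pic0 Qb' ↥(modularFunctionFieldBar M) →+ JZeroC (IsLocalRing.ResidueField A) M),
      (∀ (σ : Iner A) (P : Place Qb' ↥(modularFunctionFieldBar M)), r (gam M A σ • P) = r P) ∧
      (∀ D : Divisor.degZero (K := Qb') (F := ↥(modularFunctionFieldBar M)),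
        red (Pic0.mk D) = 0 ↔
          Finsupp.mapDomain r (D : Divisor Qb' ↥(modularFunctionFieldBar M)) ∈
            Divisor.principal (K := IsLocalRing.ResidueField A)
              (F := modularFunctionFieldFullC (IsLocalRing.ResidueField A) M)) ∧
      (∀ (σ : Iner A) (z : Pic0 Qb' ↥(modularFunctionFieldBar M)), red (σ • z) = red z) := by
  obtain ⟨x, hx, T, hS0, hS1, hs0, peel0, peel1⟩ :=
    ModelAtFinal8.modelAt ℓ hℓ A hA n e hb M hnM hℓM
  have hr := SPFinal21.hr_main n e hℓ hℓM (tMem_of_dvd hb hnM) (tGenBase' hb) A hA T hS0 hS1 hs0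
    peel0 peel1
  have hg := SPFinal21.hgen_main hℓ hℓM A hA
  refine ⟨T.r, hr, reductionPic0Along T.r hr hg, ?_, ?_, ?_⟩
  · exact r_gam_smul n e hℓ hℓM (tMem_of_dvd hb hnM) (tGenBase' hb) A hA T hS0 hS1 hs0 peel0 peel1
  · exact red_mk_eq_zero_iff T.r hr hg
  · exact red_smul_iner n e hℓ hℓM (tMem_of_dvd hb hnM) (tGenBase' hb) A hA T hS0 hS1 hs0 peel0
      peel1 hr hg

open Fermat.Agent.RED.LVL in
/-- the auxiliary level carries a Hauptmodul base (`(9,3)` for `ℓ = 2`, `(4,8)` otherwise). -/
theorem exists_base_auxLevel (ℓ p : ℕ) :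
    ∃ (n e : ℕ) (_ : NeZero n) (_ : BaseHyp n e), n ∣ auxLevel ℓ p := by
  by_cases h2 : ℓ = 2
  · exact ⟨9, 3, ⟨by norm_num⟩, baseHyp_nine, AuxBase8.nine_dvd_auxLevel p h2⟩
  · exact ⟨4, 8, ⟨by norm_num⟩, baseHyp_four, AuxBase8.four_dvd_auxLevel p h2⟩

open Fermat.Agent.RED.LVL in
/-- **the concrete reduction package at the auxiliary level `auxLevel ℓ p`.** -/
theorem exists_red_package_aux (ℓ p : ℕ) [NeZero p] (hℓ : ℓ.Prime) (hℓp : ¬ ℓ ∣ p)
    (A : ValuationSubring Qb') (hA : A.LiesOverPrime ℓ) :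
    ∃ (r : Place Qb' ↥(modularFunctionFieldBar (auxLevel ℓ p)) →
        Place (IsLocalRing.ResidueField A)
          (modularFunctionFieldFullC (IsLocalRing.ResidueField A) (auxLevel ℓ p)))
      (_ : IsPlaceReductionModL A (auxLevel ℓ p) r)
      (red : Pic0 Qb' ↥(modularFunctionFieldBar (auxLevel ℓ p)) →+
        JZeroC (IsLocalRing.ResidueField A) (auxLevel ℓ p)),
      (∀ (σ : Iner A) (P : Place Qb' ↥(modularFunctionFieldBar (auxLevel ℓ p))),
        r (gam (auxLevel ℓ p) A σ • P) = r P) ∧
      (∀ D : Divisor.degZero (K := Qb') (F := ↥(modularFunctionFieldBar (auxLevel ℓ p))),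
        red (Pic0.mk D) = 0 ↔
          Finsupp.mapDomain r (D : Divisor Qb' ↥(modularFunctionFieldBar (auxLevel ℓ p))) ∈
            Divisor.principal (K := IsLocalRing.ResidueField A)
              (F := modularFunctionFieldFullC (IsLocalRing.ResidueField A) (auxLevel ℓ p))) ∧
      (∀ (σ : Iner A) (z : Pic0 Qb' ↥(modularFunctionFieldBar (auxLevel ℓ p))),
        red (σ • z) = red z) := by
  have := LevelDegree17.neZero_auxLevel ℓ p
  obtain ⟨n, e, hn, hb, hnM⟩ := exists_base_auxLevel ℓ p
  exact exists_red_package hℓ A hA n e hb (auxLevel ℓ p) hnM (not_dvd_auxLevel hℓ hℓp)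

end Package

end Fermat.Agent.FF.RedConcrete5
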