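/-
Programme FF (S19), integration (helper8): the EXACT SHAPES of the remaining concrete inputs of
`ConcreteA8.thetaInput_of_chapters`, as `Prop`-valued definitions, at a level `M` (`ℓ ∤ M`) and for a
place reduction `r`:

* `ChooseShape` (N2, chapter G2: helper3 `ChooseData3`, instantiated by helper1 `ChooseInst1`);
* `CoreShape`  (N3, chapter G3b: helper2 `CoreLat2.exists_coreData`, instantiated in `CoreInst2`);
* `InertiaInv` (G0(c)): `r` is invariant under the inertia group of `A`.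
-/
import Mathlib
import Fermat.Agent.FF.GaussOv1C
import Fermat.Agent.FF.SpecRR1B
import Fermat.Agent.FF.CoreIface8
import Fermat.Agent.FF.GeomIface8

set_option autoImplicit false
set_option synthInstance.maxHeartbeats 400000

open AlgebraicCurve ModularCurve IsLocalRing

namespace Fermat.Agent.FF.Shapes8

open Fermat.Agent.FF.CoreIface8 Fermat.Agent.FF.GeomIface8 Fermat.Agent.FF.SpecRR1
  Fermat.Agent.FF.DiscOfRedA Fermat.Agent.RED.Interface4 Fermat.Agent.FF.GaussOv1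
  Fermat.Agent.ES.RED

variable (A : ValuationSubring Qbar) (M : ℕ) [NeZero M] (ℓ : ℕ) [Fact ℓ.Prime]
  (hA : A.LiesOverPrime ℓ) (hℓM : ¬ ℓ ∣ M)

/-- the places of the special fibre. -/
abbrev PlB : Type := Place (Setup8.kA A) ↥(modularFunctionFieldFullC (Setup8.kA A) M)

/-- the places of the generic fibre. -/
abbrev PlF : Type := Place Qbar ↥(Fbar M)

variable (r : PlF M → PlB A M)

/-- the action of `τ ∈ G_ℚ` on `Fbar M`, as a semilinear automorphism. -/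
noncomputable abbrev gal (τ : Qbar ≃ₐ[ℚ] Qbar) : SemilinearAut Qbar ↥(Fbar M) :=
  arithmeticGalois (modularFunctionFieldFull M) τ

/-- (G0(c)) `r` is invariant under inertia. -/
def InertiaInv : Prop :=
  ∀ τ ∈ A.inertiaSubgroupIn ℚ, ∀ P : PlF M, r (gal M τ • P) = r P

/-- **(N2)** the output of chapter G2 (choice of `φ`, of the disc centres and of the bad set). -/
def ChooseShape (g : ℕ) : Prop :=
  ∃ (m : ℕ) (φ : Ov A M ℓ hA hℓM)
    (Pb : Fin (g + m) → PlB A M),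
    Function.Injective Pb ∧
    (∀ j, (Pb j).ord (ρ A M ℓ hA hℓM φ) = 1) ∧
    (∀ (j : Fin (g + m)) (P : PlF M), r P = Pb j → 0 ≤ P.ord (φ : ↥(Fbar M))) ∧
    ρ A M ℓ hA hℓM φ ≠ 0 ∧
    ell (∑ j : Fin g, Finsupp.single (Pb (Fin.castLE (Nat.le_add_right g m) j)) (1 : ℤ)) ≤ 1 ∧
    (∀ τ ∈ A.inertiaSubgroupIn ℚ, gal M τ • (φ : ↥(Fbar M)) = (φ : ↥(Fbar M))) ∧
    (∀ P : PlF M, 0 < P.ord (φ : ↥(Fbar M)) → ∃ j, r P = Pb j) ∧
    ∃ (Sbad : Finset (PlB A M)) (P₁ : PlB A M),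
      P₁ ∉ Sbad ∧ ∀ Qb, Qb ∉ Sbad → ∃ Q : PlF M, r Q = Qb ∧
        ∀ τ ∈ A.inertiaSubgroupIn ℚ, gal M τ • Q = Q

variable (hr : IsPlaceReductionModL A M r)

/-- **(N3)** the output of chapter G3b for given `φ`, `Pb`. -/
def CoreShape {d : ℕ} (φ : Ov A M ℓ hA hℓM)
    (Pb : Fin d → PlB A M)
    (hPb : ∀ j, (Pb j).ord (ρ A M ℓ hA hℓM φ) = 1)
    (hnp : ∀ (j : Fin d) (P : PlF M), r P = Pb j → 0 ≤ P.ord (φ : ↥(Fbar M)))
    (g : ℕ) (hgd : g ≤ d) (hφ : ρ A M ℓ hA hℓM φ ≠ 0) : Prop :=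
  ∃ (nV : ℕ) (D : CoreData A (Fin nV → A) g d),
    ClosedFibre D (IsLocalRing.ResidueField A) ∧
    Nonempty (LatticeModel ((redCtxV A M ℓ hA hℓM r hr).discModel φ Pb hPb hnp g hgd hφ) D)

end Fermat.Agent.FF.Shapes8
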