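/-
Programme FF (S19), integration (helper8): the package of `ConcreteA8.thetaInput_of_chapters` at a
level `M` with a Hauptmodul base, from
* (N1) one divisor `D₀` on the special fibre with `δ_g(D₀) = 0`, `g = genus` of the generic fibre
  (helper6 `SpecialRR6L`),
* (N2) `Shapes8.ChooseShape` (helper3 `ChooseData3` / helper1 `ChooseInst1`),
everything else being discharged here: the reduction package (helper5 `RedConcrete5`), Riemann's
inequality on both fibres (`ConcreteR8`), the core data (helper2 `CoreInst2`).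
-/
import Mathlib
import Fermat.Agent.FF.ConcreteA8
import Fermat.Agent.FF.ConcreteR8
import Fermat.Agent.FF.Shapes8
import Fermat.Agent.FF.CoreInst2
import Fermat.Agent.FF.RedConcrete5

set_option autoImplicit false
set_option synthInstance.maxHeartbeats 400000

open AlgebraicCurve ModularCurve IsLocalRing

namespace Fermat.Agent.FF.ConcreteB8

open Fermat.Agent.FF.CoreIface8 Fermat.Agent.FF.GeomIface8 Fermat.Agent.FF.Assembly8
  Fermat.Agent.FF.InertiaWire8 Fermat.Agent.FF.S19Wire1 Fermat.Agent.FF.SpecRR1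
  Fermat.Agent.FF.DiscOfRedA Fermat.Agent.FF.UniqueZeroA Fermat.Agent.RR.LSpace
  Fermat.Agent.RED.Interface4 Fermat.Agent.FF.GaussOv1 Fermat.Agent.ES.RED
  Fermat.Agent.FF.Shapes8 Fermat.Agent.FF.ConcreteR8

variable (n e M : ℕ) [NeZero n] [NeZero M] (ℓ : ℕ) [Fact ℓ.Prime] (hℓM : ¬ ℓ ∣ M)
  (hmem : Fermat.Agent.RED.BASE.Interface12.TMem n e M)
  (hgen : Fermat.Agent.RED.BASE.Interface12.TGenBase n e)
  (A : ValuationSubring Qbar) (hA : A.LiesOverPrime ℓ)

include hmem in
theorem genus_eq : genus Qbar ↥(Fbar M) = genusFF Qbar ↥(Fbar M) :=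
  Fermat.Agent.RR.RRMain.genus_eq_genusFF (Fermat.Agent.ES.RED.SpecialInv25.isGen_tF n e M hmem)

include hmem in
/-- Riemann's inequality on the generic fibre, with `genusFF`. -/
theorem hR_FF (D : Divisor Qbar ↥(Fbar M)) :
    Divisor.degree D + 1 - (genusFF Qbar ↥(Fbar M) : ℤ) ≤ ell D := by
  rw [← genus_eq n e M hmem]
  exact hR_level n e M hmem D

include hℓM hmem hgen hA in
/-- Riemann's inequality on the special fibre, with `genusFF` of the generic fibre. -/
theorem hRb_FF (r : PlF M → PlB A M) (hr : IsPlaceReductionModL A M r)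
    (Db : Divisor (Setup8.kA A) ↥(modularFunctionFieldFullC (Setup8.kA A) M)) :
    Divisor.degree Db + 1 - (genusFF Qbar ↥(Fbar M) : ℤ) ≤ ell Db := by
  rw [← genus_eq n e M hmem]
  exact hRb_level n e M ℓ hℓM hmem hgen A hA r hr Db

set_option maxHeartbeats 1600000 in
include hℓM hmem hgen hA in
/-- **the package at a level with a Hauptmodul base**, for a place reduction `r` invariant under
inertia with its reduction homomorphism `red`. -/
theorem package_of_level (k : ℕ) (r : PlF M → PlB A M) (hr : IsPlaceReductionModL A M r)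
    (hrI : InertiaInv A M r)
    {Jb : Type*} [AddCommGroup Jb] (red : JZero M →+ Jb)
    (hred : ∀ D : Divisor.degZero (K := Qbar) (F := ↥(Fbar M)),
      red (Pic0.mk D) = 0 ↔ Finsupp.mapDomain r (D : Divisor Qbar ↥(Fbar M)) ∈
        Divisor.principal (K := Setup8.kA A)
          (F := ↥(modularFunctionFieldFullC (Setup8.kA A) M)))
    (hredI : ∀ τ ∈ A.inertiaSubgroupIn ℚ, ∀ z : JZero M, red (τ • z) = red z)
    (hN1 : ∃ D₀ : Divisor (Setup8.kA A) ↥(modularFunctionFieldFullC (Setup8.kA A) M),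
      delta (genus Qbar ↥(Fbar M) : ℤ) D₀ = 0)
    (hN2 : ChooseShape A M ℓ hA hℓM r (genusFF Qbar ↥(Fbar M))) :
    ∃ (d : ℕ) (Mod : DiscModel A ↥(Fbar M) (genusFF Qbar ↥(Fbar M)) d)
      (nV : ℕ) (D : CoreData A (Fin nV → A) (genusFF Qbar ↥(Fbar M)) d)
      (HL : LHyp Qbar ↥(Fbar M)),
      Nonempty (ThetaInput Mod (fun _ _ => HL.deg_eq_one _) (Iner A) (Tors M ℓ k) Jb) ∧
      ClosedFibre D (IsLocalRing.ResidueField A) ∧
      Nonempty (LatticeModel Mod D) ∧
      ∀ (j j' : Fin d) (t t' : A), t ∈ maximalIdeal A → t' ∈ maximalIdeal A →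
        Mod.P j t = Mod.P j' t' → j = j' := by
  obtain ⟨D₀, h0⟩ := hN1
  rw [genus_eq n e M hmem] at h0
  obtain ⟨m, φ, Pb, hinj, hPb, hnp, hφ, hell, hφI, hzero, Sbad, P₁, hP₁, hlift⟩ := hN2
  have HLb : LHyp (Setup8.kA A) ↥(modularFunctionFieldFullC (Setup8.kA A) M) :=
    Fermat.Agent.FF.SpecialRR6.lHyp_special n e M ℓ hℓM hmem hgen A hA r hr
  have hNS := ThetaBridge5.nonSpecial_of_red (redCtxV A M ℓ hA hℓM r hr) φ Pb hPb hnp
    (genusFF Qbar ↥(Fbar M)) (Nat.le_add_right _ m) hφ HLb hell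
  obtain ⟨nV, D, L, hcf⟩ := CoreInst2.exists_coreData_concrete n e M ℓ hℓM hmem hgen A hA r hr
    φ Pb hPb hnp (Nat.le_add_right _ m) hφ hinj hzero hNS
  obtain ⟨nV', D', HL, hI, hcf', hL', hdisj⟩ :=
    ConcreteA8.thetaInput_of_chapters M ℓ k A hA hℓM n e hmem hgen r hr hrI red hred hredI
      (genusFF Qbar ↥(Fbar M)) (hR_FF n e M hmem) (hRb_FF n e M ℓ hℓM hmem hgen A hA r hr) h0
      φ Pb hPb hnp (Nat.le_add_right _ m) hφ hinj hell hφI Sbad P₁ hP₁ hlift ⟨nV, D, hcf, ⟨L⟩⟩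
  exact ⟨_, _, nV', D', HL, hI, hcf', hL', hdisj⟩

end Fermat.Agent.FF.ConcreteB8
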