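/-
Programme FF (S19), integration (helper8): **S19 from (N1) and (N2) at the auxiliary level.**

`M = auxLevel ℓ p` carries a Hauptmodul base `(n, e)` (`RedConcrete5.exists_base_auxLevel`); the
concrete reduction package (`RedConcrete5.exists_red_package`: `r`, `red`, invariance under inertia)
and `ConcreteB8.package_of_level` give the package of `ConcreteA8.s19_of_package`.
-/
import Mathlib
import Fermat.Agent.FF.ConcreteB8

set_option autoImplicit false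
set_option synthInstance.maxHeartbeats 400000

open AlgebraicCurve ModularCurve IsLocalRing

namespace Fermat.Agent.FF.ConcreteC8

open Fermat.Agent.FF.SpecRR1 Fermat.Agent.RED.Interface4 Fermat.Agent.FF.GaussOv1
  Fermat.Agent.ES.RED Fermat.Agent.FF.Shapes8 Fermat.Agent.RED.BASE
  Fermat.Agent.FF.InertiaWire8 Fermat.Agent.RED.BASE.Hauptmodul12

set_option maxHeartbeats 1600000 in
/-- **S19 from (N1) and (N2).** -/
theorem s19_of_N1_N2 (p : ℕ) [NeZero p] (ℓ : ℕ) [Fact ℓ.Prime] (hℓp : ¬ ℓ ∣ p) (k : ℕ)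
    (hN1 : ∀ (A : ValuationSubring Qbar) (_ : A.LiesOverPrime ℓ) (n e M : ℕ) [NeZero n] [NeZero M]
      (_ : BaseHyp n e) (_ : n ∣ M) (_ : ¬ ℓ ∣ M) (r : PlF M → PlB A M)
      (_ : IsPlaceReductionModL A M r),
      ∃ D₀ : Divisor (Setup8.kA A) ↥(modularFunctionFieldFullC (Setup8.kA A) M),
        delta (genus Qbar ↥(Fbar M) : ℤ) D₀ = 0)
    (hN2 : ∀ (A : ValuationSubring Qbar) (hA : A.LiesOverPrime ℓ) (n e M : ℕ) [NeZero n] [NeZero M]
      (_ : BaseHyp n e) (_ : n ∣ M) (hℓM : ¬ ℓ ∣ M) (r : PlF M → PlB A M)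
      (_ : IsPlaceReductionModL A M r) (_ : InertiaInv A M r)
      (D₀ : Divisor (Setup8.kA A) ↥(modularFunctionFieldFullC (Setup8.kA A) M))
      (_ : delta (genusFF Qbar ↥(Fbar M) : ℤ) D₀ = 0),
      ChooseShape A M ℓ hA hℓM r (genusFF Qbar ↥(Fbar M))) :
    ∃ (H : Type) (_ : CommRing H) (_ : HopfAlgebra (GaloisRep.ratLocalizedAt ℓ) H),
      Module.Finite (GaloisRep.ratLocalizedAt ℓ) H ∧ Module.Flat (GaloisRep.ratLocalizedAt ℓ) H ∧
      Coalgebra.IsCocomm (GaloisRep.ratLocalizedAt ℓ) H ∧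
      ∃ e : WithConv (H →ₐ[GaloisRep.ratLocalizedAt ℓ] AlgebraicClosure ℚ) ≃
          ↥(Submodule.torsionBy ℤ (JZero p) ((ℓ : ℤ) ^ k)),
        (∀ f g, e (f * g) = e f + e g) ∧
        ∀ (σ : AlgebraicClosure ℚ ≃ₐ[ℚ] AlgebraicClosure ℚ)
          (f g : WithConv (H →ₐ[GaloisRep.ratLocalizedAt ℓ] AlgebraicClosure ℚ)),
          (∀ h : H, g h = σ (f h)) → ((e g : JZero p)) = σ • (e f : JZero p) := by
  have hℓ : ℓ.Prime := Fact.out
  have := Fermat.Agent.RED.LVL.LevelDegree17.neZero_auxLevel ℓ p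
  obtain ⟨A, hA⟩ := Fermat.Agent.Lib.FrobeniusExists.exists_valuationSubring_liesOverPrime ℓ hℓ
  obtain ⟨n, e, hn, hb, hnM⟩ := Fermat.Agent.FF.RedConcrete5.exists_base_auxLevel ℓ p
  have hℓM : ¬ ℓ ∣ auxLevel ℓ p := not_dvd_auxLevel hℓ hℓp
  obtain ⟨r, hr, red, hrI, hred, hredI⟩ :=
    Fermat.Agent.FF.RedConcrete5.exists_red_package hℓ A hA n e hb (auxLevel ℓ p) hnM hℓM
  have hrI' : InertiaInv A (auxLevel ℓ p) r := fun τ hτ P => hrI ⟨τ, hτ⟩ P
  have hmem := Fermat.Agent.RED.BASE.Hauptmodul12.tMem_of_dvd hb hnM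
  have hgen := Fermat.Agent.RED.BASE.Hauptmodul12.tGenBase' hb
  obtain ⟨D₀, h0⟩ := hN1 A hA n e (auxLevel ℓ p) hb hnM hℓM r hr
  have h0' : delta (genusFF Qbar ↥(Fbar (auxLevel ℓ p)) : ℤ) D₀ = 0 := by
    rw [← ConcreteB8.genus_eq n e (auxLevel ℓ p) hmem]
    exact h0
  have hch := hN2 A hA n e (auxLevel ℓ p) hb hnM hℓM r hr hrI' D₀ h0'
  obtain ⟨d, Mod, hpk⟩ := ConcreteB8.package_of_level n e (auxLevel ℓ p) ℓ hℓM hmem hgen A hA k r hr
    hrI' red hred (fun τ hτ z => hredI ⟨τ, hτ⟩ z) ⟨D₀, h0⟩ hch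
  exact ConcreteA8.s19_of_package p ℓ k A hA Mod hpk

end Fermat.Agent.FF.ConcreteC8
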