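/-
Programme FF, chapter GB (helper6): `L(m (x)_∞)` versus integrality over the two charts.

For a function field `F / K` (hypotheses `RR.LSpace.LHyp`, any characteristic), `x ≠ 0`:

* `mem_L_nsmul_poleDiv_of_isIntegral` : if `y` is integral over `R₀[x]` and `x⁻¹ ^ m * y` is integral
  over `R₀[x⁻¹]`, where `R₀ → F` is any ring all of whose elements are regular at every place
  (`R₀ = K`, or `R₀ = A` a subring of the constants), then `y ∈ L(m (x)_∞)`.
-/
import Mathlib
import Fermat.Agent.RR.Riemann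
import Fermat.Agent.X0.FFDedekind

set_option autoImplicit false
set_option linter.unusedSectionVars false

open AlgebraicCurve

namespace Fermat.Agent.FF.SpecialRR6

open Fermat.Agent.RR.LSpace Fermat.Agent.RR.Riemann Fermat.Agent.X0.FF

variable {K F : Type*} [Field K] [Field F] [Algebra K F]

/-- `R₀[x] ⊆ O_v` if `R₀ ⊆ O_v` and `x ∈ O_v`. -/
theorem adjoin_le_place {R₀ : Type*} [CommRing R₀] [Algebra R₀ F] (v : Place K F)
    (hR₀ : ∀ a : R₀, algebraMap R₀ F a ∈ v.toValuationSubring) {x : F}
    (hx : x ∈ v.toValuationSubring) (a : Algebra.adjoin R₀ {x}) :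
    algebraMap (Algebra.adjoin R₀ {x}) F a ∈ v.toValuationSubring := by
  obtain ⟨a, ha⟩ := a
  show a ∈ v.toValuationSubring
  induction ha using Algebra.adjoin_induction with
  | mem y hy => rw [Set.mem_singleton_iff.mp hy]; exact hx
  | algebraMap r => exact hR₀ r
  | add y z _ _ hy hz => exact v.toValuationSubring.add_mem _ _ hy hz
  | mul y z _ _ hy hz => exact v.toValuationSubring.mul_mem _ _ hy hz

/-- **Integrality on both charts gives membership in `L(m (x)_∞)`.** -/
theorem mem_L_nsmul_poleDiv_of_isIntegral (H : LHyp K F) {x y : F} (hx0 : x ≠ 0)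
    {R₀ : Type*} [CommRing R₀] [Algebra R₀ F]
    (hR₀ : ∀ (v : Place K F) (a : R₀), algebraMap R₀ F a ∈ v.toValuationSubring) (m : ℕ)
    (h0 : IsIntegral (Algebra.adjoin R₀ {x}) y)
    (h1 : IsIntegral (Algebra.adjoin R₀ {x⁻¹}) (x⁻¹ ^ m * y)) :
    y ∈ riemannRochSpace (m • poleDiv H hx0) := by
  by_cases hy0 : y = 0
  · rw [hy0]; exact Submodule.zero_mem _
  rw [mem_L_iff hy0]
  intro v
  rw [Finsupp.smul_apply, poleDiv_apply, nsmul_eq_mul]
  rcases le_or_gt 0 (v.ord x) with hx | hx
  · -- `x` regular at `v`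
    have hxv : x ∈ v.toValuationSubring := ffp_mem_of_ord_nonneg v hx
    have hyv : y ∈ v.toValuationSubring :=
      Fermat.Agent.X0.FFDedekind.mem_of_isIntegral_of_algebraMap_mem v
        (adjoin_le_place v (hR₀ v) hxv) h0
    have := ffp_ord_nonneg_of_mem v hyv
    rw [max_eq_left (by omega)]
    omega
  · -- `x` has a pole at `v`
    have hxv : x⁻¹ ∈ v.toValuationSubring := by
      apply ffp_mem_of_ord_nonneg
      rw [v.ord_inv]
      omega
    have hyv : x⁻¹ ^ m * y ∈ v.toValuationSubring :=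
      Fermat.Agent.X0.FFDedekind.mem_of_isIntegral_of_algebraMap_mem v
        (adjoin_le_place v (hR₀ v) hxv) h1
    have h2 := ffp_ord_nonneg_of_mem v hyv
    have h3 : v.ord (x⁻¹ ^ m) = -((m : ℤ) * v.ord x) := by
      have := v.ord_zpow x⁻¹ (m : ℤ)
      rw [zpow_natCast, v.ord_inv] at this
      rw [this]; ring
    rw [v.ord_mul (pow_ne_zero m (inv_ne_zero hx0)) hy0, h3] at h2
    rw [max_eq_right (by omega)]
    linarith

end Fermat.Agent.FF.SpecialRR6
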