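/-
Programme FF, chapter GB (helper6): `L(m (x)_∞)` versus integrality over the two charts, CONVERSE
direction, for a function field `F / K`, `K` algebraically closed of ANY characteristic, `x` a
separating transcendental generator (to be used on the special fibre).

* `isIntegral_of_forall_place` : `f` regular at every place where `x` is regular ⟹ `f` integral over
  `K[x]` (`intRing K x` is a Dedekind domain with fraction field `F`, `ES/RED/SumOrdSep15`);
* `isIntegral_of_mem_L` : `f ∈ L(m (x)_∞)` ⟹ `f` integral over `K[x]` and `x⁻¹ ^ m * f` integral over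
  `K[x⁻¹]`.
-/
import Mathlib
import Fermat.Agent.RR.Riemann
import Fermat.Agent.ES.RED.SumOrdSep15
import Fermat.Agent.ES.RED.SpecialFibre13

set_option autoImplicit false
set_option linter.unusedSectionVars false
set_option linter.style.haveILetI false

open AlgebraicCurve IntermediateField IsDedekindDomain

namespace Fermat.Agent.FF.SpecialRR6

open Fermat.Agent.RR.LSpace Fermat.Agent.RR.Riemann Fermat.Agent.X0 Fermat.Agent.X0.FF
  Fermat.Agent.X0.FFDedekind Fermat.Agent.ES.RED.SumOrdSep15 Fermat.Agent.ES.RED.SpecialFibre13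

variable {K F : Type*} [Field K] [Field F] [Algebra K F] [IsAlgClosed K] {x : F}

/-- **Regular on the chart ⟹ integral.** -/
theorem isIntegral_of_forall_place (hx : IsGen K x) [Algebra.IsSeparable K⟮x⟯ F] {f : F}
    (h : ∀ v : Place K F, x ∈ v.toValuationSubring → f ∈ v.toValuationSubring) :
    IsIntegral (Algebra.adjoin K {x}) f := by
  haveI := isDedekindDomain_intRing_sep hx
  haveI := isFractionRing_intRing hx
  have hval : ∀ w : HeightOneSpectrum (intRing K x), w.valuation F f ≤ 1 := by
    intro w
    have hxw : x ∈ (Place.ofHeightOneSpectrum (K := K) (F := F) w).toValuationSubring :=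
      algebraMap_mem_ofHeightOneSpectrum (K := K) (F := F) w (genB K x)
    exact h _ hxw
  obtain ⟨b, hb⟩ := HeightOneSpectrum.mem_integers_of_valuation_le_one F f hval
  rw [← hb]
  exact b.2

/-- **`L(m (x)_∞)` ⟹ integrality on both charts.** -/
theorem isIntegral_of_mem_L (H : LHyp K F) (hx : IsGen K x) [Algebra.IsSeparable K⟮x⟯ F]
    (hx0 : x ≠ 0) {m : ℕ} {f : F} (hf : f ∈ riemannRochSpace (m • poleDiv H hx0)) :
    IsIntegral (Algebra.adjoin K {x}) f ∧ IsIntegral (Algebra.adjoin K {x⁻¹}) (x⁻¹ ^ m * f) := by
  by_cases hf0 : f = 0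
  · subst hf0
    rw [mul_zero]
    exact ⟨isIntegral_zero, isIntegral_zero⟩
  have hL := (mem_L_iff hf0).mp hf
  have hLv : ∀ v : Place K F, -((m : ℤ) * max 0 (-(v.ord x))) ≤ v.ord f := by
    intro v
    have := hL v
    rwa [Finsupp.smul_apply, poleDiv_apply, nsmul_eq_mul] at this
  constructor
  · apply isIntegral_of_forall_place hx
    intro v hv
    apply ffp_mem_of_ord_nonneg
    have h1 := ffp_ord_nonneg_of_mem v hv
    have h2 := hLv v
    rw [max_eq_left (by omega)] at h2
    omega
  · haveI := isSeparable_inv (K := K) x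
    apply isIntegral_of_forall_place (isGen_inv hx)
    intro v hv
    apply ffp_mem_of_ord_nonneg
    have h1 := ffp_ord_nonneg_of_mem v hv
    rw [v.ord_inv] at h1
    have h2 := hLv v
    have h3 : v.ord (x⁻¹ ^ m) = -((m : ℤ) * v.ord x) := by
      have := v.ord_zpow x⁻¹ (m : ℤ)
      rw [zpow_natCast, v.ord_inv] at this
      rw [this]; ring
    rw [v.ord_mul (pow_ne_zero m (inv_ne_zero hx0)) hf0, h3]
    rw [max_eq_right (by omega)] at h2
    linarith

end Fermat.Agent.FF.SpecialRR6
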