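/-
Programme FF, chapter GB / G6c (helper6): **the two-chart package on the special fibre**, abstractly
for a function field `F / K`, `K` algebraically closed of ANY characteristic, `x` a separating
transcendental generator.

`chart K x` (`RED/PUR/ChartGeneric22`) is the integral closure of `K[x]` in `F` as a `K`-subalgebra.

* `Lb_eq_L` : `GoodRed8.Lb (chart K x) (chart K x⁻¹) x⁻¹ m = L(m (x)_∞)` (the dictionary P1);
* `exists_mem_L_of_isIntegral` : `chart K x = ⋃ₘ L(m (x)_∞)`;
* `exists_chart_gens` : finitely many module generators `e i` of `chart K x` over `K[x]`,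
  with `x⁻¹ ^ c * e i ∈ chart K x⁻¹` (inputs `he hc hgen` of `GoodRed8.h1_of_generators`);
* `exists_PT` : the pencil-trick property `GoodRed8.PT` for the two charts;
* `Lb_fg` : `Lb … m` is finitely generated over `K` (input `hfin` of `GoodRed8.lifting`).
-/
import Mathlib
import Fermat.Agent.FF.SpecialRR6D
import Fermat.Agent.FF.SpecialRR6E
import Fermat.Agent.FF.GoodRed8
import Fermat.Agent.RED.PUR.ChartGeneric22

set_option autoImplicit false
set_option linter.unusedSectionVars false
set_option linter.style.haveILetI false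

open AlgebraicCurve IntermediateField

namespace Fermat.Agent.FF.SpecialRR6

open Fermat.Agent.RR.LSpace Fermat.Agent.RR.Riemann Fermat.Agent.X0 Fermat.Agent.X0.FF
  Fermat.Agent.ES.RED.SumOrdSep15 Fermat.Agent.ES.RED.SpecialFibre13 Fermat.Agent.FF.GoodRed8
  Fermat.Agent.RED.PUR.ChartGeneric22

variable {K F : Type*} [Field K] [Field F] [Algebra K F]

variable [IsAlgClosed K] {x : F}

/-- **P1, the chart dictionary:** the sections through the two charts are `L(m (x)_∞)`. -/
theorem Lb_eq_L (H : LHyp K F) (hx : IsGen K x) [Algebra.IsSeparable K⟮x⟯ F] (hx0 : x ≠ 0)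
    (m : ℕ) :
    Lb (chart K x) (chart K x⁻¹) x⁻¹ m = riemannRochSpace (m • poleDiv H hx0) := by
  ext f
  rw [mem_Lb]
  constructor
  · rintro ⟨h0, h1⟩
    exact mem_L_nsmul_poleDiv_of_isIntegral H hx0 (R₀ := K) (fun v a => v.algebraMap_mem' a) m
      (mem_chart_iff.mp h0) (mem_chart_iff.mp h1)
  · intro hf
    obtain ⟨h0, h1⟩ := isIntegral_of_mem_L H hx hx0 hf
    exact ⟨mem_chart_iff.mpr h0, mem_chart_iff.mpr h1⟩

/-- monotonicity of `L(m (x)_∞)` in `m`. -/
theorem L_nsmul_poleDiv_mono (H : LHyp K F) (hx0 : x ≠ 0) {m m' : ℕ} (h : m ≤ m') :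
    riemannRochSpace (m • poleDiv H hx0) ≤ riemannRochSpace (m' • poleDiv H hx0) := by
  apply L_mono
  obtain ⟨k, rfl⟩ := Nat.exists_eq_add_of_le h
  rw [add_smul]
  exact le_add_of_nonneg_right (smul_nonneg (Nat.zero_le k) (poleDiv_nonneg H hx0))

/-- **every element of the chart algebra lies in some `L(m (x)_∞)`.** -/
theorem exists_mem_L_of_isIntegral (H : LHyp K F) (hx0 : x ≠ 0) {f : F}
    (hf : IsIntegral (Algebra.adjoin K {x}) f) :
    ∃ m : ℕ, f ∈ riemannRochSpace (m • poleDiv H hx0) := by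
  classical
  by_cases hf0 : f = 0
  · exact ⟨0, by rw [hf0]; exact Submodule.zero_mem _⟩
  set D := divOf H hf0 with hD
  refine ⟨∑ v ∈ D.support, (D v).natAbs, ?_⟩
  rw [mem_L_iff hf0]
  intro v
  rw [Finsupp.smul_apply, poleDiv_apply, nsmul_eq_mul]
  rcases le_or_gt 0 (v.ord x) with hxv | hxv
  · have hxv' : x ∈ v.toValuationSubring := ffp_mem_of_ord_nonneg v hxv
    have hfv : f ∈ v.toValuationSubring :=
      Fermat.Agent.X0.FFDedekind.mem_of_isIntegral_of_algebraMap_mem v
        (adjoin_le_place v (fun a => v.algebraMap_mem' a) hxv') hf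
    have := ffp_ord_nonneg_of_mem v hfv
    rw [max_eq_left (by omega)]
    omega
  · rw [max_eq_right (by omega)]
    have h1 : v.ord f = D v := (divOf_apply H hf0 v).symm
    by_cases hv : v ∈ D.support
    · have h2 : ((D v).natAbs : ℤ) ≤ ((∑ w ∈ D.support, (D w).natAbs : ℕ) : ℤ) := by
        exact_mod_cast Finset.single_le_sum (f := fun w => (D w).natAbs)
          (fun w _ => Nat.zero_le _) hv
      have h3 : -((D v).natAbs : ℤ) ≤ D v := by omega
      have h4 : (0 : ℤ) ≤ ((∑ w ∈ D.support, (D w).natAbs : ℕ) : ℤ) := Int.natCast_nonneg _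
      rw [h1]
      nlinarith
    · have h2 : D v = 0 := by simpa [Finsupp.mem_support_iff] using hv
      have h4 : (0 : ℤ) ≤ ((∑ w ∈ D.support, (D w).natAbs : ℕ) : ℤ) := Int.natCast_nonneg _
      rw [h1, h2]
      nlinarith

/-- **module generators of the chart algebra over `K[x]`, with bounded poles.** -/
theorem exists_chart_gens (H : LHyp K F) (hx : IsGen K x) [Algebra.IsSeparable K⟮x⟯ F]
    (hx0 : x ≠ 0) :
    ∃ (r : ℕ) (e : Fin r → F) (c : ℕ), (∀ i, e i ∈ chart K x) ∧
      (∀ i, x⁻¹ ^ c * e i ∈ chart K x⁻¹) ∧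
      ∀ y ∈ chart K x, ∃ P : Fin r → Polynomial K,
        y = ∑ i, Polynomial.aeval x (P i) * e i := by
  classical
  haveI := finite_intRing_sep hx
  obtain ⟨r, s, hs⟩ := Module.Finite.exists_fin (R := polyRing K x) (M := intRing K x)
  have he : ∀ i, ((s i : intRing K x) : F) ∈ chart K x := fun i => (s i).2
  -- pole bounds
  have hm : ∀ i, ∃ m : ℕ, ((s i : intRing K x) : F) ∈ riemannRochSpace (m • poleDiv H hx0) :=
    fun i => exists_mem_L_of_isIntegral H hx0 (s i).2
  choose m hm using hm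
  refine ⟨r, fun i => ((s i : intRing K x) : F), Finset.univ.sup m, he, fun i => ?_, ?_⟩
  · have h1 := L_nsmul_poleDiv_mono H hx0 (Finset.le_sup (f := m) (Finset.mem_univ i)) (hm i)
    exact mem_chart_iff.mpr (isIntegral_of_mem_L H hx hx0 h1).2
  · intro y hy
    have hy' : (⟨y, hy⟩ : intRing K x) ∈ Submodule.span (polyRing K x) (Set.range s) := by
      rw [hs]; exact Submodule.mem_top
    obtain ⟨a, ha⟩ := (Submodule.mem_span_range_iff_exists_fun (polyRing K x)).mp hy'
    have hP : ∀ i, ∃ P : Polynomial K, Polynomial.aeval x P = ((a i : polyRing K x) : F) := by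
      intro i
      have h3 : ((a i : polyRing K x) : F) ∈ Algebra.adjoin K {x} := (a i).2
      rw [Algebra.adjoin_singleton_eq_range_aeval] at h3
      obtain ⟨P, hP⟩ := h3
      exact ⟨P, hP⟩
    choose P hP using hP
    refine ⟨P, ?_⟩
    have h2 := congrArg (fun z : intRing K x => (z : F)) ha
    simp only at h2
    rw [← h2]
    rw [AddSubmonoidClass.coe_finsetSum]
    refine Finset.sum_congr rfl fun i _ => ?_
    rw [hP i]
    rfl

/-- **the pencil-trick property (PT) on the two charts.** -/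
theorem exists_PT (H : LHyp K F) (hx : IsGen K x) [Algebra.IsSeparable K⟮x⟯ F] (hx0 : x ≠ 0) :
    ∃ n₀ : ℕ, PT (chart K x) (chart K x⁻¹) x x⁻¹ n₀ := by
  obtain ⟨r, e, c, he, hc, hgen⟩ := exists_chart_gens H hx hx0
  have hts : x * x⁻¹ = 1 := mul_inv_cancel₀ hx0
  have h1 := h1_of_generators (κ := K) (Bb0 := chart K x) (Bb1 := chart K x⁻¹) hts e c he hc
    (self_mem_chart (R := K) x⁻¹) (self_mem_chart (R := K) x) hgen
  exact ⟨c + 1, pt_of_h1 hts (self_mem_chart (R := K) x) (self_mem_chart (R := K) x⁻¹) h1⟩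

/-- **finite generation of the sections.** -/
theorem Lb_fg (H : LHyp K F) (hx : IsGen K x) [Algebra.IsSeparable K⟮x⟯ F] (hx0 : x ≠ 0)
    (m : ℕ) : (Lb (chart K x) (chart K x⁻¹) x⁻¹ m).FG := by
  rw [Lb_eq_L H hx hx0 m]
  haveI := finiteDimensional_L H (m • poleDiv H hx0)
  exact (Submodule.fg_iff_finiteDimensional _).mpr inferInstance

end Fermat.Agent.FF.SpecialRR6
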