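/-
Programme FF, chapter GB / G6c (helper6): **the dimension count** `l̄(n (t̄)_∞) ≤ l(n (t)_∞)` from
the two-chart lifting `GoodRed8.lifting`, and the statement `(G)`: `δ(n (t̄)_∞) ≤ 0` for all large
`n` (with `δ` of `FF/SpecRR1B`, `g` the genus of the generic fibre).

Abstract setting: `A` a valuation subring of `K`, `res : A →+* κ` a ring homomorphism to a field,
function fields `F / K`, `Fb / κ`, a commutative ring `O` with an injective `ι : O →+* F` (the Gauss
ring) and a reduction `ρ : O →+* Fb`, constants `hconst`.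

* `exists_primitive` : a nonzero finite family in `K` can be scaled into `A` with one entry `1`;
* `linearIndependent_of_red` : lifts of a `κ`-independent family are `K`-independent;
* `finrank_le_of_lifts` : if every element of `V̄ ⊆ Fb` lifts into `V ⊆ F`, `dim V̄ ≤ dim V`;
* `finrank_Lbar_le` : `l̄(n (t̄)_∞) ≤ l(n (t)_∞)` for all large `n`;
* `delta_nsmul_poleDiv_le_zero` : `(G)`.
-/
import Mathlib
import Fermat.Agent.FF.SpecialRR6H
import Fermat.Agent.FF.SpecRR1B

set_option autoImplicit false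
set_option linter.unusedSectionVars false
set_option linter.style.haveILetI false

open AlgebraicCurve IntermediateField

namespace Fermat.Agent.FF.SpecialRR6

open Fermat.Agent.RR.LSpace Fermat.Agent.RR.Riemann Fermat.Agent.X0 Fermat.Agent.X0.FF
  Fermat.Agent.FF.GoodRed8 Fermat.Agent.FF.SpecRR1 Fermat.Agent.RED.PUR.ChartGeneric22

section Primitive

variable {K : Type*} [Field K] (A : ValuationSubring K)

/-- a nonzero finite family in `K` can be scaled into `A` with one entry equal to `1`. -/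
theorem exists_primitive {ι : Type*} [Fintype ι] (c : ι → K) (hc : c ≠ 0) :
    ∃ (d : K) (i₀ : ι), d ≠ 0 ∧ (∀ i, d * c i ∈ A) ∧ d * c i₀ = 1 := by
  classical
  have hne : ∃ j, c j ≠ 0 := by
    by_contra h
    push Not at h
    exact hc (funext h)
  obtain ⟨j, hj⟩ := hne
  obtain ⟨i₀, -, hmax⟩ := Finset.exists_max_image Finset.univ (fun i => A.valuation (c i))
    ⟨j, Finset.mem_univ j⟩
  have hi₀ : c i₀ ≠ 0 := by
    intro h0
    have h1 := hmax j (Finset.mem_univ j)
    rw [h0, map_zero] at h1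
    exact hj ((map_eq_zero _).mp (le_antisymm h1 zero_le))
  refine ⟨(c i₀)⁻¹, i₀, inv_ne_zero hi₀, fun i => ?_, inv_mul_cancel₀ hi₀⟩
  rw [← A.valuation_le_one_iff, map_mul, map_inv₀]
  have hv0 : A.valuation (c i₀) ≠ 0 := (map_ne_zero _).mpr hi₀
  rw [inv_mul_le_iff₀ (zero_lt_iff.mpr hv0), mul_one]
  exact hmax i (Finset.mem_univ i)

end Primitive

section Count

variable {K : Type*} [Field K] {A : ValuationSubring K} {κ : Type*} [Field κ] (res : ↥A →+* κ)
variable {F : Type*} [Field F] [Algebra K F] {Fb : Type*} [Field Fb] [Algebra κ Fb]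
variable {O : Type*} [CommRing O] (ι : O →+* F) (hι : Function.Injective ι) (ρ : O →+* Fb)
  (hconst : ∀ a : ↥A, ∃ c : O, ι c = algebraMap K F (a : K) ∧ ρ c = algebraMap κ Fb (res a))

include hι hconst in
/-- **lifts of a `κ`-independent family are `K`-independent.** -/
theorem linearIndependent_of_red {σ : Type*} [Fintype σ] (b : σ → O)
    (hli : LinearIndependent κ (fun i => ρ (b i))) : LinearIndependent K (fun i => ι (b i)) := by
  classical
  rw [Fintype.linearIndependent_iff]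
  intro c hsum
  by_contra hne
  have hc : c ≠ 0 := fun h => hne (fun i => by rw [h]; rfl)
  obtain ⟨d, i₀, hd, hmem, hone⟩ := exists_primitive A c hc
  choose a ha using fun i => hconst ⟨d * c i, hmem i⟩
  have hzero : ∑ i, a i * b i = 0 := by
    apply hι
    rw [map_sum, map_zero]
    have : ∀ i, ι (a i * b i) = d • (c i • ι (b i)) := by
      intro i
      rw [map_mul, (ha i).1, smul_smul, Algebra.smul_def, map_mul]
    simp_rw [this]
    rw [← Finset.smul_sum, hsum, smul_zero]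
  have hred : ∑ i, res ⟨d * c i, hmem i⟩ • ρ (b i) = 0 := by
    have h1 := congrArg ρ hzero
    rw [map_sum, map_zero] at h1
    rw [← h1]
    refine Finset.sum_congr rfl fun i _ => ?_
    rw [map_mul, (ha i).2, Algebra.smul_def]
  have h2 := (Fintype.linearIndependent_iff.mp hli) _ hred i₀
  have h3 : (⟨d * c i₀, hmem i₀⟩ : ↥A) = 1 := Subtype.ext hone
  rw [h3, map_one] at h2
  exact one_ne_zero h2

include hι hconst in
/-- **the dimension count:** if every element of `Vb` lifts into `V`, then `dim Vb ≤ dim V`. -/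
theorem finrank_le_of_lifts (Vb : Submodule κ Fb) [FiniteDimensional κ Vb] (V : Submodule K F)
    [FiniteDimensional K V] (h : ∀ f ∈ Vb, ∃ b : O, ι b ∈ V ∧ ρ b = f) :
    Module.finrank κ Vb ≤ Module.finrank K V := by
  classical
  set B := Module.finBasis κ Vb with hB
  choose b hbV hbρ using fun i => h (B i : Fb) (B i).2
  have hli : LinearIndependent κ (fun i => ρ (b i)) := by
    have h1 : LinearIndependent κ (fun i => ((B i : Vb) : Fb)) :=
      B.linearIndependent.map' Vb.subtype (Submodule.ker_subtype Vb)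
    convert h1 using 2 with i
    exact hbρ i
  have hK := linearIndependent_of_red res ι hι ρ hconst b hli
  have hle : Submodule.span K (Set.range fun i => ι (b i)) ≤ V :=
    Submodule.span_le.2 (by rintro _ ⟨i, rfl⟩; exact hbV i)
  have h1 := Submodule.finrank_mono hle
  rw [finrank_span_eq_card hK, Fintype.card_fin] at h1
  exact h1

end Count

section Main

variable {K : Type*} [Field K] {A : ValuationSubring K} {κ : Type*} [Field κ] [IsAlgClosed κ]
  (res : ↥A →+* κ) (hres : Function.Surjective res)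
variable {F : Type*} [Field F] [Algebra K F] {Fb : Type*} [Field Fb] [Algebra κ Fb]
variable {O : Type*} [CommRing O] (ι : O →+* F) (hι : Function.Injective ι) (ρ : O →+* Fb)
variable {A0 B0 B1 : Subring O} {t s : O} (hts : t * s = 1) (ht : t ∈ B0) (hs : s ∈ B1)
  (hA0 : A0 ≤ B0) (hA1 : A0 ≤ B1)
  (hconst : ∀ a : ↥A, ∃ c ∈ A0, ι c = algebraMap K F (a : K) ∧ ρ c = algebraMap κ Fb (res a))
variable (HL : LHyp K F) (HLb : LHyp κ Fb) (hιt : ι t ≠ 0) (hρt : ρ t ≠ 0)
  (hgen : IsGen κ (ρ t)) [Algebra.IsSeparable κ⟮ρ t⟯ Fb]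

include hres hι hts ht hs hA0 hA1 hconst hgen in
/-- **`l̄(n (t̄)_∞) ≤ l(n (t)_∞)` for all large `n`**, from (S2), (E) and the inclusion
`Λ_n ⊆ L(n (t)_∞)`. -/
theorem finrank_Lbar_le
    (hS0 : ∀ y ∈ chart κ (ρ t), ∃ b ∈ B0, ρ b = y)
    (hS1 : ∀ y ∈ chart κ (ρ t)⁻¹, ∃ b ∈ B1, ρ b = y)
    (hE0 : ∀ b ∈ B0, ∃ m, s ^ m * b ∈ B1) (hE1 : ∀ b ∈ B1, ∃ m, t ^ m * b ∈ B0)
    (hLam : ∀ n, ∀ b ∈ Lam B0 B1 s n, ι b ∈ riemannRochSpace (n • poleDiv HL hιt)) :
    ∃ n₁ : ℕ, ∀ n : ℕ, n₁ ≤ n →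
      Module.finrank κ (riemannRochSpace (n • poleDiv HLb hρt)) ≤
        Module.finrank K (riemannRochSpace (n • poleDiv HL hιt)) := by
  have hρs : ρ s = (ρ t)⁻¹ := by
    have h1 : ρ t * ρ s = 1 := by rw [← map_mul, hts, map_one]
    exact eq_inv_of_mul_eq_one_right h1
  have hκ : ∀ a : κ, ∃ c ∈ A0, ρ c = algebraMap κ Fb a := by
    intro a
    obtain ⟨a', rfl⟩ := hres a
    obtain ⟨c, hc, -, hc2⟩ := hconst a'
    exact ⟨c, hc, hc2⟩
  obtain ⟨n₀, hPT⟩ := exists_PT HLb hgen hρt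
  have hfin := Lb_fg HLb hgen hρt n₀
  rw [← hρs] at hS1 hPT hfin
  obtain ⟨n₁, hn₁⟩ := lifting (κ := κ) (Bb0 := chart κ (ρ t)) (Bb1 := chart κ (ρ s))
    hts ht hs hA0 hA1 hκ hS0 hS1 hE0 hE1 hPT hfin
  refine ⟨n₁, fun n hn => ?_⟩
  haveI := finiteDimensional_L HLb (n • poleDiv HLb hρt)
  haveI := finiteDimensional_L HL (n • poleDiv HL hιt)
  refine finrank_le_of_lifts res ι hι ρ
    (fun a => by obtain ⟨c, -, hc⟩ := hconst a; exact ⟨c, hc⟩) _ _ fun f hf => ?_
  rw [← Lb_eq_L HLb hgen hρt n, ← hρs] at hf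
  obtain ⟨b, hb, hbf⟩ := hn₁ n hn f hf
  exact ⟨b, hLam n b hb, hbf⟩

include hres hι hts ht hs hA0 hA1 hconst hgen in
/-- **`(G)`: `δ(n (t̄)_∞) ≤ 0` for all large `n`**, `g` the Riemann constant of the generic
fibre. -/
theorem delta_nsmul_poleDiv_le_zero
    (hS0 : ∀ y ∈ chart κ (ρ t), ∃ b ∈ B0, ρ b = y)
    (hS1 : ∀ y ∈ chart κ (ρ t)⁻¹, ∃ b ∈ B1, ρ b = y)
    (hE0 : ∀ b ∈ B0, ∃ m, s ^ m * b ∈ B1) (hE1 : ∀ b ∈ B1, ∃ m, t ^ m * b ∈ B0)
    (hLam : ∀ n, ∀ b ∈ Lam B0 B1 s n, ι b ∈ riemannRochSpace (n • poleDiv HL hιt))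
    (hdeg : Divisor.degree (poleDiv HLb hρt) = Divisor.degree (poleDiv HL hιt))
    (hpos : 0 < Divisor.degree (poleDiv HL hιt))
    (g : ℤ) (hRiem : ∃ c : ℤ, ∀ D : Divisor K F, c ≤ Divisor.degree D →
      ell D = Divisor.degree D + 1 - g) :
    ∃ n₁ : ℕ, ∀ n : ℕ, n₁ ≤ n → delta g (n • poleDiv HLb hρt) ≤ 0 := by
  obtain ⟨n₁, hn₁⟩ := finrank_Lbar_le res hres ι hι ρ hts ht hs hA0 hA1 hconst HL HLb hιt hρt hgen
    hS0 hS1 hE0 hE1 hLam
  obtain ⟨c, hc⟩ := hRiem
  refine ⟨max n₁ c.toNat, fun n hn => ?_⟩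
  have h1 := hn₁ n (le_trans (le_max_left _ _) hn)
  have hnc : c ≤ (n : ℤ) := by
    have h2 : c.toNat ≤ n := le_trans (le_max_right _ _) hn
    have h3 := Int.self_le_toNat c
    omega
  have hdegn : Divisor.degree (n • poleDiv HL hιt) = (n : ℤ) * Divisor.degree (poleDiv HL hιt) := by
    rw [map_nsmul, nsmul_eq_mul]
  have hdegnb : Divisor.degree (n • poleDiv HLb hρt) =
      (n : ℤ) * Divisor.degree (poleDiv HL hιt) := by
    rw [map_nsmul, nsmul_eq_mul, hdeg]
  have h2 := hc (n • poleDiv HL hιt) (by rw [hdegn]; nlinarith)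
  unfold delta
  rw [hdegnb]
  rw [hdegn] at h2
  have h3 : ell (n • poleDiv HLb hρt) ≤ ell (n • poleDiv HL hιt) := by
    unfold ell
    exact_mod_cast h1
  omega

end Main

end Fermat.Agent.FF.SpecialRR6
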