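/-
Programme FF, chapter GB / G6c (helper6): **the statement `(G)` at a Hauptmodul level `M`**,
`ℓ ∤ M`: for all large `n`, `δ_g(n (t̃)_∞) ≤ 0` on the special fibre
`F̃ = modularFunctionFieldFullC k M / k`, where `g` is the Riemann constant of the generic fibre
`ℚ̄·F_M` (e.g. its genus), `t` the Hauptmodul coordinate and `t̃` its reduction.

The Gauss ring is `O = ChartIntegralA1.intF A M` with the reduction `ρ = ChartIntegralA1.redF`; the
two charts `B0, B1 ⊆ O` (elements of `O` integral over `A[t]`, resp. `A[t⁻¹]`) and their properties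
(S2) `hS0 hS1`, (E) `hE0 hE1` enter as hypotheses in the literal shape of `GoodRed8.lifting`
(they are proved in `FF/ChartInst7*`, helper7).

* `degree_poleDiv_tF`, `degree_poleDiv_tRes` : both pole divisors have degree `degT`;
* `mem_L_of_mem_Lam` : `Λ_n ⊆ L(n (t)_∞)`;
* `delta_le_zero_of_charts` : `(G)` for an arbitrary Riemann constant `g`;
* `riemann_genus` : the generic fibre satisfies `l(D) = deg D + 1 - genus` in large degree.
-/
import Mathlib
import Fermat.Agent.FF.SpecialRR6G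
import Fermat.Agent.FF.SpecialRR6I
import Fermat.Agent.ES.RED.ChartIntegralA1
import Fermat.Agent.RR.RRMain
import Fermat.Agent.X0.HasCanDivInst

set_option autoImplicit false
set_option linter.unusedSectionVars false
set_option linter.style.haveILetI false
set_option synthInstance.maxHeartbeats 400000

noncomputable section

open HahnSeries ModularCurve IntermediateField AlgebraicCurve

namespace Fermat.Agent.FF.SpecialRR6

open Fermat.Agent.X0 Fermat.Agent.RED.Interface4 Fermat.Agent.RED.BASE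
  Fermat.Agent.ES.RED.SpecialGen25 Fermat.Agent.ES.RED.SpecialInv25
  Fermat.Agent.ES.RED.SumOrdSep15 Fermat.Agent.RR.LSpace Fermat.Agent.RR.Riemann
  Fermat.Agent.ES.RED.ChartIntegralA1 Fermat.Agent.RED.PUR.ChartGeneric22
  Fermat.Agent.FF.GoodRed8 Fermat.Agent.FF.SpecRR1

variable (n e M : ℕ) [NeZero n] [NeZero M] (ℓ : ℕ) [Fact ℓ.Prime] (hℓM : ¬ ℓ ∣ M)
  (hmem : Interface12.TMem n e M) (hgen : Interface12.TGenBase n e)
  (A : ValuationSubring Qbar) (hA : A.LiesOverPrime ℓ)

/-- the residue field of `A`. -/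
local notation "kk" => IsLocalRing.ResidueField A

/-- the special-fibre function field. -/
local notation "Ft" => (modularFunctionFieldFullC (IsLocalRing.ResidueField A) M)

/-- shortcut instance (typeclass search takes 4 s to find it). -/
local instance (priority := high) algebraQbarFF6 : Algebra Qbar (X0.FF M) :=
  SubalgebraClass.toAlgebra (modularFunctionFieldBar M)

/-- shortcut instance (typeclass search takes 4 s to find it). -/
local instance (priority := high) algebraAFF6 : Algebra ↥A (X0.FF M) := Algebra.ofSubsemiring A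

/-- shortcut instance (typeclass search takes 4 s to find it). -/
local instance (priority := high) algebraKkFt6 :
    Algebra (IsLocalRing.ResidueField ↥A)
      ↥(modularFunctionFieldFullC (IsLocalRing.ResidueField ↥A) M) :=
  SubalgebraClass.toAlgebra (modularFunctionFieldFullC (IsLocalRing.ResidueField ↥A) M)

/-- the pole divisor depends only on the function. -/
theorem poleDiv_congr {K F : Type*} [Field K] [Field F] [Algebra K F] (H : LHyp K F) {f f' : F}
    (h : f = f') (hf : f ≠ 0) (hf' : f' ≠ 0) : poleDiv H hf = poleDiv H hf' := by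
  subst h
  rfl

/-! ### degrees of the pole divisors -/

/-- `deg (t)_∞ = degT`. -/
theorem degree_poleDiv_tF (HL : LHyp Qbar (X0.FF M)) {x : X0.FF M}
    (hx : x = Interface12.tF M hmem) (hx0 : x ≠ 0) :
    Divisor.degree (poleDiv HL hx0) = (degT n e M hmem : ℤ) := by
  subst hx
  rw [degree_poleDiv_eq_finsum, FF.sum_ord_poles (isGen_tF n e M hmem)]
  rfl

include hℓM hgen hA in
/-- `deg (t̃)_∞ = degT`. -/
theorem degree_poleDiv_tRes (HLb : LHyp kk Ft) {x : Ft}
    (hx : x = tRes n e M ℓ hℓM hmem hgen A hA) (hx0 : x ≠ 0) :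
    Divisor.degree (poleDiv HLb hx0) = (degT n e M hmem : ℤ) := by
  subst hx
  haveI : IsAlgClosed kk := isAlgClosed_kk A
  haveI := isSeparable_tRes n e M ℓ hℓM hmem hgen A hA
  rw [degree_poleDiv_eq_finsum, sum_ord_poles_sep (isGen_tRes n e M ℓ hℓM hmem hgen A hA),
    finrank_tRes_eq_degT]

theorem degT_pos : 0 < degT n e M hmem := by
  haveI := (isGen_tF n e M hmem).finite
  exact Module.finrank_pos

/-! ### `Λ_n ⊆ L(n (t)_∞)` -/

/-- constants of `A` are regular at every place of the generic fibre. -/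
theorem algebraMap_A_mem_place (v : Place Qbar (X0.FF M)) (a : ↥A) :
    algebraMap ↥A (X0.FF M) a ∈ v.toValuationSubring := by
  rw [IsScalarTower.algebraMap_apply ↥A Qbar (X0.FF M)]
  exact v.algebraMap_mem' _

/-- **`Λ_n ⊆ L(n (t)_∞)`**: an element of the chart of `t` whose product with `t⁻ⁿ` lies in the chart
of `t⁻¹` belongs to `L(n (t)_∞)`. -/
theorem mem_L_of_mem_charts (HL : LHyp Qbar (X0.FF M)) {x y : X0.FF M} (hx0 : x ≠ 0) (m : ℕ)
    (h0 : y ∈ chart ↥A x) (h1 : x⁻¹ ^ m * y ∈ chart ↥A x⁻¹) :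
    y ∈ riemannRochSpace (m • poleDiv HL hx0) :=
  mem_L_nsmul_poleDiv_of_isIntegral HL hx0 (R₀ := ↥A) (algebraMap_A_mem_place M A) m
    (mem_chart_iff.mp h0) (mem_chart_iff.mp h1)

/-! ### the statement `(G)` -/

include hmem hgen in
/-- **`(G)` from the chart properties (S2), (E).**  `O = intF A M`, `ρ = redF`, `tO sO : O` the
coordinate and its inverse, `B0 B1 : Subring O` the two charts, `A0` the constants. -/
theorem delta_le_zero_of_charts
    (HL : LHyp Qbar (X0.FF M)) (HLb : LHyp kk Ft)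
    {A0 B0 B1 : Subring ↥(intF A M)} {tO sO : ↥(intF A M)}
    (htO : ((tO : ↥(intF A M)) : X0.FF M) = Interface12.tF M hmem)
    (hρt : redF A M ℓ hA hℓM tO = tRes n e M ℓ hℓM hmem hgen A hA)
    (hts : tO * sO = 1) (ht : tO ∈ B0) (hs : sO ∈ B1) (hA0 : A0 ≤ B0) (hA1 : A0 ≤ B1)
    (hA0c : ∀ a : ↥A,
      (⟨algebraMap Qbar (X0.FF M) (a : Qbar), algebraMap_mem_intF A M a⟩ : ↥(intF A M)) ∈ A0)
    (hB0 : ∀ b ∈ B0, ((b : ↥(intF A M)) : X0.FF M) ∈ chart ↥A (Interface12.tF M hmem))
    (hB1 : ∀ b ∈ B1, ((b : ↥(intF A M)) : X0.FF M) ∈ chart ↥A (Interface12.tF M hmem)⁻¹)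
    (hS0 : ∀ y ∈ chart kk (redF A M ℓ hA hℓM tO), ∃ b ∈ B0, redF A M ℓ hA hℓM b = y)
    (hS1 : ∀ y ∈ chart kk (redF A M ℓ hA hℓM tO)⁻¹, ∃ b ∈ B1, redF A M ℓ hA hℓM b = y)
    (hE0 : ∀ b ∈ B0, ∃ m, sO ^ m * b ∈ B1) (hE1 : ∀ b ∈ B1, ∃ m, tO ^ m * b ∈ B0)
    (g : ℤ) (hRiem : ∃ c : ℤ, ∀ D : Divisor Qbar (X0.FF M), c ≤ Divisor.degree D →
      ell D = Divisor.degree D + 1 - g)
    (htb0 : tRes n e M ℓ hℓM hmem hgen A hA ≠ 0) :
    ∃ n₁ : ℕ, ∀ m : ℕ, n₁ ≤ m → delta g (m • poleDiv HLb htb0) ≤ 0 := by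
  haveI : IsAlgClosed kk := isAlgClosed_kk A
  have hx0 : redF A M ℓ hA hℓM tO ≠ 0 := by rw [hρt]; exact htb0
  have hgenb : FF.IsGen kk (redF A M ℓ hA hℓM tO) := by
    rw [hρt]; exact isGen_tRes n e M ℓ hℓM hmem hgen A hA
  haveI : Algebra.IsSeparable ↥(kk⟮redF A M ℓ hA hℓM tO⟯) Ft := by
    rw [hρt]; exact isSeparable_tRes n e M ℓ hℓM hmem hgen A hA
  have hιt : (intF A M).subtype tO ≠ 0 := by
    intro h0
    apply hx0
    have : tO = 0 := Subtype.ext h0
    rw [this, map_zero]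
  have hsO : ((sO : ↥(intF A M)) : X0.FF M) = (Interface12.tF M hmem)⁻¹ := by
    have h1 : ((tO : ↥(intF A M)) : X0.FF M) * ((sO : ↥(intF A M)) : X0.FF M) = 1 := by
      have := congrArg (fun z : ↥(intF A M) => (z : X0.FF M)) hts
      simpa using this
    rw [htO] at h1
    exact eq_inv_of_mul_eq_one_right h1
  have hconst : ∀ a : ↥A, ∃ c ∈ A0, (intF A M).subtype c = algebraMap Qbar (X0.FF M) (a : Qbar) ∧
      redF A M ℓ hA hℓM c = algebraMap kk Ft (IsLocalRing.residue ↥A a) := by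
    intro a
    exact ⟨_, hA0c a, rfl, redF_algebraMap A M ℓ hA hℓM a⟩
  have hLam : ∀ m, ∀ b ∈ Lam B0 B1 sO m,
      (intF A M).subtype b ∈ riemannRochSpace (m • poleDiv HL hιt) := by
    intro m b hb
    have h0 := hB0 b hb.1
    have h1 := hB1 _ hb.2
    have hcoe : (((sO ^ m * b : ↥(intF A M)) : ↥(intF A M)) : X0.FF M) =
        (((tO : ↥(intF A M)) : X0.FF M))⁻¹ ^ m * ((b : ↥(intF A M)) : X0.FF M) := by
      push_cast
      rw [hsO, htO]
    rw [hcoe] at h1
    rw [← htO] at h0 h1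
    exact mem_L_of_mem_charts M A HL hιt m h0 h1
  have hd1 : Divisor.degree (poleDiv HL hιt) = (degT n e M hmem : ℤ) :=
    degree_poleDiv_tF n e M hmem HL htO hιt
  have hd2 : Divisor.degree (poleDiv HLb hx0) = (degT n e M hmem : ℤ) :=
    degree_poleDiv_tRes n e M ℓ hℓM hmem hgen A hA HLb hρt hx0
  have hdeg : Divisor.degree (poleDiv HLb hx0) = Divisor.degree (poleDiv HL hιt) := by
    rw [hd1, hd2]
  have hpos : 0 < Divisor.degree (poleDiv HL hιt) := by
    rw [hd1]
    exact_mod_cast degT_pos n e M hmem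
  obtain ⟨n₁, hn₁⟩ := delta_nsmul_poleDiv_le_zero (A := A) (IsLocalRing.residue ↥A)
    IsLocalRing.residue_surjective (intF A M).subtype Subtype.val_injective
    (redF A M ℓ hA hℓM) hts ht hs hA0 hA1 hconst HL HLb hιt hx0 hgenb hS0 hS1 hE0 hE1 hLam hdeg
    hpos g hRiem
  refine ⟨n₁, fun m hm => ?_⟩
  have := hn₁ m hm
  rwa [poleDiv_congr HLb hρt hx0 htb0] at this

/-! ### Riemann's theorem on the generic fibre with the genus -/

include hmem in
/-- the generic fibre satisfies `l(D) = deg D + 1 - genus` in large degree. -/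
theorem riemann_genus :
    haveI := Fermat.Agent.X0.HasCanDivInst.hasCanonicalDivisor M
    ∃ c : ℤ, ∀ D : Divisor Qbar (X0.FF M), c ≤ Divisor.degree D →
      ell D = Divisor.degree D + 1 - (genus Qbar (X0.FF M) : ℤ) := by
  haveI := Fermat.Agent.X0.HasCanDivInst.hasCanonicalDivisor M
  refine ⟨2 * (genus Qbar (X0.FF M) : ℤ) - 1, fun D hD => ?_⟩
  exact Fermat.Agent.RR.RRMain.finrank_L_of_degree_gt (isGen_tF n e M hmem) D (by omega)

end Fermat.Agent.FF.SpecialRR6
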