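/-
Programme FF, chapter GB / G6 (helper6): **the concrete special-fibre package at a Hauptmodul level
`M`**, `ℓ ∤ M`, for any place reduction `r` (`IsPlaceReductionModL A M r`), with `g` the genus of
the generic fibre `ℚ̄·F_M`:

* `riemann_inequality_special_genus` : `(R')`  `deg D̄ + 1 - g ≤ l̄(D̄)` for every divisor of the
  special fibre (helper1's `SpecRR1.riemann_inequality_special`, helper2's semicontinuity
  `RedLat2.AbsRed.finrank_L_le` on helper1's `GaussOv1.absRed`, Riemann–Roch upstairs);
* `delta_eq_zero_of_charts` : `(G)`  `δ_g(m (t̃)_∞) = 0` for all large `m`, from the chart properties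
  (S2), (E) (hypotheses, `FF/ChartInst7*`).
-/
import Mathlib
import Fermat.Agent.FF.SpecialRR6J
import Fermat.Agent.FF.SpecRR1C
import Fermat.Agent.FF.GaussOv1D
import Fermat.Agent.FF.Bridge5

set_option autoImplicit false
set_option linter.unusedSectionVars false
set_option linter.style.haveILetI false
set_option synthInstance.maxHeartbeats 400000

noncomputable section

open HahnSeries ModularCurve IntermediateField AlgebraicCurve

namespace Fermat.Agent.FF.SpecialRR6

open Fermat.Agent.X0 Fermat.Agent.RED.Interface4 Fermat.Agent.RED.BASE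
  Fermat.Agent.ES.RED.SpecialGen25 Fermat.Agent.ES.RED.SpecialInv25
  Fermat.Agent.ES.RED.SumOrdSep15 Fermat.Agent.RR.LSpace Fermat.Agent.RR.Riemann
  Fermat.Agent.ES.RED.ChartIntegralA1 Fermat.Agent.RED.PUR.ChartGeneric22
  Fermat.Agent.FF.GoodRed8 Fermat.Agent.FF.SpecRR1

variable (n e M : ℕ) [NeZero n] [NeZero M] (ℓ : ℕ) [Fact ℓ.Prime] (hℓM : ¬ ℓ ∣ M)
  (hmem : Interface12.TMem n e M) (hgen : Interface12.TGenBase n e)
  (A : ValuationSubring Qbar) (hA : A.LiesOverPrime ℓ)

/-- the residue field of `A`. -/
local notation "kk" => IsLocalRing.ResidueField A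

/-- the special-fibre function field. -/
local notation "Ft" => (modularFunctionFieldFullC (IsLocalRing.ResidueField A) M)

/-- shortcut instance (typeclass search takes 4 s to find it). -/
local instance (priority := high) algebraQbarFF6K : Algebra Qbar (X0.FF M) :=
  SubalgebraClass.toAlgebra (modularFunctionFieldBar M)

/-- shortcut instance (typeclass search takes 4 s to find it). -/
local instance (priority := high) algebraAFF6K : Algebra ↥A (X0.FF M) := Algebra.ofSubsemiring A

/-- shortcut instance (typeclass search takes 4 s to find it). -/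
local instance (priority := high) algebraKkFt6K :
    Algebra (IsLocalRing.ResidueField ↥A)
      ↥(modularFunctionFieldFullC (IsLocalRing.ResidueField ↥A) M) :=
  SubalgebraClass.toAlgebra (modularFunctionFieldFullC (IsLocalRing.ResidueField ↥A) M)

include hℓM hgen hA in
/-- **`deg (t)_∞ = deg (t̃)_∞`** (`hdeg_t`). -/
theorem degree_poleDiv_tF_eq_tRes (HL : LHyp Qbar (X0.FF M)) (HLb : LHyp kk Ft)
    (ht0 : Interface12.tF M hmem ≠ 0) (htb0 : tRes n e M ℓ hℓM hmem hgen A hA ≠ 0) :
    Divisor.degree (poleDiv HL ht0) = Divisor.degree (poleDiv HLb htb0) := by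
  rw [degree_poleDiv_tF n e M hmem HL rfl ht0,
    degree_poleDiv_tRes n e M ℓ hℓM hmem hgen A hA HLb rfl htb0]

theorem tF_ne_zero : Interface12.tF M hmem ≠ 0 := by
  intro h0
  exact (isGen_tF n e M hmem).transcendental (h0 ▸ isAlgebraic_zero)

include hℓM hmem hgen hA in
theorem tRes_ne_zero : tRes n e M ℓ hℓM hmem hgen A hA ≠ 0 := by
  intro h0
  exact (isGen_tRes n e M ℓ hℓM hmem hgen A hA).transcendental (h0 ▸ isAlgebraic_zero)

include hℓM hmem hgen hA in
/-- **`(R')`: Riemann's inequality on the special fibre with the generic genus.** -/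
theorem riemann_inequality_special_genus
    (r : Place Qbar (X0.FF M) → Place kk Ft) (hr : IsPlaceReductionModL A M r)
    (Db : Divisor kk Ft) :
    haveI := Fermat.Agent.X0.HasCanDivInst.hasCanonicalDivisor M
    Divisor.degree Db + 1 - (genus Qbar (X0.FF M) : ℤ) ≤ ell Db := by
  haveI := Fermat.Agent.X0.HasCanDivInst.hasCanonicalDivisor M
  have HL := lHyp_bar n e M hmem
  have HLb := lHyp_special n e M ℓ hℓM hmem hgen A hA r hr
  refine Fermat.Agent.FF.SpecRR1.riemann_inequality_special r
    (Fermat.Agent.FF.GaussOv1.r_surjective A M ℓ hA hℓM n e hmem hgen r hr)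
    (fun P => by rw [HLb.deg_eq_one, HL.deg_eq_one]) _
    (fun D => Fermat.Agent.FF.Bridge5.riemann_inequality_genus (isGen_tF n e M hmem) D)
    (fun D => ?_) Db
  have h := (Fermat.Agent.FF.GaussOv1.absRed A M ℓ hA hℓM r hr).finrank_L_le HL HLb
    (Fermat.Agent.FF.GaussOv1.hasManyPlaces A M ℓ hA hℓM n e hmem hgen r hr) D
  unfold ell
  exact_mod_cast h

end Fermat.Agent.FF.SpecialRR6
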