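/-
Programme FF, chapter GB / G6c (helper6): **`(G)` at a Hauptmodul level, unconditional** — the
statement (N1) of the final composition.

For a level `M` with Hauptmodul datum `(n, e)`, `ℓ ∤ M`, a valuation subring `A ≤ ℚ̄` over `ℓ`, any
place reduction `r` (`IsPlaceReductionModL A M r`), and `g = genus ℚ̄ (ℚ̄·F_M)`:

* `delta_eq_zero_level` : `δ_g(m (t̃)_∞) = 0` on the special fibre for all large `m`
  (`SpecialRR6J.delta_le_zero_of_charts` fed with helper7's chart package `FF/ChartInst7D`, and `(R')`);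
* `exists_delta_eq_zero` : `∃ D₀, δ_g(D₀) = 0`  (= `h0` of `ChooseInst1.exists_choose_data`,
  `ConcreteA8.thetaInput_of_chapters`);
* `exists_delta_eq_zero_base` : the same from `BaseHyp n e`, `n ∣ M` (smoothness discharged by
  `ChartInst7.smoothTargets` and `BaseCases3.exists_cuspExports`).
-/
import Mathlib
import Fermat.Agent.FF.SpecialRR6K
import Fermat.Agent.FF.ChartInst7D
import Fermat.Agent.ES.RED.BaseCases3

set_option autoImplicit false
set_option linter.unusedSectionVars false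
set_option linter.style.haveILetI false
set_option synthInstance.maxHeartbeats 400000

noncomputable section

open HahnSeries ModularCurve IntermediateField AlgebraicCurve

namespace Fermat.Agent.FF.SpecialRR6

open Fermat.Agent.X0 Fermat.Agent.RED.Interface4 Fermat.Agent.RED.BASE
  Fermat.Agent.ES.RED.SpecialGen25 Fermat.Agent.ES.RED.SpecialInv25
  Fermat.Agent.RR.LSpace Fermat.Agent.RR.Riemann
  Fermat.Agent.ES.RED.ChartIntegralA1 Fermat.Agent.RED.PUR.ChartGeneric22
  Fermat.Agent.FF.GoodRed8 Fermat.Agent.FF.SpecRR1 Fermat.Agent.RED.ModelFinal4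

variable (n e M : ℕ) [NeZero n] [NeZero M] (ℓ : ℕ) [Fact ℓ.Prime] (hℓM : ¬ ℓ ∣ M)
  (hmem : Interface12.TMem n e M) (hgen : Interface12.TGenBase n e)
  (A : ValuationSubring Qbar) (hA : A.LiesOverPrime ℓ)

/-- the residue field of `A`. -/
local notation "kk" => IsLocalRing.ResidueField A

/-- the special-fibre function field. -/
local notation "Ft" => (modularFunctionFieldFullC (IsLocalRing.ResidueField A) M)

/-- shortcut instance (typeclass search takes 4 s to find it). -/
local instance (priority := high) algebraQbarFF6L : Algebra Qbar (X0.FF M) :=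
  SubalgebraClass.toAlgebra (modularFunctionFieldBar M)

/-- shortcut instance (typeclass search takes 4 s to find it). -/
local instance (priority := high) algebraAFF6L : Algebra ↥A (X0.FF M) := Algebra.ofSubsemiring A

/-- shortcut instance (typeclass search takes 4 s to find it). -/
local instance (priority := high) algebraKkFt6L :
    Algebra (IsLocalRing.ResidueField ↥A)
      ↥(modularFunctionFieldFullC (IsLocalRing.ResidueField ↥A) M) :=
  SubalgebraClass.toAlgebra (modularFunctionFieldFullC (IsLocalRing.ResidueField ↥A) M)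

include hℓM hmem hgen hA in
/-- **`(G)`: `δ_g(m (t̃)_∞) = 0` for all large `m`.** -/
theorem delta_eq_zero_level (hsm : SmoothTargets n e M A)
    (r : Place Qbar (X0.FF M) → Place kk Ft) (hr : IsPlaceReductionModL A M r)
    (HLb : LHyp kk Ft) :
    ∃ n₁ : ℕ, ∀ m : ℕ, n₁ ≤ m →
      delta ((@genus Qbar (X0.FF M) _ _ _
        (Fermat.Agent.X0.HasCanDivInst.hasCanonicalDivisor M) : ℕ) : ℤ)
        (m • poleDiv HLb (tRes_ne_zero n e M ℓ hℓM hmem hgen A hA)) = 0 := by
  haveI := Fermat.Agent.X0.HasCanDivInst.hasCanonicalDivisor M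
  have HL := lHyp_bar n e M hmem
  have hρt := Fermat.Agent.FF.ChartInst7.redF_tO n e M ℓ hℓM hmem hgen A hA
  have hS0 : ∀ y ∈ chart kk (redF A M ℓ hA hℓM (Fermat.Agent.FF.ChartInst7.tO n e M hmem A)),
      ∃ b ∈ Fermat.Agent.FF.ChartInst7.B0 n e M hmem A, redF A M ℓ hA hℓM b = y := by
    rw [hρt]
    exact fun y hy => Fermat.Agent.FF.ChartInst7.exists_B0_red_eq n e M ℓ hℓM hmem hgen A hA hsm y hy
  have hS1 : ∀ y ∈ chart kk (redF A M ℓ hA hℓM (Fermat.Agent.FF.ChartInst7.tO n e M hmem A))⁻¹,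
      ∃ b ∈ Fermat.Agent.FF.ChartInst7.B1 n e M hmem A, redF A M ℓ hA hℓM b = y := by
    rw [hρt]
    exact fun y hy => Fermat.Agent.FF.ChartInst7.exists_B1_red_eq n e M ℓ hℓM hmem hgen A hA hsm y hy
  obtain ⟨n₁, hn₁⟩ := delta_le_zero_of_charts n e M ℓ hℓM hmem hgen A hA HL HLb
    (A0 := Fermat.Agent.FF.ChartInst7.A0 M A)
    (B0 := Fermat.Agent.FF.ChartInst7.B0 n e M hmem A)
    (B1 := Fermat.Agent.FF.ChartInst7.B1 n e M hmem A)
    (tO := Fermat.Agent.FF.ChartInst7.tO n e M hmem A)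
    (sO := Fermat.Agent.FF.ChartInst7.sO n e M hmem A)
    rfl hρt (Fermat.Agent.FF.ChartInst7.tO_mul_sO n e M hmem A)
    (Fermat.Agent.FF.ChartInst7.tO_mem_B0 n e M hmem A)
    (Fermat.Agent.FF.ChartInst7.sO_mem_B1 n e M hmem A)
    (Fermat.Agent.FF.ChartInst7.A0_le_B0 n e M hmem A)
    (Fermat.Agent.FF.ChartInst7.A0_le_B1 n e M hmem A)
    (fun a => ⟨a, rfl⟩) (fun b hb => hb) (fun b hb => hb) hS0 hS1
    (Fermat.Agent.FF.ChartInst7.exists_sO_pow_mul_mem_B1 n e M hmem A)
    (Fermat.Agent.FF.ChartInst7.exists_tO_pow_mul_mem_B0 n e M hmem A)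
    ((genus Qbar (X0.FF M) : ℕ) : ℤ) (riemann_genus n e M hmem)
    (tRes_ne_zero n e M ℓ hℓM hmem hgen A hA)
  refine ⟨n₁, fun m hm => le_antisymm (hn₁ m hm) ?_⟩
  exact delta_nonneg HLb _
    (riemann_inequality_special_genus n e M ℓ hℓM hmem hgen A hA r hr) _

include hℓM hmem hgen hA in
/-- **(N1): one divisor of the special fibre with `δ_g = 0`.** -/
theorem exists_delta_eq_zero (hsm : SmoothTargets n e M A)
    (r : Place Qbar (X0.FF M) → Place kk Ft) (hr : IsPlaceReductionModL A M r) :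
    ∃ D₀ : Divisor kk Ft,
      delta ((@genus Qbar (X0.FF M) _ _ _
        (Fermat.Agent.X0.HasCanDivInst.hasCanonicalDivisor M) : ℕ) : ℤ) D₀ = 0 := by
  have HLb := lHyp_special n e M ℓ hℓM hmem hgen A hA r hr
  obtain ⟨n₁, hn₁⟩ := delta_eq_zero_level n e M ℓ hℓM hmem hgen A hA hsm r hr HLb
  exact ⟨_, hn₁ n₁ le_rfl⟩

include hℓM hA in
/-- **(N1) from a Hauptmodul base `(n, e)` dividing the level.** -/
theorem exists_delta_eq_zero_base (hb : Hauptmodul12.BaseHyp n e) (hnM : n ∣ M)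
    (r : Place Qbar (X0.FF M) → Place kk Ft) (hr : IsPlaceReductionModL A M r) :
    ∃ D₀ : Divisor kk Ft,
      delta ((@genus Qbar (X0.FF M) _ _ _
        (Fermat.Agent.X0.HasCanDivInst.hasCanonicalDivisor M) : ℕ) : ℤ) D₀ = 0 := by
  obtain ⟨cv, hcv⟩ := Fermat.Agent.ES.RED.BaseCases3.exists_cuspExports hb M hnM
  exact exists_delta_eq_zero n e M ℓ hℓM (Hauptmodul12.tMem_of_dvd hb hnM)
    (Hauptmodul12.tGenBase' hb) A hA
    (Fermat.Agent.FF.ChartInst7.smoothTargets n e M ℓ hℓM A hA hb hnM cv hcv) r hr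

end Fermat.Agent.FF.SpecialRR6
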