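/-
Programme FF (S19), integration (helper8): **the statement S19, unconditionally.**

`ConcreteC8.s19_of_N1_N2` with (N1) := `SpecialRR6.exists_delta_eq_zero_base` (helper6, helper7) and
(N2) := `ChooseInst1.exists_choose_data` (helper3, helper1).
-/
import Mathlib
import Fermat.Agent.FF.ConcreteC8
import Fermat.Agent.FF.SpecialRR6L
import Fermat.Agent.FF.ChooseInst1

set_option autoImplicit false
set_option synthInstance.maxHeartbeats 400000

open AlgebraicCurve ModularCurve IsLocalRing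

namespace Fermat.Agent.FF.ConcreteD8

open Fermat.Agent.FF.SpecRR1 Fermat.Agent.RED.Interface4 Fermat.Agent.FF.GaussOv1
  Fermat.Agent.ES.RED Fermat.Agent.FF.Shapes8 Fermat.Agent.RED.BASE
  Fermat.Agent.FF.InertiaWire8 Fermat.Agent.RED.BASE.Hauptmodul12

set_option maxHeartbeats 1600000 in
/-- **S19**: for a prime `ℓ` not dividing the level `p`, the `ℓ^k`-torsion of `J₀(p)` is,
Galois-equivariantly, the group of `ℚ̄`-points of a finite flat commutative group scheme over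
`ℤ_(ℓ)`. -/
theorem s19 (p : ℕ) [NeZero p] (ℓ : ℕ) [Fact ℓ.Prime] (hℓp : ¬ ℓ ∣ p) (k : ℕ) :
    ∃ (H : Type) (_ : CommRing H) (_ : HopfAlgebra (GaloisRep.ratLocalizedAt ℓ) H),
      Module.Finite (GaloisRep.ratLocalizedAt ℓ) H ∧ Module.Flat (GaloisRep.ratLocalizedAt ℓ) H ∧
      Coalgebra.IsCocomm (GaloisRep.ratLocalizedAt ℓ) H ∧
      ∃ e : WithConv (H →ₐ[GaloisRep.ratLocalizedAt ℓ] AlgebraicClosure ℚ) ≃
          ↥(Submodule.torsionBy ℤ (JZero p) ((ℓ : ℤ) ^ k)),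
        (∀ f g, e (f * g) = e f + e g) ∧
        ∀ (σ : AlgebraicClosure ℚ ≃ₐ[ℚ] AlgebraicClosure ℚ)
          (f g : WithConv (H →ₐ[GaloisRep.ratLocalizedAt ℓ] AlgebraicClosure ℚ)),
          (∀ h : H, g h = σ (f h)) → ((e g : JZero p)) = σ • (e f : JZero p) := by
  refine ConcreteC8.s19_of_N1_N2 p ℓ hℓp k ?_ ?_
  · intro A hA n e M _ _ hb hnM hℓM r hr
    exact Fermat.Agent.FF.SpecialRR6.exists_delta_eq_zero_base n e M ℓ hℓM A hA hb hnM r hr
  · intro A hA n e M _ _ hb hnM hℓM r hr hrI D₀ h0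
    obtain ⟨m, φ, Pb, hinj, hPb, hnp, hφ, hell, hφI, hzero, -, Sbad, P₁, hP₁, hlift⟩ :=
      Fermat.Agent.FF.ChooseInst1.exists_choose_data n e M ℓ hℓM (tMem_of_dvd hb hnM)
        (tGenBase' hb) A hA r hr hrI (genusFF Qbar ↥(Fbar M))
        (ConcreteB8.hRb_FF n e M ℓ hℓM (tMem_of_dvd hb hnM) (tGenBase' hb) A hA r hr) h0
    exact ⟨m, φ, Pb, hinj, hPb, hnp, hφ, hell, hφI, hzero, Sbad, P₁, hP₁, hlift⟩

end Fermat.Agent.FF.ConcreteD8
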