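/-
Programme FF / Programme T (helper8): the packages `AbsTheta8.nonempty_thetaInput`,
`ConcreteA8.thetaInput_of_chapters`, `ConcreteB8.package_of_level` once more, REMEMBERING the
embedding `emb` and the reduction homomorphism `red` of the `ThetaInput` (the originals hide them
behind `Nonempty`).  Used by `ConnOrder8` to identify `M₀ = M ∩ ker red`.
-/
import Mathlib
import Fermat.Agent.FF.ConcreteB8

set_option autoImplicit false
set_option synthInstance.maxHeartbeats 400000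

open AlgebraicCurve ModularCurve IsLocalRing

namespace Fermat.Agent.FF.ConnPack8

section Abs

open Fermat.Agent.FF.CoreIface8 Fermat.Agent.FF.GeomIface8 Fermat.Agent.FF.Theta8
  Fermat.Agent.FF.Assembly8 Fermat.Agent.FF.ThetaKer5 Fermat.Agent.FF.ThetaBridge5
  Fermat.Agent.FF.ThetaGlue8 Fermat.Agent.FF.DiscOfRedA Fermat.Agent.FF.UniqueZeroA
  Fermat.Agent.FF.SpecRR1 Fermat.Agent.FF.InvLift8 Fermat.Agent.RR.LSpace
  AlgebraicCurve.SemilinearAut Fermat.Agent.FF.AbsTheta8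

variable {K : Type} [Field K] {F : Type*} [Field F] [Algebra K F]
variable {κ : Type*} [Field κ] {Fb : Type*} [Field Fb] [Algebra κ Fb]
variable {A : ValuationSubring K} (C : RedCtxV A F κ Fb)
variable {d : ℕ} (φ : C.O) (Pb : Fin d → Place κ Fb)
variable (hPb : ∀ j, (Pb j).ord (C.ρ φ) = 1)
variable (hnp : ∀ j P, C.r P = Pb j → 0 ≤ P.ord (φ : F))
variable (g : ℕ) (hgd : g ≤ d) (hφ : C.ρ φ ≠ 0)
variable {Γ : Type*} [Group Γ] [MulSemiringAction Γ K] [DistribMulAction Γ (Pic0 K F)]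

/-- `AbsTheta8.nonempty_thetaInput`, remembering `emb` and `red`. -/
theorem exists_thetaInput_with
    (hinj : Function.Injective Pb) (HL : LHyp K F) (HLb : LHyp κ Fb)
    (hell : ell (∑ j : Fin g, Finsupp.single (Pb (Fin.castLE hgd j)) (1 : ℤ)) ≤ 1)
    (hsemi : ∀ D : Divisor K F, ell D ≤ ell (Finsupp.mapDomain C.r D))
    (hR : ∀ D : Divisor K F, Divisor.degree D + 1 - (g : ℤ) ≤ ell D)
    (hRb : ∀ D : Divisor κ Fb, Divisor.degree D + 1 - (g : ℤ) ≤ ell D)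
    [Infinite κ] {D₀ : Divisor κ Fb} (h0 : delta (g : ℤ) D₀ = 0)
    (hΓA : ∀ (σ : Γ) (a : K), a ∈ A → σ • a ∈ A)
    (γ : Γ → SemilinearAut K F)
    (hγ : ∀ (σ : Γ) (z : Pic0 K F), σ • z = γ σ • z)
    (hγK : ∀ (σ : Γ) (a : K), baseAut (γ σ) a = σ • a)
    (hγφ : ∀ σ : Γ, γ σ • (φ : F) = (φ : F))
    (hγr : ∀ (σ : Γ) (P : Place K F), C.r (γ σ • P) = C.r P)
    {Jb : Type*} [AddCommGroup Jb] (red : Pic0 K F →+ Jb)
    (hred : ∀ D : Divisor.degZero (K := K) (F := F), red (Pic0.mk D) = 0 ↔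
      Finsupp.mapDomain C.r (D : Divisor K F) ∈ Divisor.principal (K := κ) (F := Fb))
    (hredΓ : ∀ (σ : Γ) (z : Pic0 K F), red (σ • z) = red z)
    {M : Type} [AddCommGroup M] [DistribMulAction Γ M] (emb : M →+ Pic0 K F)
    (emb_inj : Function.Injective emb) (emb_smul : ∀ (σ : Γ) (z : M), emb (σ • z) = σ • emb z)
    (Sbad : Finset (Place κ Fb)) (P₁ : Place κ Fb) (hP₁ : P₁ ∉ Sbad)
    (hlift : ∀ Qb : Place κ Fb, Qb ∉ Sbad →
      ∃ Q : Place K F, C.r Q = Qb ∧ ∀ σ : Γ, γ σ • Q = Q) :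
    ∃ I : ThetaInput (C.discModel φ Pb hPb hnp g hgd hφ) (fun _ _ => HL.deg_eq_one _) Γ M Jb,
      I.emb = emb ∧ I.red = red := by
  have hex : ∀ z : Pic0 K F, ∃ y : Pic0 K F, red y = red z ∧ ∀ σ : Γ, σ • y = y := by
    intro z
    obtain ⟨y, hy1, hy2⟩ := exists_invariant_lift γ C.r HL HLb (g : ℤ) hRb red hred h0 Sbad P₁ hP₁
      hlift z
    exact ⟨y, hy1, fun σ => by rw [hγ]; exact hy2 σ⟩
  obtain ⟨Pt, hPt1, hPt2, hPt3⟩ := exists_Pt red emb hex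
  exact ⟨thetaInput (C.discModel φ Pb hPb hnp g hgd hφ) (fun _ _ => HL.deg_eq_one _) C.r hΓA γ hγ hγK
    hγφ hγr (h1_of_red C φ Pb hPb hnp g hgd hφ) (hdisj_of_red C φ Pb hPb hnp g hgd hφ hinj)
    (h2_of_red C φ Pb hPb hnp g hgd hφ) (h3_of_red C φ Pb hPb hnp g hgd hφ hinj)
    (nonSpecial_of_red C φ Pb hPb hnp g hgd hφ HLb hell) (h5_of_red C)
    (riemannEff_of_riemann HL g hR)
    (weakSemicont_of_semicont _ C.r HL (fun x _ => hsemi _)) red hred hredΓ emb emb_inj emb_smul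
    Pt hPt1 hPt2 hPt3, rfl, rfl⟩

end Abs

section Concrete

open Fermat.Agent.FF.CoreIface8 Fermat.Agent.FF.GeomIface8 Fermat.Agent.FF.Assembly8
  Fermat.Agent.FF.InertiaWire8 Fermat.Agent.FF.S19Wire1 Fermat.Agent.FF.SpecRR1
  Fermat.Agent.FF.DiscOfRedA Fermat.Agent.FF.UniqueZeroA Fermat.Agent.RR.LSpace
  Fermat.Agent.RED.Interface4 Fermat.Agent.FF.GaussOv1 Fermat.Agent.ES.RED
  Fermat.Agent.FF.Shapes8 Fermat.Agent.FF.ConcreteR8

set_option maxHeartbeats 3200000 in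
/-- `ConcreteA8.thetaInput_of_chapters`, remembering `emb` and `red`. -/
theorem thetaInput_of_chapters_with (M' : ℕ) [NeZero M'] (ℓ : ℕ) (k : ℕ) [Fact ℓ.Prime]
    (A : ValuationSubring Qb) (hA : A.LiesOverPrime ℓ)
    (hℓM : ¬ ℓ ∣ M') (n e : ℕ) [NeZero n]
    (hmem : Fermat.Agent.RED.BASE.Interface12.TMem n e M')
    (hgen : Fermat.Agent.RED.BASE.Interface12.TGenBase n e)
    (r : Place Qbar ↥(Fbar M') →
      Place (Setup8.kA A) ↥(modularFunctionFieldFullC (Setup8.kA A) M'))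
    (hr : IsPlaceReductionModL A M' r)
    -- G0(c)
    (hrI : ∀ τ ∈ A.inertiaSubgroupIn ℚ, ∀ P : Place Qbar ↥(Fbar M'),
      r ((arithmeticGalois (modularFunctionFieldFull M') τ :
        SemilinearAut Qbar ↥(Fbar M')) • P) = r P)
    {Jb : Type*} [AddCommGroup Jb] (red : JZero M' →+ Jb)
    (hred : ∀ D : Divisor.degZero (K := Qbar) (F := ↥(Fbar M')),
      red (Pic0.mk D) = 0 ↔ Finsupp.mapDomain r (D : Divisor Qbar ↥(Fbar M')) ∈
        Divisor.principal (K := Setup8.kA A)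
          (F := ↥(modularFunctionFieldFullC (Setup8.kA A) M')))
    (hredI : ∀ τ ∈ A.inertiaSubgroupIn ℚ, ∀ z : JZero M', red (τ • z) = red z)
    -- G6
    (g : ℕ)
    (hR : ∀ D : Divisor Qbar ↥(Fbar M'), Divisor.degree D + 1 - (g : ℤ) ≤ ell D)
    (hRb : ∀ D : Divisor (Setup8.kA A) ↥(modularFunctionFieldFullC (Setup8.kA A) M'),
      Divisor.degree D + 1 - (g : ℤ) ≤ ell D)
    {D₀ : Divisor (Setup8.kA A) ↥(modularFunctionFieldFullC (Setup8.kA A) M')}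
    (h0 : delta (g : ℤ) D₀ = 0)
    -- G2a
    {d : ℕ}
    (φ : Ov A M' ℓ hA hℓM)
    (Pb : Fin d → Place (Setup8.kA A) ↥(modularFunctionFieldFullC (Setup8.kA A) M'))
    (hPb : ∀ j, (Pb j).ord (ρ A M' ℓ hA hℓM φ) = 1)
    (hnp : ∀ (j : Fin d) (P : Place Qbar ↥(Fbar M')), r P = Pb j →
      0 ≤ P.ord (φ : ↥(Fbar M')))
    (hgd : g ≤ d)
    (hφ : ρ A M' ℓ hA hℓM φ ≠ 0)
    (hinj : Function.Injective Pb)
    (hell : ell (∑ j : Fin g, Finsupp.single (Pb (Fin.castLE hgd j)) (1 : ℤ)) ≤ 1)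
    (hφI : ∀ τ ∈ A.inertiaSubgroupIn ℚ,
      (arithmeticGalois (modularFunctionFieldFull M') τ :
        SemilinearAut Qbar ↥(Fbar M')) • (φ : ↥(Fbar M')) =
        (φ : ↥(Fbar M')))
    -- G2b
    (Sbad : Finset (Place (Setup8.kA A) ↥(modularFunctionFieldFullC (Setup8.kA A) M')))
    (P₁ : Place (Setup8.kA A) ↥(modularFunctionFieldFullC (Setup8.kA A) M'))
    (hP₁ : P₁ ∉ Sbad)
    (hlift : ∀ Qb, Qb ∉ Sbad → ∃ Q : Place Qbar ↥(Fbar M'), r Q = Qb ∧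
      ∀ τ ∈ A.inertiaSubgroupIn ℚ,
        (arithmeticGalois (modularFunctionFieldFull M') τ :
          SemilinearAut Qbar ↥(Fbar M')) • Q = Q)
    -- G3b
    (hG3 : ∃ (nV : ℕ) (D : CoreData A (Fin nV → A) g d),
        ClosedFibre D (IsLocalRing.ResidueField A) ∧
        Nonempty (LatticeModel
          ((redCtxV A M' ℓ hA hℓM r hr).discModel φ Pb hPb hnp g hgd hφ) D)) :
    ∃ (nV : ℕ) (D : CoreData A (Fin nV → A) g d)
      (HL : LHyp Qbar ↥(Fbar M')),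
      (∃ I : ThetaInput ((redCtxV A M' ℓ hA hℓM r hr).discModel φ Pb hPb hnp g hgd hφ)
        (fun _ _ => HL.deg_eq_one _) (Iner A) (Tors M' ℓ k) Jb,
        I.emb = (Submodule.subtype _).toAddMonoidHom ∧ I.red = red) ∧
      ClosedFibre D (IsLocalRing.ResidueField A) ∧
      Nonempty (LatticeModel
        ((redCtxV A M' ℓ hA hℓM r hr).discModel φ Pb hPb hnp g hgd hφ) D) ∧
      ∀ (j j' : Fin d) (t t' : A), t ∈ maximalIdeal A → t' ∈ maximalIdeal A →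
        ((redCtxV A M' ℓ hA hℓM r hr).discModel φ Pb hPb hnp g hgd hφ).P j t =
          ((redCtxV A M' ℓ hA hℓM r hr).discModel φ Pb hPb hnp g hgd hφ).P j' t' → j = j' := by
  have : IsAlgClosed (Setup8.kA A) := Fermat.Agent.ES.RED.SpecialInv25.isAlgClosed_kk A
  have : Infinite (Setup8.kA A) := IsAlgClosed.instInfinite
  have HL : LHyp Qbar ↥(Fbar M') :=
    Fermat.Agent.FF.SpecialRR6.lHyp_bar n e M' hmem
  have HLb : LHyp (Setup8.kA A) ↥(modularFunctionFieldFullC (Setup8.kA A) M') :=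
    Fermat.Agent.FF.SpecialRR6.lHyp_special n e M' ℓ hℓM hmem hgen A hA r hr
  have hmany := hasManyPlaces A M' ℓ hA hℓM n e hmem hgen r hr
  obtain ⟨nV, D, hcf, ⟨L⟩⟩ := hG3
  obtain ⟨I, hI1, hI2⟩ := exists_thetaInput_with (Γ := Iner A) (M := Tors M' ℓ k)
    (redCtxV A M' ℓ hA hℓM r hr) φ Pb hPb hnp g hgd hφ hinj HL HLb hell
    (fun D => ThetaAbs5.ell_le_ell_mapDomain (absRed A M' ℓ hA hℓM r hr) HL HLb hmany D)
    hR hRb h0 (hΓA A)
    (fun σ => arithmeticGalois (modularFunctionFieldFull M') (σ : InertiaWire8.GQ))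
    (fun σ z => rfl) (fun σ a => rfl) (fun σ => hφI σ.1 σ.2) (fun σ P => hrI σ.1 σ.2 P)
    red hred (fun σ z => hredI σ.1 σ.2 z)
    (Submodule.subtype _).toAddMonoidHom Subtype.val_injective (fun σ z => rfl)
    Sbad P₁ hP₁ (fun Qb hQb => by
      obtain ⟨Q, hQ, hQI⟩ := hlift Qb hQb
      exact ⟨Q, hQ, fun σ => hQI σ.1 σ.2⟩)
  exact ⟨nV, D, HL, ⟨I, hI1, hI2⟩, hcf, ⟨L⟩,
    ThetaBridge5.hdisj_of_red (redCtxV A M' ℓ hA hℓM r hr) φ Pb hPb hnp g hgd hφ hinj⟩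

variable (n e M : ℕ) [NeZero n] [NeZero M] (ℓ : ℕ) [Fact ℓ.Prime] (hℓM : ¬ ℓ ∣ M)
  (hmem : Fermat.Agent.RED.BASE.Interface12.TMem n e M)
  (hgen : Fermat.Agent.RED.BASE.Interface12.TGenBase n e)
  (A : ValuationSubring Qbar) (hA : A.LiesOverPrime ℓ)

set_option maxHeartbeats 1600000 in
include hℓM hmem hgen hA in
/-- `ConcreteB8.package_of_level`, remembering `emb` and `red`. -/
theorem package_of_level_with (k : ℕ) (r : PlF M → PlB A M) (hr : IsPlaceReductionModL A M r)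
    (hrI : InertiaInv A M r)
    {Jb : Type*} [AddCommGroup Jb] (red : JZero M →+ Jb)
    (hred : ∀ D : Divisor.degZero (K := Qbar) (F := ↥(Fbar M)),
      red (Pic0.mk D) = 0 ↔ Finsupp.mapDomain r (D : Divisor Qbar ↥(Fbar M)) ∈
        Divisor.principal (K := Setup8.kA A)
          (F := ↥(modularFunctionFieldFullC (Setup8.kA A) M)))
    (hredI : ∀ τ ∈ A.inertiaSubgroupIn ℚ, ∀ z : JZero M, red (τ • z) = red z)
    (hN1 : ∃ D₀ : Divisor (Setup8.kA A) ↥(modularFunctionFieldFullC (Setup8.kA A) M),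
      delta (genus Qbar ↥(Fbar M) : ℤ) D₀ = 0)
    (hN2 : ChooseShape A M ℓ hA hℓM r (genusFF Qbar ↥(Fbar M))) :
    ∃ (d : ℕ) (Mod : DiscModel A ↥(Fbar M) (genusFF Qbar ↥(Fbar M)) d)
      (nV : ℕ) (D : CoreData A (Fin nV → A) (genusFF Qbar ↥(Fbar M)) d)
      (HL : LHyp Qbar ↥(Fbar M)),
      (∃ I : ThetaInput Mod (fun _ _ => HL.deg_eq_one _) (Iner A) (Tors M ℓ k) Jb,
        I.emb = (Submodule.subtype _).toAddMonoidHom ∧ I.red = red) ∧
      ClosedFibre D (IsLocalRing.ResidueField A) ∧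
      Nonempty (LatticeModel Mod D) ∧
      ∀ (j j' : Fin d) (t t' : A), t ∈ maximalIdeal A → t' ∈ maximalIdeal A →
        Mod.P j t = Mod.P j' t' → j = j' := by
  obtain ⟨D₀, h0⟩ := hN1
  rw [ConcreteB8.genus_eq n e M hmem] at h0
  obtain ⟨m, φ, Pb, hinj, hPb, hnp, hφ, hell, hφI, hzero, Sbad, P₁, hP₁, hlift⟩ := hN2
  have HLb : LHyp (Setup8.kA A) ↥(modularFunctionFieldFullC (Setup8.kA A) M) :=
    Fermat.Agent.FF.SpecialRR6.lHyp_special n e M ℓ hℓM hmem hgen A hA r hr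
  have hNS := ThetaBridge5.nonSpecial_of_red (redCtxV A M ℓ hA hℓM r hr) φ Pb hPb hnp
    (genusFF Qbar ↥(Fbar M)) (Nat.le_add_right _ m) hφ HLb hell
  obtain ⟨nV, D, L, hcf⟩ := CoreInst2.exists_coreData_concrete n e M ℓ hℓM hmem hgen A hA r hr
    φ Pb hPb hnp (Nat.le_add_right _ m) hφ hinj hzero hNS
  obtain ⟨nV', D', HL, hI, hcf', hL', hdisj⟩ :=
    thetaInput_of_chapters_with M ℓ k A hA hℓM n e hmem hgen r hr hrI red hred hredI
      (genusFF Qbar ↥(Fbar M)) (ConcreteB8.hR_FF n e M hmem)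
      (ConcreteB8.hRb_FF n e M ℓ hℓM hmem hgen A hA r hr) h0
      φ Pb hPb hnp (Nat.le_add_right _ m) hφ hinj hell hφI Sbad P₁ hP₁ hlift ⟨nV, D, hcf, ⟨L⟩⟩
  exact ⟨_, _, nV', D', HL, hI, hcf', hL', hdisj⟩

end Concrete

end Fermat.Agent.FF.ConnPack8
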