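/-
Programme FF, export for S32 (helper8): the ORDER FORM of S19.

For a prime `ℓ` not dividing `p` there is a Hopf order (`SubOrd1.IsHopfOrder`: a finite,
`G_ℚ`-equivariant, separating `ℤ_(ℓ)`-subalgebra of `Map(M, ℚ̄)` generated by functions with a
coproduct) on `M = J₀(auxLevel ℓ p)[ℓ^k]` (`exists_isHopfOrder_aux`) and on `M = J₀(p)[ℓ^k]`
(`exists_isHopfOrder`).  Same chain as `ConcreteD8.s19`, stopped before the Hopf order criterion.
-/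
import Mathlib
import Fermat.Agent.FF.ConcreteD8

set_option autoImplicit false
set_option synthInstance.maxHeartbeats 400000

open AlgebraicCurve ModularCurve IsLocalRing

namespace Fermat.Agent.FF.OrderForm8

open Fermat.Agent.FF.CoreIface8 Fermat.Agent.FF.GeomIface8 Fermat.Agent.FF.Assembly8
  Fermat.Agent.FF.InertiaWire8 Fermat.Agent.FF.OrderCoordD Fermat.Agent.FF.HopfOrderB
  Fermat.Agent.FF.HopfOrderC Fermat.Agent.FF.FinalWire8 Fermat.Agent.FF.S19Wire1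
  Fermat.Agent.FF.SubOrd1 Fermat.Agent.FF.SpecRR1 Fermat.Agent.RED.Interface4
  Fermat.Agent.FF.GaussOv1 Fermat.Agent.ES.RED Fermat.Agent.FF.Shapes8 Fermat.Agent.RED.BASE
  Fermat.Agent.RED.BASE.Hauptmodul12 Fermat.Agent.RR.LSpace

universe v

/-- the order form of `FinalS19_8.s19_of_thetaInput`, at an arbitrary level `M'`. -/
theorem isHopfOrder_of_thetaInput (M' : ℕ) [NeZero M'] (ℓ : ℕ) (k : ℕ) [Fact ℓ.Prime]
    (A : ValuationSubring Qb) (hA : A.LiesOverPrime ℓ) {g d : ℕ}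
    (Mod : DiscModel A (modularFunctionFieldBar M') g d)
    (hdeg : ∀ (j : Fin d) (t : A), (Mod.P j t).deg = 1)
    {Jb : Type*} [AddCommGroup Jb]
    (I : ThetaInput Mod hdeg (Iner A) (Tors M' ℓ k) Jb)
    {V : Type v} [AddCommGroup V] [Module A V] {D : CoreData A V g d}
    (hcf : ClosedFibre D (IsLocalRing.ResidueField A)) (L : LatticeModel Mod D)
    (hdisj : ∀ (j j' : Fin d) (t t' : A), t ∈ maximalIdeal A → t' ∈ maximalIdeal A →
      Mod.P j t = Mod.P j' t' → j = j') :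
    ∃ H : Subalgebra (GaloisRep.ratLocalizedAt ℓ) (Tors M' ℓ k → AlgebraicClosure ℚ),
      IsHopfOrder S19Wire1.GQ H := by
  have hℓ : ℓ.Prime := Fact.out
  have := finite_tors M' ℓ k
  obtain ⟨hTA, hTI, hsep, hΔ⟩ := descent_input I hℓ hA hcf L hdisj
  obtain ⟨H, hfin, heq, hsep', hΔ'⟩ := Desc4.exists_globalOrder A hA
    (OpenStab1.exists_level_tors M' ℓ k) (genSet (Kbar := Qb) I.M0 I.x) hTA hTI hsep hΔ
  refine ⟨H, ⟨hfin, fun h hh σ z => heq h hh σ z, hsep', ⟨{s | s ∈ H}, ?_, fun s hs => hΔ' s hs⟩⟩⟩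
  exact (Algebra.adjoin_eq H).symm

set_option maxHeartbeats 1600000 in
/-- **a Hopf order on `J₀(M)[ℓ^k]` at every level `M` with a Hauptmodul base, `ℓ ∤ M`.** -/
theorem exists_isHopfOrder_level (ℓ : ℕ) [Fact ℓ.Prime] (k : ℕ) (n e M : ℕ) [NeZero n] [NeZero M]
    (hb : BaseHyp n e) (hnM : n ∣ M) (hℓM : ¬ ℓ ∣ M) :
    ∃ H : Subalgebra (GaloisRep.ratLocalizedAt ℓ) (Tors M ℓ k → AlgebraicClosure ℚ),
      IsHopfOrder S19Wire1.GQ H := by
  have hℓ : ℓ.Prime := Fact.out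
  obtain ⟨A, hA⟩ := Fermat.Agent.Lib.FrobeniusExists.exists_valuationSubring_liesOverPrime ℓ hℓ
  obtain ⟨r, hr, red, hrI, hred, hredI⟩ :=
    Fermat.Agent.FF.RedConcrete5.exists_red_package hℓ A hA n e hb M hnM hℓM
  have hrI' : InertiaInv A M r := fun τ hτ P => hrI ⟨τ, hτ⟩ P
  have hmem := tMem_of_dvd hb hnM
  have hgen := tGenBase' hb
  obtain ⟨D₀, h0⟩ :=
    Fermat.Agent.FF.SpecialRR6.exists_delta_eq_zero_base n e M ℓ hℓM A hA hb hnM r hr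
  have h0' : delta (genusFF Qbar ↥(Fbar M) : ℤ) D₀ = 0 := by
    rw [← ConcreteB8.genus_eq n e M hmem]
    exact h0
  have hch : ChooseShape A M ℓ hA hℓM r (genusFF Qbar ↥(Fbar M)) := by
    obtain ⟨m, φ, Pb, hinj, hPb, hnp, hφ, hell, hφI, hzero, -, Sbad, P₁, hP₁, hlift⟩ :=
      Fermat.Agent.FF.ChooseInst1.exists_choose_data n e M ℓ hℓM hmem hgen A hA r hr hrI'
        (genusFF Qbar ↥(Fbar M)) (ConcreteB8.hRb_FF n e M ℓ hℓM hmem hgen A hA r hr) h0'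
    exact ⟨m, φ, Pb, hinj, hPb, hnp, hφ, hell, hφI, hzero, Sbad, P₁, hP₁, hlift⟩
  obtain ⟨d, Mod, nV, D, HL, ⟨I⟩, hcf, ⟨L⟩, hdisj⟩ :=
    ConcreteB8.package_of_level n e M ℓ hℓM hmem hgen A hA k r hr
      hrI' red hred (fun τ hτ z => hredI ⟨τ, hτ⟩ z) ⟨D₀, h0⟩ hch
  exact isHopfOrder_of_thetaInput M ℓ k A hA Mod _ I hcf L hdisj

/-- **a Hopf order on `J₀(auxLevel ℓ p)[ℓ^k]`.** -/
theorem exists_isHopfOrder_aux (p : ℕ) [NeZero p] (ℓ : ℕ) [Fact ℓ.Prime] (hℓp : ¬ ℓ ∣ p) (k : ℕ) :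
    haveI := Fermat.Agent.RED.LVL.LevelDegree17.neZero_auxLevel ℓ p
    ∃ H : Subalgebra (GaloisRep.ratLocalizedAt ℓ)
        (Tors (auxLevel ℓ p) ℓ k → AlgebraicClosure ℚ), IsHopfOrder S19Wire1.GQ H := by
  have hℓ : ℓ.Prime := Fact.out
  have := Fermat.Agent.RED.LVL.LevelDegree17.neZero_auxLevel ℓ p
  obtain ⟨n, e, hn, hb, hnM⟩ := Fermat.Agent.FF.RedConcrete5.exists_base_auxLevel ℓ p
  exact exists_isHopfOrder_level ℓ k n e (auxLevel ℓ p) hb hnM (not_dvd_auxLevel hℓ hℓp)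

/-- **a Hopf order on `J₀(p)[ℓ^k]`** for every level `p` prime to `ℓ`. -/
theorem exists_isHopfOrder (p : ℕ) [NeZero p] (ℓ : ℕ) [Fact ℓ.Prime] (hℓp : ¬ ℓ ∣ p) (k : ℕ) :
    ∃ H : Subalgebra (GaloisRep.ratLocalizedAt ℓ) (Tors p ℓ k → AlgebraicClosure ℚ),
      IsHopfOrder S19Wire1.GQ H := by
  have := Fermat.Agent.RED.LVL.LevelDegree17.neZero_auxLevel ℓ p
  obtain ⟨H, hH⟩ := exists_isHopfOrder_aux p ℓ hℓp k
  exact ⟨_, hH.comap (S19Aux1.torsPullback ℓ k (dvd_auxLevel ℓ p))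
    (S19Aux1.torsPullback_auxLevel_injective p ℓ k)
    (S19Aux1.torsPullback_smul ℓ k (dvd_auxLevel ℓ p))⟩

end Fermat.Agent.FF.OrderForm8
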