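/-
Programme FF / Programme T (helper8): the order of S19 in LOCAL form, with CONNECTEDNESS.

`A` a valuation subring of `ℚ̄` over `ℓ`, `Γ = Iner A` its inertia group, `W₀ = A^Γ`.  For
`M = J₀(N)[ℓ^k]`, `ℓ ∤ N`, `N` with a Hauptmodul base, and a reduction package `(r, red)`:

* `order (W0 A) M₀ x` (coset indicators of `M₀ = M ∩ ker red` and the coordinates `x`) is a Hopf
  order over `(W₀, Γ)` in the sense of `SubOrd1.IsHopfOrder`, with values in `A`;
* it is CONNECTED RELATIVE TO `red`: `h z - h z' ∈ 𝔪_A` whenever `red z = red z'`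
  (`exists_connOrder_level`); in particular its restriction to any `Γ`-stable subgroup of `ker red`
  is a Hopf order all of whose elements `h` satisfy `h z - h 0 ∈ 𝔪_A` (`exists_connOrder_comap`).
-/
import Mathlib
import Fermat.Agent.FF.OrderForm8
import Fermat.Agent.FF.ConnPack8

set_option autoImplicit false
set_option synthInstance.maxHeartbeats 400000

open AlgebraicCurve ModularCurve IsLocalRing

namespace Fermat.Agent.FF.ConnOrder8

open Fermat.Agent.FF.CoreIface8 Fermat.Agent.FF.GeomIface8 Fermat.Agent.FF.Assembly8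
  Fermat.Agent.FF.InertiaWire8 Fermat.Agent.FF.OrderCoordD Fermat.Agent.FF.HopfOrderB
  Fermat.Agent.FF.HopfOrderC Fermat.Agent.FF.AssemblyQb8 Fermat.Agent.FF.SubOrd1

section Nonunits

variable {K : Type*} [Field K] (A : ValuationSubring K)

theorem zero_mem_nonunits : (0 : K) ∈ A.nonunits := by
  rw [ValuationSubring.mem_nonunits_iff_exists_mem_maximalIdeal]
  exact ⟨A.zero_mem, (maximalIdeal A).zero_mem⟩

variable {A}

theorem add_mem_nonunits {a b : K} (ha : a ∈ A.nonunits) (hb : b ∈ A.nonunits) :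
    a + b ∈ A.nonunits := by
  rw [ValuationSubring.mem_nonunits_iff_exists_mem_maximalIdeal] at ha hb ⊢
  obtain ⟨ha, ha'⟩ := ha
  obtain ⟨hb, hb'⟩ := hb
  exact ⟨A.add_mem _ _ ha hb, (maximalIdeal A).add_mem ha' hb'⟩

theorem sub_mem_nonunits {a b : K} (ha : a ∈ A.nonunits) (hb : b ∈ A.nonunits) :
    a - b ∈ A.nonunits := by
  rw [ValuationSubring.mem_nonunits_iff_exists_mem_maximalIdeal] at ha hb ⊢
  obtain ⟨ha, ha'⟩ := ha
  obtain ⟨hb, hb'⟩ := hb
  exact ⟨sub_mem ha hb, (maximalIdeal A).sub_mem ha' hb'⟩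

theorem mul_mem_nonunits_left {a b : K} (ha : a ∈ A) (hb : b ∈ A.nonunits) :
    a * b ∈ A.nonunits := by
  rw [ValuationSubring.mem_nonunits_iff_exists_mem_maximalIdeal] at hb ⊢
  obtain ⟨hb, hb'⟩ := hb
  exact ⟨A.mul_mem _ _ ha hb, (maximalIdeal A).mul_mem_left ⟨a, ha⟩ hb'⟩

theorem mul_mem_nonunits_right {a b : K} (ha : a ∈ A.nonunits) (hb : b ∈ A) :
    a * b ∈ A.nonunits := by
  rw [mul_comm]
  exact mul_mem_nonunits_left hb ha

theorem coe_mem_nonunits_of_mem_maximalIdeal {a : A} (ha : a ∈ maximalIdeal A) :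
    (a : K) ∈ A.nonunits := by
  rw [ValuationSubring.mem_nonunits_iff_exists_mem_maximalIdeal]
  exact ⟨a.2, ha⟩

end Nonunits

section Abstract

universe v

variable {A : ValuationSubring Qb} {g : ℕ}
variable {M : Type} [AddCommGroup M]

/-- **relative connectedness of the coordinate order** (pure algebra): every element of the
`W₀`-algebra generated by the coset indicators of `M₀` and by coordinates `x` with values in `𝔪_A`
is `A`-valued and constant modulo `𝔪_A` on the cosets of `M₀`. -/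
theorem order_sub_mem_nonunits (M0 : AddSubgroup M) (x : M → Fin g → A)
    (hx : ∀ z j, x z j ∈ maximalIdeal A) {h : M → Qb} (hh : h ∈ order (W0 A) M0 x) :
    (∀ z, h z ∈ A) ∧ ∀ z z' : M, z - z' ∈ M0 → h z - h z' ∈ A.nonunits := by
  induction hh using Algebra.adjoin_induction with
  | mem f hf =>
    rcases hf with ⟨z0, rfl⟩ | ⟨j, rfl⟩
    · refine ⟨fun z => cosetInd_mem_A M0 z0 z, fun z z' hzz' => ?_⟩
      have hiff : z - z0 ∈ M0 ↔ z' - z0 ∈ M0 := by
        have h1 : z - z0 = (z - z') + (z' - z0) := by abel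
        rw [h1]
        exact M0.add_mem_cancel_left hzz'
      by_cases h : z' - z0 ∈ M0
      · rw [cosetInd_apply_of_mem h, cosetInd_apply_of_mem (hiff.2 h), sub_self]
        exact zero_mem_nonunits A
      · rw [cosetInd_apply_of_not_mem h, cosetInd_apply_of_not_mem (fun h' => h (hiff.1 h')),
          sub_self]
        exact zero_mem_nonunits A
    · refine ⟨fun z => (x z j).2, fun z z' _ => ?_⟩
      exact sub_mem_nonunits (coe_mem_nonunits_of_mem_maximalIdeal (hx z j))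
        (coe_mem_nonunits_of_mem_maximalIdeal (hx z' j))
  | algebraMap w =>
    refine ⟨fun z => w.2.1, fun z z' _ => ?_⟩
    rw [Pi.algebraMap_apply, Pi.algebraMap_apply, sub_self]
    exact zero_mem_nonunits A
  | add f f' _ _ hf hf' =>
    refine ⟨fun z => A.add_mem _ _ (hf.1 z) (hf'.1 z), fun z z' hzz' => ?_⟩
    have h1 : (f + f') z - (f + f') z' = (f z - f z') + (f' z - f' z') := by
      simp only [Pi.add_apply]; ring
    rw [h1]
    exact add_mem_nonunits (hf.2 z z' hzz') (hf'.2 z z' hzz')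
  | mul f f' _ _ hf hf' =>
    refine ⟨fun z => A.mul_mem _ _ (hf.1 z) (hf'.1 z), fun z z' hzz' => ?_⟩
    have h1 : (f * f') z - (f * f') z' = f z * (f' z - f' z') + (f z - f z') * f' z' := by
      simp only [Pi.mul_apply]; ring
    rw [h1]
    exact add_mem_nonunits (mul_mem_nonunits_left (hf.1 z) (hf'.2 z z' hzz'))
      (mul_mem_nonunits_right (hf.2 z z' hzz') (hf'.1 z'))

variable {F : Type*} [Field F] [Algebra Qb F] {d : ℕ}
variable [DistribMulAction (Iner A) (Pic0 Qb F)]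
variable {Mod : DiscModel A F g d} {hdeg : ∀ (j : Fin d) (t : A), (Mod.P j t).deg = 1}
variable [Finite M] [DistribMulAction (Iner A) M]
variable {Jb : Type*} [AddCommGroup Jb]
variable {V : Type v} [AddCommGroup V] [Module A V] {D : CoreData A V g d}

/-- **the coordinate order of a `ThetaInput` over `ℚ̄` is a Hopf order over `(W₀, Γ)`**, `Γ` the
inertia group of `A`, `W₀ = A^Γ`. -/
theorem isHopfOrder_order (I : ThetaInput Mod hdeg (Iner A) M Jb) {ℓ : ℕ} (hℓ : ℓ.Prime)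
    (hA : A.LiesOverPrime ℓ)
    (hcf : ClosedFibre D (IsLocalRing.ResidueField A)) (L : LatticeModel Mod D)
    (hdisj : ∀ (j j' : Fin d) (t t' : A), t ∈ maximalIdeal A → t' ∈ maximalIdeal A →
      Mod.P j t = Mod.P j' t' → j = j') :
    IsHopfOrder (Iner A) (order (W0 A) I.M0 I.x) := by
  obtain ⟨h1, -, h3, h4, h5⟩ := order_main_Qb I hℓ hA hcf L hdisj
  exact ⟨Module.Finite.iff_fg.2 h3, h1, h4, ⟨genSet I.M0 I.x, rfl, h5⟩⟩

omit [Finite M] in
/-- integrality and relative connectedness of the coordinate order of a `ThetaInput`. -/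
theorem order_connected (I : ThetaInput Mod hdeg (Iner A) M Jb) {h : M → Qb}
    (hh : h ∈ order (W0 A) I.M0 I.x) :
    (∀ z, h z ∈ A) ∧
      ∀ z z' : M, I.red (I.emb z) = I.red (I.emb z') → h z - h z' ∈ A.nonunits := by
  obtain ⟨h1, h2⟩ := order_sub_mem_nonunits I.M0 I.x I.x_mem hh
  exact ⟨h1, fun z z' hzz' => h2 z z' (I.sub_mem_M0.2 hzz')⟩

end Abstract

section Level

open Fermat.Agent.FF.S19Wire1 Fermat.Agent.FF.SpecRR1 Fermat.Agent.RED.Interface4
  Fermat.Agent.FF.GaussOv1 Fermat.Agent.ES.RED Fermat.Agent.FF.Shapes8 Fermat.Agent.RED.BASE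
  Fermat.Agent.RED.BASE.Hauptmodul12 Fermat.Agent.RR.LSpace

set_option maxHeartbeats 1600000 in
/-- **the connected local order at a level `M` with a Hauptmodul base, `ℓ ∤ M`**: for every
reduction package `(r, red)` at a valuation subring `A` of `ℚ̄` over `ℓ`, a Hopf order `H` over
`(W₀ A, Iner A)` on `J₀(M)[ℓ^k]` with values in `A` such that `h z - h z' ∈ 𝔪_A` whenever
`red z = red z'`. -/
theorem exists_connOrder_level (ℓ : ℕ) [Fact ℓ.Prime] (k : ℕ) (n e M : ℕ) [NeZero n] [NeZero M]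
    (hb : BaseHyp n e) (hnM : n ∣ M) (hℓM : ¬ ℓ ∣ M)
    (A : ValuationSubring Qb) (hA : A.LiesOverPrime ℓ)
    (r : PlF M → PlB A M) (hr : IsPlaceReductionModL A M r) (hrI : InertiaInv A M r)
    {Jb : Type*} [AddCommGroup Jb] (red : JZero M →+ Jb)
    (hred : ∀ D : Divisor.degZero (K := Qbar) (F := ↥(Fbar M)),
      red (Pic0.mk D) = 0 ↔ Finsupp.mapDomain r (D : Divisor Qbar ↥(Fbar M)) ∈
        Divisor.principal (K := Setup8.kA A)
          (F := ↥(modularFunctionFieldFullC (Setup8.kA A) M)))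
    (hredI : ∀ τ ∈ A.inertiaSubgroupIn ℚ, ∀ z : JZero M, red (τ • z) = red z) :
    ∃ H : Subalgebra (W0 A) (Tors M ℓ k → Qb),
      IsHopfOrder (Iner A) H ∧ (∀ h ∈ H, ∀ z, h z ∈ A) ∧
      ∀ h ∈ H, ∀ z z' : Tors M ℓ k, red (z : JZero M) = red (z' : JZero M) →
        h z - h z' ∈ A.nonunits := by
  have hℓ : ℓ.Prime := Fact.out
  have hmem := tMem_of_dvd hb hnM
  have hgen := tGenBase' hb
  obtain ⟨D₀, h0⟩ :=
    Fermat.Agent.FF.SpecialRR6.exists_delta_eq_zero_base n e M ℓ hℓM A hA hb hnM r hr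
  have h0' : delta (genusFF Qbar ↥(Fbar M) : ℤ) D₀ = 0 := by
    rw [← ConcreteB8.genus_eq n e M hmem]
    exact h0
  have hch : ChooseShape A M ℓ hA hℓM r (genusFF Qbar ↥(Fbar M)) := by
    obtain ⟨m, φ, Pb, hinj, hPb, hnp, hφ, hell, hφI, hzero, -, Sbad, P₁, hP₁, hlift⟩ :=
      Fermat.Agent.FF.ChooseInst1.exists_choose_data n e M ℓ hℓM hmem hgen A hA r hr hrI
        (genusFF Qbar ↥(Fbar M)) (ConcreteB8.hRb_FF n e M ℓ hℓM hmem hgen A hA r hr) h0'
    exact ⟨m, φ, Pb, hinj, hPb, hnp, hφ, hell, hφI, hzero, Sbad, P₁, hP₁, hlift⟩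
  obtain ⟨d, Mod, nV, D, HL, ⟨I, hI1, hI2⟩, hcf, ⟨L⟩, hdisj⟩ :=
    ConnPack8.package_of_level_with n e M ℓ hℓM hmem hgen A hA k r hr
      hrI red hred hredI ⟨D₀, h0⟩ hch
  have := finite_tors M ℓ k
  refine ⟨order (W0 A) I.M0 I.x, isHopfOrder_order I hℓ hA hcf L hdisj,
    fun h hh => (order_connected I hh).1, fun h hh z z' hzz' => (order_connected I hh).2 z z' ?_⟩
  rw [hI1, hI2]
  exact hzz'

/-- **restriction to a subgroup of `ker red`**: for an injective `Iner A`-equivariant additive map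
`ι : Q → J₀(M)[ℓ^k]` with image in `ker red`, a CONNECTED Hopf order over `(W₀ A, Iner A)` on `Q`:
all its elements are `A`-valued and satisfy `h q - h 0 ∈ 𝔪_A`. -/
theorem exists_connOrder_comap (ℓ : ℕ) [Fact ℓ.Prime] (k : ℕ) (n e M : ℕ) [NeZero n] [NeZero M]
    (hb : BaseHyp n e) (hnM : n ∣ M) (hℓM : ¬ ℓ ∣ M)
    (A : ValuationSubring Qb) (hA : A.LiesOverPrime ℓ)
    (r : PlF M → PlB A M) (hr : IsPlaceReductionModL A M r) (hrI : InertiaInv A M r)
    {Jb : Type*} [AddCommGroup Jb] (red : JZero M →+ Jb)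
    (hred : ∀ D : Divisor.degZero (K := Qbar) (F := ↥(Fbar M)),
      red (Pic0.mk D) = 0 ↔ Finsupp.mapDomain r (D : Divisor Qbar ↥(Fbar M)) ∈
        Divisor.principal (K := Setup8.kA A)
          (F := ↥(modularFunctionFieldFullC (Setup8.kA A) M)))
    (hredI : ∀ τ ∈ A.inertiaSubgroupIn ℚ, ∀ z : JZero M, red (τ • z) = red z)
    {Q : Type*} [AddCommGroup Q] [DistribMulAction (Iner A) Q]
    (ι : Q →+ Tors M ℓ k) (hinj : Function.Injective ι)
    (hι : ∀ (σ : Iner A) (q : Q), ι (σ • q) = σ • ι q)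
    (hker : ∀ q, red (ι q : JZero M) = 0) :
    ∃ H : Subalgebra (W0 A) (Q → Qb),
      IsHopfOrder (Iner A) H ∧ (∀ h ∈ H, ∀ q, h q ∈ A) ∧
      ∀ h ∈ H, ∀ q, h q - h 0 ∈ A.nonunits := by
  obtain ⟨H, hH, hHA, hHc⟩ :=
    exists_connOrder_level ℓ k n e M hb hnM hℓM A hA r hr hrI red hred hredI
  refine ⟨comapOrder H ι, hH.comap ι hinj hι, ?_, ?_⟩
  · rintro _ ⟨h, hh, rfl⟩ q
    exact hHA h hh _
  · rintro _ ⟨h, hh, rfl⟩ q
    exact hHc h hh (ι q) (ι 0) (by rw [hker, hker])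

/-- `exists_connOrder_level` with the hypotheses on `(r, red)` in the shapes produced by
`RedConcrete5.exists_red_package`. -/
theorem exists_connOrder_level' (ℓ : ℕ) [Fact ℓ.Prime] (k : ℕ) (n e M : ℕ) [NeZero n] [NeZero M]
    (hb : BaseHyp n e) (hnM : n ∣ M) (hℓM : ¬ ℓ ∣ M)
    (A : ValuationSubring Qb) (hA : A.LiesOverPrime ℓ)
    (r : PlF M → PlB A M) (hr : IsPlaceReductionModL A M r)
    {Jb : Type*} [AddCommGroup Jb] (red : JZero M →+ Jb)
    (hrI : ∀ (σ : Iner A) (P : PlF M),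
      r (Fermat.Agent.FF.EmbTors5.gam M A σ • P) = r P)
    (hred : ∀ D : Divisor.degZero (K := Qbar) (F := ↥(Fbar M)),
      red (Pic0.mk D) = 0 ↔ Finsupp.mapDomain r (D : Divisor Qbar ↥(Fbar M)) ∈
        Divisor.principal (K := Setup8.kA A)
          (F := ↥(modularFunctionFieldFullC (Setup8.kA A) M)))
    (hredI : ∀ (σ : Iner A) (z : JZero M), red (σ • z) = red z) :
    ∃ H : Subalgebra (W0 A) (Tors M ℓ k → Qb),
      IsHopfOrder (Iner A) H ∧ (∀ h ∈ H, ∀ z, h z ∈ A) ∧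
      ∀ h ∈ H, ∀ z z' : Tors M ℓ k, red (z : JZero M) = red (z' : JZero M) →
        h z - h z' ∈ A.nonunits :=
  exists_connOrder_level ℓ k n e M hb hnM hℓM A hA r hr (fun τ hτ P => hrI ⟨τ, hτ⟩ P) red hred
    (fun τ hτ z => hredI ⟨τ, hτ⟩ z)

/-- **the connected local order at the auxiliary level `auxLevel ℓ p`**, `ℓ ∤ p`. -/
theorem exists_connOrder_aux (p : ℕ) [NeZero p] (ℓ : ℕ) [Fact ℓ.Prime] (hℓp : ¬ ℓ ∣ p) (k : ℕ)
    [NeZero (auxLevel ℓ p)]
    (A : ValuationSubring Qb) (hA : A.LiesOverPrime ℓ)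
    (r : PlF (auxLevel ℓ p) → PlB A (auxLevel ℓ p))
    (hr : IsPlaceReductionModL A (auxLevel ℓ p) r) (hrI : InertiaInv A (auxLevel ℓ p) r)
    {Jb : Type*} [AddCommGroup Jb] (red : JZero (auxLevel ℓ p) →+ Jb)
    (hred : ∀ D : Divisor.degZero (K := Qbar) (F := ↥(Fbar (auxLevel ℓ p))),
      red (Pic0.mk D) = 0 ↔
        Finsupp.mapDomain r (D : Divisor Qbar ↥(Fbar (auxLevel ℓ p))) ∈
        Divisor.principal (K := Setup8.kA A)
          (F := ↥(modularFunctionFieldFullC (Setup8.kA A) (auxLevel ℓ p))))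
    (hredI : ∀ τ ∈ A.inertiaSubgroupIn ℚ, ∀ z : JZero (auxLevel ℓ p), red (τ • z) = red z) :
    ∃ H : Subalgebra (W0 A) (Tors (auxLevel ℓ p) ℓ k → Qb),
      IsHopfOrder (Iner A) H ∧ (∀ h ∈ H, ∀ z, h z ∈ A) ∧
      ∀ h ∈ H, ∀ z z' : Tors (auxLevel ℓ p) ℓ k,
        red (z : JZero (auxLevel ℓ p)) = red (z' : JZero (auxLevel ℓ p)) →
        h z - h z' ∈ A.nonunits := by
  have hℓ : ℓ.Prime := Fact.out
  obtain ⟨n, e, hn, hb, hnM⟩ := Fermat.Agent.FF.RedConcrete5.exists_base_auxLevel ℓ p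
  exact exists_connOrder_level ℓ k n e (auxLevel ℓ p) hb hnM (not_dvd_auxLevel hℓ hℓp) A hA r hr
    hrI red hred hredI

end Level

end Fermat.Agent.FF.ConnOrder8
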