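/-
Programme FF (S19), chapter A3 (helper7): core algebra, layer L1 = local linear algebra.

A linear map `Φ : B^ι → B^ι'` over a local ring `B`, `#ι = #ι' + 1`, whose reduction modulo the
maximal ideal has a one-dimensional kernel `κ · ū₀`, is surjective, and its kernel is free of
rank one, generated by a lift `u` of `ū₀`.
-/
import Mathlib

set_option autoImplicit false
set_option linter.unusedSectionVars false

open IsLocalRing

namespace Fermat.Agent.FF.CoreAlg7

variable {B : Type*} [CommRing B] [IsLocalRing B]
variable {ι ι' : Type*} [Fintype ι] [Fintype ι']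

/-- Coordinatewise reduction of a vector modulo the maximal ideal. -/
noncomputable def redVec (v : ι → B) : ι → ResidueField B := fun i => residue B (v i)

@[simp] theorem redVec_apply (v : ι → B) (i : ι) : redVec v i = residue B (v i) := rfl

theorem redVec_add (v w : ι → B) : redVec (v + w) = redVec v + redVec w := by
  ext i; simp [redVec]

theorem redVec_sub (v w : ι → B) : redVec (v - w) = redVec v - redVec w := by
  ext i; simp [redVec]

theorem redVec_smul (b : B) (v : ι → B) : redVec (b • v) = residue B b • redVec v := by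
  ext i; simp [redVec]

theorem redVec_zero : redVec (0 : ι → B) = 0 := by
  ext i; simp [redVec]

theorem redVec_surjective : Function.Surjective (redVec : (ι → B) → ι → ResidueField B) := by
  intro w
  choose v hv using fun i => residue_surjective (R := B) (w i)
  exact ⟨v, funext hv⟩

/-- A vector reduces to zero iff all its coordinates lie in the maximal ideal. -/
theorem redVec_eq_zero_iff (v : ι → B) : redVec v = 0 ↔ ∀ i, v i ∈ maximalIdeal B := by
  constructor
  · intro h i
    have := congrFun h i
    simpa [redVec, residue_eq_zero_iff] using this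
  · intro h
    ext i
    simpa [redVec, residue_eq_zero_iff] using h i

theorem mem_smul_top_of_forall_mem [DecidableEq ι] (v : ι → B) (h : ∀ i, v i ∈ maximalIdeal B) :
    v ∈ maximalIdeal B • (⊤ : Submodule B (ι → B)) := by
  have : v = ∑ i, v i • (Pi.single i (1 : B) : ι → B) := by
    ext j
    simp [Finset.sum_apply, Pi.single_apply]
  rw [this]
  exact Submodule.sum_mem _ fun i _ => Submodule.smul_mem_smul (h i) Submodule.mem_top

theorem forall_mem_of_mem_smul_top (v : ι → B)
    (h : v ∈ maximalIdeal B • (⊤ : Submodule B (ι → B))) : ∀ i, v i ∈ maximalIdeal B := by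
  intro i
  refine Submodule.smul_induction_on h ?_ ?_
  · intro r hr n _
    simpa using Ideal.mul_mem_right _ _ hr
  · intro x y hx hy
    simpa using Ideal.add_mem _ hx hy

section Main

variable [DecidableEq ι] [DecidableEq ι']

/-- Nakayama: a linear map between finite free modules over a local ring is surjective as soon
as its reduction is. -/
theorem surjective_of_red (Φ : (ι → B) →ₗ[B] (ι' → B))
    (Φbar : (ι → ResidueField B) →ₗ[ResidueField B] (ι' → ResidueField B))
    (hcompat : ∀ v, redVec (Φ v) = Φbar (redVec v))
    (hsurj : Function.Surjective Φbar) : Function.Surjective Φ := by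
  rw [← LinearMap.range_eq_top]
  apply top_le_iff.mp
  apply Submodule.le_of_le_smul_of_le_jacobson_bot (I := maximalIdeal B)
  · exact Module.Finite.fg_top
  · exact IsLocalRing.maximalIdeal_le_jacobson ⊥
  · intro y _
    obtain ⟨xbar, hx⟩ := hsurj (redVec y)
    obtain ⟨x, rfl⟩ := redVec_surjective xbar
    have h1 : y - Φ x ∈ maximalIdeal B • (⊤ : Submodule B (ι' → B)) :=
      mem_smul_top_of_forall_mem _
        ((redVec_eq_zero_iff _).mp (by rw [redVec_sub, hcompat, hx, sub_self]))
    have h2 : y = Φ x + (y - Φ x) := by abel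
    rw [h2]
    exact Submodule.add_mem_sup ⟨x, rfl⟩ h1

/-- **L1.** The kernel of `Φ` is free of rank one on a lift `u` of `ū₀`. -/
theorem exists_kernel_generator (Φ : (ι → B) →ₗ[B] (ι' → B))
    (Φbar : (ι → ResidueField B) →ₗ[ResidueField B] (ι' → ResidueField B))
    (hcompat : ∀ v, redVec (Φ v) = Φbar (redVec v))
    (ubar0 : ι → ResidueField B) (hu0 : ubar0 ≠ 0)
    (hker : ∀ w, Φbar w = 0 ↔ ∃ c : ResidueField B, w = c • ubar0)
    (hcard : Fintype.card ι = Fintype.card ι' + 1) :
    Function.Surjective Φ ∧ ∃ u : ι → B, Φ u = 0 ∧ redVec u = ubar0 ∧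
      (∀ z, Φ z = 0 → ∃ b : B, z = b • u) ∧ (∀ b : B, b • u = 0 → b = 0) := by
  classical
  -- surjectivity of the reduction by rank-nullity
  have hkerspan : LinearMap.ker Φbar = Submodule.span (ResidueField B) {ubar0} := by
    ext w
    rw [LinearMap.mem_ker, hker, Submodule.mem_span_singleton]
    constructor
    · rintro ⟨c, rfl⟩; exact ⟨c, rfl⟩
    · rintro ⟨c, rfl⟩; exact ⟨c, rfl⟩
  have hfk : Module.finrank (ResidueField B) (LinearMap.ker Φbar) = 1 := by
    rw [hkerspan, finrank_span_singleton hu0]
  have hsurjbar : Function.Surjective Φbar := by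
    rw [← LinearMap.range_eq_top]
    apply Submodule.eq_top_of_finrank_eq
    have h := LinearMap.finrank_range_add_finrank_ker Φbar
    rw [hfk, Module.finrank_pi, hcard] at h
    rw [Module.finrank_pi]
    omega
  have hsurj : Function.Surjective Φ := surjective_of_red Φ Φbar hcompat hsurjbar
  refine ⟨hsurj, ?_⟩
  -- a section of `Φ`
  choose p hp using fun k : ι' => hsurj (Pi.single k (1 : B))
  let s : (ι' → B) →ₗ[B] (ι → B) := (Pi.basisFun B ι').constr B p
  have hs : ∀ y, Φ (s y) = y := by
    intro y
    have : Φ ∘ₗ s = LinearMap.id := by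
      apply (Pi.basisFun B ι').ext
      intro k
      simp [s, hp]
    exact LinearMap.congr_fun this y
  -- the projection onto the kernel
  let π : (ι → B) →ₗ[B] (ι → B) := LinearMap.id - s ∘ₗ Φ
  have hπker : ∀ z, Φ (π z) = 0 := by
    intro z
    simp [π, hs]
  have hπid : ∀ z, Φ z = 0 → π z = z := by
    intro z hz
    simp [π, hz]
  -- vectors with coordinates in the maximal ideal are mapped by `π` into `m • ker Φ`
  have hπm : ∀ z : ι → B, (∀ i, z i ∈ maximalIdeal B) →
      π z ∈ maximalIdeal B • LinearMap.ker Φ := by
    intro z hz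
    have hz' : z = ∑ i, z i • (Pi.single i (1 : B) : ι → B) := by
      ext j
      simp [Finset.sum_apply, Pi.single_apply]
    rw [hz', map_sum]
    refine Submodule.sum_mem _ fun i _ => ?_
    rw [map_smul]
    exact Submodule.smul_mem_smul (hz i) (LinearMap.mem_ker.mpr (hπker _))
  -- the generator
  obtain ⟨v, hv⟩ := redVec_surjective (B := B) ubar0
  have hΦv : ∀ k, Φ v k ∈ maximalIdeal B := by
    rw [← redVec_eq_zero_iff, hcompat, hv, (hker ubar0).mpr ⟨1, (one_smul _ _).symm⟩]
  let u : ι → B := π v
  have hu : Φ u = 0 := hπker v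
  have hsv : ∀ i, s (Φ v) i ∈ maximalIdeal B := by
    intro i
    have : s (Φ v) = ∑ k, Φ v k • p k := by
      simp [s, Module.Basis.constr_apply_fintype]
    rw [this, Finset.sum_apply]
    refine Ideal.sum_mem _ fun k _ => ?_
    simpa using Ideal.mul_mem_right _ _ (hΦv k)
  have hured : redVec u = ubar0 := by
    have : u = v - s (Φ v) := by simp [u, π]
    rw [this, redVec_sub, hv, (redVec_eq_zero_iff _).mpr hsv, sub_zero]
  refine ⟨u, hu, hured, ?_, ?_⟩
  · -- generation by Nakayama
    have hfg : (LinearMap.ker Φ).FG := by
      have : LinearMap.ker Φ = LinearMap.range π := by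
        ext z
        constructor
        · intro hz
          exact ⟨z, hπid z (LinearMap.mem_ker.mp hz)⟩
        · rintro ⟨w, rfl⟩
          exact LinearMap.mem_ker.mpr (hπker w)
      rw [this, LinearMap.range_eq_map]
      exact Submodule.FG.map _ Module.Finite.fg_top
    have hle : LinearMap.ker Φ ≤ Submodule.span B {u} := by
      apply Submodule.le_of_le_smul_of_le_jacobson_bot (I := maximalIdeal B) hfg
        (IsLocalRing.maximalIdeal_le_jacobson ⊥)
      intro z hz
      have hz0 : Φ z = 0 := LinearMap.mem_ker.mp hz
      obtain ⟨cbar, hc⟩ := (hker (redVec z)).mp (by rw [← hcompat, hz0, redVec_zero])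
      obtain ⟨c, rfl⟩ := residue_surjective (R := B) cbar
      have hzc : Φ (z - c • u) = 0 := by rw [map_sub, map_smul, hz0, hu, smul_zero, sub_zero]
      have hred : ∀ i, (z - c • u) i ∈ maximalIdeal B := by
        rw [← redVec_eq_zero_iff, redVec_sub, redVec_smul, hured, hc, sub_self]
      have hmem := hπm (z - c • u) hred
      rw [hπid _ hzc] at hmem
      have : z = c • u + (z - c • u) := by abel
      rw [this]
      exact Submodule.add_mem_sup (Submodule.smul_mem _ _ (Submodule.mem_span_singleton_self u)) hmem
    intro z hz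
    have := hle (LinearMap.mem_ker.mpr hz)
    obtain ⟨b, hb⟩ := Submodule.mem_span_singleton.mp this
    exact ⟨b, hb.symm⟩
  · -- torsion-freeness
    intro b hb
    have : ∃ i, ubar0 i ≠ 0 := by
      by_contra h
      simp only [not_exists, not_not] at h
      exact hu0 (funext h)
    obtain ⟨i, hi⟩ := this
    have hunit : IsUnit (u i) := by
      rw [← hured, redVec_apply] at hi
      by_contra hnu
      exact hi ((residue_eq_zero_iff _).mpr ((mem_maximalIdeal _).mpr hnu))
    have := congrFun hb i
    simp only [Pi.smul_apply, smul_eq_mul, Pi.zero_apply] at this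
    exact (hunit.mul_left_eq_zero).mp this

end Main

end Fermat.Agent.FF.CoreAlg7
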