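/-
Programme FF (S19), chapter A3 (helper7): core algebra, layer L1' = perturbation of a split
surjection with rank-one kernel, in matrix form.

`M₀ : Matrix ι' ι B` has a right inverse `S₀` and `1 - S₀ M₀ = u₀ ⊗ lam₀` (so `ker M₀ = B u₀`);
`M ≡ M₀` modulo an ideal `I` contained in the Jacobson radical.  Then `M` is surjective and
`ker M = B u` is free of rank one with `u ≡ u₀` modulo `I`.
-/
import Mathlib

set_option autoImplicit false
set_option linter.unusedSectionVars false

open Matrix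

namespace Fermat.Agent.FF.CoreAlg7

variable {B : Type*} [CommRing B]
variable {ι ι' : Type*} [Fintype ι] [Fintype ι'] [DecidableEq ι] [DecidableEq ι']

/-- A square matrix congruent to `1` modulo an ideal contained in the Jacobson radical is
invertible. -/
theorem isUnit_of_sub_one_mem {I : Ideal B} (hI : I ≤ Ideal.jacobson ⊥) (A : Matrix ι' ι' B)
    (hA : ∀ k l, (A - 1) k l ∈ I) : IsUnit A := by
  rw [Matrix.isUnit_iff_isUnit_det]
  have h1 : (Ideal.Quotient.mk I) A.det = 1 := by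
    rw [RingHom.map_det]
    have : (Ideal.Quotient.mk I).mapMatrix A = 1 := by
      ext k l
      have h := hA k l
      rw [Matrix.sub_apply, ← Ideal.Quotient.eq] at h
      simp only [RingHom.mapMatrix_apply, Matrix.map_apply]
      rw [h]
      by_cases hkl : k = l
      · subst hkl; simp
      · simp [Matrix.one_apply_ne hkl]
    rw [this, Matrix.det_one]
  have h2 : A.det - 1 ∈ I := by
    rw [← Ideal.Quotient.eq, h1, map_one]
  have h3 : A.det - 1 ∈ Ideal.jacobson (⊥ : Ideal B) := hI h2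
  have := (Ideal.mem_jacobson_bot.mp h3) 1
  simpa using this

/-- **L1'.** -/
theorem exists_kernel_generator_of_perturbation {I : Ideal B} (hI : I ≤ Ideal.jacobson ⊥)
    (M₀ M : Matrix ι' ι B) (S₀ : Matrix ι ι' B) (u₀ lam₀ : ι → B)
    (hMS : M₀ * S₀ = 1) (hker : 1 - S₀ * M₀ = vecMulVec u₀ lam₀)
    (hMu : M₀ *ᵥ u₀ = 0) (hpert : ∀ k i, (M - M₀) k i ∈ I)
    (i₀ : ι) (hi₀ : IsUnit (u₀ i₀)) :
    (∀ y : ι' → B, ∃ z, M *ᵥ z = y) ∧
    ∃ u : ι → B, M *ᵥ u = 0 ∧ (∀ i, u i - u₀ i ∈ I) ∧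
      (∀ z, M *ᵥ z = 0 → ∃ b : B, z = b • u) ∧ (∀ b : B, b • u = 0 → b = 0) := by
  classical
  -- `M * S₀` is invertible
  have hA : ∀ k l, (M * S₀ - (1 : Matrix ι' ι' B)) k l ∈ I := by
    intro k l
    have : M * S₀ - (1 : Matrix ι' ι' B) = (M - M₀) * S₀ := by rw [Matrix.sub_mul, hMS]
    rw [this, Matrix.mul_apply]
    exact Ideal.sum_mem _ fun i _ => Ideal.mul_mem_right _ _ (hpert k i)
  obtain ⟨A, hAeq⟩ := isUnit_of_sub_one_mem hI (M * S₀) hA
  let S : Matrix ι ι' B := S₀ * (↑A⁻¹ : Matrix ι' ι' B)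
  have hMSr : M * S = 1 := by
    simp only [S]
    rw [← Matrix.mul_assoc, ← hAeq]
    exact Units.mul_inv A
  -- vectors with entries in `I`
  have hmulI : ∀ (N : Matrix ι' ι B) (z : ι → B), (∀ k i, N k i ∈ I) → ∀ k, (N *ᵥ z) k ∈ I := by
    intro N z hN k
    rw [Matrix.mulVec, dotProduct]
    exact Ideal.sum_mem _ fun i _ => Ideal.mul_mem_right _ _ (hN k i)
  have hmulI' : ∀ (N : Matrix ι ι' B) (y : ι' → B), (∀ k, y k ∈ I) → ∀ i, (N *ᵥ y) i ∈ I := by
    intro N y hy i
    rw [Matrix.mulVec, dotProduct]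
    exact Ideal.sum_mem _ fun k _ => Ideal.mul_mem_left _ _ (hy k)
  refine ⟨fun y => ⟨S *ᵥ y, by rw [Matrix.mulVec_mulVec, hMSr, Matrix.one_mulVec]⟩, ?_⟩
  -- the projection onto `ker M`
  let P : Matrix ι ι B := 1 - S * M
  have hMP : M * P = 0 := by
    simp only [P]
    rw [Matrix.mul_sub, Matrix.mul_one, ← Matrix.mul_assoc, hMSr, Matrix.one_mul, sub_self]
  have hPid : ∀ z, M *ᵥ z = 0 → P *ᵥ z = z := by
    intro z hz
    simp only [P]
    rw [Matrix.sub_mulVec, Matrix.one_mulVec, ← Matrix.mulVec_mulVec, hz, Matrix.mulVec_zero,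
      sub_zero]
  let u : ι → B := P *ᵥ u₀
  have hu : M *ᵥ u = 0 := by
    simp only [u]
    rw [Matrix.mulVec_mulVec, hMP, Matrix.zero_mulVec]
  have hMu₀ : ∀ k, (M *ᵥ u₀) k ∈ I := by
    have : M *ᵥ u₀ = (M - M₀) *ᵥ u₀ := by rw [Matrix.sub_mulVec, hMu, sub_zero]
    rw [this]
    exact hmulI _ _ hpert
  have huu₀ : ∀ i, u i - u₀ i ∈ I := by
    intro i
    have : u - u₀ = -(S *ᵥ (M *ᵥ u₀)) := by
      simp only [u, P]
      rw [Matrix.sub_mulVec, Matrix.one_mulVec, ← Matrix.mulVec_mulVec]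
      abel
    have h := congrFun this i
    simp only [Pi.sub_apply, Pi.neg_apply] at h
    rw [h]
    exact I.neg_mem (hmulI' _ _ hMu₀ i)
  refine ⟨u, hu, huu₀, ?_, ?_⟩
  · -- generation, by Nakayama
    let K : Submodule B (ι → B) := LinearMap.ker M.mulVecLin
    have hKmem : ∀ z, z ∈ K ↔ M *ᵥ z = 0 := by
      intro z
      simp [K, LinearMap.mem_ker]
    have hPK : ∀ z, P *ᵥ z ∈ K := by
      intro z
      rw [hKmem, Matrix.mulVec_mulVec, hMP, Matrix.zero_mulVec]
    have hfg : K.FG := by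
      have : K = LinearMap.range P.mulVecLin := by
        ext z
        constructor
        · intro hz
          exact ⟨z, by simpa using hPid z ((hKmem z).mp hz)⟩
        · rintro ⟨w, rfl⟩
          simpa using hPK w
      rw [this, LinearMap.range_eq_map]
      exact Submodule.FG.map _ Module.Finite.fg_top
    have hIK : ∀ z, z ∈ K → (∀ i, z i ∈ I) → z ∈ I • K := by
      intro z hz hzI
      have h1 : z = P *ᵥ z := (hPid z ((hKmem z).mp hz)).symm
      have h2 : z = ∑ i, z i • (Pi.single i (1 : B) : ι → B) := by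
        ext j
        simp [Finset.sum_apply, Pi.single_apply]
      rw [h1, h2, Matrix.mulVec_sum]
      refine Submodule.sum_mem _ fun i _ => ?_
      rw [Matrix.mulVec_smul]
      exact Submodule.smul_mem_smul (hzI i) (hPK _)
    have hle : K ≤ Submodule.span B {u} := by
      apply Submodule.le_of_le_smul_of_le_jacobson_bot (I := I) hfg hI
      intro z hz
      have hz0 : M *ᵥ z = 0 := (hKmem z).mp hz
      -- `z = lam₀(z) u₀ + S₀ M₀ z`
      let c : B := lam₀ ⬝ᵥ z
      have hdecomp : z = c • u₀ + S₀ *ᵥ (M₀ *ᵥ z) := by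
        have h := congrArg (fun N : Matrix ι ι B => N *ᵥ z) hker
        simp only [Matrix.sub_mulVec, Matrix.one_mulVec, Matrix.vecMulVec_mulVec] at h
        rw [← Matrix.mulVec_mulVec] at h
        have h' : z = MulOpposite.op (lam₀ ⬝ᵥ z) • u₀ + S₀ *ᵥ (M₀ *ᵥ z) := by
          rw [← h]; abel
        simpa [c] using h'
      have hM₀z : ∀ k, (M₀ *ᵥ z) k ∈ I := by
        have : M₀ *ᵥ z = -((M - M₀) *ᵥ z) := by
          rw [Matrix.sub_mulVec, hz0, zero_sub, neg_neg]
        rw [this]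
        intro k
        exact I.neg_mem (hmulI _ _ hpert k)
      have hdiff : ∀ i, (z - c • u) i ∈ I := by
        intro i
        have : z - c • u = S₀ *ᵥ (M₀ *ᵥ z) - c • (u - u₀) := by
          nth_rw 1 [hdecomp]
          rw [smul_sub]; abel
        rw [this]
        simp only [Pi.sub_apply, Pi.smul_apply, smul_eq_mul]
        exact I.sub_mem (hmulI' _ _ hM₀z i) (I.mul_mem_left _ (huu₀ i))
      have hzK : z - c • u ∈ K := by
        rw [hKmem, Matrix.mulVec_sub, Matrix.mulVec_smul, hz0, hu, smul_zero, sub_zero]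
      have : z = c • u + (z - c • u) := by abel
      rw [this]
      exact Submodule.add_mem_sup (Submodule.smul_mem _ _ (Submodule.mem_span_singleton_self u))
        (hIK _ hzK hdiff)
    intro z hz
    obtain ⟨b, hb⟩ := Submodule.mem_span_singleton.mp (hle ((hKmem z).mpr hz))
    exact ⟨b, hb.symm⟩
  · -- torsion-freeness: `u i₀` is a unit
    intro b hb
    have hunit : IsUnit (u i₀) := by
      have h1 : u i₀ - u₀ i₀ ∈ Ideal.jacobson (⊥ : Ideal B) := hI (huu₀ i₀)
      obtain ⟨w, hw⟩ := hi₀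
      have h2 := (Ideal.mem_jacobson_bot.mp h1) (↑w⁻¹ : B)
      have h3 : (u i₀ - u₀ i₀) * ↑w⁻¹ + 1 = u i₀ * ↑w⁻¹ := by
        rw [sub_mul, ← hw, Units.mul_inv]; ring
      rw [h3] at h2
      exact isUnit_of_mul_isUnit_left h2
    have := congrFun hb i₀
    simp only [Pi.smul_apply, smul_eq_mul, Pi.zero_apply] at this
    exact (hunit.mul_left_eq_zero).mp this

end Fermat.Agent.FF.CoreAlg7
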