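/-
Programme FF (S19), chapter A3 (helper7): core algebra, layer L0 = the closed fibre over a local
ring `W`, in matrix form: if the reduction of `M₀ : Matrix ι' ι W` (`#ι = #ι' + 1`) has kernel
`κ · ū₀` with `M₀ u₀ = 0`, `ū₀ ≠ 0`, then `M₀` has a right inverse `S₀` and
`1 - S₀ M₀ = u₀ ⊗ lam₀`.
-/
import Fermat.Agent.FF.CoreAlg7A

set_option autoImplicit false
set_option linter.unusedSectionVars false

open Matrix IsLocalRing

namespace Fermat.Agent.FF.CoreAlg7

variable {W : Type*} [CommRing W] [IsLocalRing W]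
variable {ι ι' : Type*} [Fintype ι] [Fintype ι'] [DecidableEq ι] [DecidableEq ι']

theorem redVec_mulVec (M : Matrix ι' ι W) (v : ι → W) :
    redVec (M *ᵥ v) = (M.map (residue W)) *ᵥ redVec v := by
  ext k
  simp only [redVec_apply]
  rw [RingHom.map_mulVec]
  rfl

/-- **L0.** -/
theorem exists_splitting_of_closedFibre (M₀ : Matrix ι' ι W) (u₀ : ι → W)
    (hMu : M₀ *ᵥ u₀ = 0) (hcard : Fintype.card ι = Fintype.card ι' + 1)
    (hu0 : redVec u₀ ≠ 0)
    (hcf : ∀ w : ι → ResidueField W, (M₀.map (residue W)) *ᵥ w = 0 →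
      ∃ c : ResidueField W, w = c • redVec u₀) :
    ∃ (S₀ : Matrix ι ι' W) (lam₀ : ι → W) (i₀ : ι),
      M₀ * S₀ = 1 ∧ 1 - S₀ * M₀ = vecMulVec u₀ lam₀ ∧ IsUnit (u₀ i₀) := by
  classical
  have hker : ∀ w : ι → ResidueField W, (M₀.map (residue W)).mulVecLin w = 0 ↔
      ∃ c : ResidueField W, w = c • redVec u₀ := by
    intro w
    constructor
    · intro h
      exact hcf w (by simpa using h)
    · rintro ⟨c, rfl⟩
      rw [map_smul, Matrix.mulVecLin_apply, ← redVec_mulVec, hMu, redVec_zero, smul_zero]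
  obtain ⟨hsurj, u, hu, hured, hgen, _⟩ :=
    exists_kernel_generator (B := W) M₀.mulVecLin (M₀.map (residue W)).mulVecLin
      (fun v => by simp [redVec_mulVec]) (redVec u₀) hu0 hker hcard
  -- `u₀ = b • u` with `b` a unit
  obtain ⟨b, hb⟩ := hgen u₀ (by simpa using hMu)
  have hbunit : IsUnit b := by
    have h1 : redVec u₀ = residue W b • redVec u₀ := by
      conv_lhs => rw [hb]
      rw [redVec_smul, hured]
    have h2 : (1 - residue W b) • redVec u₀ = 0 := by
      rw [sub_smul, one_smul, ← h1, sub_self]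
    have h3 : 1 - residue W b = 0 := by
      rcases smul_eq_zero.mp h2 with h | h
      · exact h
      · exact absurd h hu0
    by_contra hnu
    have : residue W b = 0 := (residue_eq_zero_iff _).mpr ((mem_maximalIdeal _).mpr hnu)
    rw [this, sub_zero] at h3
    exact one_ne_zero h3
  obtain ⟨bu, rfl⟩ := hbunit
  have hu' : u = (↑bu⁻¹ : W) • u₀ := by
    rw [hb, smul_smul, Units.inv_mul, one_smul]
  -- the section
  choose p hp using fun k : ι' => hsurj (Pi.single k (1 : W))
  let S₀ : Matrix ι ι' W := Matrix.of fun i k => p k i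
  have hMS : M₀ * S₀ = 1 := by
    ext k l
    have h := congrFun (hp l) k
    simp only [Matrix.mulVecLin_apply] at h
    rw [Matrix.mul_apply]
    simp only [S₀, Matrix.of_apply]
    rw [Matrix.mulVec, dotProduct] at h
    rw [h, Matrix.one_apply, Pi.single_apply]
  -- the functional
  have hcol : ∀ i : ι, ∃ c : W,
      (1 - S₀ * M₀) *ᵥ (Pi.single i (1 : W) : ι → W) = c • u₀ := by
    intro i
    have hk : M₀.mulVecLin ((1 - S₀ * M₀) *ᵥ (Pi.single i (1 : W) : ι → W)) = 0 := by
      rw [Matrix.mulVecLin_apply, Matrix.mulVec_mulVec, Matrix.mul_sub, Matrix.mul_one,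
        ← Matrix.mul_assoc, hMS, Matrix.one_mul, sub_self, Matrix.zero_mulVec]
    obtain ⟨c, hc⟩ := hgen _ hk
    exact ⟨c * ↑bu⁻¹, by rw [hc, hu', smul_smul]⟩
  choose lam₀ hlam using hcol
  have hi₀ : ∃ i₀, IsUnit (u₀ i₀) := by
    have : ∃ i, redVec u₀ i ≠ 0 := by
      by_contra h
      simp only [not_exists, not_not] at h
      exact hu0 (funext h)
    obtain ⟨i, hi⟩ := this
    refine ⟨i, ?_⟩
    by_contra hnu
    exact hi ((residue_eq_zero_iff _).mpr ((mem_maximalIdeal _).mpr hnu))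
  obtain ⟨i₀, hi₀⟩ := hi₀
  refine ⟨S₀, lam₀, i₀, hMS, ?_, hi₀⟩
  ext a i
  have h := congrFun (hlam i) a
  rw [Matrix.mulVec_single_one] at h
  simp only [Matrix.col_apply, Pi.smul_apply, smul_eq_mul] at h
  rw [Matrix.vecMulVec_apply, mul_comm, ← h]

end Fermat.Agent.FF.CoreAlg7
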