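/-
Programme FF (S19), chapter A3 (helper7): core algebra, layer L2 = Weierstrass division by a
distinguished polynomial at an ideal `I` (`B` is `I`-adically complete, e.g. `I` nilpotent),
packaged with `natDegree` instead of orders, plus the order-one preparation theorem (L3).
-/
import Mathlib

set_option autoImplicit false
set_option linter.unusedSectionVars false

open PowerSeries

namespace Fermat.Agent.FF.CoreAlg7

variable {B : Type*} [CommRing B] {I : Ideal B}

/-- A ring is adically complete with respect to a nilpotent ideal. -/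
theorem isAdicComplete_of_pow_eq_bot {N : ℕ} (h : I ^ N = ⊥) : IsAdicComplete I B := by
  have hle : ∀ n, N ≤ n → I ^ n = ⊥ := by
    intro n hn
    exact le_bot_iff.mp (h ▸ Ideal.pow_le_pow_right hn)
  refine { haus' := ?_, prec' := ?_ }
  · intro x hx
    have := hx N
    rw [SModEq.zero, h, Submodule.bot_smul] at this
    simpa using this
  · intro f hf
    refine ⟨f N, fun n => ?_⟩
    rcases le_total n N with hn | hn
    · exact hf hn
    · have := hf hn
      rw [SModEq.sub_mem, h, Submodule.bot_smul, Submodule.mem_bot, sub_eq_zero] at this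
      rw [this]

theorem ne_top_of_le_jacobson [Nontrivial B] (hI : I ≤ Ideal.jacobson ⊥) : I ≠ ⊤ := by
  rintro rfl
  have h1 : (1 : B) ∈ Ideal.jacobson (⊥ : Ideal B) := hI Submodule.mem_top
  have := (Ideal.mem_jacobson_bot.mp h1) (-1)
  simp at this

section Div

variable [IsAdicComplete I B] {q : Polynomial B}

/-- the divisor hypothesis of Mathlib. -/
theorem isDivisor (hq : q.IsDistinguishedAt I) : (q : B⟦X⟧).IsWeierstrassDivisorAt I :=
  hq.isWeierstrassDivisorAt'

theorem order_toNat_eq (hq : q.IsDistinguishedAt I) (hI : I ≠ ⊤) :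
    ((q : B⟦X⟧).map (Ideal.Quotient.mk I)).order.toNat = q.natDegree := by
  have h := hq.coe_natDegree_eq_order_map (q : B⟦X⟧) 1
    (by rwa [constantCoeff_one, ← Ideal.ne_top_iff_one]) (by simp)
  rw [← h]
  rfl

/-- the Weierstrass remainder modulo `q`. -/
noncomputable def remI (hq : q.IsDistinguishedAt I) (f : B⟦X⟧) : Polynomial B := (isDivisor hq).mod f

/-- the Weierstrass quotient by `q`. -/
noncomputable def quoI (hq : q.IsDistinguishedAt I) (f : B⟦X⟧) : B⟦X⟧ := (isDivisor hq).div f

theorem eq_mul_quoI_add_remI (hq : q.IsDistinguishedAt I) (f : B⟦X⟧) : f = (q : B⟦X⟧) * quoI hq f + (remI hq f : B⟦X⟧) :=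
  ((isDivisor hq).isWeierstrassDivisionAt_div_mod f).eq_mul_add

theorem degree_remI_lt (hq : q.IsDistinguishedAt I) (hI : I ≠ ⊤) (f : B⟦X⟧) : (remI hq f).degree < q.natDegree := by
  have := ((isDivisor hq).isWeierstrassDivisionAt_div_mod f).degree_lt
  rwa [order_toNat_eq hq hI] at this

theorem coeff_remI_eq_zero (hq : q.IsDistinguishedAt I) (hI : I ≠ ⊤) (f : B⟦X⟧) {i : ℕ} (hi : q.natDegree ≤ i) :
    (remI hq f).coeff i = 0 :=
  Polynomial.coeff_eq_zero_of_degree_lt
    (lt_of_lt_of_le (degree_remI_lt hq hI f) (by exact_mod_cast hi))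

theorem remI_add (hq : q.IsDistinguishedAt I) (f f' : B⟦X⟧) : remI hq (f + f') = remI hq f + remI hq f' :=
  (isDivisor hq).mod_add f f'

theorem remI_smul (hq : q.IsDistinguishedAt I) (a : B) (f : B⟦X⟧) : remI hq (a • f) = a • remI hq f :=
  (isDivisor hq).mod_smul a f

/-- uniqueness of the division. -/
theorem remI_eq_of_eq (hq : q.IsDistinguishedAt I) (hI : I ≠ ⊤) {f c : B⟦X⟧} {r : Polynomial B}
    (hr : r.degree < q.natDegree) (h : f = (q : B⟦X⟧) * c + (r : B⟦X⟧)) :
    quoI hq f = c ∧ remI hq f = r := by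
  have H := (isDivisor hq).isWeierstrassDivisionAt_div_mod f
  have hr' : r.degree < ((q : B⟦X⟧).map (Ideal.Quotient.mk I)).order.toNat := by
    rwa [order_toNat_eq hq hI]
  exact (isDivisor hq).eq_of_mul_add_eq_mul_add H.degree_lt hr' (H.eq_mul_add.symm.trans h)

theorem dvd_iff_remI_eq_zero (hq : q.IsDistinguishedAt I) (hI : I ≠ ⊤) (f : B⟦X⟧) : (q : B⟦X⟧) ∣ f ↔ remI hq f = 0 := by
  constructor
  · rintro ⟨c, hc⟩
    have hdeg : (0 : Polynomial B).degree < q.natDegree := by
      rw [Polynomial.degree_zero]; exact WithBot.bot_lt_coe _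
    exact (remI_eq_of_eq hq hI hdeg (by simpa using hc)).2
  · intro h
    refine ⟨quoI hq f, ?_⟩
    have := eq_mul_quoI_add_remI hq f
    rw [h] at this
    simpa using this

/-- the remainder is congruent to the truncation modulo `I`. -/
theorem coeff_remI_sub_coeff_mem (hq : q.IsDistinguishedAt I) (hI : I ≠ ⊤) (f : B⟦X⟧) {i : ℕ} (hi : i < q.natDegree) :
    (remI hq f).coeff i - coeff i f ∈ I := by
  have H := (isDivisor hq).isWeierstrassDivisionAt_div_mod f
  have := H.coeff_f_sub_r_mem (i := i) (by rwa [order_toNat_eq hq hI])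
  rw [map_sub, Polynomial.coeff_coe] at this
  have h2 : (remI hq f).coeff i - coeff i f = -(coeff i f - (remI hq f).coeff i) := by ring
  rw [h2]
  exact I.neg_mem this

/-- the coefficients of the remainder, as a linear map. -/
noncomputable def remCoeff (hq : q.IsDistinguishedAt I) (m : ℕ) : B⟦X⟧ →ₗ[B] (Fin m → B) where
  toFun f := fun i => (remI hq f).coeff i
  map_add' f f' := by
    ext i
    simp [remI_add]
  map_smul' a f := by
    ext i
    simp [remI_smul]

@[simp] theorem remCoeff_apply (hq : q.IsDistinguishedAt I) (m : ℕ) (f : B⟦X⟧) (i : Fin m) :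
    remCoeff hq m f i = (remI hq f).coeff i := rfl

theorem dvd_iff_remCoeff_eq_zero (hq : q.IsDistinguishedAt I) (hI : I ≠ ⊤) (f : B⟦X⟧) :
    (q : B⟦X⟧) ∣ f ↔ remCoeff hq q.natDegree f = 0 := by
  rw [dvd_iff_remI_eq_zero hq hI]
  constructor
  · intro h
    ext i
    simp [h]
  · intro h
    ext i
    by_cases hi : i < q.natDegree
    · have := congrFun h ⟨i, hi⟩
      simpa using this
    · simpa using coeff_remI_eq_zero hq hI f (not_lt.mp hi)

end Div

/-! ### L3: series of order one -/

section Linear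

/-- uniqueness of the root of a series `(X - F) · unit`, `F ∈ I`. -/
theorem linear_factor_unique [IsHausdorff I B] {F F' : B} (hF' : F' ∈ I) {c c' : B⟦X⟧ˣ}
    (h : ((X : B⟦X⟧) - C F) * c = ((X : B⟦X⟧) - C F') * c') : F = F' := by
  set e : B⟦X⟧ := (c' : B⟦X⟧) * (↑c⁻¹ : B⟦X⟧) with he
  have hkey : (X : B⟦X⟧) - C F = ((X : B⟦X⟧) - C F') * e := by
    have h1 : ((X : B⟦X⟧) - C F) * c * (↑c⁻¹ : B⟦X⟧) = ((X : B⟦X⟧) - C F') * c' * ↑c⁻¹ := by
      rw [h]
    rw [mul_assoc, Units.mul_inv, mul_one, mul_assoc] at h1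
    exact h1
  -- coefficient relations
  have hsucc : ∀ n : ℕ, coeff (n + 1) ((X : B⟦X⟧) - C F) = coeff n e - F' * coeff (n + 1) e := by
    intro n
    rw [hkey, sub_mul, map_sub, coeff_succ_X_mul, ← smul_eq_C_mul, coeff_smul, smul_eq_mul]
  have hzero : coeff 0 ((X : B⟦X⟧) - C F) = - (F' * coeff 0 e) := by
    rw [hkey, sub_mul, map_sub, coeff_zero_X_mul, ← smul_eq_C_mul, coeff_smul, smul_eq_mul,
      zero_sub]
  have hrec : ∀ n : ℕ, 1 ≤ n → coeff n e = F' * coeff (n + 1) e := by
    intro n hn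
    have h1 := hsucc n
    have h2 : coeff (n + 1) ((X : B⟦X⟧) - C F) = 0 := by
      rw [map_sub, coeff_X, coeff_C]
      have hn' : n ≠ 0 := by omega
      simp [hn']
    rw [h2] at h1
    exact (sub_eq_zero.mp h1.symm)
  have hpow : ∀ k : ℕ, ∀ n : ℕ, 1 ≤ n → coeff n e ∈ I ^ k := by
    intro k
    induction k with
    | zero => intro n _; simp
    | succ k ih =>
      intro n hn
      rw [hrec n hn, pow_succ']
      exact Ideal.mul_mem_mul hF' (ih (n + 1) (by omega))
  have he1 : coeff 1 e = 0 := by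
    refine IsHausdorff.haus' (I := I) _ fun k => ?_
    rw [SModEq.zero, smul_eq_mul, Ideal.mul_top]
    exact hpow k 1 le_rfl
  have he0 : coeff 0 e = 1 := by
    have h1 := hsucc 0
    rw [map_sub, coeff_X, coeff_C] at h1
    simp only [zero_add, if_true, one_ne_zero, if_false, sub_zero] at h1
    rw [he1, mul_zero, sub_zero] at h1
    exact h1.symm
  have h0 := hzero
  rw [map_sub, coeff_zero_X, coeff_zero_C, zero_sub, he0, mul_one] at h0
  exact neg_injective h0

/-- **L3.** A power series congruent to `X · unit` modulo `I` is `(X - F) · unit`, `F ∈ I`. -/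
theorem exists_linear_factor [IsAdicComplete I B] [Nontrivial B] (hI : I ≤ Ideal.jacobson ⊥)
    (v : B⟦X⟧) (h0 : coeff 0 v ∈ I) (h1 : IsUnit (coeff 1 v)) :
    ∃ F ∈ I, ∃ c : B⟦X⟧ˣ, v = ((X : B⟦X⟧) - C F) * c := by
  have hItop : I ≠ ⊤ := ne_top_of_le_jacobson hI
  have hord : (v.map (Ideal.Quotient.mk I)).order = 1 := by
    have : (v.map (Ideal.Quotient.mk I)).order = ((1 : ℕ) : ℕ∞) := by
      rw [order_eq_nat]
      constructor
      · rw [coeff_map]
        intro h
        rw [Ideal.Quotient.eq_zero_iff_mem] at h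
        exact hItop (Ideal.eq_top_of_isUnit_mem _ h h1)
      · intro i hi
        have : i = 0 := by omega
        subst this
        rw [coeff_map, Ideal.Quotient.eq_zero_iff_mem]
        exact h0
    simpa using this
  have hordNat : (v.map (Ideal.Quotient.mk I)).order.toNat = 1 := by
    rw [hord]; rfl
  have H : v.IsWeierstrassDivisorAt I := by
    rw [IsWeierstrassDivisorAt, hordNat]
    exact h1
  have Hdiv := H.isWeierstrassDivisionAt_div_mod (X : B⟦X⟧)
  set Q := H.div (X : B⟦X⟧) with hQ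
  set r := H.mod (X : B⟦X⟧) with hr
  have hdeg : r.degree < 1 := by
    have := Hdiv.degree_lt
    rw [hordNat] at this
    exact_mod_cast this
  have hrC : r = Polynomial.C (r.coeff 0) :=
    Polynomial.eq_C_of_degree_le_zero (Nat.WithBot.lt_one_iff_le_zero.mp hdeg)
  set F := r.coeff 0 with hFdef
  have hFI : F ∈ I := by
    have := Hdiv.coeff_f_sub_r_mem (i := 0) (by rw [hordNat]; exact Nat.one_pos)
    rw [map_sub, coeff_zero_X, zero_sub, Polynomial.coeff_coe] at this
    simpa using I.neg_mem this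
  have heq : (X : B⟦X⟧) = v * Q + C F := by
    have := Hdiv.eq_mul_add
    rw [hrC, Polynomial.coe_C] at this
    exact this
  -- `Q` is a unit
  have hQ0 : IsUnit (constantCoeff Q) := by
    have hc := congrArg (coeff 1) heq
    rw [coeff_one_X, map_add, coeff_C, coeff_mul,
      Finset.Nat.sum_antidiagonal_eq_sum_range_succ_mk] at hc
    simp only [one_ne_zero, if_false, add_zero, Finset.sum_range_succ, Finset.sum_range_zero,
      zero_add, Nat.sub_zero, Nat.sub_self] at hc
    -- hc : 1 = coeff 0 v * coeff 1 Q + coeff 1 v * coeff 0 Q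
    have hjac : coeff 0 v * coeff 1 Q ∈ Ideal.jacobson (⊥ : Ideal B) :=
      hI (I.mul_mem_right _ h0)
    have hu := (Ideal.mem_jacobson_bot.mp hjac) (-1)
    have h2 : coeff 0 v * coeff 1 Q * -1 + 1 = coeff 1 v * coeff 0 Q := by
      linear_combination hc
    rw [h2] at hu
    have := isUnit_of_mul_isUnit_right hu
    simpa using this
  have hQunit : IsUnit Q := isUnit_iff_constantCoeff.mpr hQ0
  obtain ⟨Qu, hQu⟩ := hQunit
  refine ⟨F, hFI, Qu⁻¹, ?_⟩
  have h3 : (X : B⟦X⟧) - C F = v * Q := by rw [heq]; ring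
  rw [h3, ← hQu, mul_assoc, Units.mul_inv, mul_one]

end Linear

end Fermat.Agent.FF.CoreAlg7
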