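/-
Programme FF (S19), chapter A3 (helper7): core algebra in COORDINATES.

`E₀ : Fin d → ι → W⟦X⟧` is a family of power series over a local ring `W` (the expansions of a
basis of the lattice `V`), `B` a `W`-algebra, `x x' : Fin g → B` nilpotent.  The divisibility
conditions `q ∣ ser j z` (`j ≥ g`), `q_j ∣ ser j z` (`j < g`) on `z : ι → B` cut out a free module
of rank one, generated by some `z ≡ u₀` modulo the ideal of the coordinates.
-/
import Fermat.Agent.FF.CoreAlg7B
import Fermat.Agent.FF.CoreAlg7C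
import Fermat.Agent.FF.CoreAlg7D

set_option autoImplicit false
set_option linter.unusedSectionVars false

open PowerSeries

namespace Fermat.Agent.FF.CoreAlg7

/-! ### The polynomials `q`, `q_j` -/

section Polys

variable {B : Type*} [CommRing B] {g : ℕ}

/-- `∏ i, (X - x i) (X - x' i)` as a polynomial. -/
noncomputable def qP (x x' : Fin g → B) : Polynomial B :=
  ∏ i, (Polynomial.X - Polynomial.C (x i)) * (Polynomial.X - Polynomial.C (x' i))

/-- `X * ∏ i ≠ j, (X - x i) (X - x' i)` as a polynomial. -/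
noncomputable def qjP (x x' : Fin g → B) (j : Fin g) : Polynomial B :=
  Polynomial.X * ∏ i ∈ Finset.univ.erase j,
    (Polynomial.X - Polynomial.C (x i)) * (Polynomial.X - Polynomial.C (x' i))

theorem isDistinguishedAt_X_sub_C {I : Ideal B} {a : B} (ha : a ∈ I) :
    (Polynomial.X - Polynomial.C a).IsDistinguishedAt I := by
  refine ⟨⟨?_⟩, Polynomial.monic_X_sub_C a⟩
  intro n hn
  nontriviality B
  rw [Polynomial.natDegree_X_sub_C] at hn
  have : n = 0 := by omega
  subst this
  simpa using I.neg_mem ha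

theorem isDistinguishedAt_one {I : Ideal B} : (1 : Polynomial B).IsDistinguishedAt I := by
  refine ⟨⟨?_⟩, Polynomial.monic_one⟩
  intro n hn
  simp at hn

theorem isDistinguishedAt_X {I : Ideal B} : (Polynomial.X : Polynomial B).IsDistinguishedAt I := by
  have := isDistinguishedAt_X_sub_C (I := I) (a := 0) I.zero_mem
  simpa using this

theorem isDistinguishedAt_prod {I : Ideal B} {α : Type*} (s : Finset α) (f : α → Polynomial B)
    (hf : ∀ a ∈ s, (f a).IsDistinguishedAt I) : (∏ a ∈ s, f a).IsDistinguishedAt I := by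
  classical
  induction s using Finset.induction_on with
  | empty => simpa using isDistinguishedAt_one
  | insert a s ha ih =>
    rw [Finset.prod_insert ha]
    exact (hf a (Finset.mem_insert_self a s)).mul
      (ih fun b hb => hf b (Finset.mem_insert_of_mem hb))

theorem isDistinguishedAt_qP {I : Ideal B} (x x' : Fin g → B) (hx : ∀ i, x i ∈ I)
    (hx' : ∀ i, x' i ∈ I) : (qP x x').IsDistinguishedAt I :=
  isDistinguishedAt_prod _ _ fun i _ =>
    (isDistinguishedAt_X_sub_C (hx i)).mul (isDistinguishedAt_X_sub_C (hx' i))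

theorem isDistinguishedAt_qjP {I : Ideal B} (x x' : Fin g → B) (hx : ∀ i, x i ∈ I)
    (hx' : ∀ i, x' i ∈ I) (j : Fin g) : (qjP x x' j).IsDistinguishedAt I :=
  isDistinguishedAt_X.mul (isDistinguishedAt_prod _ _ fun i _ =>
    (isDistinguishedAt_X_sub_C (hx i)).mul (isDistinguishedAt_X_sub_C (hx' i)))

theorem natDegree_qP [Nontrivial B] (x x' : Fin g → B) : (qP x x').natDegree = 2 * g := by
  rw [qP, Polynomial.natDegree_prod_of_monic]
  · have : ∀ i : Fin g, ((Polynomial.X - Polynomial.C (x i)) *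
        (Polynomial.X - Polynomial.C (x' i))).natDegree = 2 := by
      intro i
      rw [Polynomial.Monic.natDegree_mul (Polynomial.monic_X_sub_C _)
        (Polynomial.monic_X_sub_C _)]
      simp
    simp [this, mul_comm]
  · intro i _
    exact (Polynomial.monic_X_sub_C _).mul (Polynomial.monic_X_sub_C _)

theorem natDegree_qjP [Nontrivial B] (x x' : Fin g → B) (j : Fin g) :
    (qjP x x' j).natDegree = 2 * g - 1 := by
  have hmon : ∀ i ∈ Finset.univ.erase j, ((Polynomial.X - Polynomial.C (x i)) *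
      (Polynomial.X - Polynomial.C (x' i))).Monic := fun i _ =>
    (Polynomial.monic_X_sub_C _).mul (Polynomial.monic_X_sub_C _)
  rw [qjP, Polynomial.Monic.natDegree_mul Polynomial.monic_X (Polynomial.monic_prod_of_monic _ _ hmon),
    Polynomial.natDegree_X, Polynomial.natDegree_prod_of_monic _ _ hmon]
  have : ∀ i : Fin g, ((Polynomial.X - Polynomial.C (x i)) *
      (Polynomial.X - Polynomial.C (x' i))).natDegree = 2 := by
    intro i
    rw [Polynomial.Monic.natDegree_mul (Polynomial.monic_X_sub_C _)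
      (Polynomial.monic_X_sub_C _)]
    simp
  simp only [this, Finset.sum_const, smul_eq_mul, Finset.card_erase_of_mem (Finset.mem_univ j),
    Finset.card_univ, Fintype.card_fin]
  have := j.pos
  omega

end Polys

/-! ### Congruences modulo `I` -/

section Cong

variable {B : Type*} [CommRing B] {I : Ideal B}

/-- for `q` distinguished of degree `m`: `(q c)_{m+k} ≡ c_k` and `(q c)_n ≡ 0` for `n < m`. -/
theorem coeff_distinguished_mul_sub_mem {q : Polynomial B} (hq : q.IsDistinguishedAt I)
    (c : B⟦X⟧) (k : ℕ) :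
    coeff (q.natDegree + k) ((q : B⟦X⟧) * c) - coeff k c ∈ I := by
  rw [← Ideal.Quotient.eq_zero_iff_mem, map_sub, ← coeff_map, ← coeff_map, map_mul]
  have h : (q : B⟦X⟧).map (Ideal.Quotient.mk I) =
      ((Polynomial.X ^ q.natDegree : Polynomial (B ⧸ I)) : (B ⧸ I)⟦X⟧) := by
    rw [← hq.map_eq_X_pow, Polynomial.polynomial_map_coe]
  rw [h, Polynomial.coe_pow, Polynomial.coe_X, add_comm, coeff_X_pow_mul, sub_self]

theorem coeff_distinguished_mul_mem {q : Polynomial B} (hq : q.IsDistinguishedAt I)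
    (c : B⟦X⟧) {n : ℕ} (hn : n < q.natDegree) :
    coeff n ((q : B⟦X⟧) * c) ∈ I := by
  rw [← Ideal.Quotient.eq_zero_iff_mem, ← coeff_map, map_mul]
  have h : (q : B⟦X⟧).map (Ideal.Quotient.mk I) =
      ((Polynomial.X ^ q.natDegree : Polynomial (B ⧸ I)) : (B ⧸ I)⟦X⟧) := by
    rw [← hq.map_eq_X_pow, Polynomial.polynomial_map_coe]
  rw [h, Polynomial.coe_pow, Polynomial.coe_X, coeff_X_pow_mul', if_neg (not_le.mpr hn)]

/-- a unit plus an element of the Jacobson radical is a unit. -/
theorem isUnit_of_sub_mem_jacobson (hI : I ≤ Ideal.jacobson ⊥) {a b : B} (hb : IsUnit b)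
    (hab : a - b ∈ I) : IsUnit a := by
  obtain ⟨w, rfl⟩ := hb
  have h2 := (Ideal.mem_jacobson_bot.mp (hI hab)) (↑w⁻¹ : B)
  have h3 : (a - ↑w) * ↑w⁻¹ + 1 = a * ↑w⁻¹ := by
    rw [sub_mul, Units.mul_inv]; ring
  rw [h3] at h2
  exact isUnit_of_mul_isUnit_left h2

end Cong

/-! ### The ideal of the coordinates -/

section Ideal

variable {B : Type*} [CommRing B] {g : ℕ}

/-- the ideal generated by the coordinates. -/
def cI (x x' : Fin g → B) : Ideal B := Ideal.span (Set.range x ∪ Set.range x')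

theorem mem_cI_left (x x' : Fin g → B) (i : Fin g) : x i ∈ cI x x' :=
  Ideal.subset_span (Or.inl ⟨i, rfl⟩)

theorem mem_cI_right (x x' : Fin g → B) (i : Fin g) : x' i ∈ cI x x' :=
  Ideal.subset_span (Or.inr ⟨i, rfl⟩)

theorem exists_cI_pow_eq_bot (x x' : Fin g → B) (hx : ∀ i, IsNilpotent (x i))
    (hx' : ∀ i, IsNilpotent (x' i)) : ∃ N : ℕ, cI x x' ^ N = ⊥ := by
  have hfg : (cI x x').FG :=
    Submodule.fg_span ((Set.finite_range x).union (Set.finite_range x'))
  have hle : cI x x' ≤ (⊥ : Ideal B).radical := by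
    rw [cI, Ideal.span_le]
    rintro a (⟨i, rfl⟩ | ⟨i, rfl⟩)
    · exact (mem_nilradical.mpr (hx i))
    · exact (mem_nilradical.mpr (hx' i))
  obtain ⟨N, hN⟩ := Ideal.exists_pow_le_of_le_radical_of_fg hle hfg
  exact ⟨N, le_bot_iff.mp hN⟩

theorem cI_le_jacobson (x x' : Fin g → B) (hx : ∀ i, IsNilpotent (x i))
    (hx' : ∀ i, IsNilpotent (x' i)) : cI x x' ≤ Ideal.jacobson ⊥ := by
  have hle : cI x x' ≤ (⊥ : Ideal B).radical := by
    rw [cI, Ideal.span_le]
    rintro a (⟨i, rfl⟩ | ⟨i, rfl⟩)
    · exact (mem_nilradical.mpr (hx i))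
    · exact (mem_nilradical.mpr (hx' i))
  exact hle.trans (Ideal.radical_le_jacobson)

end Ideal

end Fermat.Agent.FF.CoreAlg7
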