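/-
Programme FF (S19), chapter G3 (helper2): the hypothesis `hG3` of
`ConcreteA8.thetaInput_of_chapters` (helper8), with `g = genus ℚ̄ (Fbar M)`, from the G2a data
`φ, Pb, hPb, hnp, hφ, hinj, hell` plus `hzero` (every zero of `φ` lies over some `Pb j`).
-/
import Mathlib
import Fermat.Agent.FF.CoreInst2
import Fermat.Agent.FF.ConcreteR8
import Fermat.Agent.FF.ThetaBridge5

set_option autoImplicit false
set_option linter.unusedSectionVars false
set_option synthInstance.maxHeartbeats 400000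

noncomputable section

namespace Fermat.Agent.FF.CoreInst2

open HahnSeries ModularCurve AlgebraicCurve IsLocalRing IntermediateField
open Fermat.Agent.RED.Interface4 Fermat.Agent.RED.BASE Fermat.Agent.ES.RED
open Fermat.Agent.FF.UniqueZeroA Fermat.Agent.FF.DiscOfRedA Fermat.Agent.RR.LSpace
open Fermat.Agent.FF.CoreIface8 Fermat.Agent.FF.GeomIface8 Fermat.Agent.FF.SpecRR1
open Fermat.Agent.FF.GaussOv1 Fermat.Agent.FF.ConcreteR8

/-- Riemann–Roch in large degree on `Fbar M`, with the Prelude genus. -/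
theorem finrank_L_of_degree_gt_genus (M : ℕ) [NeZero M] (D : Divisor Qbar ↥(Fbar M))
    (hD : 2 * (genus Qbar ↥(Fbar M) : ℤ) - 2 < Divisor.degree D) :
    (Module.finrank Qbar (riemannRochSpace D) : ℤ) =
      Divisor.degree D + 1 - genus Qbar ↥(Fbar M) :=
  Fermat.Agent.RR.RRMain.finrank_L_of_degree_gt (Fermat.Agent.X0.HasCanDivInst.isGen M) D hD

variable (n e M : ℕ) [NeZero n] [NeZero M] (ℓ : ℕ) [Fact ℓ.Prime] (hℓM : ¬ ℓ ∣ M)
  (hmem : Interface12.TMem n e M) (hgen : Interface12.TGenBase n e)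
  (A : ValuationSubring Qbar) (hA : A.LiesOverPrime ℓ)
  (r : Place Qbar ↥(Fbar M) → Place (Setup8.kA A) ↥(modularFunctionFieldFullC (Setup8.kA A) M))
  (hr : IsPlaceReductionModL A M r)

set_option maxHeartbeats 3200000 in
include n e hmem hgen in
/-- **the hypothesis `hG3` of `ConcreteA8.thetaInput_of_chapters`** (`g = genus ℚ̄ (Fbar M)`). -/
theorem hG3_level {d : ℕ}
    (φ : Ov A M ℓ hA hℓM)
    (Pb : Fin d → Place (Setup8.kA A) ↥(modularFunctionFieldFullC (Setup8.kA A) M))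
    (hPb : ∀ j, (Pb j).ord (ρ A M ℓ hA hℓM φ) = 1)
    (hnp : ∀ (j : Fin d) (P : Place Qbar ↥(Fbar M)), r P = Pb j → 0 ≤ P.ord (φ : ↥(Fbar M)))
    (hgd : genus Qbar ↥(Fbar M) ≤ d)
    (hφ : ρ A M ℓ hA hℓM φ ≠ 0)
    (hinj : Function.Injective Pb)
    (hell : ell (∑ j : Fin (genus Qbar ↥(Fbar M)),
      Finsupp.single (Pb (Fin.castLE hgd j)) (1 : ℤ)) ≤ 1)
    (hzero : ∀ P : Place Qbar ↥(Fbar M), 0 < P.ord (φ : ↥(Fbar M)) → ∃ j, r P = Pb j) :
    ∃ (nV : ℕ) (D : CoreData A (Fin nV → A) (genus Qbar ↥(Fbar M)) d),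
      ClosedFibre D (IsLocalRing.ResidueField A) ∧
      Nonempty (LatticeModel
        ((redCtxV A M ℓ hA hℓM r hr).discModel φ Pb hPb hnp (genus Qbar ↥(Fbar M)) hgd hφ) D) := by
  have HLb : LHyp (Setup8.kA A) ↥(modularFunctionFieldFullC (Setup8.kA A) M) :=
    Fermat.Agent.FF.SpecialRR6.lHyp_special n e M ℓ hℓM hmem hgen A hA r hr
  have hNS := ThetaBridge5.nonSpecial_of_red (redCtxV A M ℓ hA hℓM r hr) φ Pb hPb hnp
    (genus Qbar ↥(Fbar M)) hgd hφ HLb hell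
  obtain ⟨nV, D, L, hcf⟩ := CoreLat2.exists_coreData (redCtxV A M ℓ hA hℓM r hr) φ Pb hPb hnp
    (fun a => GaussOv1.ρ_const A M ℓ hA hℓM a)
    (GaussOv1.absRed A M ℓ hA hℓM r hr).ρ_ker
    (Fermat.Agent.FF.SpecialRR6.lHyp_bar n e M hmem) HLb
    (GaussOv1.hasManyPlaces A M ℓ hA hℓM n e hmem hgen r hr)
    (genus Qbar ↥(Fbar M)) hgd hφ hinj hzero (finrank_L_of_degree_gt_genus M) hNS
  exact ⟨nV, D, hcf, ⟨L⟩⟩

end Fermat.Agent.FF.CoreInst2
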