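/-
FF/CountLift1 (helper1): the abstract count lemma for chapter G6c.

Setting: `A` a valuation subring of a field `K`, `res : A →+* κ` any ring homomorphism to a
field (in practice the residue map), `F` a `K`-algebra, `Fb` a `κ`-algebra, `O` a commutative ring
with an injective ring homomorphism `ι : O →+* F` and a ring homomorphism `ρ : O →+* Fb`, such
that every `a ∈ A` has a lift `a' ∈ O` with `ι a' = a` and `ρ a' = res a`.

* `linearIndependent_of_reduction`: a family `b i : O` whose reductions `ρ (b i)` are
  `κ`-linearly independent has `K`-linearly independent images `ι (b i)`.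
* `finrank_le_of_lift`: if `L` is a finite-dimensional `K`-subspace of `F` and `V` a `κ`-subspace
  of `Fb` all of whose elements are reductions of elements of `ι ⁻¹ L`, then `V` is
  finite-dimensional with `dim_κ V ≤ dim_K L`.
-/
import Mathlib

namespace Fermat.Agent.FF.CountLift1

open Module

variable {K : Type*} [Field K] (A : ValuationSubring K)
  {κ : Type*} [Field κ] (res : A →+* κ)
  {F : Type*} [Field F] [Algebra K F]
  {Fb : Type*} [Field Fb] [Algebra κ Fb]
  {O : Type*} [CommRing O] (ι : O →+* F) (ρ : O →+* Fb)

/-- A family with `κ`-independent reductions has `K`-independent lifts. -/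
theorem linearIndependent_of_reduction (hι : Function.Injective ι)
    (hA : ∀ a : A, ∃ a' : O, ι a' = algebraMap K F (a : K) ∧ ρ a' = algebraMap κ Fb (res a))
    {I : Type*} (b : I → O) (hb : LinearIndependent κ (fun i => ρ (b i))) :
    LinearIndependent K (fun i => ι (b i)) := by
  classical
  rw [linearIndependent_iff']
  intro s g hsum
  by_contra hne
  push Not at hne
  obtain ⟨i₀, hi₀s, hi₀⟩ := hne
  have hsne : s.Nonempty := ⟨i₀, hi₀s⟩
  obtain ⟨j, hjs, hj⟩ := Finset.exists_max_image s (fun i => A.valuation (g i)) hsne
  have hgj : g j ≠ 0 := by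
    intro h0
    have h1 := hj i₀ hi₀s
    rw [h0, map_zero] at h1
    exact hi₀ ((map_eq_zero _).1 (le_antisymm h1 zero_le))
  -- the scaled coefficients lie in `A`
  have hc : ∀ i ∈ s, g i / g j ∈ A := by
    intro i hi
    rw [← A.valuation_le_one_iff, map_div₀]
    exact div_le_one_of_le₀ (hj i hi) zero_le
  choose! a' ha'ι ha'ρ using hA
  let c : I → O := fun i => if h : i ∈ s then a' ⟨g i / g j, hc i h⟩ else 0
  have hcι : ∀ i ∈ s, ι (c i) = algebraMap K F (g i / g j) := by
    intro i hi
    simp only [c, dif_pos hi]
    exact ha'ι _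
  have hcρ : ∀ i (hi : i ∈ s), ρ (c i) = algebraMap κ Fb (res ⟨g i / g j, hc i hi⟩) := by
    intro i hi
    simp only [c, dif_pos hi]
    exact ha'ρ _
  -- the relation lifts to `O`
  have hO : ∑ i ∈ s, c i * b i = 0 := by
    apply hι
    rw [map_sum, map_zero]
    have : ∑ i ∈ s, ι (c i * b i) = (g j)⁻¹ • ∑ i ∈ s, g i • ι (b i) := by
      rw [Finset.smul_sum]
      refine Finset.sum_congr rfl fun i hi => ?_
      rw [map_mul, hcι i hi, smul_smul, Algebra.smul_def, div_eq_inv_mul]
    rw [this, hsum, smul_zero]
  -- reduce
  have hred : ∑ i ∈ s, (if h : i ∈ s then res ⟨g i / g j, hc i h⟩ else 0) • ρ (b i) = 0 := by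
    have h1 := congrArg ρ hO
    rw [map_sum, map_zero] at h1
    rw [← h1]
    refine Finset.sum_congr rfl fun i hi => ?_
    rw [dif_pos hi, map_mul, hcρ i hi, Algebra.smul_def]
  have h2 := (linearIndependent_iff'.1 hb) s _ hred j hjs
  rw [dif_pos hjs] at h2
  have h3 : (⟨g j / g j, hc j hjs⟩ : A) = 1 := by
    apply Subtype.ext
    simp [div_self hgj]
  rw [h3, map_one] at h2
  exact one_ne_zero h2

/-- The count: a `κ`-subspace all of whose elements lift into `ι ⁻¹ L` has dimension at most
`dim_K L`. -/
theorem finrank_le_of_lift (hι : Function.Injective ι)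
    (hA : ∀ a : A, ∃ a' : O, ι a' = algebraMap K F (a : K) ∧ ρ a' = algebraMap κ Fb (res a))
    (L : Submodule K F) [FiniteDimensional K L] (V : Submodule κ Fb)
    (hV : ∀ y ∈ V, ∃ b : O, ρ b = y ∧ ι b ∈ L) :
    FiniteDimensional κ V ∧ finrank κ V ≤ finrank K L := by
  classical
  have hrank : Module.rank κ V ≤ (finrank K L : ℕ) := by
    apply rank_le
    intro s hs
    -- lift the elements of `s`
    have hlift : ∀ y : V, ∃ b : O, ρ b = (y : Fb) ∧ ι b ∈ L := fun y => hV y y.2
    choose bl hblρ hblL using hlift
    have hli : LinearIndependent κ (fun i : s => ρ (bl (i : V))) := by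
      have h1 : LinearIndependent κ (fun i : s => ((i : V) : Fb)) :=
        hs.map' V.subtype (Submodule.ker_subtype V)
      convert h1 using 2 with i
      exact hblρ _
    have hK := linearIndependent_of_reduction A res ι ρ hι hA (fun i : s => bl (i : V)) hli
    have hKL : LinearIndependent K (fun i : s => (⟨ι (bl (i : V)), hblL _⟩ : L)) := by
      apply LinearIndependent.of_comp L.subtype
      exact hK
    have := hKL.fintype_card_le_finrank
    simpa using this
  have hfin : FiniteDimensional κ V := by
    rw [FiniteDimensional, ← Module.rank_lt_aleph0_iff]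
    exact lt_of_le_of_lt hrank Cardinal.natCast_lt_aleph0
  exact ⟨hfin, finrank_le_of_rank_le hrank⟩

/-- Variant for the range of a family: `n` elements of `O` with `κ`-independent reductions and
images in `L` force `n ≤ dim_K L`. -/
theorem card_le_finrank_of_reduction (hι : Function.Injective ι)
    (hA : ∀ a : A, ∃ a' : O, ι a' = algebraMap K F (a : K) ∧ ρ a' = algebraMap κ Fb (res a))
    (L : Submodule K F) [FiniteDimensional K L] {I : Type*} [Fintype I] (b : I → O)
    (hb : LinearIndependent κ (fun i => ρ (b i))) (hL : ∀ i, ι (b i) ∈ L) :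
    Fintype.card I ≤ finrank K L := by
  have hK := linearIndependent_of_reduction A res ι ρ hι hA b hb
  have hKL : LinearIndependent K (fun i : I => (⟨ι (b i), hL i⟩ : L)) := by
    apply LinearIndependent.of_comp L.subtype
    exact hK
  exact hKL.fintype_card_le_finrank

end Fermat.Agent.FF.CountLift1
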