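/-
Programme FF (S19), chapter A2 (helper4): DESCENT, part A — the semilinear action of `G_ℚ` on
functions `M → ℚ̄`, finite orbits, and the trace–Lagrange identity.

For a `G_ℚ`-module `M` the group `G_ℚ` acts semilinearly on functions `h : M → ℚ̄` by
`star σ h = σ ∘ h ∘ σ⁻¹`; `h` is equivariant (`h (σ • z) = σ (h z)`) iff `star σ h = h`.

* `star_*` : basic calculus;
* `exists_pow_star_eq` : every function on a finite `M` is fixed by some positive power of a given `φ`;
* `sum_lagrange_star` : for automorphisms `σ i` (`i` in a finite type) and `θ` with pairwise distinct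
  conjugates `σ i θ`, `∑_j β_j • ∑_i star (σ i) (θ ^ j • h) = star (σ i₀) h` where the `β_j` are the
  coefficients of the Lagrange basis polynomial at `i₀`.
-/
import Mathlib
import Fermat.Agent.Lib.FrobeniusExists

set_option autoImplicit false

open Polynomial

namespace Fermat.Agent.FF.Desc4

noncomputable section

/-- `ℚ̄`. -/
abbrev Qb : Type := AlgebraicClosure ℚ

/-- the absolute Galois group of `ℚ`. -/
abbrev GQ : Type := Qb ≃ₐ[ℚ] Qb

section Star

variable {M : Type*} [AddCommGroup M] [DistribMulAction GQ M]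

/-- the semilinear action of `G_ℚ` on functions `M → ℚ̄`. -/
def star (σ : GQ) (h : M → Qb) : M → Qb := fun z => σ (h (σ⁻¹ • z))

@[simp] theorem star_apply (σ : GQ) (h : M → Qb) (z : M) : star σ h z = σ (h (σ⁻¹ • z)) := rfl

@[simp] theorem star_one (h : M → Qb) : star (1 : GQ) h = h := by
  funext z; simp [star]

theorem star_mul (σ τ : GQ) (h : M → Qb) : star (σ * τ) h = star σ (star τ h) := by
  funext z
  simp only [star_apply, mul_inv_rev, mul_smul, AlgEquiv.mul_apply]

theorem star_pow_succ (σ : GQ) (n : ℕ) (h : M → Qb) :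
    star (σ ^ (n + 1)) h = star σ (star (σ ^ n) h) := by
  rw [pow_succ', star_mul]

theorem star_add (σ : GQ) (f g : M → Qb) : star σ (f + g) = star σ f + star σ g := by
  funext z; simp [star]

theorem star_fun_mul (σ : GQ) (f g : M → Qb) : star σ (f * g) = star σ f * star σ g := by
  funext z; simp [star]

theorem star_zero (σ : GQ) : star σ (0 : M → Qb) = 0 := by
  funext z; simp [star]

theorem star_fun_one (σ : GQ) : star σ (1 : M → Qb) = 1 := by
  funext z; simp [star]

theorem star_smul (σ : GQ) (c : Qb) (f : M → Qb) : star σ (c • f) = σ c • star σ f := by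
  funext z; simp [star]

theorem star_const (σ : GQ) (c : Qb) : star σ (fun _ : M => c) = fun _ => σ c := by
  funext z; simp [star]

theorem star_sum {ι : Type*} (σ : GQ) (s : Finset ι) (f : ι → M → Qb) :
    star σ (∑ i ∈ s, f i) = ∑ i ∈ s, star σ (f i) := by
  classical
  induction s using Finset.induction_on with
  | empty => simp [star_zero]
  | insert a s ha ih => rw [Finset.sum_insert ha, Finset.sum_insert ha, star_add, ih]

theorem star_pow (σ : GQ) (f : M → Qb) (n : ℕ) : star σ (f ^ n) = star σ f ^ n := by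
  induction n with
  | zero => simp [star_fun_one]
  | succ n ih => rw [pow_succ, pow_succ, star_fun_mul, ih]

/-- `star σ h = h` iff `h` is `σ`-equivariant. -/
theorem star_eq_self_iff (σ : GQ) (h : M → Qb) :
    star σ h = h ↔ ∀ z, h (σ • z) = σ (h z) := by
  constructor
  · intro hs z
    have := congrFun hs (σ • z)
    simp only [star_apply, inv_smul_smul] at this
    exact this.symm
  · intro he
    funext z
    simp only [star_apply]
    rw [← he, smul_inv_smul]

theorem star_inv_eq_self {σ : GQ} {h : M → Qb} (hs : star σ h = h) : star σ⁻¹ h = h := by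
  have : star σ⁻¹ (star σ h) = h := by rw [← star_mul, inv_mul_cancel, star_one]
  rw [hs] at this
  exact this

theorem star_pow_eq_self {σ : GQ} {h : M → Qb} (hs : star σ h = h) (n : ℕ) :
    star (σ ^ n) h = h := by
  induction n with
  | zero => simp
  | succ n ih => rw [star_pow_succ, ih, hs]

end Star

section FiniteOrbit

/-- every element of `ℚ̄` is fixed by a positive power of a given automorphism. -/
theorem exists_pow_apply_eq (φ : GQ) (x : Qb) : ∃ n : ℕ, 0 < n ∧ (φ ^ n) x = x := by
  have hint : IsIntegral ℚ x :=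
    Fermat.Agent.Lib.FrobeniusExists.isIntegral_Qbar.isIntegral x
  set s : Set Qb := (minpoly ℚ x).rootSet Qb with hs
  have hfin : s.Finite := Polynomial.rootSet_finite _ _
  have hmem : ∀ n : ℕ, (φ ^ n) x ∈ s := by
    intro n
    rw [hs, Polynomial.mem_rootSet]
    refine ⟨minpoly.ne_zero hint, ?_⟩
    have h1 : aeval ((φ ^ n) x) (minpoly ℚ x) = (φ ^ n) (aeval x (minpoly ℚ x)) := by
      have := Polynomial.aeval_algHom_apply ((φ ^ n : GQ) : Qb →ₐ[ℚ] Qb) x (minpoly ℚ x)
      simpa using this
    rw [h1, minpoly.aeval, map_zero]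
  obtain ⟨m, n, hmn, heq⟩ := hfin.exists_lt_map_eq_of_forall_mem hmem
  refine ⟨n - m, Nat.sub_pos_of_lt hmn, ?_⟩
  have h2 : (φ ^ m) ((φ ^ (n - m)) x) = (φ ^ m) x := by
    rw [← AlgEquiv.mul_apply, ← pow_add, Nat.add_sub_cancel' hmn.le]
    exact heq.symm
  exact (φ ^ m).injective h2

theorem pow_mul_apply_eq {φ : GQ} {x : Qb} {n : ℕ} (h : (φ ^ n) x = x) (k : ℕ) :
    (φ ^ (n * k)) x = x := by
  induction k with
  | zero => simp
  | succ k ih =>
    rw [Nat.mul_succ, pow_add, AlgEquiv.mul_apply, h, ih]

/-- finitely many elements of `ℚ̄` are fixed by a common positive power of a given automorphism. -/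
theorem exists_pow_apply_eq_finset {ι : Type*} (φ : GQ) (s : Finset ι) (x : ι → Qb) :
    ∃ n : ℕ, 0 < n ∧ ∀ i ∈ s, (φ ^ n) (x i) = x i := by
  classical
  induction s using Finset.induction_on with
  | empty => exact ⟨1, one_pos, by simp⟩
  | insert a s ha ih =>
    obtain ⟨n, hn, hns⟩ := ih
    obtain ⟨m, hm, hma⟩ := exists_pow_apply_eq φ (x a)
    refine ⟨n * m, Nat.mul_pos hn hm, ?_⟩
    intro i hi
    rcases Finset.mem_insert.1 hi with rfl | hi
    · rw [mul_comm]; exact pow_mul_apply_eq hma n
    · exact pow_mul_apply_eq (hns i hi) m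

variable {M : Type*} [AddCommGroup M] [DistribMulAction GQ M]

/-- on a finite `M`, a positive power of `φ` acts trivially. -/
theorem exists_pow_smul_eq [Finite M] (φ : GQ) : ∃ n : ℕ, 0 < n ∧ ∀ z : M, (φ ^ n) • z = z := by
  classical
  have := Fintype.ofFinite M
  set p : Equiv.Perm M := MulAction.toPermHom GQ M φ with hp
  refine ⟨orderOf p, orderOf_pos p, fun z => ?_⟩
  have h1 : p ^ orderOf p = 1 := pow_orderOf_eq_one p
  have h2 : (MulAction.toPermHom GQ M (φ ^ orderOf p)) = 1 := by
    rw [map_pow, ← hp, h1]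
  have := congrArg (fun q : Equiv.Perm M => q z) h2
  simpa using this

theorem pow_mul_smul_eq {φ : GQ} {n : ℕ} (h : ∀ z : M, (φ ^ n) • z = z) (k : ℕ) (z : M) :
    (φ ^ (n * k)) • z = z := by
  induction k with
  | zero => simp
  | succ k ih => rw [Nat.mul_succ, pow_add, mul_smul, h, ih]

/-- every function on a finite `M` is fixed by a positive power of `φ` (for the semilinear
action). -/
theorem exists_pow_star_eq [Finite M] (φ : GQ) (h : M → Qb) :
    ∃ n : ℕ, 0 < n ∧ star (φ ^ n) h = h := by
  classical
  have := Fintype.ofFinite M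
  obtain ⟨n, hn, hnM⟩ := exists_pow_smul_eq (M := M) φ
  obtain ⟨m, hm, hmx⟩ := exists_pow_apply_eq_finset φ (Finset.univ : Finset M) h
  refine ⟨n * m, Nat.mul_pos hn hm, ?_⟩
  rw [star_eq_self_iff]
  intro z
  rw [pow_mul_smul_eq hnM m z]
  have := pow_mul_apply_eq (hmx z (Finset.mem_univ z)) n
  rw [mul_comm] at this
  exact this.symm

end FiniteOrbit

section Lagrange

variable {M : Type*} [AddCommGroup M] [DistribMulAction GQ M]

/-- **trace–Lagrange identity.** -/
theorem sum_lagrange_star {ι : Type*} [Fintype ι] [DecidableEq ι] (σ : ι → GQ) (θ : Qb)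
    (hinj : Function.Injective fun i => σ i θ) (i₀ : ι) (h : M → Qb) :
    ∑ j ∈ Finset.range (Fintype.card ι),
        (Lagrange.basis Finset.univ (fun i => σ i θ) i₀).coeff j •
          ∑ i, star (σ i) (θ ^ j • h) = star (σ i₀) h := by
  classical
  set L : Qb[X] := Lagrange.basis Finset.univ (fun i => σ i θ) i₀ with hL
  have hdeg : L.natDegree < Fintype.card ι := by
    have hinj' : Set.InjOn (fun i => σ i θ) (Finset.univ : Finset ι) := hinj.injOn
    have := Lagrange.natDegree_basis (s := Finset.univ) (v := fun i => σ i θ) hinj'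
      (Finset.mem_univ i₀)
    rw [← hL] at this
    rw [this, Finset.card_univ]
    have : Nonempty ι := ⟨i₀⟩
    exact Nat.sub_lt Fintype.card_pos one_pos
  have heval : ∀ i, L.eval (σ i θ) = if i = i₀ then 1 else 0 := by
    intro i
    by_cases hi : i = i₀
    · subst hi
      rw [if_pos rfl, hL]
      exact Lagrange.eval_basis_self (hinj.injOn) (Finset.mem_univ _)
    · rw [if_neg hi, hL]
      exact Lagrange.eval_basis_of_ne (v := fun i => σ i θ) (Ne.symm hi) (Finset.mem_univ i)
  have hstar : ∀ (i : ι) (j : ℕ), star (σ i) (θ ^ j • h) = (σ i θ) ^ j • star (σ i) h := by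
    intro i j
    rw [star_smul, map_pow]
  calc ∑ j ∈ Finset.range (Fintype.card ι), L.coeff j • ∑ i, star (σ i) (θ ^ j • h)
      = ∑ j ∈ Finset.range (Fintype.card ι), ∑ i, (L.coeff j * (σ i θ) ^ j) • star (σ i) h := by
        apply Finset.sum_congr rfl
        intro j _
        rw [Finset.smul_sum]
        apply Finset.sum_congr rfl
        intro i _
        rw [hstar, smul_smul]
    _ = ∑ i, (∑ j ∈ Finset.range (Fintype.card ι), L.coeff j * (σ i θ) ^ j) • star (σ i) h := by
        rw [Finset.sum_comm]
        apply Finset.sum_congr rfl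
        intro i _
        rw [Finset.sum_smul]
    _ = ∑ i, (L.eval (σ i θ)) • star (σ i) h := by
        apply Finset.sum_congr rfl
        intro i _
        congr 1
        rw [Polynomial.eval_eq_sum_range' hdeg]
    _ = star (σ i₀) h := by
        simp only [heval, ite_smul, one_smul, zero_smul, Finset.sum_ite_eq', Finset.mem_univ,
          if_true]

end Lagrange

end

end Fermat.Agent.FF.Desc4
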