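/-
Programme FF (S19), chapter A2 (helper4): DESCENT, part D — Galois descent over FIELDS.

For a finite `G_ℚ`-module `M` with open stabilisers, every function `M → ℚ̄` is a `ℚ̄`-combination of
`G_ℚ`-equivariant functions (`exists_equivariant_span`), so `M → ℚ̄` has a `ℚ̄`-basis of equivariant
functions (`exists_equivariant_basis`); coefficients of a `σ`-equivariant function on such a basis are
`σ`-fixed (`coeff_fixed_of_star_eq`).

The proof is the trace–Lagrange identity of part A with nodes the conjugates of a primitive element of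
a number field that trivialises `M` and contains the values of the given function.
-/
import Mathlib
import Fermat.Agent.FF.Desc4A

set_option autoImplicit false

open Polynomial IntermediateField

namespace Fermat.Agent.FF.Desc4

noncomputable section

open Fermat.Agent.Lib.FrobeniusExists (isIntegral_Qbar)

/-- the fixed field of a single automorphism. -/
def fixedFieldOf (σ : GQ) : IntermediateField ℚ Qb where
  carrier := {x | σ x = x}
  mul_mem' := by
    intro a b ha hb
    simp only [Set.mem_ofPred_eq] at *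
    rw [map_mul, ha, hb]
  one_mem' := map_one σ
  add_mem' := by
    intro a b ha hb
    simp only [Set.mem_ofPred_eq] at *
    rw [map_add, ha, hb]
  zero_mem' := map_zero σ
  algebraMap_mem' r := σ.commutes r
  inv_mem' := by
    intro x hx
    simp only [Set.mem_ofPred_eq] at *
    rw [map_inv₀, hx]

theorem mem_fixedFieldOf {σ : GQ} {x : Qb} : x ∈ fixedFieldOf σ ↔ σ x = x := Iff.rfl

/-- every finite-dimensional subfield of `ℚ̄` is generated by one element. -/
theorem exists_primitive (L : IntermediateField ℚ Qb) [FiniteDimensional ℚ L] :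
    ∃ θ : Qb, ℚ⟮θ⟯ = L := by
  obtain ⟨α, hα⟩ := Field.exists_primitive_element ℚ L
  refine ⟨(α : Qb), ?_⟩
  have h : IntermediateField.lift (F := L) (IntermediateField.adjoin ℚ {α}) =
      IntermediateField.lift (F := L) ⊤ := congrArg IntermediateField.lift hα
  rw [IntermediateField.lift_top, IntermediateField.lift_adjoin_simple] at h
  exact h

theorem inv_apply_eq_of_apply_eq {σ : GQ} {x : Qb} (h : σ x = x) : σ⁻¹ x = x := by
  calc σ⁻¹ x = σ⁻¹ (σ x) := by rw [h]
    _ = (σ⁻¹ * σ) x := rfl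
    _ = x := by rw [inv_mul_cancel]; rfl

variable {M : Type*} [AddCommGroup M] [DistribMulAction GQ M]

/-- an element `θ` whose stabiliser acts trivially on `M` and on the values of `h`. -/
theorem exists_gen [Finite M]
    (hM : ∃ L : IntermediateField ℚ Qb, FiniteDimensional ℚ L ∧
      ∀ σ : GQ, (∀ x ∈ L, σ x = x) → ∀ z : M, σ • z = z) (h : M → Qb) :
    ∃ θ : Qb, ∀ σ : GQ, σ θ = θ → (∀ z : M, σ • z = z) ∧ ∀ z, σ (h z) = h z := by
  obtain ⟨L, hL, hLM⟩ := hM
  have : Finite (Set.range h) := (Set.finite_range h).to_subtype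
  have hfd : FiniteDimensional ℚ (IntermediateField.adjoin ℚ (Set.range h)) :=
    IntermediateField.finiteDimensional_adjoin (K := ℚ) (S := Set.range h)
      (fun x _ => isIntegral_Qbar.isIntegral x)
  have hfd' : FiniteDimensional ℚ ↥(L ⊔ IntermediateField.adjoin ℚ (Set.range h)) :=
    IntermediateField.finiteDimensional_sup L _
  obtain ⟨θ, hθ⟩ := exists_primitive (L ⊔ IntermediateField.adjoin ℚ (Set.range h))
  refine ⟨θ, fun σ hσ => ?_⟩
  have hle : L ⊔ IntermediateField.adjoin ℚ (Set.range h) ≤ fixedFieldOf σ := by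
    rw [← hθ]
    exact IntermediateField.adjoin_simple_le_iff.2 hσ
  refine ⟨hLM σ fun x hx => hle ((le_sup_left : L ≤ _) hx), fun z => ?_⟩
  exact hle ((le_sup_right : IntermediateField.adjoin ℚ (Set.range h) ≤ _)
    (IntermediateField.subset_adjoin ℚ _ ⟨z, rfl⟩))

theorem star_smul_eq_of_fix {θ : Qb} {h : M → Qb}
    (hθ : ∀ σ : GQ, σ θ = θ → (∀ z : M, σ • z = z) ∧ ∀ z, σ (h z) = h z) {σ : GQ}
    (hσ : σ θ = θ) (j : ℕ) : star σ (θ ^ j • h) = θ ^ j • h := by
  rw [star_smul, map_pow, hσ]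
  congr 1
  funext z
  rw [star_apply, (hθ σ⁻¹ (inv_apply_eq_of_apply_eq hσ)).1 z, (hθ σ hσ).2 z]

/-- **Galois descent over fields**: every function is a `ℚ̄`-combination of equivariant functions. -/
theorem exists_equivariant_span [Finite M]
    (hM : ∃ L : IntermediateField ℚ Qb, FiniteDimensional ℚ L ∧
      ∀ σ : GQ, (∀ x ∈ L, σ x = x) → ∀ z : M, σ • z = z) (h : M → Qb) :
    ∃ (k : ℕ) (c : Fin k → Qb) (g : Fin k → M → Qb),
      (∀ j (σ : GQ), star σ (g j) = g j) ∧ h = ∑ j, c j • g j := by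
  classical
  obtain ⟨θ, hθ⟩ := exists_gen hM h
  have hint : IsIntegral ℚ θ := isIntegral_Qbar.isIntegral θ
  have hnorm : Normal ℚ Qb := Fermat.Agent.Lib.FrobeniusExists.isGalois_Qbar.to_normal
  have hroot : ∀ i : ↥((minpoly ℚ θ).rootSet Qb), ∃ σ : GQ, σ θ = i.1 := fun i =>
    minpoly.exists_algEquiv_of_root' hint.isAlgebraic ((Polynomial.mem_rootSet.1 i.2).2)
  choose σ hσ using hroot
  have hinj : Function.Injective fun i => σ i θ := by
    intro i j hij
    simp only [hσ] at hij
    exact Subtype.ext hij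
  have hθroot : θ ∈ (minpoly ℚ θ).rootSet Qb :=
    Polynomial.mem_rootSet.2 ⟨minpoly.ne_zero hint, minpoly.aeval ℚ θ⟩
  set i₀ : ↥((minpoly ℚ θ).rootSet Qb) := ⟨θ, hθroot⟩ with hi₀
  have hident := sum_lagrange_star σ θ hinj i₀ h
  have h0 : star (σ i₀) h = h := by
    have := star_smul_eq_of_fix hθ (hσ i₀) 0
    simpa using this
  rw [h0] at hident
  have key : ∀ (j : ℕ) (ρ : GQ) (i : ↥((minpoly ℚ θ).rootSet Qb)), ρ θ = i.1 →
      star ρ (θ ^ j • h) = star (σ i) (θ ^ j • h) := by
    intro j ρ i hρ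
    have h1 : ((σ i)⁻¹ * ρ) θ = θ := by
      rw [AlgEquiv.mul_apply, hρ, ← hσ i]
      calc (σ i)⁻¹ (σ i θ) = ((σ i)⁻¹ * σ i) θ := rfl
        _ = θ := by rw [inv_mul_cancel]; rfl
    have h2 := star_smul_eq_of_fix hθ h1 j
    calc star ρ (θ ^ j • h) = star (σ i * ((σ i)⁻¹ * ρ)) (θ ^ j • h) := by
          rw [mul_inv_cancel_left]
      _ = star (σ i) (star ((σ i)⁻¹ * ρ) (θ ^ j • h)) := star_mul _ _ _
      _ = star (σ i) (θ ^ j • h) := by rw [h2]
  have htr : ∀ (j : ℕ) (τ : GQ), star τ (∑ i, star (σ i) (θ ^ j • h)) =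
      ∑ i, star (σ i) (θ ^ j • h) := by
    intro j τ
    rw [star_sum]
    have hmem : ∀ i : ↥((minpoly ℚ θ).rootSet Qb), τ i.1 ∈ (minpoly ℚ θ).rootSet Qb := by
      intro i
      obtain ⟨h1, h2⟩ := Polynomial.mem_rootSet.1 i.2
      refine Polynomial.mem_rootSet.2 ⟨h1, ?_⟩
      have h3 := Polynomial.aeval_algHom_apply ((τ : GQ) : Qb →ₐ[ℚ] Qb) i.1 (minpoly ℚ θ)
      have h4 : aeval (τ i.1) (minpoly ℚ θ) = τ (aeval i.1 (minpoly ℚ θ)) := by
        simpa using h3
      rw [h4, h2, map_zero]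
    set π : ↥((minpoly ℚ θ).rootSet Qb) → ↥((minpoly ℚ θ).rootSet Qb) :=
      fun i => ⟨τ i.1, hmem i⟩ with hπdef
    have hπinj : Function.Injective π := fun i j hij =>
      Subtype.ext (τ.injective (congrArg Subtype.val hij))
    have hπ : Function.Bijective π := Finite.injective_iff_bijective.1 hπinj
    have h3 : ∀ i, star τ (star (σ i) (θ ^ j • h)) = star (σ (π i)) (θ ^ j • h) := by
      intro i
      rw [← star_mul]
      apply key
      rw [AlgEquiv.mul_apply, hσ]
    simp_rw [h3]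
    exact hπ.sum_comp (fun i => star (σ i) (θ ^ j • h))
  refine ⟨Fintype.card ↥((minpoly ℚ θ).rootSet Qb),
    fun j => (Lagrange.basis Finset.univ (fun i => σ i θ) i₀).coeff j,
    fun j => ∑ i, star (σ i) (θ ^ (j : ℕ) • h), fun j τ => htr j τ, ?_⟩
  exact hident.symm.trans (Fin.sum_univ_eq_sum_range
    (fun j => (Lagrange.basis Finset.univ (fun i => σ i θ) i₀).coeff j •
      ∑ i, star (σ i) (θ ^ j • h)) _).symm

/-- `M → ℚ̄` has a `ℚ̄`-basis of equivariant functions. -/
theorem exists_equivariant_basis [Finite M]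
    (hM : ∃ L : IntermediateField ℚ Qb, FiniteDimensional ℚ L ∧
      ∀ σ : GQ, (∀ x ∈ L, σ x = x) → ∀ z : M, σ • z = z) :
    ∃ (n : ℕ) (g : Fin n → M → Qb), LinearIndependent Qb g ∧
      (∀ i (σ : GQ), star σ (g i) = g i) ∧ ∀ f : M → Qb, ∃ c : Fin n → Qb, f = ∑ i, c i • g i := by
  classical
  set S : Set (M → Qb) := {g | ∀ σ : GQ, star σ g = g} with hS
  have hspan : ∀ f : M → Qb, f ∈ Submodule.span Qb S := by
    intro f
    obtain ⟨k, c, g, hg, hf⟩ := exists_equivariant_span hM f
    rw [hf]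
    exact Submodule.sum_mem _ fun j _ =>
      Submodule.smul_mem _ _ (Submodule.subset_span (hg j))
  obtain ⟨b, hbS, hbspan, hli⟩ := exists_linearIndependent Qb S
  have hbfin : b.Finite := hli.set_finite_of_isNoetherian
  have : Fintype ↥b := hbfin.fintype
  set e := Fintype.equivFin ↥b with he
  refine ⟨Fintype.card ↥b, fun i => ((e.symm i : ↥b) : M → Qb), ?_, ?_, ?_⟩
  · exact hli.comp e.symm e.symm.injective
  · intro i σ
    exact hbS (e.symm i).2 σ
  · intro f
    have h1 : f ∈ Submodule.span Qb b := by rw [hbspan]; exact hspan f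
    have h2 : Set.range (fun i => ((e.symm i : ↥b) : M → Qb)) = b := by
      ext x
      constructor
      · rintro ⟨i, rfl⟩
        exact (e.symm i).2
      · intro hx
        exact ⟨e ⟨x, hx⟩, by simp⟩
    rw [← h2] at h1
    obtain ⟨c, hc⟩ := (Submodule.mem_span_range_iff_exists_fun Qb).1 h1
    exact ⟨c, hc.symm⟩

/-- coefficients of a `σ`-equivariant function on an independent family of `σ`-equivariant functions
are `σ`-fixed. -/
theorem coeff_fixed_of_star_eq {ι : Type*} [Fintype ι] {g : ι → M → Qb}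
    (hli : LinearIndependent Qb g) {σ : GQ} (hg : ∀ i, star σ (g i) = g i) {c : ι → Qb}
    (hf : star σ (∑ i, c i • g i) = ∑ i, c i • g i) (i : ι) : σ (c i) = c i := by
  have h1 : star σ (∑ i, c i • g i) = ∑ i, σ (c i) • g i := by
    rw [star_sum]
    apply Finset.sum_congr rfl
    intro i _
    rw [star_smul, hg]
  rw [h1] at hf
  have h2 : ∑ i, (σ (c i) - c i) • g i = 0 := by
    simp only [sub_smul, Finset.sum_sub_distrib, hf, sub_self]
  exact sub_eq_zero.1 (Fintype.linearIndependent_iff.1 hli _ h2 i)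

end

end Fermat.Agent.FF.Desc4
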