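/-
Programme FF (S19), chapter A2 (helper4): DESCENT, part E — the integral descent.

`A` a valuation subring of `ℚ̄` over `ℓ`, `φ` a Frobenius at `A`, `M` a finite `G_ℚ`-module with open
stabilisers, `T` a set of `A`-valued, inertia-equivariant functions `M → ℚ̄` separating the points of
`M`.  `PA := A[φ-orbit of T]`, `Hset := G_ℚ`-equivariant members of `PA`.

Main result: `mem_span_Hset` : every member of `PA` is an `A`-linear combination of members of `Hset`.
-/
import Mathlib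
import Fermat.Agent.FF.Desc4C
import Fermat.Agent.FF.Desc4D

set_option autoImplicit false

open Polynomial

namespace Fermat.Agent.FF.Desc4

noncomputable section

variable {A : ValuationSubring Qb} {ℓ : ℕ}
variable {M : Type*} [AddCommGroup M] [DistribMulAction GQ M]

/-! ### generalities on `A[S]` -/

section Adjoin

omit [AddCommGroup M] [DistribMulAction GQ M] in
theorem smul_eq_subtype_smul {c : Qb} (hc : c ∈ A) (f : M → Qb) :
    c • f = (⟨c, hc⟩ : ↥A) • f := by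
  funext z; rfl

omit [AddCommGroup M] [DistribMulAction GQ M] in
theorem smul_mem_adjoin {S : Set (M → Qb)} {c : Qb} (hc : c ∈ A) {f : M → Qb}
    (hf : f ∈ Algebra.adjoin ↥A S) : c • f ∈ Algebra.adjoin ↥A S := by
  rw [smul_eq_subtype_smul hc]
  exact Subalgebra.smul_mem _ hf _

omit [AddCommGroup M] [DistribMulAction GQ M] in
theorem const_mem_adjoin {S : Set (M → Qb)} {c : Qb} (hc : c ∈ A) :
    (fun _ : M => c) ∈ Algebra.adjoin ↥A S := by
  have : (fun _ : M => c) = algebraMap ↥A (M → Qb) ⟨c, hc⟩ := by funext z; rfl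
  rw [this]
  exact Subalgebra.algebraMap_mem _ _

omit [AddCommGroup M] [DistribMulAction GQ M] in
theorem apply_mem_of_mem_adjoin {S : Set (M → Qb)} (hS : ∀ s ∈ S, ∀ z, s z ∈ A) {f : M → Qb}
    (hf : f ∈ Algebra.adjoin ↥A S) (z : M) : f z ∈ A := by
  induction hf using Algebra.adjoin_induction with
  | mem x hx => exact hS x hx z
  | algebraMap a => exact a.2
  | add x y _ _ hx hy => exact A.add_mem _ _ hx hy
  | mul x y _ _ hx hy => exact A.mul_mem _ _ hx hy

theorem star_mem_adjoin {S : Set (M → Qb)} {σ : GQ} (hσ : σ ∈ A.decompositionSubgroup ℚ)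
    (hS : ∀ s ∈ S, star σ s ∈ Algebra.adjoin ↥A S) {f : M → Qb}
    (hf : f ∈ Algebra.adjoin ↥A S) : star σ f ∈ Algebra.adjoin ↥A S := by
  induction hf using Algebra.adjoin_induction with
  | mem x hx => exact hS x hx
  | algebraMap a =>
    have : star σ (algebraMap ↥A (M → Qb) a) = fun _ => σ (a : Qb) := by funext z; rfl
    rw [this]
    exact const_mem_adjoin
      ((Fermat.Agent.S05.Inertia.apply_mem_iff_of_mem_decomposition hσ _).2 a.2)
  | add x y _ _ hx hy => rw [star_add]; exact Subalgebra.add_mem _ hx hy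
  | mul x y _ _ hx hy => rw [star_fun_mul]; exact Subalgebra.mul_mem _ hx hy

end Adjoin

/-! ### conjugation -/

theorem star_star_conj (σ τ : GQ) (f : M → Qb) :
    star τ (star σ f) = star σ (star (σ⁻¹ * τ * σ) f) := by
  rw [← star_mul, ← star_mul]
  congr 1
  group

theorem conj_inv_mem_inertia {σ τ : GQ} (hσ : σ ∈ A.decompositionSubgroup ℚ)
    (hτ : τ ∈ A.inertiaSubgroupIn ℚ) : σ⁻¹ * τ * σ ∈ A.inertiaSubgroupIn ℚ := by
  have h := Fermat.Agent.ES.FROB.FrobFacts12.conj_mem_inertiaSubgroupIn A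
    ((A.decompositionSubgroup ℚ).inv_mem hσ) hτ
  rwa [inv_inv] at h

/-- the uniform version of `exists_pow_mul_mem`. -/
theorem exists_pow_mul_mem_finite (hℓ : ℓ.Prime) (hA : A.LiesOverPrime ℓ) {ι : Type*} [Finite ι]
    (c : ι → Qb) : ∃ N : ℕ, ∀ i, (ℓ : Qb) ^ N * c i ∈ A := by
  classical
  have := Fintype.ofFinite ι
  choose N hN using fun i => exists_pow_mul_mem A hℓ hA (c i)
  refine ⟨∑ i, N i, fun i => ?_⟩
  have h1 : N i ≤ ∑ i, N i := Finset.single_le_sum (fun _ _ => Nat.zero_le _) (Finset.mem_univ i)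
  obtain ⟨k, hk⟩ := Nat.exists_eq_add_of_le h1
  rw [hk, pow_add, mul_comm ((ℓ : Qb) ^ N i), mul_assoc]
  exact A.mul_mem _ _ (A.pow_mem (natCast_mem_of_liesOver A hA) k) (hN i)

/-! ### the set-up -/

/-- the `φ`-orbit of a set of functions. -/
def orbitSet (φ : GQ) (T : Set (M → Qb)) : Set (M → Qb) :=
  {f | ∃ i : ℕ, ∃ t ∈ T, f = star (φ ^ i) t}

theorem subset_orbitSet (φ : GQ) (T : Set (M → Qb)) : T ⊆ orbitSet φ T :=
  fun t ht => ⟨0, t, ht, by simp⟩

theorem star_pow_mem_orbitSet {φ : GQ} {T : Set (M → Qb)} {f : M → Qb} (hf : f ∈ orbitSet φ T)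
    (j : ℕ) : star (φ ^ j) f ∈ orbitSet φ T := by
  obtain ⟨i, t, ht, rfl⟩ := hf
  exact ⟨j + i, t, ht, by rw [pow_add, star_mul]⟩

variable (A) in
/-- `A[φ-orbit of T]`. -/
def PA (φ : GQ) (T : Set (M → Qb)) : Subalgebra ↥A (M → Qb) :=
  Algebra.adjoin ↥A (orbitSet φ T)

variable (A) in
/-- the inertia-equivariant members of `PA`. -/
def IsB (φ : GQ) (T : Set (M → Qb)) (f : M → Qb) : Prop :=
  f ∈ PA A φ T ∧ ∀ τ ∈ A.inertiaSubgroupIn ℚ, star τ f = f

variable (A) in
/-- the `G_ℚ`-equivariant members of `PA`. -/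
def Hset (φ : GQ) (T : Set (M → Qb)) : Set (M → Qb) :=
  {f | f ∈ PA A φ T ∧ ∀ σ : GQ, star σ f = f}

variable (A ℓ) in
/-- the hypotheses of the descent. -/
structure Setup (φ : GQ) (T : Set (M → Qb)) : Prop where
  prime : ℓ.Prime
  liesOver : A.LiesOverPrime ℓ
  frob : A.IsFrobeniusAt φ ℓ
  openStab : ∃ L : IntermediateField ℚ Qb, FiniteDimensional ℚ L ∧
    ∀ σ : GQ, (∀ x ∈ L, σ x = x) → ∀ z : M, σ • z = z
  valued : ∀ t ∈ T, ∀ z, t z ∈ A
  inertia : ∀ t ∈ T, ∀ τ ∈ A.inertiaSubgroupIn ℚ, star τ t = t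
  sep : ∀ z z' : M, (∀ t ∈ T, t z = t z') → z = z'

namespace Setup

variable {φ : GQ} {T : Set (M → Qb)} (S : Setup A ℓ φ T)
include S

theorem frob_mem : φ ∈ A.decompositionSubgroup ℚ := S.frob.mem_decompositionSubgroup

theorem frob_pow_mem (i : ℕ) : φ ^ i ∈ A.decompositionSubgroup ℚ :=
  (A.decompositionSubgroup ℚ).pow_mem S.frob_mem i

theorem orbit_valued : ∀ s ∈ orbitSet φ T, ∀ z, s z ∈ A := by
  rintro s ⟨i, t, ht, rfl⟩ z
  exact (Fermat.Agent.S05.Inertia.apply_mem_iff_of_mem_decomposition (S.frob_pow_mem i) _).2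
    (S.valued t ht _)

theorem orbit_inertia : ∀ s ∈ orbitSet φ T, ∀ τ ∈ A.inertiaSubgroupIn ℚ, star τ s = s := by
  rintro s ⟨i, t, ht, rfl⟩ τ hτ
  rw [star_star_conj, S.inertia t ht _ (conj_inv_mem_inertia (S.frob_pow_mem i) hτ)]

theorem PA_valued {f : M → Qb} (hf : f ∈ PA A φ T) (z : M) : f z ∈ A :=
  apply_mem_of_mem_adjoin S.orbit_valued hf z

theorem star_pow_mem_PA {f : M → Qb} (hf : f ∈ PA A φ T) (j : ℕ) : star (φ ^ j) f ∈ PA A φ T :=
  star_mem_adjoin (S.frob_pow_mem j)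
    (fun _ hs => Algebra.subset_adjoin (star_pow_mem_orbitSet hs j)) hf

theorem star_mem_PA {f : M → Qb} (hf : f ∈ PA A φ T) : star φ f ∈ PA A φ T := by
  have := S.star_pow_mem_PA hf 1
  rwa [pow_one] at this

omit S in
theorem mem_PA_of_mem {t : M → Qb} (ht : t ∈ T) : t ∈ PA A φ T :=
  Algebra.subset_adjoin (subset_orbitSet φ T ht)

omit S in
theorem adjoin_le_PA : Algebra.adjoin ↥A T ≤ PA A φ T :=
  Algebra.adjoin_mono (subset_orbitSet φ T)

/-! ### the class `IsB` -/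

omit S in
theorem isB_add {f g : M → Qb} (hf : IsB A φ T f) (hg : IsB A φ T g) : IsB A φ T (f + g) :=
  ⟨Subalgebra.add_mem _ hf.1 hg.1, fun τ hτ => by rw [star_add, hf.2 τ hτ, hg.2 τ hτ]⟩

omit S in
theorem isB_zero : IsB A φ T (0 : M → Qb) :=
  ⟨Subalgebra.zero_mem _, fun τ _ => star_zero τ⟩

omit S in
theorem isB_smul {c : Qb} (hc : c ∈ W0 A) {f : M → Qb} (hf : IsB A φ T f) :
    IsB A φ T (c • f) :=
  ⟨smul_mem_adjoin hc.1 hf.1, fun τ hτ => by rw [star_smul, hc.2 τ hτ, hf.2 τ hτ]⟩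

theorem isB_star {f : M → Qb} (hf : IsB A φ T f) : IsB A φ T (star φ f) :=
  ⟨S.star_mem_PA hf.1, fun τ hτ => by
    rw [star_star_conj, hf.2 _ (conj_inv_mem_inertia S.frob_mem hτ)]⟩

theorem isB_of_mem_orbitSet {s : M → Qb} (hs : s ∈ orbitSet φ T) : IsB A φ T s :=
  ⟨Algebra.subset_adjoin hs, S.orbit_inertia s hs⟩

/-! ### `PA` is a lattice of full rank: every function is carried into `PA` by a power of `ℓ` -/

theorem exists_ne (z z' : M) : ∃ t ∈ PA A φ T, z ≠ z' → t z ≠ t z' := by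
  by_cases h : z = z'
  · exact ⟨1, Subalgebra.one_mem _, fun hne => absurd h hne⟩
  · have : ∃ t ∈ T, t z ≠ t z' := by
      by_contra hcon
      push Not at hcon
      exact h (S.sep z z' hcon)
    obtain ⟨t, ht, hne⟩ := this
    exact ⟨t, mem_PA_of_mem ht, fun _ => hne⟩

theorem exists_combination [Fintype M] (f : M → Qb) :
    ∃ (c : M → Qb) (n : M → M → Qb), (∀ z, n z ∈ PA A φ T) ∧ f = ∑ z, c z • n z := by
  classical
  choose p hp hp' using S.exists_ne
  set n : M → M → Qb := fun z =>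
    ∏ z' ∈ Finset.univ.erase z, (p z z' - fun _ => p z z' z') with hn
  have hnmem : ∀ z, n z ∈ PA A φ T := by
    intro z
    apply Subalgebra.prod_mem
    intro z' _
    exact Subalgebra.sub_mem _ (hp z z') (const_mem_adjoin (S.PA_valued (hp z z') z'))
  have hnzz : ∀ z, n z z ≠ 0 := by
    intro z
    rw [hn]
    simp only [Finset.prod_apply, Pi.sub_apply]
    rw [Finset.prod_ne_zero_iff]
    intro z' hz'
    exact sub_ne_zero.2 (hp' z z' (Finset.ne_of_mem_erase hz').symm)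
  have hnzw : ∀ z w, w ≠ z → n z w = 0 := by
    intro z w hwz
    rw [hn]
    simp only [Finset.prod_apply, Pi.sub_apply]
    exact Finset.prod_eq_zero (Finset.mem_erase.2 ⟨hwz, Finset.mem_univ w⟩) (sub_self _)
  refine ⟨fun z => f z / n z z, n, hnmem, ?_⟩
  funext w
  simp only [Finset.sum_apply, Pi.smul_apply, smul_eq_mul]
  rw [Finset.sum_eq_single w]
  · rw [div_mul_cancel₀ _ (hnzz w)]
  · intro z _ hzw
    rw [hnzw z w hzw.symm, mul_zero]
  · intro h
    exact absurd (Finset.mem_univ w) h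

theorem exists_pow_smul_mem_PA [Finite M] {ι : Type*} [Finite ι] (e : ι → M → Qb) :
    ∃ N : ℕ, ∀ i, ((ℓ : Qb) ^ N) • e i ∈ PA A φ T := by
  classical
  have := Fintype.ofFinite M
  choose c n hn hcn using fun i => S.exists_combination (e i)
  obtain ⟨N, hN⟩ := exists_pow_mul_mem_finite S.prime S.liesOver (fun q : ι × M => c q.1 q.2)
  refine ⟨N, fun i => ?_⟩
  rw [hcn i, Finset.smul_sum]
  apply Subalgebra.sum_mem
  intro z _
  rw [smul_smul]
  exact smul_mem_adjoin (hN (i, z)) (hn i z)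

/-! ### `Hset` and its `A`-span -/

omit S in
theorem one_mem_Hset : (1 : M → Qb) ∈ Hset A φ T :=
  ⟨Subalgebra.one_mem _, fun σ => star_fun_one σ⟩

omit S in
theorem mul_mem_Hset {f g : M → Qb} (hf : f ∈ Hset A φ T) (hg : g ∈ Hset A φ T) :
    f * g ∈ Hset A φ T :=
  ⟨Subalgebra.mul_mem _ hf.1 hg.1, fun σ => by rw [star_fun_mul, hf.2 σ, hg.2 σ]⟩

omit S in
theorem smul_mem_span {c : Qb} (hc : c ∈ A) {f : M → Qb}
    (hf : f ∈ Submodule.span ↥A (Hset A φ T)) : c • f ∈ Submodule.span ↥A (Hset A φ T) := by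
  rw [smul_eq_subtype_smul hc]
  exact Submodule.smul_mem _ _ hf

/-- **density step**: a `φ`- and inertia-equivariant member of `PA` is an `A`-combination of
`G_ℚ`-equivariant members of `PA`. -/
theorem density [Finite M] {g : M → Qb} (hg : IsB A φ T g) (hφg : star φ g = g) :
    g ∈ Submodule.span ↥A (Hset A φ T) := by
  classical
  obtain ⟨n, e, hli, he, hspan⟩ := exists_equivariant_basis S.openStab
  obtain ⟨c, hc⟩ := hspan g
  have hcI : ∀ τ ∈ A.inertiaSubgroupIn ℚ, ∀ i, τ (c i) = c i := fun τ hτ i =>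
    coeff_fixed_of_star_eq hli (fun i => he i τ) (by rw [← hc]; exact hg.2 τ hτ) i
  have hcφ : ∀ i, φ (c i) = c i := fun i =>
    coeff_fixed_of_star_eq hli (fun i => he i φ) (by rw [← hc]; exact hφg) i
  obtain ⟨N, hN⟩ := S.exists_pow_smul_mem_PA e
  have hℓ0 : (ℓ : Qb) ≠ 0 := natCast_ne_zero S.prime
  have he' : ∀ i, ((ℓ : Qb) ^ N) • e i ∈ Hset A φ T := fun i =>
    ⟨hN i, fun σ => by rw [star_smul, map_pow, map_natCast, he i σ]⟩
  obtain ⟨a, ha⟩ := exists_pow_mul_mem_finite S.prime S.liesOver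
    (fun i => c i / (ℓ : Qb) ^ N)
  have hdW : ∀ i, (ℓ : Qb) ^ a * (c i / (ℓ : Qb) ^ N) ∈ W0 A := fun i =>
    ⟨ha i, fun τ hτ => by
      rw [map_mul, map_div₀, map_pow, map_pow, map_natCast, hcI τ hτ i]⟩
  have hdφ : ∀ i, φ ((ℓ : Qb) ^ a * (c i / (ℓ : Qb) ^ N)) =
      (ℓ : Qb) ^ a * (c i / (ℓ : Qb) ^ N) := fun i => by
    rw [map_mul, map_div₀, map_pow, map_pow, map_natCast, hcφ i]
  choose r hr using fun i =>
    exists_intCast_sub_div_mem S.prime S.liesOver S.frob (hdW i) (hdφ i) a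
  set w : Fin n → Qb := fun i =>
    ((ℓ : Qb) ^ a * (c i / (ℓ : Qb) ^ N) - (r i : Qb)) / (ℓ : Qb) ^ a with hw
  set g₁ : M → Qb := ∑ i, (((r i : ℤ) : Qb) / (ℓ : Qb) ^ a) • (((ℓ : Qb) ^ N) • e i) with hg₁
  have hsplit : g₁ + ∑ i, w i • (((ℓ : Qb) ^ N) • e i) = g := by
    rw [hc, hg₁, ← Finset.sum_add_distrib]
    apply Finset.sum_congr rfl
    intro i _
    rw [← add_smul, smul_smul]
    congr 1
    rw [hw]
    field_simp
    ring
  have hg₁PA : g₁ ∈ PA A φ T := by
    rw [eq_sub_of_add_eq hsplit]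
    exact Subalgebra.sub_mem _ hg.1
      (Subalgebra.sum_mem _ fun i _ => smul_mem_adjoin (hr i).1 (hN i))
  have hg₁eq : ∀ σ : GQ, star σ g₁ = g₁ := fun σ => by
    rw [hg₁, star_sum]
    apply Finset.sum_congr rfl
    intro i _
    rw [star_smul, (he' i).2 σ, map_div₀, map_intCast, map_pow, map_natCast]
  have hg₁H : g₁ ∈ Hset A φ T := ⟨hg₁PA, hg₁eq⟩
  rw [← hsplit]
  exact Submodule.add_mem _ (Submodule.subset_span hg₁H)
    (Submodule.sum_mem _ fun i _ => smul_mem_span (hr i).1 (Submodule.subset_span (he' i)))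

theorem isB_mem_span [Finite M] {f : M → Qb} (hf : IsB A φ T f) :
    f ∈ Submodule.span ↥A (Hset A φ T) := by
  obtain ⟨k, β, g, hβ, hg, hφg, hsum⟩ :=
    unramified_descent S.prime S.liesOver S.frob (IsB A φ T) (fun _ _ => isB_add) isB_zero
      (fun c hc f hf => isB_smul hc hf) (fun f hf => S.isB_star hf) f hf
  rw [hsum]
  exact Submodule.sum_mem _ fun j _ => smul_mem_span (hβ j).1 (S.density (hg j) (hφg j))

/-- **`PA = A · Hset`.** -/
theorem mem_span_Hset [Finite M] {f : M → Qb} (hf : f ∈ PA A φ T) :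
    f ∈ Submodule.span ↥A (Hset A φ T) := by
  induction hf using Algebra.adjoin_induction with
  | mem x hx => exact S.isB_mem_span (S.isB_of_mem_orbitSet hx)
  | algebraMap a =>
    rw [Algebra.algebraMap_eq_smul_one]
    exact Submodule.smul_mem _ _ (Submodule.subset_span one_mem_Hset)
  | add x y _ _ hx hy => exact Submodule.add_mem _ hx hy
  | mul x y _ _ hx hy =>
    have h1 := Submodule.mul_mem_mul hx hy
    rw [Submodule.span_mul_span] at h1
    refine Submodule.span_mono ?_ h1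
    rintro _ ⟨a, ha, b, hb, rfl⟩
    exact mul_mem_Hset ha hb

/-- `Hset` separates the points of `M`. -/
theorem Hset_sep [Finite M] (z z' : M) (h : ∀ f ∈ Hset A φ T, f z = f z') : z = z' := by
  apply S.sep
  intro t ht
  have h1 := S.mem_span_Hset (mem_PA_of_mem ht)
  refine Submodule.span_induction (p := fun f _ => f z = f z') ?_ ?_ ?_ ?_ h1
  · exact fun f hf => h f hf
  · rfl
  · intro x y _ _ hx hy
    simp only [Pi.add_apply, hx, hy]
  · intro a x _ hx
    simp only [Pi.smul_apply, hx]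

end Setup

end

end Fermat.Agent.FF.Desc4
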