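/-
Programme FF (S19), wiring check (helper4): **S19 from a `ThetaInput` at the auxiliary level.**

The composition `FinalWire8.s19_of_globalOrder ∘ Desc4.exists_globalOrder ∘ FinalWire8.descent_input`
(with `OpenStab1.exists_level_tors` for the open-stabiliser hypothesis): the conclusion of S19 at
level `p` follows from ONE `ThetaInput` (helper8, `FF/Assembly8`) for the inertia group of a valuation
subring `A` of `ℚ̄` over `ℓ` acting on `J₀(auxLevel ℓ p)[ℓ^k]`, plus the lattice data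
`hcf`, `L`, `hdisj` of `AssemblyQb8.order_main_Qb`.
-/
import Mathlib
import Fermat.Agent.FF.FinalWire8
import Fermat.Agent.FF.OpenStab1
import Fermat.Agent.FF.Desc4F

set_option autoImplicit false

open AlgebraicCurve ModularCurve IsLocalRing

namespace Fermat.Agent.FF.Desc4Wire

open Fermat.Agent.FF.CoreIface8 Fermat.Agent.FF.GeomIface8 Fermat.Agent.FF.Assembly8
  Fermat.Agent.FF.InertiaWire8 Fermat.Agent.FF.OrderCoordD Fermat.Agent.FF.HopfOrderB
  Fermat.Agent.FF.HopfOrderC Fermat.Agent.FF.AssemblyQb8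

universe v

variable {A : ValuationSubring Qb} {F : Type*} [Field F] [Algebra Qb F] {g d : ℕ}
variable [DistribMulAction GQ (Pic0 Qb F)]
variable {Mod : DiscModel A F g d} {hdeg : ∀ (j : Fin d) (t : A), (Mod.P j t).deg = 1}
variable {Jb : Type*} [AddCommGroup Jb]
variable {V : Type v} [AddCommGroup V] [Module A V] {D : CoreData A V g d}

/-- **S19 from the assembly input at the auxiliary level.** -/
theorem s19_of_thetaInput (p : ℕ) [NeZero p] (ℓ : ℕ) (k : ℕ) [Fact ℓ.Prime]
    [NeZero (Fermat.Agent.RED.Interface4.auxLevel ℓ p)]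
    (hA : A.LiesOverPrime ℓ)
    (I : ThetaInput Mod hdeg (Iner A) (S19Wire1.Tors (Fermat.Agent.RED.Interface4.auxLevel ℓ p) ℓ k) Jb)
    (hcf : ClosedFibre D (IsLocalRing.ResidueField A)) (L : LatticeModel Mod D)
    (hdisj : ∀ (j j' : Fin d) (t t' : A), t ∈ maximalIdeal A → t' ∈ maximalIdeal A →
      Mod.P j t = Mod.P j' t' → j = j') :
    ∃ (H : Type) (_ : CommRing H) (_ : HopfAlgebra (GaloisRep.ratLocalizedAt ℓ) H),
      Module.Finite (GaloisRep.ratLocalizedAt ℓ) H ∧ Module.Flat (GaloisRep.ratLocalizedAt ℓ) H ∧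
      Coalgebra.IsCocomm (GaloisRep.ratLocalizedAt ℓ) H ∧
      ∃ e : WithConv (H →ₐ[GaloisRep.ratLocalizedAt ℓ] AlgebraicClosure ℚ) ≃
          ↥(Submodule.torsionBy ℤ (JZero p) ((ℓ : ℤ) ^ k)),
        (∀ f g, e (f * g) = e f + e g) ∧
        ∀ (σ : AlgebraicClosure ℚ ≃ₐ[ℚ] AlgebraicClosure ℚ)
          (f g : WithConv (H →ₐ[GaloisRep.ratLocalizedAt ℓ] AlgebraicClosure ℚ)),
          (∀ h : H, g h = σ (f h)) → ((e g : JZero p)) = σ • (e f : JZero p) := by
  have hℓ : ℓ.Prime := Fact.out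
  have := S19Wire1.finite_tors (Fermat.Agent.RED.Interface4.auxLevel ℓ p) ℓ k
  obtain ⟨hTA, hTI, hsep, hΔ⟩ := FinalWire8.descent_input I hℓ hA hcf L hdisj
  have hM := OpenStab1.exists_level_tors (Fermat.Agent.RED.Interface4.auxLevel ℓ p) ℓ k
  have hH := Desc4.exists_globalOrder A hA hM _ hTA hTI hsep hΔ
  exact FinalWire8.s19_of_globalOrder p ℓ k hH

end Fermat.Agent.FF.Desc4Wire
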