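/-
Programme FF (S19), concrete glue (helper5): the torsion `Tors N ℓ k = J₀(N)[ℓ^k]` inside
`JZero N = Pic⁰(ℚ̄ · F₀(N))` as the `M`, `emb` of `Assembly8.ThetaInput`, for `Γ` = the inertia group
of a valuation subring `A` of `ℚ̄` acting through `arithmeticGalois`.

* `emb`, `emb_injective`, `emb_smul` (for `G_ℚ`), `emb_smul_iner` (for `Iner A`);
* `gam A N σ := arithmeticGalois (modularFunctionFieldFull N) σ`, with `smul_eq_gam` (the action on
  `Pic⁰` is the action of `gam`), `baseAut_gam`;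
* `thetaInputTors` : `ThetaGlue8.thetaInput` with all the Galois/embedding fields discharged;
* `descent_input_tors` : `FinalWire8.descent_input` for it (checks that the instances align).
-/
import Mathlib
import Fermat.Agent.FF.ThetaGlue8
import Fermat.Agent.FF.FinalWire8

set_option autoImplicit false

open AlgebraicCurve ModularCurve IsLocalRing

noncomputable section

namespace Fermat.Agent.FF.EmbTors5

open Fermat.Agent.FF.CoreIface8 Fermat.Agent.FF.GeomIface8 Fermat.Agent.FF.Theta8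
  Fermat.Agent.FF.Assembly8 Fermat.Agent.FF.ThetaKer5 Fermat.Agent.FF.InertiaWire8
  Fermat.Agent.FF.ThetaGlue8 Fermat.Agent.FF.S19Wire1 AlgebraicCurve.SemilinearAut

variable (N : ℕ) (ℓ k : ℕ)

/-- the inclusion `J₀(N)[ℓ^k] → J₀(N) = Pic⁰`. -/
def emb : Tors N ℓ k →+ Pic0 Qb ↥(modularFunctionFieldBar N) :=
  (Submodule.torsionBy ℤ (JZero N) ((ℓ : ℤ) ^ k)).subtype.toAddMonoidHom

theorem emb_apply (z : Tors N ℓ k) : emb N ℓ k z = (z : JZero N) := rfl

theorem emb_injective : Function.Injective (emb N ℓ k) := Subtype.val_injective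

theorem emb_smul (σ : InertiaWire8.GQ) (z : Tors N ℓ k) :
    emb N ℓ k (σ • z) = σ • emb N ℓ k z := rfl

variable (A : ValuationSubring Qb)

theorem emb_smul_iner (σ : Iner A) (z : Tors N ℓ k) :
    emb N ℓ k (σ • z) = σ • emb N ℓ k z := rfl

/-- the semilinear automorphism of `ℚ̄ · F₀(N)` attached to an element of the inertia group. -/
def gam (σ : Iner A) : SemilinearAut Qb ↥(modularFunctionFieldBar N) :=
  arithmeticGalois (modularFunctionFieldFull N) (σ : InertiaWire8.GQ)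

theorem smul_eq_gam (σ : Iner A) (z : Pic0 Qb ↥(modularFunctionFieldBar N)) :
    σ • z = gam N A σ • z := rfl

theorem baseAut_gam (σ : Iner A) (a : Qb) : baseAut (gam N A σ) a = σ • a := rfl

variable {N ℓ k A}
variable {g d : ℕ} (Mod : DiscModel A ↥(modularFunctionFieldBar N) g d)
variable (hdeg : ∀ (j : Fin d) (t : A), (Mod.P j t).deg = 1)
variable {κ : Type*} [Field κ] {Fb : Type*} [Field Fb] [Algebra κ Fb]
variable (r : Place Qb ↥(modularFunctionFieldBar N) → Place κ Fb)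

/-- **the `ThetaInput` for `M = J₀(N)[ℓ^k]`, `Γ = Iner A`**, from the hypotheses of chapter G4, the
invariance of the parameter and of the reduction of places under inertia, a reduction homomorphism
`red`, and the invariant lifts `Pt`. -/
def thetaInputTors
    (hγφ : ∀ σ : Iner A, gam N A σ • Mod.φ = Mod.φ)
    (hγr : ∀ (σ : Iner A) (P : Place Qb ↥(modularFunctionFieldBar N)), r (gam N A σ • P) = r P)
    (h1 : ∀ (j : Fin d) (t : A), t ∈ maximalIdeal A → r (Mod.P j t) = r (Mod.P j 0))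
    (hdisj : ∀ (j j' : Fin d) (t t' : A), t ∈ maximalIdeal A → t' ∈ maximalIdeal A →
      Mod.P j t = Mod.P j' t' → j = j')
    (h2 : ∀ (j : Fin g) (Q : Place Qb ↥(modularFunctionFieldBar N)), r Q = Pb Mod r j →
      ∃ t : A, t ∈ maximalIdeal A ∧ Q = Mod.P (Fin.castLE Mod.hgd j) t)
    (h3 : Function.Injective (Pb Mod r))
    (h4 : NonSpecial Mod r)
    (h5 : ∀ D : Divisor Qb ↥(modularFunctionFieldBar N),
      D ∈ Divisor.principal (K := Qb) (F := ↥(modularFunctionFieldBar N)) →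
      Finsupp.mapDomain r D ∈ Divisor.principal (K := κ) (F := Fb))
    (h6 : RiemannEff (K := Qb) (F := ↥(modularFunctionFieldBar N)) (g := g))
    (h7 : WeakSemicont Mod r)
    {Jb : Type*} [AddCommGroup Jb] (red : Pic0 Qb ↥(modularFunctionFieldBar N) →+ Jb)
    (hred : ∀ D : Divisor.degZero (K := Qb) (F := ↥(modularFunctionFieldBar N)),
      red (Pic0.mk D) = 0 ↔
      Finsupp.mapDomain r (D : Divisor Qb ↥(modularFunctionFieldBar N)) ∈
        Divisor.principal (K := κ) (F := Fb))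
    (hredΓ : ∀ (σ : Iner A) (z : Pic0 Qb ↥(modularFunctionFieldBar N)), red (σ • z) = red z)
    (Pt : Tors N ℓ k → Pic0 Qb ↥(modularFunctionFieldBar N))
    (red_Pt : ∀ z, red (Pt z) = red (emb N ℓ k z))
    (Pt_congr : ∀ z z', red (emb N ℓ k z) = red (emb N ℓ k z') → Pt z = Pt z')
    (Pt_smul : ∀ (σ : Iner A) (z : Tors N ℓ k), σ • Pt z = Pt z) :
    ThetaInput Mod hdeg (Iner A) (Tors N ℓ k) Jb :=
  thetaInput Mod hdeg r (InertiaWire8.hΓA A) (gam N A) (smul_eq_gam N A) (baseAut_gam N A)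
    hγφ hγr h1 hdisj h2 h3 h4 h5 h6 h7 red hred hredΓ (emb N ℓ k) (emb_injective N ℓ k)
    (emb_smul_iner N ℓ k A) Pt red_Pt Pt_congr Pt_smul

section Descent

open Fermat.Agent.FF.FinalWire8 Fermat.Agent.FF.OrderCoordD Fermat.Agent.FF.HopfOrderB
  Fermat.Agent.FF.HopfOrderC

universe v

variable {N : ℕ} [NeZero N] {ℓ k : ℕ} [Fact ℓ.Prime] {A : ValuationSubring Qb}
variable {g d : ℕ} {Mod : DiscModel A ↥(modularFunctionFieldBar N) g d}
variable {hdeg : ∀ (j : Fin d) (t : A), (Mod.P j t).deg = 1}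
variable {Jb : Type*} [AddCommGroup Jb]
variable {V : Type v} [AddCommGroup V] [Module A V] {D : CoreData A V g d}

/-- **the four hypotheses of the descent theorem A2 for `M = J₀(N)[ℓ^k]`** (instance alignment of
`FinalWire8.descent_input` with `S19Wire1.Tors`). -/
theorem descent_input_tors (I : ThetaInput Mod hdeg (Iner A) (Tors N ℓ k) Jb)
    (hA : A.LiesOverPrime ℓ)
    (hcf : ClosedFibre D (IsLocalRing.ResidueField A)) (L : LatticeModel Mod D)
    (hdisj : ∀ (j j' : Fin d) (t t' : A), t ∈ maximalIdeal A → t' ∈ maximalIdeal A →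
      Mod.P j t = Mod.P j' t' → j = j') :
    (∀ t ∈ genSet (Kbar := Qb) I.M0 I.x, ∀ z, t z ∈ A) ∧
    (∀ t ∈ genSet (Kbar := Qb) I.M0 I.x, ∀ τ ∈ A.inertiaSubgroupIn ℚ, ∀ z,
      t (τ • z) = τ (t z)) ∧
    (∀ z z' : Tors N ℓ k, (∀ t ∈ genSet (Kbar := Qb) I.M0 I.x, t z = t z') → z = z') ∧
    ∀ t ∈ genSet (Kbar := Qb) I.M0 I.x,
      HasCoprod (Algebra.adjoin (↥A) (genSet (Kbar := Qb) I.M0 I.x)) t :=
  haveI := finite_tors N ℓ k
  descent_input I (Fact.out : ℓ.Prime) hA hcf L hdisj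

end Descent

end Fermat.Agent.FF.EmbTors5
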