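/-
Programme FF (S19), end of the chain (helper5): **S19 at level `p` from a `ThetaInput` at the
auxiliary level** `M' = auxLevel ℓ p`, i.e. the composition
`FinalWire8.descent_input ∘ Desc4.exists_globalOrder ∘ FinalWire8.s19_of_globalOrder`
(with `OpenStab1.exists_level_tors` for the open stabilisers).  This checks that all the instances
(`Tors`, `GQ`, `Iner A`, the Galois actions) of the three chapters align.
-/
import Mathlib
import Fermat.Agent.FF.EmbTors5
import Fermat.Agent.FF.Desc4F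
import Fermat.Agent.FF.OpenStab1

set_option autoImplicit false

open AlgebraicCurve ModularCurve IsLocalRing

namespace Fermat.Agent.FF.EndChain5

open Fermat.Agent.FF.CoreIface8 Fermat.Agent.FF.GeomIface8 Fermat.Agent.FF.Assembly8
  Fermat.Agent.FF.InertiaWire8 Fermat.Agent.FF.S19Wire1 Fermat.Agent.FF.EmbTors5
  Fermat.Agent.FF.OrderCoordD Fermat.Agent.FF.HopfOrderB Fermat.Agent.FF.HopfOrderC

universe v

/-- **S19 at level `N` from a `ThetaInput` at level `N`** (any level `N` with `NeZero N`; conclusion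
= the hypothesis of `FinalWire8.s19_of_globalOrder`). -/
theorem exists_globalOrder_of_thetaInput {N : ℕ} [NeZero N] {ℓ k : ℕ} [Fact ℓ.Prime]
    {A : ValuationSubring Qb} (hA : A.LiesOverPrime ℓ)
    {g d : ℕ} {Mod : DiscModel A ↥(modularFunctionFieldBar N) g d}
    {hdeg : ∀ (j : Fin d) (t : A), (Mod.P j t).deg = 1}
    {Jb : Type*} [AddCommGroup Jb]
    {V : Type v} [AddCommGroup V] [Module A V] {D : CoreData A V g d}
    (I : ThetaInput Mod hdeg (Iner A) (Tors N ℓ k) Jb)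
    (hcf : ClosedFibre D (IsLocalRing.ResidueField A)) (L : LatticeModel Mod D)
    (hdisj : ∀ (j j' : Fin d) (t t' : A), t ∈ maximalIdeal A → t' ∈ maximalIdeal A →
      Mod.P j t = Mod.P j' t' → j = j') :
    ∃ H : Subalgebra (GaloisRep.ratLocalizedAt ℓ) (Tors N ℓ k → AlgebraicClosure ℚ),
      Module.Finite (GaloisRep.ratLocalizedAt ℓ) H ∧
      (∀ h ∈ H, ∀ (σ : S19Wire1.GQ) z, h (σ • z) = σ (h z)) ∧
      (∀ z z', (∀ h ∈ H, h z = h z') → z = z') ∧ ∀ h ∈ H, HasCoprod H h := by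
  have := finite_tors N ℓ k
  obtain ⟨hTA, hTI, hsep, hΔ⟩ := descent_input_tors I hA hcf L hdisj
  exact Fermat.Agent.FF.Desc4.exists_globalOrder A hA
    (Fermat.Agent.FF.OpenStab1.exists_level_tors N ℓ k) _ hTA hTI hsep hΔ

/-- **S19 at level `p` from a `ThetaInput` at the auxiliary level `auxLevel ℓ p`.** -/
theorem s19_of_thetaInput (p : ℕ) [NeZero p] (ℓ : ℕ) (k : ℕ) [Fact ℓ.Prime]
    {A : ValuationSubring Qb} (hA : A.LiesOverPrime ℓ)
    {g d : ℕ}
    {Mod : DiscModel A ↥(modularFunctionFieldBar (Fermat.Agent.RED.Interface4.auxLevel ℓ p)) g d}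
    {hdeg : ∀ (j : Fin d) (t : A), (Mod.P j t).deg = 1}
    {Jb : Type*} [AddCommGroup Jb]
    {V : Type v} [AddCommGroup V] [Module A V] {D : CoreData A V g d}
    (I : ThetaInput Mod hdeg (Iner A) (Tors (Fermat.Agent.RED.Interface4.auxLevel ℓ p) ℓ k) Jb)
    (hcf : ClosedFibre D (IsLocalRing.ResidueField A)) (L : LatticeModel Mod D)
    (hdisj : ∀ (j j' : Fin d) (t t' : A), t ∈ maximalIdeal A → t' ∈ maximalIdeal A →
      Mod.P j t = Mod.P j' t' → j = j') :
    ∃ (H : Type) (_ : CommRing H) (_ : HopfAlgebra (GaloisRep.ratLocalizedAt ℓ) H),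
      Module.Finite (GaloisRep.ratLocalizedAt ℓ) H ∧ Module.Flat (GaloisRep.ratLocalizedAt ℓ) H ∧
      Coalgebra.IsCocomm (GaloisRep.ratLocalizedAt ℓ) H ∧
      ∃ e : WithConv (H →ₐ[GaloisRep.ratLocalizedAt ℓ] AlgebraicClosure ℚ) ≃
          ↥(Submodule.torsionBy ℤ (JZero p) ((ℓ : ℤ) ^ k)),
        (∀ f g, e (f * g) = e f + e g) ∧
        ∀ (σ : AlgebraicClosure ℚ ≃ₐ[ℚ] AlgebraicClosure ℚ)
          (f g : WithConv (H →ₐ[GaloisRep.ratLocalizedAt ℓ] AlgebraicClosure ℚ)),
          (∀ h : H, g h = σ (f h)) → ((e g : JZero p)) = σ • (e f : JZero p) := by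
  have := Fermat.Agent.RED.LVL.LevelDegree17.neZero_auxLevel ℓ p
  exact Fermat.Agent.FF.FinalWire8.s19_of_globalOrder p ℓ k
    (exists_globalOrder_of_thetaInput hA I hcf L hdisj)

end Fermat.Agent.FF.EndChain5
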