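/-
Programme FF (S19/S32), chapter C0.2 (helper1), part A: **function models of tensor powers.**

`A` an `R`-algebra with an `R`-algebra map `ev : A → (M → K)` (`K` a field over `R`, `M` a finite
set).  `mu2 ev : A ⊗ A → (M × M → K)` and `mu3 ev : A ⊗ (A ⊗ A) → (M × (M × M) → K)` are the
induced maps; if an `R`-basis of `A` is sent by `ev` to a `K`-linearly independent family, all of
`ev`, `mu2 ev`, `mu3 ev` are injective.  Mathlib only.
-/
import Mathlib

set_option autoImplicit false

namespace Fermat.Agent.FF.HopfOrd1

open scoped TensorProduct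
open Algebra.TensorProduct

section Pull

variable (R K : Type*) [CommSemiring R] [CommSemiring K] [Algebra R K]

/-- pullback of `K`-valued functions along a map, as an `R`-algebra homomorphism. -/
def pull {N M : Type*} (f : N → M) : (M → K) →ₐ[R] (N → K) :=
  AlgHom.pi (fun n => Pi.evalAlgHom R (fun _ => K) (f n))

@[simp]
theorem pull_apply {N M : Type*} (f : N → M) (g : M → K) (n : N) : pull R K f g n = g (f n) :=
  rfl

end Pull

section ProdFamily

variable {K : Type*} [Field K]

/-- products of two linearly independent families of functions are linearly independent. -/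
theorem linearIndependent_mul {ι κ M N : Type*} [Fintype ι] [Fintype κ] {v : ι → M → K}
    {w : κ → N → K} (hv : LinearIndependent K v) (hw : LinearIndependent K w) :
    LinearIndependent K (fun p : ι × κ => fun zz : M × N => v p.1 zz.1 * w p.2 zz.2) := by
  rw [Fintype.linearIndependent_iff] at hv hw ⊢
  intro g hg p
  -- fix the second variable
  have h1 : ∀ z' : N, ∀ i : ι, ∑ j, g (i, j) * w j z' = 0 := by
    intro z'
    apply hv (fun i => ∑ j, g (i, j) * w j z')
    funext z
    have := congrFun hg (z, z')
    simp only [Finset.sum_apply, Pi.smul_apply, smul_eq_mul, Pi.zero_apply] at this ⊢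
    rw [← this, Fintype.sum_prod_type]
    refine Finset.sum_congr rfl fun i _ => ?_
    rw [Finset.sum_mul]
    refine Finset.sum_congr rfl fun j _ => ?_
    ring
  have h2 : ∀ i : ι, ∀ j : κ, g (i, j) = 0 := by
    intro i
    apply hw (fun j => g (i, j))
    funext z'
    have := h1 z' i
    simp only [Finset.sum_apply, Pi.smul_apply, smul_eq_mul, Pi.zero_apply]
    exact this
  exact h2 p.1 p.2

end ProdFamily

section Models

variable {R K A M : Type*} [CommRing R] [Field K] [Algebra R K] [CommRing A] [Algebra R A]
  (ev : A →ₐ[R] (M → K))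

/-- the function model of `A ⊗ A`. -/
noncomputable def mu2 : A ⊗[R] A →ₐ[R] (M × M → K) :=
  productMap ((pull R K Prod.fst).comp ev) ((pull R K Prod.snd).comp ev)

@[simp]
theorem mu2_tmul (a b : A) (zz : M × M) : mu2 ev (a ⊗ₜ[R] b) zz = ev a zz.1 * ev b zz.2 := by
  simp [mu2]

/-- the function model of `A ⊗ (A ⊗ A)`. -/
noncomputable def mu3 : A ⊗[R] (A ⊗[R] A) →ₐ[R] (M × (M × M) → K) :=
  productMap ((pull R K Prod.fst).comp ev) ((pull R K Prod.snd).comp (mu2 ev))

@[simp]
theorem mu3_tmul (a : A) (t : A ⊗[R] A) (zz : M × (M × M)) :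
    mu3 ev (a ⊗ₜ[R] t) zz = ev a zz.1 * mu2 ev t zz.2 := by
  simp [mu3]

variable {ι : Type*} (b : Module.Basis ι R A)

theorem ev_injective (hinj : Function.Injective (algebraMap R K))
    (hli : LinearIndependent K (fun i => ev (b i))) : Function.Injective ev := by
  have hR : LinearIndependent R (fun i => ev (b i)) :=
    hli.restrict_scalars (by simpa [Algebra.smul_def] using hinj)
  exact LinearMap.injective_of_linearIndependent (f := ev.toLinearMap) b.span_eq hR

variable [Fintype ι]

theorem mu2_injective (hinj : Function.Injective (algebraMap R K))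
    (hli : LinearIndependent K (fun i => ev (b i))) : Function.Injective (mu2 ev) := by
  have hK := linearIndependent_mul hli hli
  have hR : LinearIndependent R
      (fun p : ι × ι => fun zz : M × M => ev (b p.1) zz.1 * ev (b p.2) zz.2) :=
    hK.restrict_scalars (by simpa [Algebra.smul_def] using hinj)
  refine LinearMap.injective_of_linearIndependent (f := (mu2 ev).toLinearMap)
    (b.tensorProduct b).span_eq ?_
  have hfun : ((mu2 ev).toLinearMap ∘ ⇑(b.tensorProduct b)) =
      fun p : ι × ι => fun zz : M × M => ev (b p.1) zz.1 * ev (b p.2) zz.2 := by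
    funext p zz
    simp [Module.Basis.tensorProduct_apply']
  rw [hfun]
  exact hR

theorem mu3_injective (hinj : Function.Injective (algebraMap R K))
    (hli : LinearIndependent K (fun i => ev (b i))) : Function.Injective (mu3 ev) := by
  have hK2 := linearIndependent_mul hli hli
  have hK := linearIndependent_mul hli hK2
  have hR := hK.restrict_scalars (R := R) (by simpa [Algebra.smul_def] using hinj)
  refine LinearMap.injective_of_linearIndependent (f := (mu3 ev).toLinearMap)
    (b.tensorProduct (b.tensorProduct b)).span_eq ?_
  have hfun : ((mu3 ev).toLinearMap ∘ ⇑(b.tensorProduct (b.tensorProduct b))) =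
      fun p : ι × (ι × ι) => fun zz : M × (M × M) =>
        ev (b p.1) zz.1 * (ev (b p.2.1) zz.2.1 * ev (b p.2.2) zz.2.2) := by
    funext p zz
    simp [Module.Basis.tensorProduct_apply']
  rw [hfun]
  exact hR

end Models

end Fermat.Agent.FF.HopfOrd1
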