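/-
Programme FF (S19), chapter G2b, abstract part (helper8): INVARIANT LIFTS OF PLACES.

In an abstract place reduction (`UniqueZeroA.RedCtx`), let `Γ` act through semilinear automorphisms
`γ σ` which preserve the reduction of places.  If `ψ ∈ O` is `Γ`-invariant, `ρ ψ` has a simple zero at
`P̄` and `ψ` has no pole over `P̄`, then the unique zero of `ψ` over `P̄` is a `Γ`-invariant place
reducing to `P̄` (`exists_invariant_place`): this is the hypothesis `hlift` of
`InvLift8.exists_invariant_lift`.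
-/
import Mathlib
import Fermat.Prelude.Def_AlgebraicCurve_BaseChangeGalois
import Fermat.Agent.FF.UniqueZeroA

set_option autoImplicit false

open AlgebraicCurve IsLocalRing

namespace Fermat.Agent.FF.InvPlace8

open Fermat.Agent.FF.UniqueZeroA AlgebraicCurve.SemilinearAut

variable {K : Type*} [Field K] {F : Type*} [Field F] [Algebra K F]
variable {κ : Type*} [Field κ] {Fb : Type*} [Field Fb] [Algebra κ Fb]
variable {A : ValuationSubring K} (C : RedCtx A F κ Fb)
variable {Γ : Type*} (γ : Γ → SemilinearAut K F)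

/-- **the unique zero of an invariant function over a simple zero of its reduction is invariant.** -/
theorem exists_invariant_place (hγr : ∀ (σ : Γ) (P : Place K F), C.r (γ σ • P) = C.r P)
    (ψ : C.O) (hψ : ∀ σ : Γ, γ σ • (ψ : F) = (ψ : F)) (Pb : Place κ Fb) (hρ : C.ρ ψ ≠ 0)
    (h1 : Pb.ord (C.ρ ψ) = 1) (hnn : ∀ P, C.r P = Pb → 0 ≤ P.ord (ψ : F)) :
    ∃ Q : Place K F, C.r Q = Pb ∧ ∀ σ : Γ, γ σ • Q = Q := by
  obtain ⟨Q, hQ, hQ1, hoth⟩ := C.exists_unique_zero_over ψ hρ Pb h1 hnn
  refine ⟨Q, hQ, fun σ => ?_⟩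
  by_contra hne
  have h0 := hoth (γ σ • Q) (by rw [hγr, hQ]) hne
  have h2 : (γ σ • Q).ord (γ σ • (ψ : F)) = Q.ord (ψ : F) := ord_smul (γ σ) Q (ψ : F)
  rw [hψ, h0, hQ1] at h2
  exact zero_ne_one h2

end Fermat.Agent.FF.InvPlace8
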