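/-
Programme FF (S19), G0(b) in abstract form (lead): surjectivity of the reduction of places and the
`HasManyPlaces` hypothesis of `RedLat2`, from the push-forward formula.

* `exists_zero` : a non-constant function on a function field with `LHyp` has a zero;
* `exists_place_notMem` : a function field with `LHyp` over an infinite constant field and with a
  non-constant function has infinitely many places (finset form);
* `AbsRed.r_surjective` : if every element of `Fb` is a quotient `ρ a / ρ b` of reductions, then
  `r` is surjective;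
* `AbsRed.hasManyPlaces`.
-/
import Mathlib
import Fermat.Agent.FF.RedLat2B

set_option autoImplicit false

open AlgebraicCurve IsLocalRing

namespace Fermat.Agent.FF.ManyPlacesA

open Fermat.Agent.X0.FF Fermat.Agent.RR.LSpace Fermat.Agent.FF.RedLat2

section FunctionField

variable {K F : Type*} [Field K] [Field F] [Algebra K F]

/-- a non-constant function has a pole. -/
theorem exists_pole (H : LHyp K F) {f : F} (hf : f ∉ Set.range (algebraMap K F)) :
    ∃ v : Place K F, v.ord f < 0 := by
  by_contra h
  push Not at h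
  obtain ⟨c, hc⟩ := eq_algebraMap_of_forall_ord_nonneg H h
  exact hf ⟨c, hc.symm⟩

/-- a non-constant function has a zero. -/
theorem exists_zero (H : LHyp K F) {f : F} (hf : f ∉ Set.range (algebraMap K F)) :
    ∃ v : Place K F, 0 < v.ord f := by
  have hf0 : f ≠ 0 := fun h => hf ⟨0, by rw [map_zero, h]⟩
  have hinv : f⁻¹ ∉ Set.range (algebraMap K F) := by
    rintro ⟨c, hc⟩
    apply hf
    refine ⟨c⁻¹, ?_⟩
    rw [map_inv₀, hc, inv_inv]
  obtain ⟨v, hv⟩ := exists_pole H hinv
  refine ⟨v, ?_⟩
  rw [Place.ord_inv] at hv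
  omega

/-- the zeros of `x - c` for distinct constants `c` are distinct. -/
theorem ne_of_zero_of_zero {x : F} {c c' : K} (hcc : c ≠ c') {v : Place K F}
    (h : 0 < v.ord (x - algebraMap K F c)) : ¬ 0 < v.ord (x - algebraMap K F c') := by
  intro h'
  have hc0 : algebraMap K F (c' - c) ≠ 0 := by
    rw [Ne, map_eq_zero, sub_eq_zero]
    exact fun h => hcc h.symm
  have heq : algebraMap K F (c' - c) = (x - algebraMap K F c) - (x - algebraMap K F c') := by
    rw [map_sub]; ring
  have h1 := ord_sub_ge v (f := x - algebraMap K F c) (g := x - algebraMap K F c')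
    (by rw [← heq]; exact hc0)
  rw [← heq, ord_algebraMap] at h1
  have : 0 < min (v.ord (x - algebraMap K F c)) (v.ord (x - algebraMap K F c')) := lt_min h h'
  omega

/-- infinitely many places (finset form). -/
theorem exists_place_notMem (H : LHyp K F) [Infinite K] {x : F}
    (hx : x ∉ Set.range (algebraMap K F)) (S : Finset (Place K F)) : ∃ v : Place K F, v ∉ S := by
  classical
  have hxc : ∀ c : K, x - algebraMap K F c ∉ Set.range (algebraMap K F) := by
    rintro c ⟨c', hc'⟩
    apply hx
    refine ⟨c' + c, ?_⟩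
    rw [map_add, hc']; ring
  choose Z hZ using fun c : K => exists_zero H (hxc c)
  have hinj : Function.Injective Z := by
    intro c c' hcc
    by_contra hne
    have h1 := hZ c
    have h2 := hZ c'
    rw [← hcc] at h2
    exact ne_of_zero_of_zero hne h1 h2
  obtain ⟨c, hc⟩ := Infinite.exists_notMem_finset (S.preimage Z hinj.injOn)
  refine ⟨Z c, ?_⟩
  intro h
  exact hc (Finset.mem_preimage.2 h)

end FunctionField

section Red

variable {K : Type*} [Field K] {A : ValuationSubring K}
variable {F : Type*} [Field F] [Algebra K F]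
variable {Fb : Type*} [Field Fb] [Algebra (ResidueField A) Fb]
variable (R : AbsRed A F Fb)

/-- the fibre of `r` over a place where `ρ y` has a zero or a pole is nonempty. -/
theorem exists_over_of_ord_ne_zero (HL : LHyp K F) (y : R.O) (hy : R.ρ y ≠ 0)
    (Q : Place (ResidueField A) Fb) (hQ : Q.ord (R.ρ y) ≠ 0) : ∃ P : Place K F, R.r P = Q := by
  classical
  have hy0 : (y : F) ≠ 0 := by
    intro h
    apply hy
    have : y = 0 := Subtype.ext h
    rw [this, map_zero]
  have h1 := R.r_div y hy (divOf HL hy0) (fun P => divOf_apply HL hy0 P) Q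
  rw [← h1] at hQ
  by_contra hne
  push Not at hne
  apply hQ
  rw [Finsupp.mapDomain, Finsupp.sum, Finsupp.finsetSum_apply]
  apply Finset.sum_eq_zero
  intro P _
  rw [Finsupp.single_apply, if_neg (hne P)]

/-- **the reduction of places is surjective**, if `Fb` is generated by reductions. -/
theorem r_surjective (HL : LHyp K F)
    (hfrac : ∀ fb : Fb, ∃ a b : R.O, R.ρ b ≠ 0 ∧ fb * R.ρ b = R.ρ a) :
    Function.Surjective R.r := by
  intro Q
  -- a function with a pole at `Q`
  have hne : ∃ fb : Fb, fb ∉ Q.toValuationSubring := by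
    by_contra h
    push Not at h
    exact Q.ne_top' (eq_top_iff.2 fun f _ => h f)
  obtain ⟨fb, hfb⟩ := hne
  have hfb0 : fb ≠ 0 := fun h => hfb (h ▸ Q.toValuationSubring.zero_mem)
  have hord : Q.ord fb < 0 := by
    by_contra h
    push Not at h
    exact hfb (mem_of_ord_nonneg Q h)
  obtain ⟨a, b, hb, hab⟩ := hfrac fb
  have ha : R.ρ a ≠ 0 := by
    rw [← hab]
    exact mul_ne_zero hfb0 hb
  have h1 : Q.ord (R.ρ a) = Q.ord fb + Q.ord (R.ρ b) := by
    rw [← hab, Q.ord_mul hfb0 hb]
  by_cases hb0 : Q.ord (R.ρ b) = 0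
  · exact exists_over_of_ord_ne_zero R HL a ha Q (by omega)
  · exact exists_over_of_ord_ne_zero R HL b hb Q hb0

/-- `HasManyPlaces` from surjectivity of `r` and a non-constant function on the special fibre. -/
theorem hasManyPlaces (HL : LHyp K F) (HLb : LHyp (ResidueField A) Fb)
    [Infinite (ResidueField A)] {xb : Fb} (hxb : xb ∉ Set.range (algebraMap (ResidueField A) Fb))
    (hfrac : ∀ fb : Fb, ∃ a b : R.O, R.ρ b ≠ 0 ∧ fb * R.ρ b = R.ρ a) : R.HasManyPlaces := by
  intro S
  obtain ⟨Q, hQ⟩ := exists_place_notMem HLb hxb S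
  obtain ⟨P, hP⟩ := r_surjective R HL hfrac Q
  exact ⟨P, by rw [hP]; exact hQ⟩

end Red

end Fermat.Agent.FF.ManyPlacesA
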