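/-
Programme FF (S19), chapter A4 (lead): the conductor of a separating algebra of functions.

`A` a domain, `ℓ : A` such that every nonzero element of `A` divides a power of `ℓ` (rank one).
A subalgebra `Λ` of `T → A` (`T` finite) separating the points of `T` contains `ℓ ^ m • f` for all `f`,
for a suitable `m`.
-/
import Mathlib

set_option autoImplicit false

namespace Fermat.Agent.FF.OrderCoordB

variable {A : Type*} [CommRing A] [IsDomain A] {T : Type*}

theorem exists_smul_single_mem [Finite T] [DecidableEq T] (Λ : Subalgebra A (T → A))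
    (hsep : ∀ t t' : T, t ≠ t' → ∃ f ∈ Λ, f t ≠ f t') (t : T) :
    ∃ d : A, d ≠ 0 ∧ (Pi.single t d : T → A) ∈ Λ := by
  classical
  have := Fintype.ofFinite T
  have hsep' : ∀ t' : T, ∃ f ∈ Λ, t' ≠ t → f t ≠ f t' := by
    intro t'
    by_cases h : t' = t
    · exact ⟨1, Λ.one_mem, fun h' => absurd h h'⟩
    · obtain ⟨f, hf, hne⟩ := hsep t t' (Ne.symm h)
      exact ⟨f, hf, fun _ => hne⟩
  choose h hmem hne using hsep'
  refine ⟨∏ t' ∈ Finset.univ.erase t, (h t' t - h t' t'), ?_, ?_⟩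
  · rw [Finset.prod_ne_zero_iff]
    intro t' ht'
    exact sub_ne_zero.2 (hne t' (Finset.ne_of_mem_erase ht'))
  · have hfun : (Pi.single t (∏ t' ∈ Finset.univ.erase t, (h t' t - h t' t')) : T → A) =
        ∏ t' ∈ Finset.univ.erase t, (h t' - algebraMap A (T → A) (h t' t')) := by
      funext s
      rw [Finset.prod_apply]
      by_cases hs : s = t
      · subst hs
        simp [Pi.algebraMap_apply]
      · rw [Pi.single_eq_of_ne hs]
        symm
        apply Finset.prod_eq_zero (Finset.mem_erase.2 ⟨hs, Finset.mem_univ s⟩)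
        simp [Pi.algebraMap_apply]
    rw [hfun]
    exact Λ.prod_mem fun t' _ => Λ.sub_mem (hmem t') (Λ.algebraMap_mem _)

theorem exists_pow_smul_mem [Finite T] (ℓ : A) (hrank : ∀ a : A, a ≠ 0 → ∃ m : ℕ, a ∣ ℓ ^ m)
    (Λ : Subalgebra A (T → A))
    (hsep : ∀ t t' : T, t ≠ t' → ∃ f ∈ Λ, f t ≠ f t') :
    ∃ m : ℕ, ∀ f : T → A, ℓ ^ m • f ∈ Λ := by
  classical
  have := Fintype.ofFinite T
  have h1 : ∀ t : T, ∃ m : ℕ, (Pi.single t (ℓ ^ m) : T → A) ∈ Λ := by
    intro t
    obtain ⟨d, hd0, hd⟩ := exists_smul_single_mem Λ hsep t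
    obtain ⟨m, c, hc⟩ := hrank d hd0
    refine ⟨m, ?_⟩
    have : (Pi.single t (ℓ ^ m) : T → A) = c • (Pi.single t d : T → A) := by
      rw [← Pi.single_smul, smul_eq_mul, hc, mul_comm]
    rw [this]
    exact Λ.smul_mem hd c
  choose m hm using h1
  refine ⟨Finset.univ.sup m, fun f => ?_⟩
  have h2 : ∀ t : T, (Pi.single t (ℓ ^ Finset.univ.sup m) : T → A) ∈ Λ := by
    intro t
    have hle : m t ≤ Finset.univ.sup m := Finset.le_sup (Finset.mem_univ t)
    obtain ⟨e, he⟩ := Nat.exists_eq_add_of_le hle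
    have : (Pi.single t (ℓ ^ Finset.univ.sup m) : T → A) = ℓ ^ e • (Pi.single t (ℓ ^ m t) : T → A) := by
      rw [← Pi.single_smul, smul_eq_mul, he, pow_add, mul_comm]
    rw [this]
    exact Λ.smul_mem (hm t) _
  have h3 : ℓ ^ Finset.univ.sup m • f = ∑ t, f t • (Pi.single t (ℓ ^ Finset.univ.sup m) : T → A) := by
    funext s
    simp only [Pi.smul_apply, smul_eq_mul, Finset.sum_apply, Pi.single_apply, mul_ite, mul_zero]
    rw [Finset.sum_eq_single s]
    · simp [mul_comm]
    · intro b _ hb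
      simp [Ne.symm hb]
    · intro h; exact absurd (Finset.mem_univ s) h
  rw [h3]
  exact Λ.sum_mem fun t _ => Λ.smul_mem (h2 t) _

end Fermat.Agent.FF.OrderCoordB
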