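/-
Programme FF (S32 preparation), chapter R1 (helper4): QUOTIENTS OF HOPF ORDERS, part A.

Setting of `SubOrd1.IsHopfOrder`: `R` a principal ideal domain with fraction field `K`, `K̄ ⊇ K` a field
with a group `Γ` of automorphisms whose fixed field is `K`, `M` a finite `Γ`-module and
`H ⊆ (M → K̄)` a finite `R`-algebra of `Γ`-equivariant functions.

* `mem_of_mem_span_integralClosure` (**rationality**): a `Γ`-equivariant function which is a
  combination of members of `H` with coefficients integral over `R` lies in `H`;
* `exists_forall_apply_ne_zero` : finitely many nonzero `R`-linear functionals with values in a field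
  have a common point where none of them vanishes (`R` infinite).
-/
import Mathlib
import Fermat.Agent.FF.SubOrd1

set_option autoImplicit false

namespace Fermat.Agent.FF.QuotOrd4

open Fermat.Agent.FF.HopfOrd1 Fermat.Agent.FF.HopfOrderB Fermat.Agent.FF.HopfOrderC
  Fermat.Agent.FF.SubOrd1

section Avoid

variable {R : Type*} [CommRing R] [Infinite R]
variable {Kbar : Type*} [Field Kbar] [Algebra R Kbar]

/-- finitely many nonzero linear functionals do not vanish simultaneously somewhere. -/
theorem exists_forall_apply_ne_zero (hinj : Function.Injective (algebraMap R Kbar))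
    {N : Type*} [AddCommGroup N] [Module R N] {ι : Type*} (s : Finset ι)
    (φ : ι → N →ₗ[R] Kbar) (hφ : ∀ i ∈ s, φ i ≠ 0) : ∃ x : N, ∀ i ∈ s, φ i x ≠ 0 := by
  classical
  induction s using Finset.induction_on with
  | empty => exact ⟨0, by simp⟩
  | insert a s ha ih =>
    obtain ⟨x, hx⟩ := ih fun i hi => hφ i (Finset.mem_insert_of_mem hi)
    have hφa : φ a ≠ 0 := hφ a (Finset.mem_insert_self a s)
    obtain ⟨y, hy⟩ : ∃ y, φ a y ≠ 0 := by
      by_contra hcon
      push Not at hcon
      exact hφa (LinearMap.ext hcon)
    -- the bad parameters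
    have hsub : ∀ i ∈ insert a s,
        {t : R | φ i x + algebraMap R Kbar t * φ i y = 0}.Subsingleton := by
      intro i hi t ht t' ht'
      simp only [Set.mem_ofPred_eq] at ht ht'
      have h1 : algebraMap R Kbar t * φ i y = algebraMap R Kbar t' * φ i y := by
        rw [← add_right_inj (φ i x), ht, ht']
      by_cases hy0 : φ i y = 0
      · exfalso
        rw [hy0, mul_zero, add_zero] at ht
        rcases Finset.mem_insert.1 hi with rfl | his
        · exact hy hy0
        · exact hx i his ht
      · exact hinj (mul_right_cancel₀ hy0 h1)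
    have hfin : (⋃ i ∈ insert a s,
        {t : R | φ i x + algebraMap R Kbar t * φ i y = 0}).Finite :=
      Set.Finite.biUnion (Finset.finite_toSet _) fun i hi => (hsub i hi).finite
    obtain ⟨t, ht⟩ := Infinite.exists_notMem_finset hfin.toFinset
    refine ⟨x + t • y, fun i hi hzero => ht ?_⟩
    rw [Set.Finite.mem_toFinset]
    refine Set.mem_biUnion hi ?_
    simp only [Set.mem_ofPred_eq]
    rw [← hzero, map_add, map_smul, Algebra.smul_def]

end Avoid

section Rational

variable {R : Type*} [CommRing R] [IsDomain R] [IsPrincipalIdealRing R]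
variable {K : Type*} [Field K] [Algebra R K] [IsFractionRing R K]
variable {Kbar : Type*} [Field Kbar] [Algebra R Kbar] [Algebra K Kbar] [IsScalarTower R K Kbar]
variable {Γ : Type*} [Group Γ] [MulSemiringAction Γ Kbar]
variable {M : Type*} [AddCommGroup M] [Finite M] [DistribMulAction Γ M]

omit [Finite M] in
/-- coefficients of an equivariant function on an independent family of equivariant functions are
fixed. -/
theorem smul_coeff_eq_of_equivariant {ι : Type*} [Fintype ι] {e : ι → M → Kbar}
    (hli : LinearIndependent Kbar e) (he : ∀ i, IsEquivariantFun Γ (e i)) {α : ι → Kbar}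
    (hf : IsEquivariantFun Γ (∑ i, α i • e i)) (σ : Γ) (i : ι) : σ • α i = α i := by
  have h1 : ∑ i, (σ • α i - α i) • e i = 0 := by
    funext z
    have h2 := hf σ (σ⁻¹ • z)
    rw [smul_inv_smul] at h2
    simp only [Finset.sum_apply, Pi.smul_apply, smul_eq_mul, Pi.zero_apply, sub_mul,
      Finset.sum_sub_distrib] at h2 ⊢
    rw [sub_eq_zero, h2, Finset.smul_sum]
    apply Finset.sum_congr rfl
    intro i _
    rw [smul_mul', ← he i σ (σ⁻¹ • z), smul_inv_smul]
  exact sub_eq_zero.1 (Fintype.linearIndependent_iff.1 hli _ h1 i)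

/-- **rationality**: an equivariant function in the span of `H` over the integral closure of `R`
lies in `H`. -/
theorem mem_of_mem_span_integralClosure
    (hfix : ∀ x : Kbar, (∀ σ : Γ, σ • x = x) → x ∈ (algebraMap K Kbar).range)
    {H : Subalgebra R (M → Kbar)} [Module.Finite R H]
    (hequiv : ∀ h ∈ H, IsEquivariantFun Γ h) {f : M → Kbar}
    (hf : f ∈ Submodule.span ↥(integralClosure R Kbar) (H : Set (M → Kbar)))
    (hfΓ : IsEquivariantFun Γ f) : f ∈ H := by
  classical
  obtain ⟨n, b, -, hli⟩ := exists_basis_card_le (R := R) (K := K) hfix hequiv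
  set e : Fin n → M → Kbar := fun i => ((b i : H) : M → Kbar) with he
  -- `H` lies in the span of the basis
  have hH_le : ∀ h ∈ H, h ∈ Submodule.span ↥(integralClosure R Kbar) (Set.range e) := by
    intro h hh
    have h1 := b.sum_repr (⟨h, hh⟩ : H)
    have h2 : h = ∑ i, (b.repr ⟨h, hh⟩ i) • e i := by
      have := congrArg (fun x : H => (x : M → Kbar)) h1
      simp only [AddSubmonoidClass.coe_finsetSum, SetLike.val_smul] at this
      exact this.symm
    rw [h2]
    refine Submodule.sum_mem _ fun i _ => ?_
    have h3 : (b.repr ⟨h, hh⟩ i) • e i =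
        (algebraMap R ↥(integralClosure R Kbar) (b.repr ⟨h, hh⟩ i)) • e i := by
      rw [algebraMap_smul]
    rw [h3]
    exact Submodule.smul_mem _ _ (Submodule.subset_span ⟨i, rfl⟩)
  have hf' : f ∈ Submodule.span ↥(integralClosure R Kbar) (Set.range e) :=
    (Submodule.span_le.2 hH_le) hf
  obtain ⟨α, hα⟩ := (Submodule.mem_span_range_iff_exists_fun ↥(integralClosure R Kbar)).1 hf'
  have hα' : f = ∑ i, ((α i : Kbar)) • e i := by
    rw [← hα]
    rfl
  -- the coefficients are fixed, hence in `R`
  have hfixα : ∀ (σ : Γ) i, σ • (α i : Kbar) = (α i : Kbar) := fun σ i =>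
    smul_coeff_eq_of_equivariant hli (fun i => hequiv _ (b i).2) (hα' ▸ hfΓ) σ i
  have hR : ∀ i, ∃ r : R, algebraMap R Kbar r = (α i : Kbar) := by
    intro i
    obtain ⟨x, hx⟩ := hfix _ (fun σ => hfixα σ i)
    have hint : IsIntegral R (α i : Kbar) := (α i).2
    rw [← hx] at hint
    have hint' : IsIntegral R x :=
      (isIntegral_algebraMap_iff (algebraMap K Kbar).injective).1 hint
    obtain ⟨r, hr⟩ := IsIntegrallyClosed.algebraMap_eq_of_integral hint'
    exact ⟨r, by rw [← hx, ← hr, ← IsScalarTower.algebraMap_apply]⟩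
  choose r hr using hR
  have hfin : f = ∑ i, r i • e i := by
    rw [hα']
    apply Finset.sum_congr rfl
    intro i _
    rw [← hr i, algebraMap_smul]
  rw [hfin]
  exact Subalgebra.sum_mem _ fun i _ => Subalgebra.smul_mem _ (b i).2 _

end Rational

end Fermat.Agent.FF.QuotOrd4
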