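/-
Programme FF (S32 preparation), chapter R1 (helper4): QUOTIENTS OF HOPF ORDERS, part B.

For a surjective equivariant additive map `q : M → Q` of finite `Γ`-modules and a Hopf order
`H ⊆ (M → K̄)`, the order `quotOrder H q = {f : Q → K̄ | f ∘ q ∈ H}` of functions on the quotient is
finite, equivariant and SEPARATES THE POINTS of `Q`:

* translates `z ↦ h (z + m)` of members of `H` lie in the span of `H` over the integral closure of `R`
  (coproduct);
* the norms `z ↦ ∏_{m ∈ ker q} h (z + m)` lie in `H` (rationality) and descend to `Q`;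
* if the norms of all `x - h` (`x ∈ R`) agree at `z` and `w` then `h z = h (w + m)` for some
  `m ∈ ker q`; a linear-avoidance argument gives one `m` for all `h`, hence `z = w + m`.
-/
import Mathlib
import Fermat.Agent.FF.QuotOrd4A

set_option autoImplicit false
set_option linter.unusedSectionVars false

open Polynomial

namespace Fermat.Agent.FF.QuotOrd4

open Fermat.Agent.FF.HopfOrd1 Fermat.Agent.FF.HopfOrderB Fermat.Agent.FF.HopfOrderC
  Fermat.Agent.FF.SubOrd1

section Basic

variable {R : Type*} [CommRing R] {Kbar : Type*} [Field Kbar] [Algebra R Kbar]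
variable {Γ : Type*} [Group Γ] [MulSemiringAction Γ Kbar]
variable {M : Type*} [AddCommGroup M] [DistribMulAction Γ M]
variable {Q : Type*} [AddCommGroup Q] [DistribMulAction Γ Q]

/-- the functions on the quotient whose pullback lies in `H`. -/
def quotOrder (H : Subalgebra R (M → Kbar)) (q : M → Q) : Subalgebra R (Q → Kbar) :=
  H.comap (pull R Kbar q)

omit [AddCommGroup M] [DistribMulAction Γ M] [AddCommGroup Q] [DistribMulAction Γ Q] in
theorem mem_quotOrder {H : Subalgebra R (M → Kbar)} {q : M → Q} {f : Q → Kbar} :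
    f ∈ quotOrder H q ↔ (fun z => f (q z)) ∈ H := Iff.rfl

omit [AddCommGroup M] [DistribMulAction Γ M] [AddCommGroup Q] [DistribMulAction Γ Q] in
theorem finite_quotOrder [IsNoetherianRing R] (H : Subalgebra R (M → Kbar)) [Module.Finite R H]
    (q : M → Q) (hq : Function.Surjective q) : Module.Finite R (quotOrder H q) := by
  let φ : quotOrder H q →ₗ[R] H :=
    { toFun := fun f => ⟨fun z => (f : Q → Kbar) (q z), f.2⟩
      map_add' := fun f g => rfl
      map_smul' := fun r f => rfl }
  have hinj : Function.Injective φ := by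
    intro f g hfg
    apply Subtype.ext
    funext y
    obtain ⟨z, rfl⟩ := hq y
    exact congrFun (congrArg Subtype.val hfg) z
  have : IsNoetherian R H := isNoetherian_of_isNoetherianRing_of_finite R H
  exact Module.Finite.of_injective φ hinj

theorem equivariant_quotOrder {H : Subalgebra R (M → Kbar)}
    (hequiv : ∀ h ∈ H, IsEquivariantFun Γ h) (q : M →+ Q) (hq : Function.Surjective q)
    (hqΓ : ∀ (σ : Γ) (z : M), q (σ • z) = σ • q z) :
    ∀ f ∈ quotOrder H (q : M → Q), IsEquivariantFun Γ f := by
  intro f hf σ y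
  obtain ⟨z, rfl⟩ := hq y
  rw [← hqΓ]
  exact hequiv _ hf σ z

omit [DistribMulAction Γ M] [DistribMulAction Γ Q] in
/-- a function invariant under translation by the kernel descends to the quotient. -/
theorem exists_quot_of_invariant (q : M →+ Q) (hq : Function.Surjective q) {g : M → Kbar}
    (hg : ∀ z m, q m = 0 → g (z + m) = g z) : ∃ f : Q → Kbar, ∀ z, f (q z) = g z := by
  refine ⟨fun y => g (Function.surjInv hq y), fun z => ?_⟩
  have h1 : q (Function.surjInv hq (q z)) = q z := Function.surjInv_eq hq _
  have h2 : q (z - Function.surjInv hq (q z)) = 0 := by rw [map_sub, h1, sub_self]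
  have h3 := hg (Function.surjInv hq (q z)) _ h2
  rw [add_sub_cancel] at h3
  exact h3.symm

end Basic

section Span

variable {R : Type*} [CommRing R] {Kbar : Type*} [Field Kbar] [Algebra R Kbar]
variable {M : Type*} [AddCommGroup M]

/-- the span of `H` over the integral closure of `R` in `K̄`. -/
abbrev intSpan (H : Subalgebra R (M → Kbar)) : Submodule ↥(integralClosure R Kbar) (M → Kbar) :=
  Submodule.span ↥(integralClosure R Kbar) (H : Set (M → Kbar))

omit [AddCommGroup M] in
theorem mem_intSpan_of_mem {H : Subalgebra R (M → Kbar)} {h : M → Kbar} (hh : h ∈ H) :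
    h ∈ intSpan H := Submodule.subset_span hh

omit [AddCommGroup M] in
theorem mul_mem_intSpan {H : Subalgebra R (M → Kbar)} {f g : M → Kbar} (hf : f ∈ intSpan H)
    (hg : g ∈ intSpan H) : f * g ∈ intSpan H := by
  have h1 := Submodule.mul_mem_mul hf hg
  rw [Submodule.span_mul_span] at h1
  refine Submodule.span_mono ?_ h1
  rintro _ ⟨a, ha, b, hb, rfl⟩
  exact H.mul_mem ha hb

omit [AddCommGroup M] in
theorem prod_mem_intSpan {H : Subalgebra R (M → Kbar)} {ι : Type*} (s : Finset ι)
    (f : ι → M → Kbar) (hf : ∀ i ∈ s, f i ∈ intSpan H) : ∏ i ∈ s, f i ∈ intSpan H := by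
  classical
  induction s using Finset.induction_on with
  | empty => simpa using mem_intSpan_of_mem H.one_mem
  | insert a s ha ih =>
    rw [Finset.prod_insert ha]
    exact mul_mem_intSpan (hf a (Finset.mem_insert_self a s))
      (ih fun i hi => hf i (Finset.mem_insert_of_mem hi))

/-- translates of members of `H` lie in the integral span of `H`. -/
theorem translate_mem_intSpan {H : Subalgebra R (M → Kbar)} [Module.Finite R H]
    (hΔ : ∀ h ∈ H, HasCoprod H h) {h : M → Kbar} (hh : h ∈ H) (m : M) :
    (fun z => h (z + m)) ∈ intSpan H := by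
  obtain ⟨ι, _, a, b, ha, hb, hab⟩ := hΔ h hh
  have hint : ∀ i, IsIntegral R (b i m) := fun i => by
    have h1 : IsIntegral R (⟨b i, hb i⟩ : H) := IsIntegral.of_finite R _
    have := h1.map ((Pi.evalAlgHom R (fun _ : M => Kbar) m).comp H.val)
    simpa using this
  have h2 : (fun z => h (z + m)) =
      ∑ i, (⟨b i m, hint i⟩ : ↥(integralClosure R Kbar)) • a i := by
    funext z
    rw [hab, Finset.sum_apply]
    apply Finset.sum_congr rfl
    intro i _
    show a i z * b i m = b i m * a i z
    ring
  rw [h2]
  exact Submodule.sum_mem _ fun i _ =>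
    Submodule.smul_mem _ _ (Submodule.subset_span (ha i))

end Span

section Norm

variable {R : Type*} [CommRing R] [IsDomain R] [IsPrincipalIdealRing R]
variable {K : Type*} [Field K] [Algebra R K] [IsFractionRing R K]
variable {Kbar : Type*} [Field Kbar] [Algebra R Kbar] [Algebra K Kbar] [IsScalarTower R K Kbar]
variable {Γ : Type*} [Group Γ] [MulSemiringAction Γ Kbar]
variable {M : Type*} [AddCommGroup M] [Finite M] [DistribMulAction Γ M]
variable {Q : Type*} [AddCommGroup Q] [DistribMulAction Γ Q]

/-- the norm of a function along a finite set of translations. -/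
def normFun (S : Finset M) (h : M → Kbar) : M → Kbar := fun z => ∏ m ∈ S, h (z + m)

omit [Finite M] [DistribMulAction Γ M] in
theorem normFun_apply (S : Finset M) (h : M → Kbar) (z : M) :
    normFun S h z = ∏ m ∈ S, h (z + m) := rfl

omit [DistribMulAction Γ M] [DistribMulAction Γ Q] [Finite M] in
theorem normFun_add (q : M →+ Q) {S : Finset M} (hS : ∀ m, m ∈ S ↔ q m = 0) (h : M → Kbar)
    (z m₀ : M) (hm₀ : q m₀ = 0) : normFun S h (z + m₀) = normFun S h z := by
  rw [normFun_apply, normFun_apply]
  refine Finset.prod_bij (fun m _ => m₀ + m) ?_ ?_ ?_ ?_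
  · intro m hm
    rw [hS, map_add, hm₀, (hS m).1 hm, add_zero]
  · intro m _ m' _ hmm'
    exact add_left_cancel hmm'
  · intro m' hm'
    refine ⟨m' - m₀, ?_, by abel⟩
    rw [hS, map_sub, (hS m').1 hm', hm₀, sub_zero]
  · intro m _
    rw [add_assoc]

omit [Finite M] in
theorem normFun_equivariant (q : M →+ Q) (hqΓ : ∀ (σ : Γ) (z : M), q (σ • z) = σ • q z)
    {S : Finset M} (hS : ∀ m, m ∈ S ↔ q m = 0) {h : M → Kbar} (hh : IsEquivariantFun Γ h) :
    IsEquivariantFun Γ (normFun S h) := by
  intro σ z
  rw [normFun_apply, normFun_apply, Finset.smul_prod']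
  symm
  refine Finset.prod_bij (fun m _ => σ • m) ?_ ?_ ?_ ?_
  · intro m hm
    rw [hS, hqΓ, (hS m).1 hm, smul_zero]
  · intro m _ m' _ hmm'
    exact smul_left_cancel σ hmm'
  · intro m' hm'
    refine ⟨σ⁻¹ • m', ?_, smul_inv_smul σ m'⟩
    rw [hS, hqΓ, (hS m').1 hm', smul_zero]
  · intro m _
    rw [← hh σ (z + m), smul_add]

omit [DistribMulAction Γ Q] in
/-- **norms of members of `H` lie in `H`.** -/
theorem normFun_mem
    (hfix : ∀ x : Kbar, (∀ σ : Γ, σ • x = x) → x ∈ (algebraMap K Kbar).range)
    {H : Subalgebra R (M → Kbar)} [Module.Finite R H]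
    (hequiv : ∀ h ∈ H, IsEquivariantFun Γ h) (hΔ : ∀ h ∈ H, HasCoprod H h)
    (S : Finset M) {h : M → Kbar} (hh : h ∈ H) (hN : IsEquivariantFun Γ (normFun S h)) :
    normFun S h ∈ H := by
  apply mem_of_mem_span_integralClosure (K := K) hfix hequiv _ hN
  have h1 : normFun S h = ∏ m ∈ S, fun z => h (z + m) := by
    funext z
    rw [normFun_apply, Finset.prod_apply]
  rw [h1]
  exact prod_mem_intSpan S _ fun m _ => translate_mem_intSpan hΔ hh m

end Norm

end Fermat.Agent.FF.QuotOrd4
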