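/-
Programme FF (S32 preparation), chapter R1 (helper4): QUOTIENTS OF HOPF ORDERS, part C.

`separates_quotOrder`: for a surjective equivariant additive map `q : M → Q` of finite `Γ`-modules and
a Hopf order `H ⊆ (M → K̄)` separating the points of `M`, the order `quotOrder H q` separates the
points of `Q`.

* the norms `z ↦ ∏_{m ∈ ker q} (x - h (z + m))` (`x ∈ R`) lie in `H` and descend to `Q`;
* if they agree at `z` and `w` for all `x ∈ R` (`R` infinite) the polynomials
  `∏ (X - h (z + m))`, `∏ (X - h (w + m))` agree, hence `h z = h (w + m)` for some `m ∈ ker q`;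
* a linear-avoidance argument gives one `m` for all `h`, hence `z = w + m`.
-/
import Mathlib
import Fermat.Agent.FF.QuotOrd4B

set_option autoImplicit false
set_option linter.unusedSectionVars false

open Polynomial

namespace Fermat.Agent.FF.QuotOrd4

open Fermat.Agent.FF.HopfOrd1 Fermat.Agent.FF.HopfOrderB Fermat.Agent.FF.HopfOrderC
  Fermat.Agent.FF.SubOrd1

section Poly

variable {R : Type*} [CommRing R] [Infinite R]
variable {Kbar : Type*} [Field Kbar] [Algebra R Kbar]

/-- two finite families with the same "characteristic polynomial on `R`" have the same members. -/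
theorem exists_eq_of_prod_sub_eq (hinj : Function.Injective (algebraMap R Kbar))
    {ι : Type*} (S : Finset ι) (u v : ι → Kbar)
    (h : ∀ x : R, ∏ m ∈ S, (algebraMap R Kbar x - u m) = ∏ m ∈ S, (algebraMap R Kbar x - v m))
    {m₀ : ι} (hm₀ : m₀ ∈ S) : ∃ m ∈ S, u m₀ = v m := by
  classical
  have hPQ : (∏ m ∈ S, (X - C (u m)) : Kbar[X]) = ∏ m ∈ S, (X - C (v m)) := by
    apply Polynomial.eq_of_infinite_eval_eq
    refine Set.Infinite.mono ?_ (Set.infinite_range_of_injective hinj)
    rintro _ ⟨x, rfl⟩
    simp only [Set.mem_ofPred_eq, eval_prod, eval_sub, eval_X, eval_C]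
    exact h x
  have h1 : (∏ m ∈ S, (X - C (u m)) : Kbar[X]).eval (u m₀) = 0 := by
    rw [eval_prod]
    exact Finset.prod_eq_zero hm₀ (by simp)
  rw [hPQ, eval_prod, Finset.prod_eq_zero_iff] at h1
  obtain ⟨m, hm, hm0⟩ := h1
  refine ⟨m, hm, ?_⟩
  simpa [sub_eq_zero] using hm0

end Poly

section Sep

variable {R : Type*} [CommRing R] [IsDomain R] [IsPrincipalIdealRing R] [Infinite R]
variable {K : Type*} [Field K] [Algebra R K] [IsFractionRing R K]
variable {Kbar : Type*} [Field Kbar] [Algebra R Kbar] [Algebra K Kbar] [IsScalarTower R K Kbar]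
variable {Γ : Type*} [Group Γ] [MulSemiringAction Γ Kbar]
variable {M : Type*} [AddCommGroup M] [Finite M] [DistribMulAction Γ M]
variable {Q : Type*} [AddCommGroup Q] [DistribMulAction Γ Q]

omit [IsPrincipalIdealRing R] [Infinite R] in
theorem algebraMap_injective_of_tower (R : Type*) [CommRing R] [IsDomain R]
    (K : Type*) [Field K] [Algebra R K] [IsFractionRing R K]
    (Kbar : Type*) [Field Kbar] [Algebra R Kbar] [Algebra K Kbar] [IsScalarTower R K Kbar] :
    Function.Injective (algebraMap R Kbar) := by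
  rw [IsScalarTower.algebraMap_eq R K Kbar]
  exact (algebraMap K Kbar).injective.comp (IsFractionRing.injective R K)

/-- the norm along the kernel of `q` of a member of `H` takes the same values at two points with the
same image in `Q`, provided the order on the quotient does not separate these images. -/
theorem normFun_eq_of_quotOrder_eq
    (hfix : ∀ x : Kbar, (∀ σ : Γ, σ • x = x) → x ∈ (algebraMap K Kbar).range)
    {H : Subalgebra R (M → Kbar)} [Module.Finite R H]
    (hequiv : ∀ h ∈ H, IsEquivariantFun Γ h) (hΔ : ∀ h ∈ H, HasCoprod H h)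
    (q : M →+ Q) (hq : Function.Surjective q)
    (hqΓ : ∀ (σ : Γ) (z : M), q (σ • z) = σ • q z)
    {S : Finset M} (hS : ∀ m, m ∈ S ↔ q m = 0) {z w : M}
    (hzw : ∀ f ∈ quotOrder H (q : M → Q), f (q z) = f (q w)) {h : M → Kbar} (hh : h ∈ H) :
    normFun S h z = normFun S h w := by
  have hN : normFun S h ∈ H :=
    normFun_mem (K := K) hfix hequiv hΔ S hh (normFun_equivariant q hqΓ hS (hequiv h hh))
  obtain ⟨f, hf⟩ := exists_quot_of_invariant q hq (g := normFun S h)
    (fun z m hm => normFun_add q hS h z m hm)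
  have hfmem : f ∈ quotOrder H (q : M → Q) := by
    rw [mem_quotOrder]
    have : (fun z => f (q z)) = normFun S h := funext hf
    rw [this]
    exact hN
  have := hzw f hfmem
  rwa [hf, hf] at this

/-- **the order on the quotient separates points.** -/
theorem separates_quotOrder
    (hfix : ∀ x : Kbar, (∀ σ : Γ, σ • x = x) → x ∈ (algebraMap K Kbar).range)
    {H : Subalgebra R (M → Kbar)} [Module.Finite R H]
    (hequiv : ∀ h ∈ H, IsEquivariantFun Γ h) (hΔ : ∀ h ∈ H, HasCoprod H h)
    (hsep : ∀ z z' : M, (∀ h ∈ H, h z = h z') → z = z')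
    (q : M →+ Q) (hq : Function.Surjective q)
    (hqΓ : ∀ (σ : Γ) (z : M), q (σ • z) = σ • q z) :
    ∀ y y' : Q, (∀ f ∈ quotOrder H (q : M → Q), f y = f y') → y = y' := by
  classical
  intro y y' hyy'
  obtain ⟨z, rfl⟩ := hq y
  obtain ⟨w, rfl⟩ := hq y'
  have : Fintype M := Fintype.ofFinite M
  set S : Finset M := Finset.univ.filter (fun m => q m = 0) with hSdef
  have hS : ∀ m, m ∈ S ↔ q m = 0 := fun m => by simp [hSdef]
  have hinj : Function.Injective (algebraMap R Kbar) := algebraMap_injective_of_tower R K Kbar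
  -- step 2 : `h z` is among the `h (w + m)`
  have h2 : ∀ h ∈ H, ∃ m ∈ S, h z = h (w + m) := by
    intro h hh
    have h0 : (0 : M) ∈ S := (hS 0).2 (map_zero q)
    obtain ⟨m, hm, hzm⟩ := exists_eq_of_prod_sub_eq hinj S (fun m => h (z + m))
      (fun m => h (w + m)) (fun x => by
        have hx : algebraMap R (M → Kbar) x - h ∈ H := H.sub_mem (H.algebraMap_mem x) hh
        have := normFun_eq_of_quotOrder_eq (K := K) hfix hequiv hΔ q hq hqΓ hS hyy' hx
        simpa [normFun_apply, Pi.algebraMap_apply] using this) h0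
    refine ⟨m, hm, ?_⟩
    simpa using hzm
  -- step 3 : one `m` for all `h`
  let φ : M → (H →ₗ[R] Kbar) := fun m =>
    ((LinearMap.proj z : (M → Kbar) →ₗ[R] Kbar) - LinearMap.proj (w + m)).comp
      H.val.toLinearMap
  have hφ : ∀ m (h : H), φ m h = (h : M → Kbar) z - (h : M → Kbar) (w + m) := fun m h => rfl
  obtain ⟨m, hm, hφm⟩ : ∃ m ∈ S, φ m = 0 := by
    by_contra hcon
    push Not at hcon
    obtain ⟨h, hh⟩ := exists_forall_apply_ne_zero hinj S φ hcon
    obtain ⟨m, hm, hzm⟩ := h2 h h.2
    exact hh m hm (by rw [hφ, hzm, sub_self])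
  have hzw : z = w + m := by
    apply hsep
    intro h hh
    have := LinearMap.congr_fun hφm ⟨h, hh⟩
    rw [hφ, LinearMap.zero_apply, sub_eq_zero] at this
    exact this
  rw [hzw, map_add, (hS m).1 hm, add_zero]

end Sep

end Fermat.Agent.FF.QuotOrd4
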