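/-
Programme FF (S32 preparation), chapter R1 (helper4): QUOTIENTS OF HOPF ORDERS, part D.

`hasCoprod_quotOrder`: the order `quotOrder H q` on a quotient `q : M → Q` has a coproduct.
`IsHopfOrder.quotient`: **the quotient of a Hopf order by a stable subgroup is a Hopf order.**

For `f ∈ quotOrder H q` and `h = f ∘ q ∈ H` write `h (z + z') = ∑ₖ gₖ z * eₖ z'` on an `R`-basis `e` of
`H` (linearly independent over `K̄`): the `gₖ ∈ H` are invariant under the kernel of `q`, hence descend
to `Gₖ ∈ quotOrder H q`.  Expanding the `Gₖ` on an `R`-basis `v` of `quotOrder H q` gives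
`f (y + q z') = ∑ⱼ vⱼ y * wⱼ z'` with `wⱼ ∈ H` again invariant under the kernel.
-/
import Mathlib
import Fermat.Agent.FF.QuotOrd4C

set_option autoImplicit false
set_option linter.unusedSectionVars false

namespace Fermat.Agent.FF.QuotOrd4

open Fermat.Agent.FF.HopfOrd1 Fermat.Agent.FF.HopfOrderB Fermat.Agent.FF.HopfOrderC
  Fermat.Agent.FF.SubOrd1

section Expand

variable {R : Type*} [CommRing R] {Kbar : Type*} [Field Kbar] [Algebra R Kbar]

/-- members of a subalgebra with a basis are combinations of the basis, as functions. -/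
theorem exists_eq_sum_smul_basis {Y : Type*} {S : Subalgebra R (Y → Kbar)} {n : ℕ}
    (e : Module.Basis (Fin n) R S) {b : Y → Kbar} (hb : b ∈ S) :
    ∃ r : Fin n → R, b = ∑ k, r k • ((e k : S) : Y → Kbar) := by
  refine ⟨fun k => e.repr ⟨b, hb⟩ k, ?_⟩
  have h1 := e.sum_repr (⟨b, hb⟩ : S)
  have := congrArg (fun x : S => (x : Y → Kbar)) h1
  simp only [AddSubmonoidClass.coe_finsetSum, SetLike.val_smul] at this
  exact this.symm

/-- re-expansion of a sum of products on a family spanning the right-hand factors. -/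
theorem exists_expand {X Y : Type*} (A : Subalgebra R (X → Kbar)) {n : ℕ} (e : Fin n → Y → Kbar)
    {ι : Type*} [Fintype ι] (a : ι → X → Kbar) (b : ι → Y → Kbar) (ha : ∀ i, a i ∈ A)
    (hb : ∀ i, ∃ r : Fin n → R, b i = ∑ k, r k • e k) :
    ∃ g : Fin n → X → Kbar, (∀ k, g k ∈ A) ∧
      ∀ x y, ∑ i, a i x * b i y = ∑ k, g k x * e k y := by
  choose r hr using hb
  refine ⟨fun k => ∑ i, r i k • a i, fun k => A.sum_mem fun i _ => A.smul_mem (ha i) _, ?_⟩
  intro x y
  have h1 : ∀ i, b i y = ∑ k, algebraMap R Kbar (r i k) * e k y := by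
    intro i
    rw [hr i]
    simp [Finset.sum_apply, Algebra.smul_def]
  calc ∑ i, a i x * b i y = ∑ i, ∑ k, algebraMap R Kbar (r i k) * a i x * e k y := by
        apply Finset.sum_congr rfl
        intro i _
        rw [h1, Finset.mul_sum]
        apply Finset.sum_congr rfl
        intro k _
        ring
    _ = ∑ k, ∑ i, algebraMap R Kbar (r i k) * a i x * e k y := Finset.sum_comm
    _ = ∑ k, (∑ i, r i k • a i) x * e k y := by
        apply Finset.sum_congr rfl
        intro k _
        rw [Finset.sum_apply, Finset.sum_mul]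
        apply Finset.sum_congr rfl
        intro i _
        rw [Pi.smul_apply, Algebra.smul_def]

/-- coefficients on an independent family are determined. -/
theorem coeff_eq_of_sum_mul_eq {Y : Type*} {n : ℕ} {e : Fin n → Y → Kbar}
    (hli : LinearIndependent Kbar e) {c c' : Fin n → Kbar}
    (h : ∀ y, ∑ k, c k * e k y = ∑ k, c' k * e k y) (k : Fin n) : c k = c' k := by
  have h1 : ∑ k, (c k - c' k) • e k = 0 := by
    funext y
    simp only [Finset.sum_apply, Pi.smul_apply, smul_eq_mul, Pi.zero_apply, sub_mul,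
      Finset.sum_sub_distrib]
    rw [h y, sub_self]
  exact sub_eq_zero.1 (Fintype.linearIndependent_iff.1 hli _ h1 k)

end Expand

section Coprod

variable {R : Type*} [CommRing R] [IsDomain R] [IsPrincipalIdealRing R]
variable {K : Type*} [Field K] [Algebra R K] [IsFractionRing R K]
variable {Kbar : Type*} [Field Kbar] [Algebra R Kbar] [Algebra K Kbar] [IsScalarTower R K Kbar]
variable {Γ : Type*} [Group Γ] [MulSemiringAction Γ Kbar]
variable {M : Type*} [AddCommGroup M] [Finite M] [DistribMulAction Γ M]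
variable {Q : Type*} [AddCommGroup Q] [Finite Q] [DistribMulAction Γ Q]

/-- a member of `H` invariant under the kernel of `q` comes from the order on the quotient. -/
theorem exists_mem_quotOrder_of_invariant {H : Subalgebra R (M → Kbar)} (q : M →+ Q)
    (hq : Function.Surjective q) {g : M → Kbar} (hgH : g ∈ H)
    (hg : ∀ z m, q m = 0 → g (z + m) = g z) :
    ∃ G ∈ quotOrder H (q : M → Q), ∀ z, G (q z) = g z := by
  obtain ⟨G, hG⟩ := exists_quot_of_invariant q hq hg
  refine ⟨G, ?_, hG⟩
  rw [mem_quotOrder]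
  have : (fun z => G (q z)) = g := funext hG
  rw [this]
  exact hgH

/-- **the order on the quotient has a coproduct.** -/
theorem hasCoprod_quotOrder
    (hfix : ∀ x : Kbar, (∀ σ : Γ, σ • x = x) → x ∈ (algebraMap K Kbar).range)
    {H : Subalgebra R (M → Kbar)} [Module.Finite R H]
    (hequiv : ∀ h ∈ H, IsEquivariantFun Γ h) (hΔ : ∀ h ∈ H, HasCoprod H h)
    (q : M →+ Q) (hq : Function.Surjective q)
    (hqΓ : ∀ (σ : Γ) (z : M), q (σ • z) = σ • q z) :
    ∀ f ∈ quotOrder H (q : M → Q), HasCoprod (quotOrder H (q : M → Q)) f := by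
  classical
  intro f hf
  have : Module.Finite R (quotOrder H (q : M → Q)) := finite_quotOrder H q hq
  have hequivQ := equivariant_quotOrder hequiv q hq hqΓ
  -- bases
  obtain ⟨n, e, -, hlie⟩ := exists_basis_card_le (R := R) (K := K) hfix hequiv
  obtain ⟨r, v, -, hliv⟩ := exists_basis_card_le (R := R) (K := K) hfix hequivQ
  -- step 1 : expansion on the right
  obtain ⟨ι, _, a, b, ha, hb, hab⟩ := hΔ _ (mem_quotOrder.1 hf)
  obtain ⟨g, hgH, hg⟩ := exists_expand H (fun k => ((e k : H) : M → Kbar)) a b ha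
    (fun i => exists_eq_sum_smul_basis e (hb i))
  have hfg : ∀ z z', f (q z + q z') = ∑ k, g k z * ((e k : H) : M → Kbar) z' := by
    intro z z'
    rw [← hg, ← hab z z']
    show f (q z + q z') = f (q (z + z'))
    rw [map_add]
  have hginv : ∀ k z m, q m = 0 → g k (z + m) = g k z := by
    intro k z m hm
    refine coeff_eq_of_sum_mul_eq hlie (c := fun k => g k (z + m)) (c' := fun k => g k z)
      (fun z' => ?_) k
    rw [← hfg, ← hfg, map_add, hm, add_zero]
  have hG : ∀ k, ∃ G ∈ quotOrder H (q : M → Q), ∀ z, G (q z) = g k z := fun k =>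
    exists_mem_quotOrder_of_invariant q hq (hgH k) (hginv k)
  choose G hGmem hGg using hG
  -- step 2 : expansion on the left
  obtain ⟨w, hwH, hw⟩ := exists_expand H (fun j => ((v j : quotOrder H (q : M → Q)) : Q → Kbar))
    (fun k => ((e k : H) : M → Kbar)) G (fun k => (e k).2)
    (fun k => exists_eq_sum_smul_basis v (hGmem k))
  have hfw : ∀ z' y, f (y + q z') =
      ∑ j, w j z' * ((v j : quotOrder H (q : M → Q)) : Q → Kbar) y := by
    intro z' y
    obtain ⟨z, rfl⟩ := hq y
    rw [← hw, hfg]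
    apply Finset.sum_congr rfl
    intro k _
    rw [hGg, mul_comm]
  have hwinv : ∀ j z' m, q m = 0 → w j (z' + m) = w j z' := by
    intro j z' m hm
    refine coeff_eq_of_sum_mul_eq hliv (c := fun j => w j (z' + m)) (c' := fun j => w j z')
      (fun y => ?_) j
    rw [← hfw, ← hfw, map_add, hm, add_zero]
  have hW : ∀ j, ∃ W ∈ quotOrder H (q : M → Q), ∀ z, W (q z) = w j z := fun j =>
    exists_mem_quotOrder_of_invariant q hq (hwH j) (hwinv j)
  choose W hWmem hWw using hW
  refine ⟨Fin r, inferInstance, fun j => ((v j : quotOrder H (q : M → Q)) : Q → Kbar), W,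
    fun j => (v j).2, hWmem, ?_⟩
  intro y y'
  obtain ⟨z', rfl⟩ := hq y'
  rw [hfw]
  apply Finset.sum_congr rfl
  intro j _
  rw [hWw, mul_comm]

/-- **the quotient of a Hopf order by a stable subgroup is a Hopf order.** -/
theorem IsHopfOrder.quotient [Infinite R]
    (hfix : ∀ x : Kbar, (∀ σ : Γ, σ • x = x) → x ∈ (algebraMap K Kbar).range)
    {H : Subalgebra R (M → Kbar)} (hH : IsHopfOrder Γ H) (q : M →+ Q)
    (hq : Function.Surjective q) (hqΓ : ∀ (σ : Γ) (z : M), q (σ • z) = σ • q z) :
    IsHopfOrder Γ (quotOrder H (q : M → Q)) := by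
  have := hH.finite
  obtain ⟨S, hS, hΔS⟩ := hH.coprod
  have hΔ : ∀ h ∈ H, HasCoprod H h := hasCoprod_of_adjoin hS hΔS
  refine ⟨finite_quotOrder H q hq, equivariant_quotOrder hH.equivariant q hq hqΓ,
    separates_quotOrder (K := K) hfix hH.equivariant hΔ hH.separates q hq hqΓ,
    ⟨(quotOrder H (q : M → Q) : Set (Q → Kbar)), (Algebra.adjoin_eq _).symm,
      hasCoprod_quotOrder (K := K) hfix hH.equivariant hΔ q hq hqΓ⟩⟩

end Coprod

end Fermat.Agent.FF.QuotOrd4
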