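/-
Programme FF (S19), chapter G0 (helper9): the RED interface, part 2 — the GAUSS VALUATION RING of
`Fbar M` over `A ≤ ℚ̄` (`A` over `ℓ`), its reduction, and the divisor formula for its units.

`calO A M` = functions with `A`-integral `q`-expansion (`Setup8.gaussA`), `redQ` its coefficientwise
reduction.  WARNING: `calO` is NOT a valuation ring (`1/(ℓ j - 1)` is a Gauss unit without integral
`q`-expansion).  The Gauss valuation ring is the ring of FRACTIONS

  `OV A M = { f | ∃ a b ∈ calO, redQ b ≠ 0 ∧ f * b = a }`,   `redV f = redQ a / redQ b`.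

* `exists_gauss_fraction` (e1): every `f ≠ 0` is `c · a / b`, `c ∈ ℚ̄ˣ`, `a b ∈ calO`, `ā, b̄ ≠ 0`;
* `mem_or_inv_mem`, `OVal : ValuationSubring`, `gauss` (every `f ≠ 0` is `c · unit`);
* `isOUnit_iff`, `redV` ring hom, `redV_const`, `redV_eq_zero_of_maximalIdeal`.
-/
import Mathlib
import Fermat.Agent.ES.RED.GaussUnit25
import Fermat.Agent.ES.RED.Setup8
import Fermat.Agent.FF.GeomIface8

set_option autoImplicit false
set_option linter.unusedSectionVars false
set_option linter.style.haveILetI false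

noncomputable section

open HahnSeries ModularCurve IntermediateField AlgebraicCurve

namespace Fermat.Agent.FF.RedGauss9

open Fermat.Agent.RED.Interface4 Fermat.Agent.RED.DESC Fermat.Agent.RED.DESC.NumberFieldDVR27
open Fermat.Agent.RED.PUR.GaussGen8 Fermat.Agent.RED.PUR
open Fermat.Agent.ES.RED Fermat.Agent.ES.RED.GaussUnit25
open Fermat.Agent.FF.GeomIface8

variable (A : ValuationSubring Qbar) (M : ℕ)

/-- functions with `A`-integral `q`-expansion. -/
abbrev calO : Subring ↥(Fbar M) := Setup8.gaussA A (Fbar M)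

/-- coefficientwise reduction. -/
abbrev redQ : ↥(calO A M) →+* LaurentSeries (Setup8.kA A) := Setup8.redA A (Fbar M)

/-! ### the fraction ring -/

/-- **The Gauss valuation ring** (as a subring): fractions of `q`-integral functions with
denominator of nonzero reduction. -/
def OV : Subring ↥(Fbar M) where
  carrier := {f | ∃ a b : ↥(calO A M), redQ A M b ≠ 0 ∧ f * ((b : ↥(calO A M)) : ↥(Fbar M)) = a}
  mul_mem' := by
    rintro f g ⟨a, b, hb, h⟩ ⟨a', b', hb', h'⟩
    refine ⟨a * a', b * b', ?_, ?_⟩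
    · rw [map_mul]; exact mul_ne_zero hb hb'
    · push_cast
      rw [← h, ← h']; ring
  one_mem' := ⟨1, 1, by rw [map_one]; exact one_ne_zero, by simp⟩
  add_mem' := by
    rintro f g ⟨a, b, hb, h⟩ ⟨a', b', hb', h'⟩
    refine ⟨a * b' + a' * b, b * b', ?_, ?_⟩
    · rw [map_mul]; exact mul_ne_zero hb hb'
    · push_cast
      rw [← h, ← h']; ring
  zero_mem' := ⟨0, 1, by rw [map_one]; exact one_ne_zero, by simp⟩
  neg_mem' := by
    rintro f ⟨a, b, hb, h⟩
    exact ⟨-a, b, hb, by push_cast; rw [← h]; ring⟩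

theorem mem_OV_iff (f : ↥(Fbar M)) :
    f ∈ OV A M ↔ ∃ a b : ↥(calO A M), redQ A M b ≠ 0 ∧
      f * ((b : ↥(calO A M)) : ↥(Fbar M)) = a := Iff.rfl

theorem calO_le_OV : calO A M ≤ OV A M := fun f hf =>
  ⟨⟨f, hf⟩, 1, by rw [map_one]; exact one_ne_zero, by simp⟩

theorem coe_ne_zero_of_redQ_ne_zero {b : ↥(calO A M)} (hb : redQ A M b ≠ 0) :
    ((b : ↥(calO A M)) : ↥(Fbar M)) ≠ 0 := by
  intro h
  apply hb
  have : b = 0 := Subtype.ext h
  rw [this, map_zero]

/-- the reduction of an element of `OV`, as a function. -/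
def redVFun (f : ↥(OV A M)) : LaurentSeries (Setup8.kA A) :=
  redQ A M f.2.choose / redQ A M f.2.choose_spec.choose

theorem redVFun_eq (f : ↥(OV A M)) {a b : ↥(calO A M)} (hb : redQ A M b ≠ 0)
    (h : (f : ↥(Fbar M)) * ((b : ↥(calO A M)) : ↥(Fbar M)) = a) :
    redVFun A M f = redQ A M a / redQ A M b := by
  unfold redVFun
  obtain ⟨hb', h'⟩ := f.2.choose_spec.choose_spec
  set a' := f.2.choose
  set b' := f.2.choose_spec.choose
  rw [div_eq_div_iff hb' hb, ← map_mul, ← map_mul]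
  congr 1
  apply Subtype.ext
  push_cast
  rw [← h, ← h']; ring

/-- **the reduction `OV → κ((q))`.** -/
def redV : ↥(OV A M) →+* LaurentSeries (Setup8.kA A) where
  toFun := redVFun A M
  map_one' := by
    rw [redVFun_eq A M 1 (a := 1) (b := 1) (by rw [map_one]; exact one_ne_zero) (by simp),
      map_one, div_one]
  map_mul' f g := by
    obtain ⟨a, b, hb, h⟩ := f.2
    obtain ⟨a', b', hb', h'⟩ := g.2
    rw [redVFun_eq A M f hb h, redVFun_eq A M g hb' h',
      redVFun_eq A M (f * g) (a := a * a') (b := b * b')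
        (by rw [map_mul]; exact mul_ne_zero hb hb')
        (by push_cast; rw [← h, ← h']; ring),
      map_mul, map_mul]
    field_simp
  map_zero' := by
    rw [redVFun_eq A M 0 (a := 0) (b := 1) (by rw [map_one]; exact one_ne_zero) (by simp),
      map_zero, zero_div]
  map_add' f g := by
    obtain ⟨a, b, hb, h⟩ := f.2
    obtain ⟨a', b', hb', h'⟩ := g.2
    rw [redVFun_eq A M f hb h, redVFun_eq A M g hb' h',
      redVFun_eq A M (f + g) (a := a * b' + a' * b) (b := b * b')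
        (by rw [map_mul]; exact mul_ne_zero hb hb')
        (by push_cast; rw [← h, ← h']; ring),
      map_add, map_mul, map_mul, map_mul]
    field_simp

theorem redV_eq (f : ↥(OV A M)) {a b : ↥(calO A M)} (hb : redQ A M b ≠ 0)
    (h : (f : ↥(Fbar M)) * ((b : ↥(calO A M)) : ↥(Fbar M)) = a) :
    redV A M f = redQ A M a / redQ A M b := redVFun_eq A M f hb h

/-- on `q`-integral functions `redV` is the coefficientwise reduction. -/
theorem redV_of_calO (a : ↥(calO A M)) :
    redV A M ⟨a, calO_le_OV A M a.2⟩ = redQ A M a := by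
  rw [redV_eq A M _ (a := a) (b := 1) (by rw [map_one]; exact one_ne_zero) (by simp),
    map_one, div_one]

/-- constants of `A` lie in `OV`. -/
theorem algebraMap_mem_OV (c : ↥A) : algebraMap Qbar ↥(Fbar M) (c : Qbar) ∈ OV A M :=
  calO_le_OV A M (Setup8.algebraMap_mem_gaussA A (Fbar M) c)

theorem redV_algebraMap (c : ↥A) :
    redV A M ⟨algebraMap Qbar ↥(Fbar M) (c : Qbar), algebraMap_mem_OV A M c⟩ =
      algebraMap (Setup8.kA A) (LaurentSeries (Setup8.kA A)) (Setup8.resA A c) := by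
  have := redV_of_calO A M ⟨_, Setup8.algebraMap_mem_gaussA A (Fbar M) c⟩
  rw [Setup8.redA_algebraMap] at this
  exact this

/-- a fraction with numerator AND denominator of nonzero reduction is a unit of `OV`. -/
theorem isOUnit_of_fraction {f : ↥(Fbar M)} {a b : ↥(calO A M)} (ha : redQ A M a ≠ 0)
    (hb : redQ A M b ≠ 0) (h : f * ((b : ↥(calO A M)) : ↥(Fbar M)) = a) :
    IsOUnit (OV A M) f := by
  have ha0 := coe_ne_zero_of_redQ_ne_zero A M ha
  have hb0 := coe_ne_zero_of_redQ_ne_zero A M hb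
  have hf0 : f ≠ 0 := by
    rintro rfl
    rw [zero_mul] at h
    exact ha0 h.symm
  refine ⟨hf0, ⟨a, b, hb, h⟩, ⟨b, a, ha, ?_⟩⟩
  rw [← h]
  field_simp

/-- units of `OV` are the elements of `OV` with nonzero reduction. -/
theorem isOUnit_iff (f : ↥(OV A M)) :
    IsOUnit (OV A M) (f : ↥(Fbar M)) ↔ redV A M f ≠ 0 := by
  constructor
  · rintro ⟨hf0, -, hinv⟩ h0
    have h1 : f * ⟨_, hinv⟩ = 1 := Subtype.ext (mul_inv_cancel₀ hf0)
    have h2 := congrArg (redV A M) h1
    rw [map_mul, h0, zero_mul, map_one] at h2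
    exact zero_ne_one h2
  · intro h0
    obtain ⟨a, b, hb, h⟩ := f.2
    rw [redV_eq A M f hb h] at h0
    have ha : redQ A M a ≠ 0 := fun h1 => h0 (by rw [h1, zero_div])
    exact isOUnit_of_fraction A M ha hb h

/-! ### (e1): every nonzero function is a constant times a Gauss unit -/

section Fraction

variable {M} [NeZero M]

/-- **(e1)** every nonzero `f ∈ Fbar M` is `c · a / b` with `c ∈ ℚ̄ˣ` and `a, b` `q`-integral of
nonzero reduction. -/
theorem exists_gauss_fraction (ℓ : ℕ) [Fact ℓ.Prime] (hA : A.LiesOverPrime ℓ)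
    (f : ↥(Fbar M)) (hf0 : f ≠ 0) :
    ∃ (c : Qbar) (a b : ↥(calO A M)), c ≠ 0 ∧ redQ A M a ≠ 0 ∧ redQ A M b ≠ 0 ∧
      f * ((b : ↥(calO A M)) : ↥(Fbar M)) =
        algebraMap Qbar ↥(Fbar M) c * ((a : ↥(calO A M)) : ↥(Fbar M)) := by
  haveI := isAlgebraic_Qbar
  obtain ⟨K, -, hfin, x', hx', hx'f⟩ :=
    CoeffDescent1.exists_finite_descent (L := Qbar) (F₀ := modularFunctionFieldFull M) ⊥ f.2
  haveI := hfin
  haveI : IsDiscreteValuationRing ↥(AK A K) :=
    isDiscreteValuationRing_AK A K (Fact.out : ℓ.Prime).ne_zero hA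
  obtain ⟨π, hπ⟩ := IsDiscreteValuationRing.exists_irreducible ↥(AK A K)
  have hu := isUnif_of_irreducible (AK A K) hπ
  have hx'C : x' ∈ modularFunctionFieldFullC ↥K M := by
    rw [← DegBaseChange25.laurentBaseChange_full_eq]; exact hx'
  have hx'0 : x' ≠ 0 := by
    rintro rfl
    rw [map_zero] at hx'f
    exact hf0 (Subtype.ext hx'f.symm)
  obtain ⟨c, a, b, hc0, haE, hbE, hared, hbred, hrel⟩ := exists_integral_fraction hu M hx'C hx'0
  have hmemQ : ∀ z : LaurentSeries ↥(AK A K), embK (AK A K) z ∈ modularFunctionFieldFullC ↥K M →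
      coeffMap A.subtype (coeffMap (incl A K) z) ∈ Fbar M := by
    intro z hz
    rw [coeffMap_subtype_incl]
    refine CoeffDescent1.coeffMap_mem_laurentBaseChange_of_algHom (algebraMap K Qbar)
      (modularFunctionFieldFull M) ?_
    rw [DegBaseChange25.laurentBaseChange_full_eq]; exact hz
  have hred : ∀ (z : LaurentSeries ↥(AK A K))
      (hz : embK (AK A K) z ∈ modularFunctionFieldFullC ↥K M), redL (AK A K) z ≠ 0 →
      redQ A M (Setup8.ofSeries A (Fbar M) (coeffMap (incl A K) z) (hmemQ z hz)) ≠ 0 := by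
    intro z hz hz0 h0
    apply hz0
    rw [Setup8.redA_ofSeries, coeffMap_residue_incl] at h0
    exact CoeffDescent1.coeffMap_injective_of_injective (resMap A K) (resMap_injective A K)
      (h0.trans (map_zero _).symm)
  refine ⟨algebraMap K Qbar c, Setup8.ofSeries A (Fbar M) _ (hmemQ a haE),
    Setup8.ofSeries A (Fbar M) _ (hmemQ b hbE), ?_, hred a haE hared, hred b hbE hbred, ?_⟩
  · rw [Ne, map_eq_zero]; exact hc0
  · apply Subtype.ext
    show (f : LaurentSeries Qbar) * coeffMap A.subtype (coeffMap (incl A K) b) =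
      algebraMap Qbar (LaurentSeries Qbar) (algebraMap K Qbar c) *
        coeffMap A.subtype (coeffMap (incl A K) a)
    rw [coeffMap_subtype_incl, coeffMap_subtype_incl, ← hx'f, ← map_mul, hrel, map_mul,
      GaussGen8.coeffMap_C, algebraMap_eq_C (K := Qbar)]

variable (ℓ : ℕ) [Fact ℓ.Prime] (hA : A.LiesOverPrime ℓ)

include hA

/-- **the Gauss property**: every nonzero function is a constant times a unit of `OV`. -/
theorem gauss (f : ↥(Fbar M)) (hf0 : f ≠ 0) :
    ∃ c : Qbar, c ≠ 0 ∧ IsOUnit (OV A M) (algebraMap Qbar ↥(Fbar M) c * f) := by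
  obtain ⟨c, a, b, hc0, ha, hb, h⟩ := exists_gauss_fraction A ℓ hA f hf0
  refine ⟨c⁻¹, inv_ne_zero hc0, isOUnit_of_fraction A M ha hb ?_⟩
  rw [mul_assoc, h, ← mul_assoc, ← map_mul, inv_mul_cancel₀ hc0, map_one, one_mul]

/-- `c · u ∈ OV` (`u` a unit of `OV`) iff `c ∈ A`. -/
theorem const_mul_mem_OV_iff {c : Qbar} {u : ↥(Fbar M)} (hu : IsOUnit (OV A M) u) :
    algebraMap Qbar ↥(Fbar M) c * u ∈ OV A M ↔ c ∈ A := by
  constructor
  · intro h
    by_contra hc
    have hc0 : c ≠ 0 := fun h0 => hc (h0 ▸ A.zero_mem)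
    have hcinv : c⁻¹ ∈ A := (A.mem_or_inv_mem c).resolve_left hc
    have hmax : (⟨c⁻¹, hcinv⟩ : ↥A) ∈ IsLocalRing.maximalIdeal ↥A := by
      rw [IsLocalRing.mem_maximalIdeal, mem_nonunits_iff]
      intro hunit
      apply hc
      obtain ⟨w, hw⟩ := hunit.exists_right_inv
      have hw' : c⁻¹ * (w : Qbar) = 1 := by
        have := congrArg Subtype.val hw
        simpa using this
      have : (w : Qbar) = c := by
        rw [← mul_one c, ← hw', ← mul_assoc, mul_inv_cancel₀ hc0, one_mul]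
      rw [← this]; exact w.2
    -- `u = c⁻¹ * (c * u)` has reduction `0`
    have h1 : (⟨u, hu.mem⟩ : ↥(OV A M)) =
        ⟨algebraMap Qbar ↥(Fbar M) ((⟨c⁻¹, hcinv⟩ : ↥A) : Qbar), algebraMap_mem_OV A M _⟩ *
          ⟨_, h⟩ := by
      apply Subtype.ext
      show u = algebraMap Qbar ↥(Fbar M) c⁻¹ * (algebraMap Qbar ↥(Fbar M) c * u)
      rw [← mul_assoc, ← map_mul, inv_mul_cancel₀ hc0, map_one, one_mul]
    have h2 := (isOUnit_iff A M ⟨u, hu.mem⟩).1 hu
    apply h2
    rw [h1, map_mul, redV_algebraMap]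
    have : Setup8.resA A ⟨c⁻¹, hcinv⟩ = 0 := (IsLocalRing.residue_eq_zero_iff _).2 hmax
    rw [this, map_zero, zero_mul]
  · intro hc
    exact (OV A M).mul_mem (algebraMap_mem_OV A M ⟨c, hc⟩) hu.mem

/-- **`OV` is a valuation ring.** -/
theorem mem_or_inv_mem (f : ↥(Fbar M)) : f ∈ OV A M ∨ f⁻¹ ∈ OV A M := by
  rcases eq_or_ne f 0 with rfl | hf0
  · exact Or.inl (OV A M).zero_mem
  obtain ⟨c, hc0, hu⟩ := gauss A ℓ hA f hf0
  -- `f = c⁻¹ · u`
  have hf : f = algebraMap Qbar ↥(Fbar M) c⁻¹ * (algebraMap Qbar ↥(Fbar M) c * f) := by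
    rw [← mul_assoc, ← map_mul, inv_mul_cancel₀ hc0, map_one, one_mul]
  rcases A.mem_or_inv_mem c⁻¹ with h | h
  · left
    rw [hf]
    exact (const_mul_mem_OV_iff A ℓ hA hu).2 h
  · right
    rw [inv_inv] at h
    have : f⁻¹ = algebraMap Qbar ↥(Fbar M) c * (algebraMap Qbar ↥(Fbar M) c * f)⁻¹ := by
      rw [mul_inv, ← mul_assoc, mul_inv_cancel₀ (by rw [Ne, map_eq_zero]; exact hc0), one_mul]
    rw [this]
    exact (const_mul_mem_OV_iff A ℓ hA hu.inv).2 h

/-- **The Gauss valuation ring of `Fbar M` over `A`.** -/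
def OVal : ValuationSubring ↥(Fbar M) :=
  { OV A M with mem_or_inv_mem' := mem_or_inv_mem A ℓ hA }

omit [NeZero M] in
theorem mem_OVal_iff (f : ↥(Fbar M)) [NeZero M] : f ∈ OVal A ℓ hA ↔ f ∈ OV A M := Iff.rfl

/-- the kernel of `redV`: an element of `OV` of zero reduction is `c · unit` with `c ∈ 𝔪_A`. -/
theorem exists_of_redV_eq_zero (f : ↥(OV A M)) (hf0 : (f : ↥(Fbar M)) ≠ 0)
    (h0 : redV A M f = 0) :
    ∃ (c : ↥A) (u : ↥(Fbar M)), c ∈ IsLocalRing.maximalIdeal ↥A ∧ IsOUnit (OV A M) u ∧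
      (f : ↥(Fbar M)) = algebraMap Qbar ↥(Fbar M) (c : Qbar) * u := by
  obtain ⟨c, hc0, hu⟩ := gauss A ℓ hA (f : ↥(Fbar M)) hf0
  have hf : (f : ↥(Fbar M)) =
      algebraMap Qbar ↥(Fbar M) c⁻¹ * (algebraMap Qbar ↥(Fbar M) c * f) := by
    rw [← mul_assoc, ← map_mul, inv_mul_cancel₀ hc0, map_one, one_mul]
  have hcA : c⁻¹ ∈ A := by
    rw [← const_mul_mem_OV_iff A ℓ hA hu, ← hf]; exact f.2
  refine ⟨⟨c⁻¹, hcA⟩, _, ?_, hu, hf⟩
  rw [← IsLocalRing.residue_eq_zero_iff]
  have h1 : f = ⟨algebraMap Qbar ↥(Fbar M) ((⟨c⁻¹, hcA⟩ : ↥A) : Qbar), algebraMap_mem_OV A M _⟩ *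
      ⟨_, hu.mem⟩ := Subtype.ext hf
  rw [h1, map_mul, redV_algebraMap] at h0
  rcases mul_eq_zero.1 h0 with h | h
  · exact (algebraMap (Setup8.kA A) (LaurentSeries (Setup8.kA A))).injective
      (h.trans (map_zero _).symm)
  · exact absurd h ((isOUnit_iff A M ⟨_, hu.mem⟩).1 hu)

end Fraction

end Fermat.Agent.FF.RedGauss9
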