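/-
Programme FF (S19), chapter G0 (helper9): the RED interface, part 1 — the concrete two-chart model.

For `ℓ` prime, `A ≤ ℚ̄` a valuation subring over `ℓ` and a level `M` carrying a Hauptmodul base
(`HauptLevel ℓ M`: `4 ∣ M` or `9 ∣ M` via `BaseHyp n e`, `n ∣ M`, and `ℓ ∤ M`; every
`auxLevel ℓ N` with `ℓ ∤ N` is such a level) we export ONE concrete reduction map on places

  `rPl : Place ℚ̄ (Fbar M) → Place κ (F̃_M)`      (`κ = ResidueField A`, `F̃_M = κ(j̃(q^d) : d ∣ M)`)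

(the global map `T.r` of the two-chart model of `ES/TOP/ModelAtFinal8.modelAt`) with

* (a) `isPlaceReduction : IsPlaceReductionModL A M rPl`, `principalGenerated`, hence
  `red : JZero M →+ JZeroC κ M := reductionPic0Along rPl _ _`;
* (c) `rPl_smul_inertia`, `rPl_smul_decomposition`, `rPl_smul_frobenius` and the same for `red`.

WARNING: the Prelude's `ModularCurve.reductionModL A M` is built from an ARBITRARY place reduction
(`Exists.choose`); nothing in the tree identifies it with `rPl`.  Programme FF must use `red` below.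
-/
import Mathlib
import Fermat.Agent.ES.TOP.ModelAtFinal8
import Fermat.Agent.ES.TOP.SPOfModel8

set_option autoImplicit false
set_option linter.unusedSectionVars false
set_option synthInstance.maxHeartbeats 400000

noncomputable section

open AlgebraicCurve ModularCurve IntermediateField

namespace Fermat.Agent.FF.RedIface9

open Fermat.Agent.X0 Fermat.Agent.X0.FF Fermat.Agent.RED.Interface4
  Fermat.Agent.RED.BASE Fermat.Agent.RED.BASE.Hauptmodul12
  Fermat.Agent.ES.RED.Contract8 Fermat.Agent.ES.RED.TwoCharts8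
  Fermat.Agent.ES.RED.GaloisInst21 Fermat.Agent.ES.RED Fermat.Agent.ES.KRON
  Fermat.Agent.ES.RED.GaloisContract21 Fermat.Agent.ES.KRON.FrobPlace13
  Fermat.Agent.ES.RED.GaloisRed21

/-- **A level carrying a Hauptmodul base, prime to `ℓ`.** -/
structure HauptLevel (ℓ M : ℕ) : Prop where
  exists_base : ∃ (n e : ℕ) (_ : NeZero n) (_ : BaseHyp n e), n ∣ M
  not_dvd : ¬ ℓ ∣ M

theorem hauptLevel_of_four_dvd {ℓ M : ℕ} (h4 : 4 ∣ M) (hℓM : ¬ ℓ ∣ M) : HauptLevel ℓ M :=
  ⟨⟨4, 8, ⟨by norm_num⟩, baseHyp_four, h4⟩, hℓM⟩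

theorem hauptLevel_of_nine_dvd {ℓ M : ℕ} (h9 : 9 ∣ M) (hℓM : ¬ ℓ ∣ M) : HauptLevel ℓ M :=
  ⟨⟨9, 3, ⟨by norm_num⟩, baseHyp_nine, h9⟩, hℓM⟩

/-- **Every auxiliary level is a Hauptmodul level.** -/
theorem hauptLevel_auxLevel {ℓ N : ℕ} (hℓ : ℓ.Prime) (hℓN : ¬ ℓ ∣ N) :
    HauptLevel ℓ (auxLevel ℓ N) := by
  have hℓM : ¬ ℓ ∣ auxLevel ℓ N := not_dvd_auxLevel hℓ hℓN
  by_cases h2 : ℓ = 2
  · exact hauptLevel_of_nine_dvd (Fermat.Agent.ES.TOP.AuxBase8.nine_dvd_auxLevel N h2) hℓM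
  · exact hauptLevel_of_four_dvd (Fermat.Agent.ES.TOP.AuxBase8.four_dvd_auxLevel N h2) hℓM

/-- **The concrete two-chart model** at a Hauptmodul level, as data. -/
structure RedModel (ℓ : ℕ) (A : ValuationSubring Qbar) (M : ℕ) [NeZero M] where
  n : ℕ
  e : ℕ
  neZero_n : NeZero n
  hb : BaseHyp n e
  hnM : n ∣ M
  hℓM : ¬ ℓ ∣ M
  x : X0.FF M
  hx : IsGen Qbar x
  T : TwoCharts A hx ↥(modularFunctionFieldFullC (kA A) M)
  hS0 : CoeffChart (F₀ := modularFunctionFieldFull M) T.S0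
  hS1 : CoeffChart (F₀ := modularFunctionFieldFull M) T.S1
  hs0 : T.S0.s = Interface12.tF M (tMem_of_dvd hb hnM)
  peel0 : ∀ (P : Place Qbar (X0.FF M)) (hP : T.S0.InChart P), T.S0.PeelA P hP
  peel1 : ∀ (P : Place Qbar (X0.FF M)) (hP : T.S1.InChart P), T.S1.PeelA P hP

attribute [instance] RedModel.neZero_n

theorem nonempty_redModel (ℓ : ℕ) (hℓ : ℓ.Prime) (A : ValuationSubring Qbar)
    (hA : A.LiesOverPrime ℓ) (M : ℕ) [NeZero M] (hM : HauptLevel ℓ M) :
    Nonempty (RedModel ℓ A M) := by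
  obtain ⟨n, e, hn, hb, hnM⟩ := hM.exists_base
  obtain ⟨x, hx, T, hS0, hS1, hs0, peel0, peel1⟩ :=
    Fermat.Agent.ES.TOP.ModelAtFinal8.modelAt ℓ hℓ A hA n e hb M hnM hM.not_dvd
  exact ⟨⟨n, e, hn, hb, hnM, hM.not_dvd, x, hx, T, hS0, hS1, hs0, peel0, peel1⟩⟩

/-- **THE model** used by programme FF at `(ℓ, A, M)`. -/
def redModel (ℓ : ℕ) (hℓ : ℓ.Prime) (A : ValuationSubring Qbar)
    (hA : A.LiesOverPrime ℓ) (M : ℕ) [NeZero M] (hM : HauptLevel ℓ M) : RedModel ℓ A M :=
  (nonempty_redModel ℓ hℓ A hA M hM).some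

namespace RedModel

variable {ℓ : ℕ} {A : ValuationSubring Qbar} {M : ℕ} [NeZero M] (m : RedModel ℓ A M)

/-- the reduction map on places. -/
def rPl : Place Qbar (modularFunctionFieldBar M) →
    Place (kA A) (modularFunctionFieldFullC (kA A) M) := m.T.r

section Basic

variable [Fact ℓ.Prime] (hA : A.LiesOverPrime ℓ)

include m hA

omit [Fact ℓ.Prime] hA in
theorem tMem : Interface12.TMem m.n m.e M := tMem_of_dvd m.hb m.hnM

/-- (a1) the concrete place reduction satisfies the Prelude's contract. -/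
theorem isPlaceReduction : IsPlaceReductionModL A M m.rPl :=
  RedInst15.isPlaceReductionModL_main m.n m.e M ℓ m.hℓM (tMem_of_dvd m.hb m.hnM) (tGenBase' m.hb)
    A hA m.T m.hS0 m.hS1 m.hs0 m.peel0 m.peel1

/-- (a2) principal divisors are generated by divisors of integral functions. -/
theorem principalGenerated : PrincipalGeneratedByIntegral A (IsLocalRing.residue A) M :=
  GaussUnit25.principalGeneratedByIntegral A ℓ hA M m.hℓM

theorem reductionInputs : ReductionInputsModL A M :=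
  ⟨m.rPl, m.isPlaceReduction hA, m.principalGenerated hA⟩

/-- **the reduction map `J₀(M)(ℚ̄) → Pic⁰(F̃_M)`** of programme FF. -/
def red : JZero M →+ JZeroC (kA A) M :=
  reductionPic0Along m.rPl (m.isPlaceReduction hA) (m.principalGenerated hA)

theorem red_mk (D : Divisor.degZero (K := Qbar) (F := modularFunctionFieldBar M)) :
    m.red hA (Pic0.mk D) =
      Pic0.mk (reductionDegZeroAlong m.rPl (m.isPlaceReduction hA).1 D) := rfl

theorem deg_rPl (P : Place Qbar (modularFunctionFieldBar M)) : (m.rPl P).deg = P.deg :=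
  (m.isPlaceReduction hA).1 P

theorem chartInputs :
    RedMain15.ChartInputs A M m.T.S0 ∧ RedMain15.ChartInputs A M m.T.S1 :=
  RedInst15.chartInputs_both m.n m.e M ℓ m.hℓM (tMem_of_dvd m.hb m.hnM) (tGenBase' m.hb)
    A hA m.T m.hS0 m.hS1 m.hs0 m.peel0 m.peel1

/-- the reduced Hauptmodul generates the special fibre. -/
theorem isGen_red_s : IsGen (kA A) (m.T.S0.red m.T.S0.sB) := (m.chartInputs hA).1.gent

omit m in
theorem isAlgClosed_kA : IsAlgClosed (kA A) := KronInst10.isAlgClosed_residueField A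

omit m in
theorem charP_kA : CharP (kA A) ℓ := KronInst10.charP_residueField A Fact.out hA

end Basic

/-! ### (c): Galois equivariance -/

section Galois

variable [Fact ℓ.Prime] (hA : A.LiesOverPrime ℓ)

include m hA

/-- (c1) inertia acts trivially after reduction. -/
theorem rPl_smul_inertia {τ : Qbar ≃ₐ[ℚ] Qbar} (hτ : τ ∈ A.inertiaSubgroupIn ℚ)
    (P : Place Qbar (modularFunctionFieldBar M)) :
    m.rPl (arithmeticGalois (modularFunctionFieldFull M) τ • P) = m.rPl P :=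
  haveI := isAlgClosed_kA (ℓ := ℓ) hA
  r_smul_of_mem_inertia' m.T (m.isGen_red_s hA) m.hS0 m.hS1 hτ P

/-- (c2) the decomposition group acts through its image in `Gal(κ)`. -/
theorem rPl_smul_decomposition (g : A.decompositionSubgroup ℚ)
    (P : Place Qbar (modularFunctionFieldBar M)) :
    m.rPl (arithmeticGalois (modularFunctionFieldFull M) (g : Qbar ≃ₐ[ℚ] Qbar) • P) =
      coeffSemi (kA A) M (psiRes A g) • m.rPl P :=
  haveI := isAlgClosed_kA (ℓ := ℓ) hA
  r_smul_decomposition' m.T (m.isGen_red_s hA) m.hS0 m.hS1 g P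

/-- (c3) a Frobenius at `A` acts as the `ℓ`-power Frobenius after reduction. -/
theorem rPl_smul_frobenius {σ : Qbar ≃ₐ[ℚ] Qbar} (hσ : A.IsFrobeniusAt σ ℓ)
    (P : Place Qbar (modularFunctionFieldBar M)) :
    haveI := isAlgClosed_kA (ℓ := ℓ) hA
    haveI := charP_kA (ℓ := ℓ) hA
    haveI : ExpChar (kA A) ℓ := ExpChar.prime Fact.out
    m.rPl (arithmeticGalois (modularFunctionFieldFull M) σ • P) =
      frobSemi (kA A) ℓ M • m.rPl P :=
  haveI := isAlgClosed_kA (ℓ := ℓ) hA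
  haveI := charP_kA (ℓ := ℓ) hA
  haveI : ExpChar (kA A) ℓ := ExpChar.prime Fact.out
  r_smul_of_isFrobeniusAt' m.T (m.isGen_red_s hA) m.hS0 m.hS1 hσ P

/-- (c1') `red` is inertia-invariant. -/
theorem red_smul_inertia {τ : Qbar ≃ₐ[ℚ] Qbar} (hτ : τ ∈ A.inertiaSubgroupIn ℚ) (y : JZero M) :
    m.red hA (τ • y) = m.red hA y :=
  haveI := isAlgClosed_kA (ℓ := ℓ) hA
  red_smul_of_mem_inertia' m.T (m.isGen_red_s hA) m.hS0 m.hS1 (m.isPlaceReduction hA)
    (m.principalGenerated hA) hτ y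

/-- (c3') `red` intertwines a Frobenius at `A` with the `ℓ`-power Frobenius. -/
theorem red_smul_frobenius {σ : Qbar ≃ₐ[ℚ] Qbar} (hσ : A.IsFrobeniusAt σ ℓ) (y : JZero M) :
    haveI := isAlgClosed_kA (ℓ := ℓ) hA
    haveI := charP_kA (ℓ := ℓ) hA
    haveI : ExpChar (kA A) ℓ := ExpChar.prime Fact.out
    m.red hA (σ • y) = frobSemi (kA A) ℓ M • m.red hA y :=
  haveI := isAlgClosed_kA (ℓ := ℓ) hA
  haveI := charP_kA (ℓ := ℓ) hA
  haveI : ExpChar (kA A) ℓ := ExpChar.prime Fact.out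
  red_smul_of_isFrobeniusAt' m.T (m.isGen_red_s hA) m.hS0 m.hS1 (m.isPlaceReduction hA)
    (m.principalGenerated hA) hσ y

end Galois

end RedModel

end Fermat.Agent.FF.RedIface9
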