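/-
Programme FF (S19), chapter G0 (helper9): the RED interface, part 3 — divisors.

For the concrete model `m : RedModel ℓ A M` (`RedIface9`) and the Gauss valuation ring `OV A M` with its
reduction `redV` (`RedGauss9`):

* `redVt : OV A M →+* F̃_M` (the reduction has values in `κ(j̃(q^d) : d ∣ M)`), `redVt_surjective` (e2);
* `mapDomain_rPl_of_unit` : **divisor formula** `r_*(div u) = div ū` for every unit `u` of `OV`;
* `rPl_surjective` (b);
* `exists_lift_regular` (L1): every `ȳ` regular at `P̄` has a lift `y ∈ OV` WITHOUT POLES at every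
  place `Q` with `r Q = P̄`.
-/
import Mathlib
import Fermat.Agent.FF.RedIface9
import Fermat.Agent.FF.RedGauss9
import Fermat.Agent.ES.RED.FracRed16
import Fermat.Agent.ES.RED.RedMem16
import Fermat.Agent.RED.TOP.FbarFacts20

set_option autoImplicit false
set_option synthInstance.maxHeartbeats 400000
set_option linter.style.haveILetI false

noncomputable section

open AlgebraicCurve ModularCurve IntermediateField HahnSeries

namespace Fermat.Agent.FF.RedDiv9

open Fermat.Agent.X0 Fermat.Agent.X0.FF Fermat.Agent.RED.Interface4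
  Fermat.Agent.RED.BASE Fermat.Agent.RED.BASE.Hauptmodul12
  Fermat.Agent.ES.RED.Contract8 Fermat.Agent.ES.RED.TwoCharts8
  Fermat.Agent.ES.RED.GaloisInst21 Fermat.Agent.ES.RED Fermat.Agent.ES.KRON
  Fermat.Agent.ES.RED.PlaceValue13
  Fermat.Agent.FF.RedIface9 Fermat.Agent.FF.RedGauss9 Fermat.Agent.FF.GeomIface8

variable {ℓ : ℕ} [Fact ℓ.Prime] {A : ValuationSubring Qbar} {M : ℕ} [NeZero M]
  (m : RedModel ℓ A M) (hA : A.LiesOverPrime ℓ)

/-- the function field of the special fibre. -/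
abbrev Ft (A : ValuationSubring Qbar) (M : ℕ) :
    IntermediateField (kA A) (LaurentSeries (kA A)) := modularFunctionFieldFullC (kA A) M

include m hA in
theorem redQ_mem (a : ↥(calO A M)) : redQ A M a ∈ Ft A M :=
  RedMem16.redA_mem_fullC A ℓ hA m.hℓM a

include m hA in
theorem redV_mem (f : ↥(OV A M)) : redV A M f ∈ Ft A M := by
  obtain ⟨a, b, hb, h⟩ := f.2
  rw [redV_eq A M f hb h]
  exact div_mem (redQ_mem m hA a) (redQ_mem m hA b)

/-- **the reduction `OV → F̃_M`.** -/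
def redVt : ↥(OV A M) →+* ↥(Ft A M) where
  toFun f := ⟨redV A M f, redV_mem m hA f⟩
  map_one' := Subtype.ext (map_one _)
  map_mul' f g := Subtype.ext (map_mul _ f g)
  map_zero' := Subtype.ext (map_zero _)
  map_add' f g := Subtype.ext (map_add _ f g)

@[simp] theorem coe_redVt (f : ↥(OV A M)) :
    ((redVt m hA f : ↥(Ft A M)) : LaurentSeries (kA A)) = redV A M f := rfl

theorem redVt_ne_zero_iff (f : ↥(OV A M)) : redVt m hA f ≠ 0 ↔ redV A M f ≠ 0 := by
  rw [Ne, Ne, ← coe_redVt m hA f]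
  exact not_congr ⟨fun h => by rw [h]; rfl, fun h => Subtype.ext h⟩

/-- **(e2)** the reduction is onto. -/
theorem redVt_surjective : Function.Surjective (redVt m hA) := by
  rintro ⟨y, hy⟩
  haveI := m.neZero_n
  obtain ⟨⟨a, b, -, -, hb, hab⟩, -⟩ := FracRed16.exists_frac_redA A m.n m.e ℓ m.hℓM
    (tMem_of_dvd m.hb m.hnM) (tGenBase' m.hb) hA hy
  have hb0 := coe_ne_zero_of_redQ_ne_zero A M hb
  have hmem : ((a : ↥(calO A M)) : ↥(Fbar M)) / ((b : ↥(calO A M)) : ↥(Fbar M)) ∈ OV A M :=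
    ⟨a, b, hb, by field_simp⟩
  refine ⟨⟨_, hmem⟩, Subtype.ext ?_⟩
  show redV A M ⟨_, hmem⟩ = y
  rw [redV_eq A M ⟨_, hmem⟩ (a := a) (b := b) hb (by field_simp), ← hab]
  field_simp

/-! ### the divisor formula -/

include hA in
/-- the divisor formula for `q`-integral functions (Prelude `IsPlaceReductionAlong`). -/
theorem mapDomain_rPl_of_calO (a : ↥(calO A M)) (ha : redQ A M a ≠ 0)
    (D : Divisor Qbar ↥(Fbar M)) (hD : ∀ P, D P = P.ord ((a : ↥(calO A M)) : ↥(Fbar M)))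
    (Q : Place (kA A) ↥(Ft A M)) :
    Finsupp.mapDomain m.rPl D Q = Q.ord (⟨redQ A M a, redQ_mem m hA a⟩ : ↥(Ft A M)) := by
  have hr := (m.isPlaceReduction hA).2 (Setup8.liftA A (Fbar M) a)
    (by rw [Setup8.coeffMap_liftA]; exact (a : ↥(Fbar M)).2)
    (redQ_mem m hA a) ha D
  refine hr ?_ Q
  intro P
  rw [hD P]
  congr 1
  exact Subtype.ext (Setup8.coeffMap_liftA A (Fbar M) a).symm

include hA in
/-- **Divisor formula**: `r_*(div u) = div ū` for every unit `u` of the Gauss valuation ring. -/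
theorem mapDomain_rPl_of_unit (u : ↥(OV A M)) (hu : redV A M u ≠ 0)
    (D : Divisor Qbar ↥(Fbar M)) (hD : ∀ P, D P = P.ord (u : ↥(Fbar M)))
    (Q : Place (kA A) ↥(Ft A M)) :
    Finsupp.mapDomain m.rPl D Q = Q.ord (redVt m hA u) := by
  obtain ⟨a, b, hb, h⟩ := u.2
  have hred := redV_eq A M u hb h
  have ha : redQ A M a ≠ 0 := by
    intro h0
    rw [hred, h0, zero_div] at hu
    exact hu rfl
  have ha0 := coe_ne_zero_of_redQ_ne_zero A M ha
  have hb0 := coe_ne_zero_of_redQ_ne_zero A M hb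
  have hu0 : (u : ↥(Fbar M)) ≠ 0 := by
    intro h0
    rw [h0, zero_mul] at h
    exact ha0 h.symm
  obtain ⟨Da, hDa, -⟩ :=
    (Fermat.Agent.RED.TOP.FbarFacts20.hasPrincipalDivisors_bar M).exists_divisor _ ha0
  obtain ⟨Db, hDb, -⟩ :=
    (Fermat.Agent.RED.TOP.FbarFacts20.hasPrincipalDivisors_bar M).exists_divisor _ hb0
  have hDeq : D = Da - Db := by
    ext P
    rw [Finsupp.sub_apply, hD P, hDa P, hDb P]
    have h1 := congrArg P.ord h
    rw [P.ord_mul hu0 hb0] at h1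
    omega
  have hta : (⟨redQ A M a, redQ_mem m hA a⟩ : ↥(Ft A M)) ≠ 0 := fun h0 =>
    ha (congrArg Subtype.val h0)
  have htb : (⟨redQ A M b, redQ_mem m hA b⟩ : ↥(Ft A M)) ≠ 0 := fun h0 =>
    hb (congrArg Subtype.val h0)
  have hq : redVt m hA u * ⟨redQ A M b, redQ_mem m hA b⟩ = ⟨redQ A M a, redQ_mem m hA a⟩ := by
    apply Subtype.ext
    show redV A M u * redQ A M b = redQ A M a
    rw [hred]
    field_simp
  have hut : redVt m hA u ≠ 0 := (redVt_ne_zero_iff m hA u).2 hu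
  have h2 := congrArg Q.ord hq
  rw [Q.ord_mul hut htb] at h2
  rw [hDeq, Finsupp.mapDomain_sub, Finsupp.sub_apply,
    mapDomain_rPl_of_calO m hA a ha Da hDa Q, mapDomain_rPl_of_calO m hA b hb Db hDb Q]
  omega

/-! ### (b): surjectivity on places -/

include hA in
/-- **(b)** every place of the special fibre is the reduction of a place of the generic fibre. -/
theorem rPl_surjective : Function.Surjective m.rPl := by
  intro Q
  by_contra hQ
  obtain ⟨π, hπ⟩ := IsDiscreteValuationRing.exists_irreducible ↥Q.toValuationSubring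
  have hord : Q.ord ((π : ↥Q.toValuationSubring) : ↥(Ft A M)) = 1 := Q.ord_coe_irreducible hπ
  obtain ⟨y, hy⟩ := redVt_surjective m hA ((π : ↥Q.toValuationSubring) : ↥(Ft A M))
  have hπ0 : ((π : ↥Q.toValuationSubring) : ↥(Ft A M)) ≠ 0 := by
    intro h0
    rw [h0, Place.ord_zero] at hord
    exact zero_ne_one hord
  have hyt : redVt m hA y ≠ 0 := by rw [hy]; exact hπ0
  have hy0 : (y : ↥(Fbar M)) ≠ 0 := by
    intro h0
    apply hyt
    have : y = 0 := Subtype.ext h0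
    rw [this, map_zero]
  obtain ⟨D, hD, -⟩ :=
    (Fermat.Agent.RED.TOP.FbarFacts20.hasPrincipalDivisors_bar M).exists_divisor _ hy0
  have h1 := mapDomain_rPl_of_unit m hA y ((redVt_ne_zero_iff m hA y).1 hyt) D hD Q
  rw [hy, hord, Finsupp.mapDomain_of_notMem_range D Q
    (by rintro ⟨P, hP⟩; exact hQ ⟨P, hP⟩)] at h1
  exact zero_ne_one h1

/-! ### (L1): lifts without poles over a point of the special fibre -/

section Lift

omit [Fact ℓ.Prime] [NeZero M] in
/-- the value at a place does not depend on the name of the place. -/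
theorem valueHom_congr_place [IsAlgClosed (kA A)] {xt : ↥(Ft A M)} (hxt : IsGen (kA A) xt)
    {Q₁ Q₂ : Place (kA A) ↥(Ft A M)} (h : Q₁ = Q₂) (y : ↥(Ft A M))
    (h1 : y ∈ Q₁.toValuationSubring) (h2 : y ∈ Q₂.toValuationSubring) :
    valueHom hxt Q₁ ⟨y, h1⟩ = valueHom hxt Q₂ ⟨y, h2⟩ := by
  subst h; rfl

include hA in
/-- (L1) in one chart. -/
theorem exists_lift_regular_chart [IsAlgClosed (kA A)] (S : ChartSpec A m.hx ↥(Ft A M))
    (hC : CoeffChart (F₀ := modularFunctionFieldFull M) S)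
    (hS : HasPlaces S) (htr : Transcendental (kA A) (S.red S.sB))
    {xt : ↥(Ft A M)} (hxt : IsGen (kA A) xt)
    (hrS : ∀ (Q : Place Qbar ↥(Fbar M)) (hQ : S.InChart Q), m.rPl Q = rAt hS htr Q hQ)
    (htube : ∀ Q : Place Qbar ↥(Fbar M),
      S.red S.sB ∈ (m.rPl Q).toValuationSubring → S.InChart Q)
    (P₀ : Place Qbar ↥(Fbar M)) (h0 : S.InChart P₀) (ybar : ↥(Ft A M))
    (hy : ybar ∈ (m.rPl P₀).toValuationSubring) :
    ∃ y : ↥(OV A M), redVt m hA y = ybar ∧
      ∀ Q : Place Qbar ↥(Fbar M), m.rPl Q = m.rPl P₀ →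
        (y : ↥(Fbar M)) ∈ Q.toValuationSubring := by
  rw [hrS P₀ h0, mem_rAt_iff] at hy
  obtain ⟨a, d, hd, had⟩ := hy
  have key : ∀ b : ↥S.B, ∃ b' : ↥(calO A M), ((b' : ↥(calO A M)) : ↥(Fbar M)) = (b : ↥(Fbar M)) ∧
      redQ A M b' = ((S.red b : ↥(Ft A M)) : LaurentSeries (kA A)) := by
    intro b
    obtain ⟨Y, hY⟩ := hC.exists_series b
    refine ⟨Setup8.ofSeries A (Fbar M) Y (by rw [hY]; exact (b : ↥(Fbar M)).2),
      Subtype.ext hY, ?_⟩
    rw [Setup8.redA_ofSeries, hC.red_eq b Y hY]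
  obtain ⟨a', ha', hared⟩ := key a
  obtain ⟨d', hd', hdred⟩ := key d
  have hredd : S.red d ≠ 0 := fun h => hd (S.chi_eq_zero_of_red_eq_zero P₀ h0 h)
  have hd'0 : redQ A M d' ≠ 0 := by
    rw [hdred]
    intro h
    exact hredd (Subtype.ext h)
  have hd0 : ((d : ↥S.B) : ↥(Fbar M)) ≠ 0 := by
    rw [← hd']
    exact coe_ne_zero_of_redQ_ne_zero A M hd'0
  have hrel : ((a : ↥S.B) : ↥(Fbar M)) / ((d : ↥S.B) : ↥(Fbar M)) *
      ((d' : ↥(calO A M)) : ↥(Fbar M)) = ((a' : ↥(calO A M)) : ↥(Fbar M)) := by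
    rw [ha', hd']; field_simp
  have hyO : ((a : ↥S.B) : ↥(Fbar M)) / ((d : ↥S.B) : ↥(Fbar M)) ∈ OV A M := ⟨a', d', hd'0, hrel⟩
  refine ⟨⟨_, hyO⟩, ?_, ?_⟩
  · apply Subtype.ext
    show redV A M ⟨_, hyO⟩ = (ybar : LaurentSeries (kA A))
    rw [redV_eq A M ⟨_, hyO⟩ hd'0 hrel, hared, hdred]
    have h1 : (ybar : LaurentSeries (kA A)) * ((S.red d : ↥(Ft A M)) : LaurentSeries (kA A)) =
        ((S.red a : ↥(Ft A M)) : LaurentSeries (kA A)) := congrArg Subtype.val had
    have h2 : ((S.red d : ↥(Ft A M)) : LaurentSeries (kA A)) ≠ 0 := fun h =>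
      hredd (Subtype.ext h)
    rw [← h1]
    field_simp
  · intro Q hQ
    have hQin : S.InChart Q := htube Q (by
      rw [hQ, hrS P₀ h0]; exact red_mem_rAt hS htr P₀ h0 S.sB)
    have hχ : S.chi Q hQin d ≠ 0 := by
      rw [← valueHom_rAt hxt hS htr Q hQin d]
      have e : rAt hS htr Q hQin = rAt hS htr P₀ h0 := by
        rw [← hrS Q hQin, ← hrS P₀ h0, hQ]
      rw [valueHom_congr_place hxt e _ _ (red_mem_rAt hS htr P₀ h0 d),
        valueHom_rAt hxt hS htr P₀ h0 d]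
      exact hd
    have hdQ := S.mem_place Q hQin d d.2
    have haQ := S.mem_place Q hQin a a.2
    have hunit : IsUnit (⟨(d : ↥(Fbar M)), hdQ⟩ : ↥Q.toValuationSubring) := by
      rw [← valueHom_ne_zero_iff m.hx Q]
      intro h0'
      apply hχ
      rw [ChartSpec.chi_apply]
      have : S.ev Q hQin d = 0 := Subtype.ext (by rw [ChartSpec.coe_ev]; exact h0')
      rw [this, map_zero]
    obtain ⟨w, hw⟩ := hunit.exists_right_inv
    have hw' : ((d : ↥S.B) : ↥(Fbar M)) * (w : ↥(Fbar M)) = 1 := by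
      have := congrArg Subtype.val hw
      simpa using this
    have : ((a : ↥S.B) : ↥(Fbar M)) / ((d : ↥S.B) : ↥(Fbar M)) =
        ((a : ↥S.B) : ↥(Fbar M)) * (w : ↥(Fbar M)) := by
      rw [div_eq_mul_inv, inv_eq_of_mul_eq_one_right hw']
    show ((a : ↥S.B) : ↥(Fbar M)) / ((d : ↥S.B) : ↥(Fbar M)) ∈ Q.toValuationSubring
    rw [this]
    exact Q.toValuationSubring.mul_mem _ _ haQ w.2

include hA in
/-- **(L1)** every `ȳ ∈ F̃_M` regular at `P̄` has a lift `y ∈ OV` (`redVt y = ȳ`) which is regular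
at EVERY place `Q` of `Fbar M` reducing to `P̄`. -/
theorem exists_lift_regular (Pbar : Place (kA A) ↥(Ft A M)) (ybar : ↥(Ft A M))
    (hy : ybar ∈ Pbar.toValuationSubring) :
    ∃ y : ↥(OV A M), redVt m hA y = ybar ∧
      ∀ Q : Place Qbar ↥(Fbar M), m.rPl Q = Pbar → (y : ↥(Fbar M)) ∈ Q.toValuationSubring := by
  obtain ⟨P₀, rfl⟩ := rPl_surjective m hA Pbar
  haveI := RedModel.isAlgClosed_kA (ℓ := ℓ) hA
  have hxt := m.isGen_red_s hA
  rcases m.T.inChart_or P₀ with h0 | h1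
  · exact exists_lift_regular_chart m hA m.T.S0 m.hS0 m.T.places0 m.T.tr0 hxt
      (fun Q hQ => m.T.r_eq0 Q hQ) (fun Q h => m.T.inChart0_of_red_mem hxt Q h) P₀ h0 ybar hy
  · exact exists_lift_regular_chart m hA m.T.S1 m.hS1 m.T.places1 m.T.tr1 hxt
      (fun Q hQ => m.T.r_eq1 hxt Q hQ) (fun Q h => m.T.inChart1_of_red_mem hxt Q h) P₀ h1 ybar hy

end Lift

end Fermat.Agent.FF.RedDiv9
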