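/-
Programme FF (S19), chapter (d1) (helper1): **Riemann's theorem in any characteristic.**
A copy of `Fermat/Agent/RR/H1Large.lean` (C-RR, helper28) against the weak interface `FFWeak K F`,
followed by the packaged statement `riemann_of_lHyp`: for a function field satisfying `LSpace.LHyp`
with one transcendental `x` such that `deg (x)_∞ ≤ [F : K(x)]`,
`∃ c, ∀ D, c ≤ deg D → l(D) = deg D + 1 - genusFF K F`.
-/
import Mathlib
import Fermat.Prelude.Def_AlgebraicCurve_Repartitions
import Fermat.Agent.RR.H1Finite
import Fermat.Agent.RR.Riemann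
import Fermat.Agent.FF.RiemannW1B

set_option autoImplicit false

namespace Fermat.Agent.FF.RiemannW1

open AlgebraicCurve Fermat.Agent.X0.FF Fermat.Agent.RR

variable {K F : Type*} [Field K] [Field F] [Algebra K F]

section

variable (H : FFWeak K F) (HL : LSpace.LHyp K F)
  (hR : ∃ γ : ℤ, ∀ D : Divisor K F,
    Divisor.degree D + 1 - γ ≤ (Module.finrank K (riemannRochSpace D) : ℤ))

include H HL hR

/-- The index of speciality only depends on the divisor class. -/
theorem finrank_H1_add_divOf (D : Divisor K F) {f : F} (hf : f ≠ 0) :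
    Module.finrank K (H1 (D + LSpace.divOf HL hf)) = Module.finrank K (H1 D) := by
  have h1 := finrank_L_sub_finrank_H1 H HL hR D
  have h2 := finrank_L_sub_finrank_H1 H HL hR (D + LSpace.divOf HL hf)
  have h3 : Module.finrank K (riemannRochSpace (D + LSpace.divOf HL hf)) =
      Module.finrank K (riemannRochSpace D) := (LSpace.mulEquiv HL D hf).finrank_eq
  rw [map_add, LSpace.degree_divOf, add_zero, h3] at h2
  have : (Module.finrank K (H1 (D + LSpace.divOf HL hf)) : ℤ) = Module.finrank K (H1 D) := by
    linarith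
  exact_mod_cast this

omit H HL hR in
/-- `H¹(D) = 0` as soon as `A(D) + F` is everything. -/
theorem finrank_H1_eq_zero_of_top {D : Divisor K F}
    (h : repartitionsOf D ⊔ principalRepartitions K F = ⊤) : Module.finrank K (H1 D) = 0 := by
  have : Subsingleton (H1 D) := by
    show Subsingleton (↥(repartitions K F) ⧸ (repartitionsOf D ⊔ principalRepartitions K F))
    rw [h]
    exact Submodule.Quotient.subsingleton_iff.mpr rfl
  exact Module.finrank_zero_of_subsingleton

/-- **(C5b)** `H¹(D) = 0` for all divisors of sufficiently large degree. -/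
theorem exists_forall_degree_ge_finrank_H1_eq_zero :
    ∃ c : ℤ, ∀ D : Divisor K F, c ≤ Divisor.degree D → Module.finrank K (H1 D) = 0 := by
  obtain ⟨D₀, hD₀⟩ := exists_forall_ge_AP_eq_top H HL hR
  refine ⟨Divisor.degree D₀ + (genusFF K F : ℤ), fun D hD => ?_⟩
  -- `L(D - D₀) ≠ 0`
  have h1 := finrank_L_sub_finrank_H1 H HL hR (D - D₀)
  rw [map_sub] at h1
  have hpos : 0 < Module.finrank K (riemannRochSpace (D - D₀)) := by
    have h0 : (0 : ℤ) ≤ (Module.finrank K (H1 (D - D₀)) : ℤ) := Int.natCast_nonneg _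
    have : (0 : ℤ) < (Module.finrank K (riemannRochSpace (D - D₀)) : ℤ) := by linarith
    exact_mod_cast this
  have : FiniteDimensional K (riemannRochSpace (D - D₀)) := LSpace.finiteDimensional_L HL _
  have hnt : Nontrivial (riemannRochSpace (D - D₀)) := Module.finrank_pos_iff.mp hpos
  obtain ⟨⟨f, hfL⟩, hf0⟩ := exists_ne (0 : riemannRochSpace (D - D₀))
  have hf : f ≠ 0 := fun h => hf0 (Subtype.ext h)
  -- `D + div f ≥ D₀`
  have hge : D₀ ≤ D + LSpace.divOf HL hf := by
    rw [Finsupp.le_def]
    intro v
    have := (LSpace.mem_L_iff hf).mp hfL v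
    rw [Finsupp.sub_apply] at this
    rw [Finsupp.add_apply, LSpace.divOf_apply]
    omega
  rw [← finrank_H1_add_divOf H HL hR D hf]
  exact finrank_H1_eq_zero_of_top (hD₀ _ hge)

/-- **(C5b)** `l(D) = deg D + 1 - g` for all divisors of sufficiently large degree. -/
theorem exists_forall_degree_ge_finrank_L_eq :
    ∃ c : ℤ, ∀ D : Divisor K F, c ≤ Divisor.degree D →
      (Module.finrank K (riemannRochSpace D) : ℤ) = Divisor.degree D + 1 - (genusFF K F : ℤ) := by
  obtain ⟨c, hc⟩ := exists_forall_degree_ge_finrank_H1_eq_zero H HL hR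
  refine ⟨c, fun D hD => ?_⟩
  have h1 := finrank_L_sub_finrank_H1 H HL hR D
  rw [hc D hD] at h1
  simpa using h1

end

/-! ### The packaged statements: everything from `LSpace.LHyp` -/

section Packaged

open Fermat.Agent.RR.LSpace IntermediateField

/-- the weak interface follows from `LHyp`. -/
theorem ffWeak_of_lHyp (HL : LHyp K F) : FFWeak K F where
  deg_eq_one := HL.deg_eq_one
  finite_support_ord := fun f hf => by
    obtain ⟨D, hD, -⟩ := HL.principal f hf
    refine D.support.finite_toSet.subset fun v hv => ?_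
    simp only [Finset.mem_coe, Finsupp.mem_support_iff, hD v]
    exact hv

variable (HL : LHyp K F)
  (hR : ∃ γ : ℤ, ∀ D : Divisor K F,
    Divisor.degree D + 1 - γ ≤ (Module.finrank K (riemannRochSpace D) : ℤ))

include HL hR

/-- `H¹(D)` is finite-dimensional. -/
theorem finite_H1_of_lHyp (D : Divisor K F) : Module.Finite K (H1 D) :=
  finite_H1 (ffWeak_of_lHyp HL) HL hR D

/-- `l(D) - i(D) = deg D + 1 - g`. -/
theorem finrank_L_sub_finrank_H1_of_lHyp (D : Divisor K F) :
    (Module.finrank K (riemannRochSpace D) : ℤ) - (Module.finrank K (H1 D) : ℤ) =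
      Divisor.degree D + 1 - (genusFF K F : ℤ) :=
  finrank_L_sub_finrank_H1 (ffWeak_of_lHyp HL) HL hR D

/-- **Riemann's theorem from Riemann's inequality.** -/
theorem exists_forall_degree_ge_finrank_L_eq_of_lHyp :
    ∃ c : ℤ, ∀ D : Divisor K F, c ≤ Divisor.degree D →
      (Module.finrank K (riemannRochSpace D) : ℤ) = Divisor.degree D + 1 - (genusFF K F : ℤ) :=
  exists_forall_degree_ge_finrank_L_eq (ffWeak_of_lHyp HL) HL hR

omit hR in
/-- **Riemann's theorem, any characteristic**: for a function field satisfying `LHyp` with one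
transcendental `x` such that `deg (x)_∞ ≤ [F : K(x)]`. -/
theorem riemann_of_lHyp {x : F} (hx : Transcendental K x) [FiniteDimensional K⟮x⟯ F]
    (hpoles : ∑ᶠ (v : Place K F) (_ : v.ord x < 0), -v.ord x = (Module.finrank K⟮x⟯ F : ℤ)) :
    ∃ c : ℤ, ∀ D : Divisor K F, c ≤ Divisor.degree D →
      (Module.finrank K (riemannRochSpace D) : ℤ) = Divisor.degree D + 1 - (genusFF K F : ℤ) :=
  exists_forall_degree_ge_finrank_L_eq (ffWeak_of_lHyp HL) HL
    (Fermat.Agent.RR.Riemann.riemann_inequality' HL hx hpoles)

end Packaged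

end Fermat.Agent.FF.RiemannW1
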