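/-
Programme FF (S19), chapter (d1) (helper1): **Riemann's theorem for a function field with a
separable generator, in any characteristic.**

`K` algebraically closed, `x : F` a generator (`IsGen K x`) with `F / K(x)` separable, and the
hypothesis `hprin` that every nonzero function has a divisor of degree zero.  Then `LSpace.LHyp K F`
holds and `∃ c, ∀ D, c ≤ deg D → l(D) = deg D + 1 - genusFF K F`.
(For the special fibre of `X₀(M)` the hypothesis `hprin` comes for free from the reduction of
principal divisors: `mapDomain r (div y) = div ȳ`, degree preserved.)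
-/
import Mathlib
import Fermat.Agent.FF.RiemannW1C
import Fermat.Agent.ES.RED.SumOrdSep15
import Fermat.Agent.X0.FFConst

set_option autoImplicit false
set_option linter.style.haveILetI false

namespace Fermat.Agent.FF.RiemannW1

open AlgebraicCurve IntermediateField Fermat.Agent.X0.FF Fermat.Agent.RR.LSpace
open Fermat.Agent.ES.RED.SumOrdSep15

variable {K F : Type*} [Field K] [Field F] [Algebra K F] [IsAlgClosed K] {x : F}

/-- a function field with a separable generator has a place (a pole of the generator). -/
theorem nonempty_place_of_separable (hx : IsGen K x) [Algebra.IsSeparable K⟮x⟯ F] :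
    Nonempty (Place K F) := by
  by_contra hne
  rw [not_nonempty_iff] at hne
  have h := sum_ord_poles_sep hx
  have h0 : ∑ᶠ (v : Place K F) (_ : v.ord x < 0), -v.ord x = 0 := by
    rw [finsum_of_isEmpty]
  rw [h0] at h
  haveI := hx.finiteDimensional
  have hpos : 0 < Module.finrank K⟮x⟯ F := Module.finrank_pos
  omega

/-- **`LHyp` from a separable generator and the degree-zero property of principal divisors.** -/
theorem lHyp_of_separable_of_principal (hx : IsGen K x) [Algebra.IsSeparable K⟮x⟯ F]
    (hprin : ∀ f : F, f ≠ 0 → ∃ D : Divisor K F,
      (∀ v : Place K F, D v = v.ord f) ∧ Divisor.degree D = 0) : LHyp K F where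
  residue := fun v _ hf => exists_ord_sub_pos hx v hf
  deg_eq_one := fun v => deg_eq_one hx v
  principal := hprin
  nonempty := nonempty_place_of_separable hx

/-- **Riemann's theorem for a function field with a separable generator** (any characteristic). -/
theorem riemann_of_separable_of_principal (hx : IsGen K x) [Algebra.IsSeparable K⟮x⟯ F]
    (hprin : ∀ f : F, f ≠ 0 → ∃ D : Divisor K F,
      (∀ v : Place K F, D v = v.ord f) ∧ Divisor.degree D = 0) :
    ∃ c : ℤ, ∀ D : Divisor K F, c ≤ Divisor.degree D →
      (Module.finrank K (riemannRochSpace D) : ℤ) = Divisor.degree D + 1 - (genusFF K F : ℤ) :=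
  haveI := hx.finiteDimensional
  riemann_of_lHyp (lHyp_of_separable_of_principal hx hprin) hx.transcendental
    (sum_ord_poles_sep hx)

/-- Riemann's inequality in the same setting. -/
theorem riemann_inequality_of_separable_of_principal (hx : IsGen K x)
    [Algebra.IsSeparable K⟮x⟯ F]
    (hprin : ∀ f : F, f ≠ 0 → ∃ D : Divisor K F,
      (∀ v : Place K F, D v = v.ord f) ∧ Divisor.degree D = 0) :
    ∃ γ : ℤ, ∀ D : Divisor K F,
      Divisor.degree D + 1 - γ ≤ (Module.finrank K (riemannRochSpace D) : ℤ) :=
  haveI := hx.finiteDimensional
  Fermat.Agent.RR.Riemann.riemann_inequality' (lHyp_of_separable_of_principal hx hprin)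
    hx.transcendental (sum_ord_poles_sep hx)

end Fermat.Agent.FF.RiemannW1
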